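import Mathlib
import Fermat.Agent.MUL.Orig.Lib.GoodRed.TraceRed
import Fermat.Agent.MUL.Lib.GoodRed.Small.Statements
import Fermat.Agent.MUL.Orig.Lib.GoodRed.Places
import Fermat.Agent.MUL.Lib.GoodRed.Small.GenusZero
import Fermat.Agent.MUL.Lib.GoodRed.ModularBranch
import Fermat.Agent.MUL.Lib.GenusEq.GenusFM
import Fermat.Agent.MUL.Lib.GoodRed.Small.PolyOrd
import Fermat.Agent.MUL.Lib.GoodRed.Small.OrdDvd
import Fermat.Agent.MUL.Orig.S24.FundId
import Fermat.Agent.MUL.S24.GlobalDatum
import Fermat.Agent.MUL.Lib.GoodRed.ModularData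
import Fermat.Agent.MUL.Lib.GaussVal.Degree
import Fermat.Agent.MUL.Lib.RR.OfModularCFinal
import Fermat.Agent.MUL.Orig.Lib.FrobTrace.Residue
import Fermat.Agent.MUL.S23.Lagrange
import Fermat.Agent.MUL.Lib.GoodRed.Final
import Fermat.Agent.MUL.Lib.GoodRed.Genus
import Fermat.Agent.MUL.Lib.BadRed.Mod.SSArith
import Fermat.Agent.MUL.Lib.RR.Hurwitz.Norm
import Fermat.Agent.MUL.Lib.GaussInt.ModularInst
import Fermat.Agent.MUL.Lib.Deuring.FundIneq
import Fermat.Agent.MUL.Orig.Lib.BadRed.Mod.SSDefs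

section MergeWrap_Lib_GoodRed_Small_Swap -- from Lib/GoodRed/Small/Swap.lean

set_option autoImplicit false
set_option linter.unusedSectionVars false
set_option linter.style.haveILetI false

/-!
# Cluster B / GoodRed (23), piece S3: change of the base parameter of a reduction datum

`HauptRel M x' P Q`: `j Q(x') = P(x')` with `P, Q ∈ A[X]`, `P` monic, `deg Q < deg P`, reductions
coprime.  Then
* `swapMem`: `x' ∈ O` and its reduction is transcendental over `k`;
* `swapDeg`: the degree data pass from `j` to `x'`.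
-/

noncomputable section

open Polynomial IntermediateField

namespace Fermat.Agent.GoodRedSmall

open Fermat.Agent.GoodRed

namespace Swap

variable {K k F Fk : Type} [Field K] [Field k] [Field F] [Field Fk] [Algebra K F] [Algebra k Fk]
variable (M : RedModel K k F Fk)

/-- evaluation of polynomials over `A` at an element of `O`. -/
def evAt (y : M.O) : Polynomial M.A →+* M.O := Polynomial.eval₂RingHom M.incl y

theorem coe_evAt (y : M.O) (P : Polynomial M.A) :
    ((evAt M y P : M.O) : F) = Polynomial.aeval (y : F) (P.map M.A.subtype) := by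
  have h : (M.O.subtype.comp (evAt M y) : Polynomial M.A →+* F) =
      ((Polynomial.aeval (y : F) : K[X] →ₐ[K] F).toRingHom.comp
        (Polynomial.mapRingHom M.A.subtype)) := by
    apply Polynomial.ringHom_ext
    · intro a
      simp [evAt]
    · simp [evAt]
  exact congrArg (fun φ : Polynomial M.A →+* F => φ P) h

theorem rho_evAt (y : M.O) (P : Polynomial M.A) :
    M.rho (evAt M y P) = Polynomial.aeval (M.rho y) (P.map M.res) := by
  have h : (M.rho.comp (evAt M y) : Polynomial M.A →+* Fk) =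
      ((Polynomial.aeval (M.rho y) : k[X] →ₐ[k] Fk).toRingHom.comp
        (Polynomial.mapRingHom M.res)) := by
    apply Polynomial.ringHom_ext
    · intro a
      simp [evAt, RedModel.rho_incl]
    · simp [evAt]
  exact congrArg (fun φ : Polynomial M.A →+* Fk => φ P) h

variable {M}

/-- `x' ∈ O`: it is a root of the monic polynomial `P - j Q` over the valuation ring `O`. -/
theorem mem_O {x' : F} {P Q : Polynomial M.A} (h : HauptRel M x' P Q) : x' ∈ M.O := by
  let jO : M.O := ⟨M.x, M.x_mem⟩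
  let R : Polynomial M.O := P.map M.incl - Polynomial.C jO * Q.map M.incl
  have hinj : Function.Injective M.incl := by
    intro a b hab
    have h1 : algebraMap K F a = algebraMap K F b := congrArg Subtype.val hab
    exact Subtype.ext ((algebraMap K F).injective h1)
  have hPmonic : (P.map M.incl).Monic := h.monic.map _
  have hdeg : (Polynomial.C jO * Q.map M.incl).degree < (P.map M.incl).degree := by
    rw [Polynomial.degree_map_eq_of_injective hinj]
    calc (Polynomial.C jO * Q.map M.incl).degree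
        ≤ (Polynomial.C jO).degree + (Q.map M.incl).degree := Polynomial.degree_mul_le _ _
      _ ≤ 0 + Q.degree := by
          gcongr
          · exact Polynomial.degree_C_le
          · exact Polynomial.degree_map_le
      _ = Q.degree := zero_add _
      _ < P.degree := h.deg_lt
  have hRmonic : R.Monic := hPmonic.sub_of_left hdeg
  have hroot : Polynomial.eval₂ (algebraMap M.O F) x' R = 0 := by
    have e1 : ∀ S : Polynomial M.A, Polynomial.eval₂ (algebraMap M.O F) x' (S.map M.incl)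
        = Polynomial.aeval x' (S.map M.A.subtype) := by
      intro S
      rw [Polynomial.eval₂_map, Polynomial.aeval_def, Polynomial.eval₂_map]
      rfl
    simp only [R, Polynomial.eval₂_sub, Polynomial.eval₂_mul, Polynomial.eval₂_C, e1]
    rw [← h.rel]
    show _ - M.x * _ = 0
    ring
  have hint : IsIntegral M.O x' := ⟨R, hRmonic, hroot⟩
  obtain ⟨y, hy⟩ := (IsIntegrallyClosed.isIntegral_iff (R := M.O) (K := F)).mp hint
  rw [← hy]
  exact y.2

/-- the reduced relation `j̄ Q̄(x̄') = P̄(x̄')`. -/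
theorem rho_rel {x' : F} {P Q : Polynomial M.A} (h : HauptRel M x' P Q) (hx : x' ∈ M.O) :
    M.xbar * Polynomial.aeval (M.rho ⟨x', hx⟩) (Q.map M.res)
      = Polynomial.aeval (M.rho ⟨x', hx⟩) (P.map M.res) := by
  have h1 : (⟨M.x, M.x_mem⟩ : M.O) * evAt M ⟨x', hx⟩ Q = evAt M ⟨x', hx⟩ P := by
    apply Subtype.ext
    show M.x * ((evAt M ⟨x', hx⟩ Q : M.O) : F) = ((evAt M ⟨x', hx⟩ P : M.O) : F)
    rw [coe_evAt, coe_evAt]
    exact h.rel
  have h2 := congrArg M.rho h1
  rw [map_mul, rho_evAt, rho_evAt] at h2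
  exact h2

/-- `Q̄(x̄') ≠ 0`. -/
theorem aeval_Q_ne_zero {x' : F} {P Q : Polynomial M.A} (h : HauptRel M x' P Q) (hx : x' ∈ M.O) :
    Polynomial.aeval (M.rho ⟨x', hx⟩) (Q.map M.res) ≠ 0 := by
  intro h0
  have h1 := rho_rel h hx
  rw [h0, mul_zero] at h1
  obtain ⟨a, b, hab⟩ := h.coprime
  have h2 := congrArg (Polynomial.aeval (M.rho ⟨x', hx⟩)) hab
  rw [map_add, map_mul, map_mul, ← h1, h0, mul_zero, mul_zero, add_zero, map_one] at h2
  exact zero_ne_one h2

/-- `j̄ ∈ k(x̄')`. -/
theorem xbar_mem_adjoin {x' : F} {P Q : Polynomial M.A} (h : HauptRel M x' P Q) (hx : x' ∈ M.O) :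
    M.xbar ∈ k⟮M.rho ⟨x', hx⟩⟯ := by
  have h1 := rho_rel h hx
  have h2 := aeval_Q_ne_zero h hx
  have h3 : M.xbar = Polynomial.aeval (M.rho ⟨x', hx⟩) (P.map M.res)
      / Polynomial.aeval (M.rho ⟨x', hx⟩) (Q.map M.res) := by
    rw [eq_div_iff h2]
    exact h1
  rw [h3]
  exact (IntermediateField.mem_adjoin_simple_iff k _).mpr ⟨_, _, rfl⟩

/-- the reduction of `x'` is transcendental. -/
theorem rho_transcendental {x' : F} {P Q : Polynomial M.A} (h : HauptRel M x' P Q)
    (hx : x' ∈ M.O) : Transcendental k (M.rho ⟨x', hx⟩) := by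
  intro halg
  apply M.x_trans
  have h1 : Algebra.IsAlgebraic k k⟮M.rho ⟨x', hx⟩⟯ :=
    IntermediateField.isAlgebraic_adjoin_simple halg.isIntegral
  have h2 := xbar_mem_adjoin h hx
  have h3 : IsAlgebraic k (⟨M.xbar, h2⟩ : k⟮M.rho ⟨x', hx⟩⟯) := Algebra.IsAlgebraic.isAlgebraic _
  have h4 := h3.algebraMap (A := Fk)
  exact h4

/-- `Q(x') ≠ 0`. -/
theorem aeval_Q_ne_zero' {x' : F} {P Q : Polynomial M.A} (h : HauptRel M x' P Q) :
    Polynomial.aeval x' (Q.map M.A.subtype) ≠ 0 := by
  intro h0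
  have hx := mem_O h
  apply aeval_Q_ne_zero h hx
  rw [← rho_evAt]
  have h1 : evAt M ⟨x', hx⟩ Q = 0 := by
    apply Subtype.ext
    rw [coe_evAt]
    exact h0
  rw [h1, map_zero]

/-- `j ∈ K(x')`. -/
theorem x_mem_adjoin {x' : F} {P Q : Polynomial M.A} (h : HauptRel M x' P Q) :
    M.x ∈ K⟮x'⟯ := by
  have h2 := aeval_Q_ne_zero' h
  have h3 : M.x = Polynomial.aeval x' (P.map M.A.subtype)
      / Polynomial.aeval x' (Q.map M.A.subtype) := by
    rw [eq_div_iff h2]
    exact h.rel
  rw [h3]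
  exact (IntermediateField.mem_adjoin_simple_iff K _).mpr ⟨_, _, rfl⟩

end Swap

namespace Swap

section Tower

variable {K F : Type} [Field K] [Field F] [Algebra K F]

/-- `K(j)(x') = K(x')` if `j ∈ K(x')`. -/
theorem restrictScalars_adjoin_adjoin {j x' : F} (hj : j ∈ K⟮x'⟯) :
    (K⟮j⟯⟮x'⟯).restrictScalars K = K⟮x'⟯ := by
  rw [IntermediateField.adjoin_adjoin_left]
  apply le_antisymm
  · rw [IntermediateField.adjoin_le_iff]
    rintro y (hy | hy)
    · rw [Set.mem_singleton_iff] at hy
      rw [hy]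
      exact hj
    · rw [Set.mem_singleton_iff] at hy
      rw [hy]
      exact mem_adjoin_simple_self K x'
  · apply IntermediateField.adjoin.mono
    intro y hy
    exact Or.inr hy

theorem finrank_adjoin_adjoin {j x' : F} (hj : j ∈ K⟮x'⟯) :
    Module.finrank (K⟮j⟯⟮x'⟯) F = Module.finrank K⟮x'⟯ F := by
  have h1 : Module.finrank ((K⟮j⟯⟮x'⟯).restrictScalars K) F = Module.finrank (K⟮j⟯⟮x'⟯) F := rfl
  rw [← h1, restrictScalars_adjoin_adjoin hj]

theorem finrank_mul_finrank_adjoin {j x' : F} (hj : j ∈ K⟮x'⟯) :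
    Module.finrank K⟮j⟯ (K⟮j⟯⟮x'⟯) * Module.finrank K⟮x'⟯ F = Module.finrank K⟮j⟯ F := by
  rw [← finrank_adjoin_adjoin hj]
  exact Module.finrank_mul_finrank K⟮j⟯ (K⟮j⟯⟮x'⟯) F

theorem finiteDimensional_adjoin_of_mem {j x' : F} (hj : j ∈ K⟮x'⟯) [FiniteDimensional K⟮j⟯ F] :
    FiniteDimensional K⟮x'⟯ F := by
  have h1 : FiniteDimensional (K⟮j⟯⟮x'⟯) F := inferInstance
  have h2 : FiniteDimensional ((K⟮j⟯⟮x'⟯).restrictScalars K) F := h1
  rw [restrictScalars_adjoin_adjoin hj] at h2
  exact h2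

theorem isSeparable_adjoin_of_mem {j x' : F} (hj : j ∈ K⟮x'⟯) [Algebra.IsSeparable K⟮j⟯ F] :
    Algebra.IsSeparable K⟮x'⟯ F := by
  have h1 : Algebra.IsSeparable (K⟮j⟯⟮x'⟯) F :=
    Algebra.isSeparable_tower_top_of_isSeparable K⟮j⟯ (K⟮j⟯⟮x'⟯) F
  have h2 : Algebra.IsSeparable ((K⟮j⟯⟮x'⟯).restrictScalars K) F := h1
  rw [restrictScalars_adjoin_adjoin hj] at h2
  exact h2

end Tower

section Ineq

variable {K k F Fk : Type} [Field K] [Field k] [Field F] [Field Fk] [Algebra K F] [Algebra k Fk]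

/-- the residue degree is at most the degree. -/
theorem finrank_red_le (M : RedModel K k F Fk) [FiniteDimensional K⟮M.x⟯ F] :
    Module.finrank k⟮M.xbar⟯ Fk ≤ Module.finrank K⟮M.x⟯ F := by
  obtain ⟨f, hf⟩ := exists_linearIndependent_of_le_finrank
    (le_refl (Module.finrank k⟮M.xbar⟯ Fk))
  choose wO hwO using fun i => M.rho_surj (f i)
  have hind : LinearIndependent k⟮M.xbar⟯ (fun i => M.rho (wO i)) := by
    have : (fun i => M.rho (wO i)) = f := funext hwO
    rw [this]
    exact hf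
  have hlift := M.linearIndependent_lift wO hind
  have := hlift.fintype_card_le_finrank
  simpa using this

/-- the degree of `k(x̄') / k(j̄)` is at most the degree of `K(x') / K(j)`. -/
theorem finrank_adjoin_red_le (M : RedModel K k F Fk) [FiniteDimensional K⟮M.x⟯ F]
    [FiniteDimensional k⟮M.xbar⟯ Fk] (x' : F) (hx : x' ∈ M.O) :
    Module.finrank k⟮M.xbar⟯ (k⟮M.xbar⟯⟮M.rho ⟨x', hx⟩⟯)
      ≤ Module.finrank K⟮M.x⟯ (K⟮M.x⟯⟮x'⟯) := by
  have hint : IsIntegral k⟮M.xbar⟯ (M.rho ⟨x', hx⟩) := Algebra.IsIntegral.isIntegral _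
  rw [IntermediateField.adjoin.finrank hint]
  have hpow := linearIndependent_pow (K := k⟮M.xbar⟯) (M.rho ⟨x', hx⟩)
  set d := (minpoly k⟮M.xbar⟯ (M.rho ⟨x', hx⟩)).natDegree with hd
  let wO : Fin d → M.O := fun i => (⟨x', hx⟩ : M.O) ^ (i : ℕ)
  have hind : LinearIndependent k⟮M.xbar⟯ (fun i => M.rho (wO i)) := by
    have : (fun i => M.rho (wO i)) = fun i : Fin d => (M.rho ⟨x', hx⟩) ^ (i : ℕ) := by
      funext i
      show M.rho ((⟨x', hx⟩ : M.O) ^ (i : ℕ)) = _
      rw [map_pow]
    rw [this]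
    exact hpow
  have hlift := M.linearIndependent_lift wO hind
  let v : Fin d → K⟮M.x⟯⟮x'⟯ := fun i =>
    ⟨x' ^ (i : ℕ), pow_mem (mem_adjoin_simple_self K⟮M.x⟯ x') _⟩
  have hv : LinearIndependent K⟮M.x⟯ v := by
    apply LinearIndependent.of_comp (K⟮M.x⟯⟮x'⟯).val.toLinearMap
    have : (⇑(K⟮M.x⟯⟮x'⟯).val.toLinearMap ∘ v) = fun i => ((wO i : M.O) : F) := by
      funext i
      simp [v, wO]
    rw [this]
    exact hlift
  have := hv.fintype_card_le_finrank
  simpa using this

end Ineq

end Swap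

/-- (S3a) `x'` is in the Gauss ring and its reduction is transcendental. -/
theorem swapMem : SwapMem := by
  intro K k F Fk _ _ _ _ _ _ M x' P Q h
  exact ⟨Swap.mem_O h, Swap.rho_transcendental h _⟩

/-- (S3b) the degree data pass from `j` to `x'`. -/
theorem swapDeg : SwapDeg := by
  intro K k F Fk _ _ _ _ _ _ M n hD x' P Q h hx htr
  have hn := hD.pos
  haveI : FiniteDimensional K⟮M.x⟯ F :=
    Module.finite_of_finrank_pos (by rw [hD.deg]; exact hn)
  haveI : FiniteDimensional k⟮M.xbar⟯ Fk :=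
    Module.finite_of_finrank_pos (by rw [hD.degk]; exact hn)
  haveI := hD.sepk
  have hjK : M.x ∈ K⟮x'⟯ := Swap.x_mem_adjoin h
  have hjk : M.xbar ∈ k⟮M.rho ⟨x', hx⟩⟯ := Swap.xbar_mem_adjoin h hx
  haveI : FiniteDimensional K⟮x'⟯ F := Swap.finiteDimensional_adjoin_of_mem hjK
  have hposK : 0 < Module.finrank K⟮x'⟯ F := Module.finrank_pos
  -- the two tower laws
  have tK := Swap.finrank_mul_finrank_adjoin hjK
  have tk := Swap.finrank_mul_finrank_adjoin hjk
  rw [hD.deg] at tK
  rw [hD.degk] at tk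
  -- the two inequalities
  have i1 : Module.finrank k⟮M.rho ⟨x', hx⟩⟯ Fk ≤ Module.finrank K⟮x'⟯ F := by
    haveI : FiniteDimensional K⟮(swapX M x' hx htr).x⟯ F :=
      Swap.finiteDimensional_adjoin_of_mem hjK
    exact Swap.finrank_red_le (swapX M x' hx htr)
  have i2 := Swap.finrank_adjoin_red_le M x' hx
  have hdegk : Module.finrank k⟮M.rho ⟨x', hx⟩⟯ Fk = Module.finrank K⟮x'⟯ F := by
    set a := Module.finrank K⟮M.x⟯ (K⟮M.x⟯⟮x'⟯)
    set a' := Module.finrank k⟮M.xbar⟯ (k⟮M.xbar⟯⟮M.rho ⟨x', hx⟩⟯)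
    set m := Module.finrank k⟮M.rho ⟨x', hx⟩⟯ Fk
    set n' := Module.finrank K⟮x'⟯ F
    have ha : 0 < a := by
      rcases Nat.eq_zero_or_pos a with h0 | h0
      · rw [h0, zero_mul] at tK
        omega
      · exact h0
    have h1 : a * m ≤ a * n' := Nat.mul_le_mul_left a i1
    have h2 : a' * m ≤ a * m := Nat.mul_le_mul_right m i2
    have h3 : a * m = a * n' := le_antisymm h1 (by rw [tK, ← tk]; exact h2)
    exact Nat.eq_of_mul_eq_mul_left ha h3
  exact
    { deg := rfl
      degk := hdegk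
      sepk := Swap.isSeparable_adjoin_of_mem hjk
      pos := hposK }

end Fermat.Agent.GoodRedSmall
end
end MergeWrap_Lib_GoodRed_Small_Swap

section MergeWrap_Lib_GoodRed_Small_Branch -- from Lib/GoodRed/Small/Branch.lean

set_option autoImplicit false
set_option linter.unusedSectionVars false
set_option linter.style.haveILetI false

/-!
# Cluster B / GoodRed (23), piece S4: branch data for the Hauptmoduln of `X₀(2)`, `X₀(3)`

`branchT2 N : UnramT2 N → BranchT2 N` and `branchT3 N : UnramT3 N → BranchT3 N`: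
from the reduction datum with `x = j` and the relation `j x² = (x + 256)³`
(resp. `j x³ = (x + 27)(x + 243)³`), the reduction datum with base parameter `x`, its degree data
(`swapDeg`) and the branch data `S = {0, -64}` (resp. `{0, -27}`).
-/

noncomputable section

open Polynomial IntermediateField AlgebraicCurve

namespace Fermat.Agent.GoodRedSmall

open Fermat.Agent.GoodRed Fermat.Agent.S24

namespace Branch

variable {K k F Fk : Type} [Field K] [Field k] [Field F] [Field Fk] [Algebra K F] [Algebra k Fk]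
variable (M : RedModel K k F Fk)

/-- natural numbers in `A` reduce to natural numbers. -/
theorem res_natCast (m : ℕ) : M.res (m : M.A) = (m : k) := map_natCast M.res m

theorem coe_natCast_A (m : ℕ) : (((m : M.A) : K)) = (m : K) := rfl

/-- generic branch data from a fibre count outside a two element set `{0, -c₀}`. -/
theorem exists_branchData [IsAlgClosed K] [CharZero K] (n : ℕ) (hD : DegData M n) (c₀ : ℕ)
    (hc₀ : (c₀ : k) ≠ 0)
    (hun : ∀ c : K, c ≠ 0 → c ≠ -(c₀ : K) →
      Nat.card {v : Place K F // 0 < v.ord (M.x - algebraMap K F c)} = n) :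
    ∃ BD : BranchData M n, ∀ c : K, c ∈ BD.S ↔ c = 0 ∨ c = -(c₀ : K) := by
  classical
  haveI : FiniteDimensional K⟮M.x⟯ F :=
    Module.finite_of_finrank_pos (by rw [hD.deg]; exact hD.pos)
  have hc₀K : (c₀ : K) ≠ 0 := by
    intro h
    apply hc₀
    have h1 : c₀ = 0 := by exact_mod_cast h
    rw [h1]; simp
  have hmem0 : (0 : K) ∈ M.A := M.A.zero_mem
  have hmemc : -(c₀ : K) ∈ M.A := M.A.neg_mem _ (natCast_mem M.A c₀)
  have hres0 : ∀ h : (0 : K) ∈ M.A, M.res ⟨0, h⟩ = 0 := fun h => map_zero M.res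
  have hresc : ∀ h : -(c₀ : K) ∈ M.A, M.res ⟨-(c₀ : K), h⟩ = -(c₀ : k) := by
    intro h
    have : (⟨-(c₀ : K), h⟩ : M.A) = -((c₀ : ℕ) : M.A) := by
      apply Subtype.ext
      simp
    rw [this, map_neg, map_natCast]
  refine ⟨{ S := {0, -(c₀ : K)}
            S_mem := ?_
            S_inj := ?_
            unram := ?_ }, ?_⟩
  · intro c hc
    rw [Finset.mem_insert, Finset.mem_singleton] at hc
    rcases hc with rfl | rfl
    · exact hmem0
    · exact hmemc
  · intro c hc c' hc' hcA hc'A hres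
    rw [Finset.mem_insert, Finset.mem_singleton] at hc hc'
    rcases hc with rfl | rfl <;> rcases hc' with rfl | rfl
    · rfl
    · exfalso
      rw [hres0, hresc] at hres
      exact hc₀ (neg_eq_zero.mp hres.symm)
    · exfalso
      rw [hres0, hresc] at hres
      exact hc₀ (neg_eq_zero.mp hres)
    · rfl
  · intro c hc
    rw [Finset.mem_insert, Finset.mem_singleton, not_or] at hc
    rw [fibreCard_eq_card_zeros M.x_transcendental c]
    exact hun c hc.1 hc.2
  · intro c
    simp

theorem algebraMap_coe_ofNat (m : ℕ) [m.AtLeastTwo] :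
    algebraMap K F (M.A.subtype (OfNat.ofNat m : M.A)) = OfNat.ofNat m := by
  have h : M.A.subtype (OfNat.ofNat m : M.A) = (OfNat.ofNat m : K) := rfl
  rw [h, map_ofNat]

/-- `X + a` and `X` are coprime if `a ≠ 0`. -/
theorem isCoprime_X_add_C_X {a : k} (ha : a ≠ 0) :
    IsCoprime (Polynomial.X + Polynomial.C a : k[X]) Polynomial.X := by
  refine ⟨Polynomial.C a⁻¹, -Polynomial.C a⁻¹, ?_⟩
  have h1 : Polynomial.C a⁻¹ * Polynomial.C a = (1 : k[X]) := by
    rw [← Polynomial.C_mul, inv_mul_cancel₀ ha, Polynomial.C_1]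
  calc Polynomial.C a⁻¹ * (Polynomial.X + Polynomial.C a) + -Polynomial.C a⁻¹ * Polynomial.X
      = Polynomial.C a⁻¹ * Polynomial.C a := by ring
    _ = 1 := h1

/-- the relation `j x² = (x + 256)³` as a `HauptRel`. -/
theorem hauptRel_T2 (h2 : (2 : k) ≠ 0) {x : F} (hT : M.x * x ^ 2 = (x + 256) ^ 3) :
    HauptRel M x ((Polynomial.X + Polynomial.C (256 : M.A)) ^ 3) (Polynomial.X ^ 2) := by
  have h256 : (256 : k) ≠ 0 := by
    have : (256 : k) = 2 ^ 8 := by norm_num
    rw [this]
    exact pow_ne_zero _ h2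
  refine ⟨(Polynomial.monic_X_add_C _).pow 3, ?_, ?_, ?_⟩
  · rw [Polynomial.degree_X_pow, Polynomial.degree_pow, Polynomial.degree_X_add_C]
    norm_num
  · simp only [Polynomial.map_pow, Polynomial.map_add, Polynomial.map_X, Polynomial.map_C,
      map_pow, map_add, Polynomial.aeval_X, Polynomial.aeval_C]
    rw [hT, algebraMap_coe_ofNat]
  · simp only [Polynomial.map_pow, Polynomial.map_add, Polynomial.map_X, Polynomial.map_C]
    apply IsCoprime.pow
    have : M.res (256 : M.A) = (256 : k) := map_ofNat M.res 256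
    rw [this]
    exact isCoprime_X_add_C_X h256

/-- the relation `j x³ = (x + 27)(x + 243)³` as a `HauptRel`. -/
theorem hauptRel_T3 (h3 : (3 : k) ≠ 0) {x : F} (hT : M.x * x ^ 3 = (x + 27) * (x + 243) ^ 3) :
    HauptRel M x ((Polynomial.X + Polynomial.C (27 : M.A)) *
      (Polynomial.X + Polynomial.C (243 : M.A)) ^ 3) (Polynomial.X ^ 3) := by
  have h27 : (27 : k) ≠ 0 := by
    have : (27 : k) = 3 ^ 3 := by norm_num
    rw [this]
    exact pow_ne_zero _ h3
  have h243 : (243 : k) ≠ 0 := by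
    have : (243 : k) = 3 ^ 5 := by norm_num
    rw [this]
    exact pow_ne_zero _ h3
  refine ⟨(Polynomial.monic_X_add_C _).mul ((Polynomial.monic_X_add_C _).pow 3), ?_, ?_, ?_⟩
  · rw [Polynomial.degree_X_pow, Polynomial.degree_mul, Polynomial.degree_pow,
      Polynomial.degree_X_add_C, Polynomial.degree_X_add_C]
    norm_num
  · simp only [Polynomial.map_pow, Polynomial.map_add, Polynomial.map_X, Polynomial.map_C,
      Polynomial.map_mul, map_mul, map_pow, map_add, Polynomial.aeval_X, Polynomial.aeval_C]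
    rw [hT, algebraMap_coe_ofNat, algebraMap_coe_ofNat]
  · simp only [Polynomial.map_pow, Polynomial.map_add, Polynomial.map_X, Polynomial.map_C,
      Polynomial.map_mul]
    have e27 : M.res (27 : M.A) = (27 : k) := map_ofNat M.res 27
    have e243 : M.res (243 : M.A) = (243 : k) := map_ofNat M.res 243
    rw [e27, e243]
    exact IsCoprime.mul_left ((isCoprime_X_add_C_X h27).pow_right)
      (IsCoprime.pow (isCoprime_X_add_C_X h243))

end Branch

/-- (S4) branch data for the Hauptmodul of `X₀(2)`. -/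
theorem branchT2 (N : ℕ) [NeZero N] : UnramT2 N → BranchT2 N := by
  intro hU k Fk _ _ _ _ M n hMx hD h2 x hT
  have hT' : M.x * x ^ 2 = (x + 256) ^ 3 := by rw [hMx]; exact hT
  have hrel := Branch.hauptRel_T2 M h2 hT'
  obtain ⟨hx, htr⟩ := swapMem _ _ _ _ M x _ _ hrel
  have hD' := swapDeg _ _ _ _ M n hD x _ _ hrel hx htr
  refine ⟨hx, htr, _, hD', ?_⟩
  have h64 : ((64 : ℕ) : k) ≠ 0 := by
    have : ((64 : ℕ) : k) = 2 ^ 6 := by norm_num
    rw [this]
    exact pow_ne_zero _ h2
  obtain ⟨BD, hBD⟩ := Branch.exists_branchData (swapX M x hx htr) _ hD' 64 h64 (by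
    intro c hc0 hc64
    refine hU x hT c hc0 ?_
    intro h
    apply hc64
    rw [h]
    norm_num)
  refine ⟨BD, fun c => ?_⟩
  rw [hBD c]
  norm_num

/-- (S4) branch data for the Hauptmodul of `X₀(3)`. -/
theorem branchT3 (N : ℕ) [NeZero N] : UnramT3 N → BranchT3 N := by
  intro hU k Fk _ _ _ _ M n hMx hD h3 x hT
  have hT' : M.x * x ^ 3 = (x + 27) * (x + 243) ^ 3 := by rw [hMx]; exact hT
  have hrel := Branch.hauptRel_T3 M h3 hT'
  obtain ⟨hx, htr⟩ := swapMem _ _ _ _ M x _ _ hrel
  have hD' := swapDeg _ _ _ _ M n hD x _ _ hrel hx htr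
  refine ⟨hx, htr, _, hD', ?_⟩
  have h27 : ((27 : ℕ) : k) ≠ 0 := by
    have : ((27 : ℕ) : k) = 3 ^ 3 := by norm_num
    rw [this]
    exact pow_ne_zero _ h3
  obtain ⟨BD, hBD⟩ := Branch.exists_branchData (swapX M x hx htr) _ hD' 27 h27 (by
    intro c hc0 hc27
    refine hU x hT c hc0 ?_
    intro h
    apply hc27
    rw [h]
    norm_num)
  refine ⟨BD, fun c => ?_⟩
  rw [hBD c]
  norm_num

end Fermat.Agent.GoodRedSmall
end
end MergeWrap_Lib_GoodRed_Small_Branch

section MergeWrap_Lib_GoodRed_Small_HauptAt -- from Lib/GoodRed/Small/HauptAt.lean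

set_option autoImplicit false
set_option linter.unusedSectionVars false

/-!
# Cluster B / GoodRed (23), piece S1': the Hauptmoduln at every level divisible by `2`, `3`

`F_N ⊆ F_M` for `N ∣ M` inside `LaurentSeries Kbar`, and `j` has the same underlying series at all
levels: transport a Hauptmodul of level `2` (resp. `3`) to level `M`.
-/

noncomputable section

open IntermediateField

namespace Fermat.Agent.GoodRedSmall

open Fermat.Agent.S24 Fermat.Agent.GoodRed

namespace HauptAt

theorem divisorExpansions_mono {N M : ℕ} (h : N ∣ M) :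
    ModularCurve.divisorExpansions N ⊆ ModularCurve.divisorExpansions M := by
  rintro x ⟨d, hd, hdN, rfl⟩
  exact ⟨d, hd, hdN.trans h, rfl⟩

theorem modularFunctionFieldFull_mono {N M : ℕ} (h : N ∣ M) :
    ModularCurve.modularFunctionFieldFull N ≤ ModularCurve.modularFunctionFieldFull M :=
  IntermediateField.adjoin.mono ℚ _ _ (divisorExpansions_mono h)

theorem modularFunctionFieldBar_mono {N M : ℕ} (h : N ∣ M) :
    ModularCurve.modularFunctionFieldBar N ≤ ModularCurve.modularFunctionFieldBar M := by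
  show ModularCurve.laurentBaseChange Kbar (ModularCurve.modularFunctionFieldFull N)
    ≤ ModularCurve.laurentBaseChange Kbar (ModularCurve.modularFunctionFieldFull M)
  rw [ModularCurve.laurentBaseChange, IntermediateField.adjoin_le_iff]
  rintro _ ⟨y, hy, rfl⟩
  exact ModularCurve.coeffEmb_mem_laurentBaseChange Kbar (modularFunctionFieldFull_mono h hy)

/-- the inclusion `F_N → F_M`. -/
def incl {N M : ℕ} (h : N ∣ M) : FBar N →ₐ[Kbar] FBar M :=
  IntermediateField.inclusion (modularFunctionFieldBar_mono h)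

theorem coe_incl {N M : ℕ} (h : N ∣ M) (x : FBar N) :
    ((incl h x : FBar M) : LaurentSeries Kbar) = (x : LaurentSeries Kbar) :=
  IntermediateField.coe_inclusion (modularFunctionFieldBar_mono h) x

theorem incl_jBar {N M : ℕ} [NeZero N] [NeZero M] (h : N ∣ M) : incl h (jBar N) = jBar M := by
  apply Subtype.ext
  rw [coe_incl, coe_jBar, coe_jBar]

end HauptAt

/-- (S1') the Hauptmodul of level `2` at every even level. -/
theorem existsT2At (M : ℕ) [NeZero M] (h : 2 ∣ M) : ExistsT2 → ExistsT2At M := by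
  rintro ⟨x, hx⟩
  refine ⟨HauptAt.incl h x, ?_⟩
  unfold IsT2 at hx ⊢
  have h1 := congrArg (HauptAt.incl h) hx
  rw [map_mul, map_pow, map_pow, map_add, HauptAt.incl_jBar] at h1
  rw [h1, map_ofNat]

/-- (S1') the Hauptmodul of level `3` at every level divisible by `3`. -/
theorem existsT3At (M : ℕ) [NeZero M] (h : 3 ∣ M) : ExistsT3 → ExistsT3At M := by
  rintro ⟨x, hx⟩
  refine ⟨HauptAt.incl h x, ?_⟩
  unfold IsT3 at hx ⊢
  have h1 := congrArg (HauptAt.incl h) hx
  rw [map_mul, map_pow, map_mul, map_pow, map_add, map_add, HauptAt.incl_jBar] at h1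
  rw [h1, map_ofNat, map_ofNat]

end Fermat.Agent.GoodRedSmall
end
end MergeWrap_Lib_GoodRed_Small_HauptAt

section MergeWrap_Lib_GoodRed_Small_Haupt2Core -- from Lib/GoodRed/Small/Haupt2Core.lean

/-!
# Cluster B / GoodRed (23), S1.2 core (helper36): rigidity of the Hauptmodul of `X₀(2)`

Generic statement (any `IsRRField K F`, `char K = 0`): a function field of genus `0` with a
function `j` of degree `3` whose fibres are
  `(3)` over `0`,  `(2, ·)` over `1728`,  `(1, 2)` over `∞`
has a coordinate `y` with `j y² = (y + 256)³`.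

* `h2_taylor`               : first two Taylor coefficients at a place vanish if the order is `≥ 2`;
* `exists_haupt2_of_fibres` : the rigidity statement.
-/

set_option autoImplicit false

noncomputable section

open AlgebraicCurve

namespace Fermat.Agent.GoodRedSmall

open Fermat.Agent.RR

variable {K F : Type*} [Field K] [Field F] [Algebra K F]

/-- the valuation of a function of order `n` is `exp (-n)`. -/
theorem h2_val_eq_of_ord (v : Place K F) {f : F} (hf : f ≠ 0) :
    v.adicValuation f = WithZero.exp (-v.ord f) :=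
  v.adicValuation_eq_exp_neg_ord hf

/-- Taylor coefficients: if `w = α + β t + t² s` with `ord_v t = 1`, `s` regular at `v`, and
`w` vanishes to order `≥ 2` at `v`, then `α = β = 0`. -/
theorem h2_taylor (v : Place K F) {t s w : F} {α β : K} (ht : v.ord t = 1)
    (hs : v.adicValuation s ≤ 1) (hw : v.adicValuation w ≤ WithZero.exp (-2))
    (hexp : w = algebraMap K F α + algebraMap K F β * t + t ^ 2 * s) : α = 0 ∧ β = 0 := by
  have ht0 : t ≠ 0 := by
    rintro rfl
    rw [v.ord_zero] at ht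
    omega
  have hVt : v.adicValuation t = WithZero.exp (-1) := by
    rw [h2_val_eq_of_ord v ht0, ht]
  have hexp21 : (WithZero.exp (-2 : ℤ) : WithZero (Multiplicative ℤ)) ≤ WithZero.exp (-1) :=
    WithZero.exp_le_exp.mpr (by norm_num)
  have hexp10 : (WithZero.exp (-1 : ℤ) : WithZero (Multiplicative ℤ)) ≤ 1 := by
    rw [← WithZero.exp_zero]
    exact WithZero.exp_le_exp.mpr (by norm_num)
  -- `t² s` has valuation `≤ exp (-2)`
  have hVt2s : v.adicValuation (t ^ 2 * s) ≤ WithZero.exp (-2) := by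
    rw [map_mul, map_pow, hVt, ← WithZero.exp_nsmul]
    have : (2 • (-1 : ℤ)) = -2 := by norm_num
    rw [this]
    exact mul_le_of_le_one_right' hs
  -- `β t` has valuation `≤ exp (-1)`
  have hVβt : v.adicValuation (algebraMap K F β * t) ≤ WithZero.exp (-1) := by
    rw [map_mul, hVt]
    exact mul_le_of_le_one_left' (v.adicValuation_algebraMap_le_one β)
  have hα : α = 0 := by
    by_contra hα0
    have hα' : algebraMap K F α ≠ 0 := by
      rwa [ne_eq, map_eq_zero_iff _ (algebraMap K F).injective]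
    have h1 : algebraMap K F α = w - algebraMap K F β * t - t ^ 2 * s := by
      rw [hexp]; ring
    have h2 : v.adicValuation (algebraMap K F α) ≤ WithZero.exp (-1) := by
      rw [h1]
      refine (Valuation.map_sub _ _ _).trans (max_le ?_ (hVt2s.trans hexp21))
      exact (Valuation.map_sub _ _ _).trans (max_le (hw.trans hexp21) hVβt)
    rw [h2_val_eq_of_ord v hα', ord_const, neg_zero, WithZero.exp_le_exp] at h2
    omega
  refine ⟨hα, ?_⟩
  by_contra hβ0
  have hβ' : algebraMap K F β ≠ 0 := by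
    rwa [ne_eq, map_eq_zero_iff _ (algebraMap K F).injective]
  have h1 : algebraMap K F β * t = w - t ^ 2 * s := by
    rw [hexp, hα, map_zero]; ring
  have h2 : v.adicValuation (algebraMap K F β * t) ≤ WithZero.exp (-2) := by
    rw [h1]
    exact (Valuation.map_sub _ _ _).trans (max_le hw hVt2s)
  rw [h2_val_eq_of_ord v (mul_ne_zero hβ' ht0), v.ord_mul hβ' ht0, ord_const, ht,
    WithZero.exp_le_exp] at h2
  omega

/-- **Rigidity of the Hauptmodul of `X₀(2)`.**  Genus `0`, `j` with divisor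
`3 P₀ - Q∞ - 2 Q₀` and a double zero of `j - 1728` at `R`: there is `y` with
`j y² = (y + 256)³`. -/
theorem exists_haupt2_of_fibres [CharZero K] (h : IsRRField K F) (hg : genusFF K F = 0)
    (j : F) (Qinf Q0 P0 R : Place K F)
    (hQinf : Qinf.ord j = -1) (hQ0 : Q0.ord j = -2)
    (hpoles : ∀ v : Place K F, v.ord j < 0 → v = Qinf ∨ v = Q0)
    (hP0 : P0.ord j = 3) (hzeros : ∀ v : Place K F, 0 < v.ord j → v = P0)
    (hR : R.ord (j - algebraMap K F 1728) = 2) :
    ∃ y : F, j * y ^ 2 = (y + 256) ^ 3 := by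
  classical
  have hj0 : j ≠ 0 := by
    rintro rfl
    rw [Place.ord_zero] at hP0
    omega
  have hQne : Q0 ≠ Qinf := by
    rintro rfl
    omega
  have hP0Qinf : P0 ≠ Qinf := by
    rintro rfl
    omega
  have hP0Q0 : P0 ≠ Q0 := by
    rintro rfl
    omega
  have h1728 : algebraMap K F 1728 ≠ 0 := by
    rw [ne_eq, map_eq_zero_iff _ (algebraMap K F).injective]
    norm_num
  have hj1728 : j - algebraMap K F 1728 ≠ 0 := by
    intro h0
    rw [h0, Place.ord_zero] at hR
    omega
  -- `R` is not a pole of `j`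
  have hRnotpole : ¬ R.ord j < 0 := by
    intro hlt
    have := ord_add_eq_of_lt R hj0 (neg_ne_zero.mpr h1728)
      (by rw [ord_neg', ord_const]; exact hlt)
    rw [← sub_eq_add_neg] at this
    omega
  have hRQinf : R ≠ Qinf := by
    rintro rfl
    exact hRnotpole (by omega)
  have hRQ0 : R ≠ Q0 := by
    rintro rfl
    exact hRnotpole (by omega)
  -- the coordinate `x` with divisor `Q₀ - Q∞`
  obtain ⟨x, hx, hxQ0, hxother⟩ := exists_coordinate h hg hQne
  have hx0 := hx.ne_zero
  have hxP0 : P0.ord x = 0 := hxother P0 hP0Q0 hP0Qinf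
  have hxR : R.ord x = 0 := hxother R hRQ0 hRQinf
  -- the values `a = x(P₀)`, `b = x(R)`
  obtain ⟨a, ha⟩ := hx.exists_value h hP0Qinf
  obtain ⟨b, hb⟩ := hx.exists_value h hRQinf
  have ha0 : a ≠ 0 := by
    rintro rfl
    rw [map_zero, sub_zero] at ha
    omega
  have hb0 : b ≠ 0 := by
    rintro rfl
    rw [map_zero, sub_zero] at hb
    omega
  have hxa := hx.sub_const a
  have hxa_ne := hx.sub_ne_zero a
  have hxa_other : ∀ v : Place K F, v ≠ P0 → v ≠ Qinf →
      v.ord (x - algebraMap K F a) = 0 := by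
    intro v hvP hvQ
    have h0 := hxa.ord_nonneg v hvQ
    rcases h0.lt_or_eq with hpos | heq
    · exact absurd ((hx.ord_sub_eq_one h (R := P0) (by rw [ha]; norm_num)).2 v hpos) hvP
    · exact heq.symm
  have hj_other : ∀ v : Place K F, v ≠ P0 → v ≠ Qinf → v ≠ Q0 → v.ord j = 0 := by
    intro v hvP hvQi hvQ0
    rcases lt_trichotomy (v.ord j) 0 with hlt | heq | hgt
    · rcases hpoles v hlt with h1 | h1
      · exact absurd h1 hvQi
      · exact absurd h1 hvQ0
    · exact heq
    · exact absurd (hzeros v hgt) hvP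
  -- `u = j x² / (x - a)³` is a constant `c`
  have hu0 : j * x ^ 2 * ((x - algebraMap K F a) ^ 3)⁻¹ ≠ 0 :=
    mul_ne_zero (mul_ne_zero hj0 (pow_ne_zero 2 hx0)) (inv_ne_zero (pow_ne_zero 3 hxa_ne))
  have hord_u : ∀ v : Place K F, v.ord (j * x ^ 2 * ((x - algebraMap K F a) ^ 3)⁻¹) =
      v.ord j + 2 * v.ord x - 3 * v.ord (x - algebraMap K F a) := by
    intro v
    rw [v.ord_mul (mul_ne_zero hj0 (pow_ne_zero 2 hx0)) (inv_ne_zero (pow_ne_zero 3 hxa_ne)),
      v.ord_mul hj0 (pow_ne_zero 2 hx0), v.ord_inv, ord_pow', ord_pow']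
    push_cast
    ring
  have hu_zero : ∀ v : Place K F, v.ord (j * x ^ 2 * ((x - algebraMap K F a) ^ 3)⁻¹) = 0 := by
    intro v
    rw [hord_u]
    by_cases hvQi : v = Qinf
    · subst hvQi
      rw [hQinf, hx.ord_pole, hxa.ord_pole]
      norm_num
    by_cases hvQ0 : v = Q0
    · subst hvQ0
      rw [hQ0, hxQ0, hxa_other _ (Ne.symm hP0Q0) hvQi]
      norm_num
    by_cases hvP : v = P0
    · subst hvP
      rw [hP0, hxP0, ha]
      norm_num
    · rw [hj_other v hvP hvQi hvQ0, hxother v hvQ0 hvQi, hxa_other v hvP hvQi]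
      norm_num
  obtain ⟨c, hc0, huc⟩ := eq_algebraMap_of_ord_eq_zero h hu0 hu_zero
  have hrel : j * x ^ 2 = algebraMap K F c * (x - algebraMap K F a) ^ 3 := by
    rw [← huc]
    field_simp
  -- Taylor expansion of `(j - 1728) x²` at `R`, in the uniformiser `t = x - b`
  have ht1 : R.ord (x - algebraMap K F b) = 1 := hb
  have ht0 : x - algebraMap K F b ≠ 0 := hx.sub_ne_zero b
  have hVt : R.adicValuation (x - algebraMap K F b) = WithZero.exp (-1) := by
    rw [h2_val_eq_of_ord R ht0, ht1]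
  have hexp : (j - algebraMap K F 1728) * x ^ 2 =
      algebraMap K F (c * (b - a) ^ 3 - 1728 * b ^ 2) +
        algebraMap K F (3 * c * (b - a) ^ 2 - 3456 * b) * (x - algebraMap K F b) +
        (x - algebraMap K F b) ^ 2 *
          (algebraMap K F (3 * c * (b - a) - 1728) +
            algebraMap K F c * (x - algebraMap K F b)) := by
    rw [sub_mul, hrel]
    simp only [map_sub, map_mul, map_pow, map_ofNat]
    ring
  have hsV : R.adicValuation (algebraMap K F (3 * c * (b - a) - 1728) +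
      algebraMap K F c * (x - algebraMap K F b)) ≤ 1 := by
    refine (Valuation.map_add _ _ _).trans (max_le (R.adicValuation_algebraMap_le_one _) ?_)
    rw [map_mul, hVt]
    refine (mul_le_of_le_one_left' (R.adicValuation_algebraMap_le_one c)).trans ?_
    rw [← WithZero.exp_zero]
    exact WithZero.exp_le_exp.mpr (by norm_num)
  have hwV : R.adicValuation ((j - algebraMap K F 1728) * x ^ 2) ≤ WithZero.exp (-2) := by
    rw [h2_val_eq_of_ord R (mul_ne_zero hj1728 (pow_ne_zero 2 hx0)),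
      R.ord_mul hj1728 (pow_ne_zero 2 hx0), hR, ord_pow', hxR, WithZero.exp_le_exp]
    norm_num
  obtain ⟨hα0, hβ0⟩ := h2_taylor R ht1 hsV hwV hexp
  -- the algebra: `b = -2a`, `c a = -256`
  have hb2a : b = -2 * a := by
    have h1 : (1728 : K) * (b * (b + 2 * a)) = 0 := by
      linear_combination (-3 : K) * hα0 + (b - a) * hβ0
    rcases mul_eq_zero.mp h1 with h2 | h2
    · norm_num at h2
    · rcases mul_eq_zero.mp h2 with h3 | h3
      · exact absurd h3 hb0
      · linear_combination h3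
  have hca : c * a = -256 := by
    have h1 : (27 : K) * a * (c * a + 256) = 0 := by
      rw [hb2a] at hβ0
      linear_combination hβ0
    rcases mul_eq_zero.mp h1 with h2 | h2
    · rcases mul_eq_zero.mp h2 with h3 | h3
      · norm_num at h3
      · exact absurd h3 ha0
    · linear_combination h2
  -- the normalised coordinate `y = c x`
  refine ⟨algebraMap K F c * x, ?_⟩
  have hcaF : algebraMap K F c * algebraMap K F a = -256 := by
    rw [← map_mul, hca, map_neg, map_ofNat]
  have h256 : (256 : F) = -(algebraMap K F c * algebraMap K F a) := by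
    rw [hcaF, neg_neg]
  rw [h256]
  linear_combination (algebraMap K F c) ^ 2 * hrel

end Fermat.Agent.GoodRedSmall
end
end MergeWrap_Lib_GoodRed_Small_Haupt2Core

section MergeWrap_Lib_GoodRed_Small_Haupt2 -- from Lib/GoodRed/Small/Haupt2.lean

/-!
# Cluster B / GoodRed (23), S1.2 (helper36): the Hauptmodul of `X₀(2)` exists

`existsT2 : ExistsT2`, i.e. there is `x ∈ F_2 = ℚ̄(X₀(2))` with `j x² = (x + 256)³`.
UNCONDITIONAL (neither `OrdDvd 2` nor `SimplePole 2` is needed: the fibres of `j` over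
`0, 1728, ∞` have `1, 2, 2` places and total multiplicity `3`, which forces the ramification
types `(3)`, `(1,2)`, `(1,2)`).

Inputs: S24 fibre counts (`GoodRedBranch.fibre_package`, `S24.Comb`), the fundamental identity
(`S24Fund.sum_ord_zeros / sum_ord_poles`), genus `0` (`GenusEq.genusFF_modularFunctionFieldBar`),
Riemann's inequality (`Lib/RR`), and the rigidity computation of `Haupt2Core.lean`.
-/

set_option autoImplicit false

noncomputable section

open AlgebraicCurve IntermediateField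

namespace Fermat.Agent.GoodRedSmall

open Fermat.Agent.S24 Fermat.Agent.RR

/-! ### numerics at level `2` -/

theorem h2_dedekindPsi_two : ModularCurve.dedekindPsi 2 = 3 := by
  have hd : Nat.divisors 2 = {1, 2} := by decide
  have h2 : Squarefree (2 : ℕ) := Nat.prime_two.squarefree
  rw [ModularCurve.dedekindPsi, hd, Finset.filter_insert, if_pos squarefree_one,
    Finset.filter_singleton, if_pos h2, Finset.sum_insert (by decide), Finset.sum_singleton]

theorem h2_cuspCount_two : ModularCurve.cuspCount 2 = 2 := by decide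

theorem h2_nuTwo_two : ModularCurve.nuTwo 2 = 1 := by
  unfold ModularCurve.nuTwo
  rw [Nat.card_eq_fintype_card]
  decide

theorem h2_nuThree_two : ModularCurve.nuThree 2 = 0 := by
  unfold ModularCurve.nuThree
  rw [Nat.card_eq_fintype_card]
  decide

theorem h2_genusFormula_two : ModularCurve.genusFormula 2 = 0 := by
  rw [ModularCurve.genusFormula, h2_dedekindPsi_two, h2_nuTwo_two, h2_nuThree_two,
    h2_cuspCount_two]
  norm_num

/-! ### finite sets with a prescribed weighted count -/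

theorem h2_pair_of_card_sum {α : Type*} [DecidableEq α] (s : Finset α) (f : α → ℤ)
    (hcard : s.card = 2) (hpos : ∀ v ∈ s, 0 < f v) (hsum : ∑ v ∈ s, f v = 3) :
    ∃ v₁ v₂, v₁ ≠ v₂ ∧ (∀ v, v ∈ s ↔ v = v₁ ∨ v = v₂) ∧ f v₁ = 1 ∧ f v₂ = 2 := by
  obtain ⟨x, y, hxy, rfl⟩ := Finset.card_eq_two.mp hcard
  rw [Finset.sum_pair hxy] at hsum
  have hx := hpos x (by simp)
  have hy := hpos y (by simp)
  have hcases : (f x = 1 ∧ f y = 2) ∨ (f x = 2 ∧ f y = 1) := by omega
  rcases hcases with ⟨h1, h2⟩ | ⟨h1, h2⟩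
  · exact ⟨x, y, hxy, fun v => by simp, h1, h2⟩
  · exact ⟨y, x, hxy.symm, fun v => by simp [or_comm], h2, h1⟩

theorem h2_single_of_card_sum {α : Type*} (s : Finset α) (f : α → ℤ) (n : ℤ)
    (hcard : s.card = 1) (hsum : ∑ v ∈ s, f v = n) :
    ∃ v₁, (∀ v, v ∈ s ↔ v = v₁) ∧ f v₁ = n := by
  obtain ⟨x, rfl⟩ := Finset.card_eq_one.mp hcard
  rw [Finset.sum_singleton] at hsum
  exact ⟨x, fun v => by simp, hsum⟩

/-! ### the Hauptmodul -/

set_option synthInstance.maxHeartbeats 400000 in
set_option maxHeartbeats 1000000 in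
/-- **(S1.2)** the Hauptmodul of `X₀(2)`: there is `x ∈ ℚ̄(X₀(2))` with `j x² = (x + 256)³`. -/
theorem existsT2 : ExistsT2 := by
  classical
  have hFF := isFunctionFieldOver_jBar 2
  have htr : Transcendental Kbar (jBar 2) := hFF.transcendental
  have hRR := Fermat.Agent.GenusEq.isRRField_modularFunctionFieldBar 2
  have hg : genusFF Kbar (FBar 2) = 0 := by
    have h1 := Fermat.Agent.GenusEq.genusFF_modularFunctionFieldBar 2
    rw [h2_genusFormula_two] at h1
    exact_mod_cast h1
  have hdeg : Module.finrank Kbar⟮jBar 2⟯ (FBar 2) = 3 := by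
    rw [Fermat.Agent.GoodRedBranch.finrank_jBar, index_Gamma0, h2_dedekindPsi_two]
  -- the poles of `j`
  have hpfin := Fermat.Agent.S24Fund.finite_poles hFF htr
  have hpcard : hpfin.toFinset.card = 2 := by
    have h1 := Fermat.Agent.GoodRedBranch.card_poles_jBar 2
    rw [orbCount_T, h2_cuspCount_two] at h1
    refine Eq.trans ?_ h1
    rw [← Set.ncard_eq_toFinset_card _ hpfin, ← Nat.card_coe_set_eq]
    rfl
  have hpsum : ∑ v ∈ hpfin.toFinset, (-(v.ord (jBar 2))) = 3 := by
    rw [Finset.sum_neg_distrib, Fermat.Agent.S24Fund.sum_ord_poles hFF htr, hdeg]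
    norm_num
  obtain ⟨Qinf, Q0, -, hQmem, hQinf, hQ0⟩ := h2_pair_of_card_sum hpfin.toFinset
    (fun v => -(v.ord (jBar 2))) hpcard (fun v hv => by
      rw [Set.Finite.mem_toFinset] at hv
      have hv' : v.ord (jBar 2) < 0 := hv
      omega) hpsum
  -- the zeros of `j`
  have hzfin := Fermat.Agent.S24Fund.finite_zeros hFF htr 0
  have hzcard : hzfin.toFinset.card = 1 := by
    have h1 := Fermat.Agent.GoodRedBranch.card_fibre_jBar_zero 2
    have h2 := three_mul_orbCount_ST 2
    rw [h2_dedekindPsi_two, h2_nuThree_two] at h2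
    have h3 : orbCount (CongruenceSubgroup.Gamma0 2) (ModularGroup.S * ModularGroup.T) = 1 := by
      omega
    rw [h3] at h1
    refine Eq.trans ?_ h1
    rw [← Set.ncard_eq_toFinset_card _ hzfin, ← Nat.card_coe_set_eq]
    rfl
  have hzsum := Fermat.Agent.S24Fund.sum_ord_zeros hFF htr 0
  rw [hdeg] at hzsum
  obtain ⟨P0, hPmem, hP0⟩ := h2_single_of_card_sum hzfin.toFinset
    (fun v => v.ord (jBar 2 - algebraMap Kbar (FBar 2) 0)) 3 hzcard (by exact_mod_cast hzsum)
  -- the zeros of `j - 1728`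
  have hrfin := Fermat.Agent.S24Fund.finite_zeros hFF htr 1728
  have hrcard : hrfin.toFinset.card = 2 := by
    have h1 := Fermat.Agent.GoodRedBranch.card_fibre_jBar_1728 2
    have h2 := two_mul_orbCount_S 2
    rw [h2_dedekindPsi_two, h2_nuTwo_two] at h2
    have h3 : orbCount (CongruenceSubgroup.Gamma0 2) ModularGroup.S = 2 := by
      omega
    rw [h3] at h1
    refine Eq.trans ?_ h1
    rw [← Set.ncard_eq_toFinset_card _ hrfin, ← Nat.card_coe_set_eq]
    rfl
  have hrsum := Fermat.Agent.S24Fund.sum_ord_zeros hFF htr 1728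
  rw [hdeg] at hrsum
  obtain ⟨-, R, -, -, -, hR⟩ := h2_pair_of_card_sum hrfin.toFinset
    (fun v => v.ord (jBar 2 - algebraMap Kbar (FBar 2) 1728)) hrcard (fun v hv => by
      rw [Set.Finite.mem_toFinset] at hv
      exact hv) (by exact_mod_cast hrsum)
  -- rigidity
  simp only [map_zero, sub_zero] at hP0
  refine exists_haupt2_of_fibres hRR hg (jBar 2) Qinf Q0 P0 R (by omega) (by omega) ?_ hP0 ?_ hR
  · intro v hv
    exact (hQmem v).mp ((Set.Finite.mem_toFinset hpfin).mpr hv)
  · intro v hv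
    refine (hPmem v).mp ((Set.Finite.mem_toFinset hzfin).mpr ?_)
    show 0 < v.ord (jBar 2 - algebraMap Kbar (FBar 2) 0)
    rw [map_zero, sub_zero]
    exact hv

end Fermat.Agent.GoodRedSmall
end
end MergeWrap_Lib_GoodRed_Small_Haupt2

section MergeWrap_Lib_GoodRed_Small_Haupt3Generic -- from Lib/GoodRed/Small/Haupt3Generic.lean

/-!
# Cluster B / GoodRed (23): the Hauptmodul of `X₀(3)` — generic form  (helper12)

`exists_T3_of_fibres`: a function field `F / K` of genus `0` (`K` algebraically closed of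
characteristic `0`) with a function `j` whose fibres over `∞, 0, 1728` are
`Q∞ + 3 Q₀`, `P₁ + 3 P₃`, `2 R + 2 R'` contains `y` with `j y³ = (y + 27)(y + 243)³`.
-/

set_option autoImplicit false

noncomputable section

open AlgebraicCurve Polynomial

namespace Fermat.Agent.GoodRedSmall

open Fermat.Agent.RR

/-- rigidity for level 3: if `c (t - a₁)(t - a₃)³ - 1728 t³ = c' (t² + u t + v)²` for all `t`
then `a₃ = 9 a₁` and `c a₁ = -27`. -/
theorem rigidity3 {K : Type*} [Field K] [CharZero K] {a₁ a₃ c c' u v : K}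
    (hc : c ≠ 0) (ha₁ : a₁ ≠ 0) (ha₃ : a₃ ≠ 0) (hne : a₁ ≠ a₃)
    (hid : ∀ t : K, c * (t - a₁) * (t - a₃) ^ 3 - 1728 * t ^ 3 = c' * (t ^ 2 + u * t + v) ^ 2) :
    a₃ = 9 * a₁ ∧ c * a₁ = -27 := by
  have h0 := hid 0
  have h1 := hid 1
  have hm1 := hid (-1)
  have h2 := hid 2
  have hm2 := hid (-2)
  -- coefficient of t^4
  have hcc : c' = c := by
    linear_combination (-(1 : K) / 24) * h2 + (-(1 : K) / 24) * hm2 + ((4 : K) / 24) * h1
      + ((4 : K) / 24) * hm1 + (-(6 : K) / 24) * h0
  subst hcc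
  -- the other coefficients
  have e0 : c' * (v ^ 2 - a₁ * a₃ ^ 3) = 0 := by
    linear_combination -h0
  have e2 : c' * (u ^ 2 + 2 * v - 3 * a₁ * a₃ - 3 * a₃ ^ 2) = 0 := by
    linear_combination (-(16 : K) / 24) * h1 + (-(16 : K) / 24) * hm1 + ((1 : K) / 24) * h2
      + ((1 : K) / 24) * hm2 + ((30 : K) / 24) * h0
  have e1 : c' * (2 * u * v + 3 * a₁ * a₃ ^ 2 + a₃ ^ 3) = 0 := by
    linear_combination (-(8 : K) / 12) * h1 + ((8 : K) / 12) * hm1 + ((1 : K) / 12) * h2
      + (-(1 : K) / 12) * hm2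
  have e3 : 2 * c' * u + c' * (a₁ + 3 * a₃) + 1728 = 0 := by
    linear_combination (-(1 : K) / 12) * h2 + ((1 : K) / 12) * hm2 + ((2 : K) / 12) * h1
      + (-(2 : K) / 12) * hm1
  have E0 : v ^ 2 = a₁ * a₃ ^ 3 := by
    have := (mul_eq_zero.mp e0).resolve_left hc
    linear_combination this
  have E2 : u ^ 2 + 2 * v = 3 * a₁ * a₃ + 3 * a₃ ^ 2 := by
    have := (mul_eq_zero.mp e2).resolve_left hc
    linear_combination this
  have E1 : 2 * u * v = -(3 * a₁ * a₃ ^ 2 + a₃ ^ 3) := by
    have := (mul_eq_zero.mp e1).resolve_left hc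
    linear_combination this
  have k1 : a₃ ^ 3 * (8 * a₁ * v - (3 * a₁ ^ 2 * a₃ + 6 * a₁ * a₃ ^ 2 - a₃ ^ 3)) = 0 := by
    linear_combination (4 * (3 * a₁ * a₃ + 3 * a₃ ^ 2 - 2 * v)) * E0 + (4 * v ^ 2) * E2
      - (2 * u * v + (-(3 * a₁ * a₃ ^ 2 + a₃ ^ 3))) * E1
  have k1' : 8 * a₁ * v = 3 * a₁ ^ 2 * a₃ + 6 * a₁ * a₃ ^ 2 - a₃ ^ 3 := by
    have := (mul_eq_zero.mp k1).resolve_left (pow_ne_zero 3 ha₃)
    linear_combination this
  have k2 : a₃ ^ 2 * ((a₃ - a₁) ^ 3 * (a₃ - 9 * a₁)) = 0 := by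
    linear_combination (-((3 * a₁ ^ 2 * a₃ + 6 * a₁ * a₃ ^ 2 - a₃ ^ 3) + 8 * a₁ * v)) * k1'
      + (64 * a₁ ^ 2) * E0
  have k3 : a₃ = 9 * a₁ := by
    have h := (mul_eq_zero.mp k2).resolve_left (pow_ne_zero 2 ha₃)
    have h' := (mul_eq_zero.mp h).resolve_left (pow_ne_zero 3 (sub_ne_zero.mpr (Ne.symm hne)))
    linear_combination h'
  refine ⟨k3, ?_⟩
  subst k3
  have hv : v = -27 * a₁ ^ 2 := by
    have : a₁ * (8 * (v + 27 * a₁ ^ 2)) = 0 := by linear_combination k1'
    have := (mul_eq_zero.mp this).resolve_left ha₁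
    linear_combination this / 8
  subst hv
  have hu : u = 18 * a₁ := by
    have : a₁ ^ 2 * (-54 * (u - 18 * a₁)) = 0 := by linear_combination E1
    have := (mul_eq_zero.mp this).resolve_left (pow_ne_zero 2 ha₁)
    linear_combination this / (-54)
  subst hu
  linear_combination e3 / 64

variable {K F : Type*} [Field K] [Field F] [Algebra K F]

/-- a pole of `f` is a pole of `f - c`, of the same order. -/
theorem ord_sub_const_of_neg (v : Place K F) {f : F} (hf : v.ord f < 0) (c : K) :
    v.ord (f - algebraMap K F c) = v.ord f := by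
  rcases eq_or_ne c 0 with rfl | hc
  · simp
  have hf0 : f ≠ 0 := by
    rintro rfl
    simp at hf
  have hc' : -algebraMap K F c ≠ 0 := by
    rw [neg_ne_zero, ne_eq, map_eq_zero_iff _ (algebraMap K F).injective]
    exact hc
  rw [sub_eq_add_neg]
  exact ord_add_eq_of_lt v hf0 hc' (by rw [ord_neg', ord_const]; exact hf)

/-- if `f` has no pole at `v` then `f - c` has no pole at `v`. -/
theorem ord_sub_const_nonneg (v : Place K F) {f : F} (hf : 0 ≤ v.ord f) (c : K) :
    0 ≤ v.ord (f - algebraMap K F c) := by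
  apply Fermat.Agent.S24Res.ord_nonneg_of_mem
  exact sub_mem (Fermat.Agent.S24Res.mem_of_ord_nonneg v hf) (v.algebraMap_mem' c)

/-- the order of `f * x ^ 3 * (p * q ^ 3)⁻¹`. -/
theorem ord_quot3 (v : Place K F) {f x p q : F} (hf : f ≠ 0) (hx : x ≠ 0) (hp : p ≠ 0)
    (hq : q ≠ 0) :
    v.ord (f * x ^ 3 * (p * q ^ 3)⁻¹) = v.ord f + 3 * v.ord x - v.ord p - 3 * v.ord q := by
  have hx3 : x ^ 3 ≠ 0 := pow_ne_zero 3 hx
  have hq3 : q ^ 3 ≠ 0 := pow_ne_zero 3 hq
  rw [v.ord_mul (mul_ne_zero hf hx3) (inv_ne_zero (mul_ne_zero hp hq3)), v.ord_mul hf hx3,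
    v.ord_inv, v.ord_mul hp hq3, ord_pow', ord_pow']
  push_cast
  ring

/-- the order of `f * x ^ 3 * (p ^ 2 * q ^ 2)⁻¹`. -/
theorem ord_quot22 (v : Place K F) {f x p q : F} (hf : f ≠ 0) (hx : x ≠ 0) (hp : p ≠ 0)
    (hq : q ≠ 0) :
    v.ord (f * x ^ 3 * (p ^ 2 * q ^ 2)⁻¹) =
      v.ord f + 3 * v.ord x - 2 * v.ord p - 2 * v.ord q := by
  have hx3 : x ^ 3 ≠ 0 := pow_ne_zero 3 hx
  have hp2 : p ^ 2 ≠ 0 := pow_ne_zero 2 hp
  have hq2 : q ^ 2 ≠ 0 := pow_ne_zero 2 hq
  rw [v.ord_mul (mul_ne_zero hf hx3) (inv_ne_zero (mul_ne_zero hp2 hq2)), v.ord_mul hf hx3,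
    v.ord_inv, v.ord_mul hp2 hq2, ord_pow', ord_pow', ord_pow']
  push_cast
  ring

set_option maxHeartbeats 1600000 in
/-- **the Hauptmodul of `X₀(3)`**, generic form. -/
theorem exists_T3_of_fibres [IsAlgClosed K] [CharZero K]
    (h : IsRRField K F) (hg : genusFF K F = 0) (j : F)
    (Qi Q0 P1 P3 R R' : Place K F)
    (hQi : Qi.ord j = -1) (hQ0 : Q0.ord j = -3)
    (hpoles : ∀ v : Place K F, v.ord j < 0 → v = Qi ∨ v = Q0)
    (hP1 : P1.ord j = 1) (hP3 : P3.ord j = 3)
    (hzeros : ∀ v : Place K F, 0 < v.ord j → v = P1 ∨ v = P3)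
    (hR : R.ord (j - algebraMap K F 1728) = 2) (hR' : R'.ord (j - algebraMap K F 1728) = 2)
    (hRR' : R ≠ R')
    (h1728 : ∀ v : Place K F, 0 < v.ord (j - algebraMap K F 1728) → v = R ∨ v = R') :
    ∃ y : F, j * y ^ 3 = (y + 27) * (y + 243) ^ 3 := by
  classical
  -- distinctness of the special places
  have hQiQ0 : Q0 ≠ Qi := by rintro rfl; omega
  have hP1P3 : P1 ≠ P3 := by rintro rfl; omega
  have hP1Qi : P1 ≠ Qi := by rintro rfl; omega
  have hP1Q0 : P1 ≠ Q0 := by rintro rfl; omega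
  have hP3Qi : P3 ≠ Qi := by rintro rfl; omega
  have hP3Q0 : P3 ≠ Q0 := by rintro rfl; omega
  have hRnp : ∀ v : Place K F, 0 < v.ord (j - algebraMap K F 1728) → 0 ≤ v.ord j := by
    intro v hv
    by_contra hneg
    rw [ord_sub_const_of_neg v (not_le.mp hneg)] at hv
    omega
  have hRQi : R ≠ Qi := by
    rintro rfl
    have := hRnp R (by omega)
    omega
  have hRQ0 : R ≠ Q0 := by
    rintro rfl
    have := hRnp R (by omega)
    omega
  have hR'Qi : R' ≠ Qi := by
    rintro rfl
    have := hRnp R' (by omega)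
    omega
  have hR'Q0 : R' ≠ Q0 := by
    rintro rfl
    have := hRnp R' (by omega)
    omega
  have hj0 : j ≠ 0 := by
    rintro rfl
    simp at hQi
  have hj1728 : j - algebraMap K F 1728 ≠ 0 := by
    intro h0
    rw [h0] at hR
    simp at hR
  -- the coordinate
  obtain ⟨x, hx, hxQ0, hx0⟩ := exists_coordinate h hg hQiQ0
  have hxne : x ≠ 0 := hx.ne_zero
  have hval0 : Q0.ord (x - algebraMap K F 0) = 1 := by rw [map_zero, sub_zero]; exact hxQ0
  -- a place other than `Q0`, `Qi` has a nonzero value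
  have hvalue : ∀ v : Place K F, v ≠ Qi → v ≠ Q0 →
      ∃ a : K, a ≠ 0 ∧ v.ord (x - algebraMap K F a) = 1 := by
    intro v hvQi hvQ0
    obtain ⟨a, ha⟩ := hx.exists_value h hvQi
    refine ⟨a, ?_, ha⟩
    rintro rfl
    exact hvQ0 (hx.value_injective h ha hval0)
  obtain ⟨a₁, ha₁0, ha₁⟩ := hvalue P1 hP1Qi hP1Q0
  obtain ⟨a₃, ha₃0, ha₃⟩ := hvalue P3 hP3Qi hP3Q0
  obtain ⟨b, hb0, hb⟩ := hvalue R hRQi hRQ0
  obtain ⟨b', hb'0, hb'⟩ := hvalue R' hR'Qi hR'Q0
  have ha₁₃ : a₁ ≠ a₃ := by
    rintro rfl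
    exact hP1P3 (hx.value_injective h ha₁ ha₃)
  have hbb' : b ≠ b' := by
    rintro rfl
    exact hRR' (hx.value_injective h hb hb')
  -- orders of `x - a` at a place with value `a'`
  have hordsub : ∀ (v : Place K F) (a' a : K), v.ord (x - algebraMap K F a') = 1 →
      v.ord (x - algebraMap K F a) = if a' = a then 1 else 0 := by
    intro v a' a hv
    split_ifs with haa
    · subst haa; exact hv
    · exact hx.ord_sub_eq_zero h hv haa
  have hordQi : ∀ a : K, Qi.ord (x - algebraMap K F a) = -1 := fun a => (hx.sub_const a).ord_pole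
  have hne : ∀ a : K, x - algebraMap K F a ≠ 0 := hx.sub_ne_zero
  -- first relation
  have hphi : ∀ v : Place K F,
      v.ord (j * x ^ 3 * ((x - algebraMap K F a₁) * (x - algebraMap K F a₃) ^ 3)⁻¹) = 0 := by
    intro v
    rw [ord_quot3 v hj0 hxne (hne a₁) (hne a₃)]
    by_cases hvQi : v = Qi
    · subst hvQi
      rw [hQi, hx.ord_pole, hordQi, hordQi]; norm_num
    by_cases hvQ0 : v = Q0
    · subst hvQ0
      rw [hQ0, hxQ0, hordsub v 0 a₁ hval0, hordsub v 0 a₃ hval0, if_neg (Ne.symm ha₁0),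
        if_neg (Ne.symm ha₃0)]
      norm_num
    obtain ⟨a, ha0, ha⟩ := hvalue v hvQi hvQ0
    have hvx : v.ord x = 0 := hx0 v hvQ0 hvQi
    rw [hvx, hordsub v a a₁ ha, hordsub v a a₃ ha]
    by_cases hvP1 : v = P1
    · subst hvP1
      have haa : a = a₁ := by
        by_contra hne'
        have := hordsub v a a₁ ha
        rw [if_neg hne', ha₁] at this
        omega
      subst haa
      rw [hP1, if_pos rfl, if_neg ha₁₃]; norm_num
    by_cases hvP3 : v = P3
    · subst hvP3
      have haa : a = a₃ := by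
        by_contra hne'
        have := hordsub v a a₃ ha
        rw [if_neg hne', ha₃] at this
        omega
      subst haa
      rw [hP3, if_neg (Ne.symm ha₁₃), if_pos rfl]; norm_num
    have hvj : v.ord j = 0 := by
      rcases lt_trichotomy (v.ord j) 0 with hlt | heq | hgt
      · rcases hpoles v hlt with h1 | h1
        · exact absurd h1 hvQi
        · exact absurd h1 hvQ0
      · exact heq
      · rcases hzeros v hgt with h1 | h1
        · exact absurd h1 hvP1
        · exact absurd h1 hvP3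
    have h1 : a ≠ a₁ := by
      rintro rfl
      exact hvP1 (hx.value_injective h ha ha₁)
    have h3 : a ≠ a₃ := by
      rintro rfl
      exact hvP3 (hx.value_injective h ha ha₃)
    rw [hvj, if_neg h1, if_neg h3]; norm_num
  have hphi_ne : j * x ^ 3 * ((x - algebraMap K F a₁) * (x - algebraMap K F a₃) ^ 3)⁻¹ ≠ 0 :=
    mul_ne_zero (mul_ne_zero hj0 (pow_ne_zero 3 hxne))
      (inv_ne_zero (mul_ne_zero (hne a₁) (pow_ne_zero 3 (hne a₃))))
  obtain ⟨c, hc0, hc⟩ := eq_algebraMap_of_ord_eq_zero h hphi_ne hphi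
  have hrel : j * x ^ 3 =
      algebraMap K F c * ((x - algebraMap K F a₁) * (x - algebraMap K F a₃) ^ 3) := by
    have hden : (x - algebraMap K F a₁) * (x - algebraMap K F a₃) ^ 3 ≠ 0 :=
      mul_ne_zero (hne a₁) (pow_ne_zero 3 (hne a₃))
    rw [← hc, inv_mul_cancel_right₀ hden]
  -- second relation
  have hpsi : ∀ v : Place K F,
      v.ord ((j - algebraMap K F 1728) * x ^ 3 *
        ((x - algebraMap K F b) ^ 2 * (x - algebraMap K F b') ^ 2)⁻¹) = 0 := by
    intro v
    rw [ord_quot22 v hj1728 hxne (hne b) (hne b')]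
    by_cases hvQi : v = Qi
    · subst hvQi
      rw [ord_sub_const_of_neg v (by omega), hQi, hx.ord_pole, hordQi, hordQi]; norm_num
    by_cases hvQ0 : v = Q0
    · subst hvQ0
      rw [ord_sub_const_of_neg v (by omega), hQ0, hxQ0, hordsub v 0 b hval0,
        hordsub v 0 b' hval0, if_neg (Ne.symm hb0), if_neg (Ne.symm hb'0)]
      norm_num
    obtain ⟨a, ha0, ha⟩ := hvalue v hvQi hvQ0
    have hvx : v.ord x = 0 := hx0 v hvQ0 hvQi
    rw [hvx, hordsub v a b ha, hordsub v a b' ha]
    by_cases hvR : v = R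
    · subst hvR
      have haa : a = b := by
        by_contra hne'
        have := hordsub v a b ha
        rw [if_neg hne', hb] at this
        omega
      subst haa
      rw [hR, if_pos rfl, if_neg hbb']; norm_num
    by_cases hvR' : v = R'
    · subst hvR'
      have haa : a = b' := by
        by_contra hne'
        have := hordsub v a b' ha
        rw [if_neg hne', hb'] at this
        omega
      subst haa
      rw [hR', if_neg (Ne.symm hbb'), if_pos rfl]; norm_num
    have hvj : 0 ≤ v.ord j := by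
      by_contra hneg
      rcases hpoles v (not_le.mp hneg) with h1 | h1
      · exact hvQi h1
      · exact hvQ0 h1
    have hvj' : v.ord (j - algebraMap K F 1728) = 0 := by
      have h1 := ord_sub_const_nonneg v hvj (1728 : K)
      rcases h1.lt_or_eq with hpos | heq
      · rcases h1728 v hpos with h2 | h2
        · exact absurd h2 hvR
        · exact absurd h2 hvR'
      · exact heq.symm
    have h1 : a ≠ b := by
      rintro rfl
      exact hvR (hx.value_injective h ha hb)
    have h3 : a ≠ b' := by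
      rintro rfl
      exact hvR' (hx.value_injective h ha hb')
    rw [hvj', if_neg h1, if_neg h3]; norm_num
  have hpsi_ne : (j - algebraMap K F 1728) * x ^ 3 *
      ((x - algebraMap K F b) ^ 2 * (x - algebraMap K F b') ^ 2)⁻¹ ≠ 0 :=
    mul_ne_zero (mul_ne_zero hj1728 (pow_ne_zero 3 hxne))
      (inv_ne_zero (mul_ne_zero (pow_ne_zero 2 (hne b)) (pow_ne_zero 2 (hne b'))))
  obtain ⟨c', hc'0, hc'⟩ := eq_algebraMap_of_ord_eq_zero h hpsi_ne hpsi
  have hrel' : (j - algebraMap K F 1728) * x ^ 3 =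
      algebraMap K F c' * ((x - algebraMap K F b) ^ 2 * (x - algebraMap K F b') ^ 2) := by
    have hden : (x - algebraMap K F b) ^ 2 * (x - algebraMap K F b') ^ 2 ≠ 0 :=
      mul_ne_zero (pow_ne_zero 2 (hne b)) (pow_ne_zero 2 (hne b'))
    rw [← hc', inv_mul_cancel_right₀ hden]
  -- the polynomial identity
  have hxtr : Transcendental K x :=
    Fermat.Agent.S24Res.transcendental_of_ord_ne_zero Qi (by rw [hx.ord_pole]; norm_num)
  set D : K[X] := C c * ((X - C a₁) * (X - C a₃) ^ 3) - C 1728 * X ^ 3 -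
    C c' * ((X - C b) ^ 2 * (X - C b') ^ 2) with hD
  have hDx : Polynomial.aeval x D = 0 := by
    rw [hD]
    simp only [map_sub, map_mul, map_pow, Polynomial.aeval_X, Polynomial.aeval_C]
    rw [← hrel, ← hrel']
    ring
  have hD0 : D = 0 := by
    by_contra hne0
    exact hxtr ⟨D, hne0, hDx⟩
  have hid : ∀ t : K, c * (t - a₁) * (t - a₃) ^ 3 - 1728 * t ^ 3 =
      c' * (t ^ 2 + (-(b + b')) * t + b * b') ^ 2 := by
    intro t
    have := congrArg (Polynomial.eval t) hD0
    rw [hD] at this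
    simp only [Polynomial.eval_sub, Polynomial.eval_mul, Polynomial.eval_pow, Polynomial.eval_X,
      Polynomial.eval_C, Polynomial.eval_zero] at this
    linear_combination this
  obtain ⟨h9, hca⟩ := rigidity3 hc0 ha₁0 ha₃0 ha₁₃ hid
  -- the normalised Hauptmodul
  refine ⟨algebraMap K F c * x, ?_⟩
  have h27 : (27 : F) = -(algebraMap K F c * algebraMap K F a₁) := by
    rw [← map_mul, hca, map_neg, neg_neg, map_ofNat]
  have h243 : (243 : F) = -(algebraMap K F c * algebraMap K F a₃) := by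
    rw [h9, ← map_mul, show c * (9 * a₁) = 9 * (c * a₁) by ring, hca,
      show (9 * -27 : K) = -243 by norm_num, map_neg, neg_neg, map_ofNat]
  rw [h27, h243]
  have : j * (algebraMap K F c * x) ^ 3 = algebraMap K F c ^ 3 * (j * x ^ 3) := by ring
  rw [this, hrel]
  ring

end Fermat.Agent.GoodRedSmall
end
end MergeWrap_Lib_GoodRed_Small_Haupt3Generic

section MergeWrap_Lib_GoodRed_Small_Pairs -- from Lib/GoodRed/Small/Pairs.lean

/-!
# Cluster B / GoodRed (23): bookkeeping for fibres with one or two points  (helper12)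
-/

set_option autoImplicit false

namespace Fermat.Agent.GoodRedSmall

/-- a finite fibre with two points. -/
theorem exists_pair_of_card_two {α : Type*} {p : α → Prop} (hfin : {v | p v}.Finite)
    (hcard : Nat.card {v // p v} = 2) :
    ∃ v₁ v₂ : α, v₁ ≠ v₂ ∧ p v₁ ∧ p v₂ ∧ (∀ v, p v → v = v₁ ∨ v = v₂) ∧
      ∀ o : α → ℤ, ∑ v ∈ hfin.toFinset, o v = o v₁ + o v₂ := by
  classical
  have hc : hfin.toFinset.card = 2 := by
    rw [← hcard, ← Set.ncard_eq_toFinset_card _ hfin, ← Nat.card_coe_set_eq]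
    rfl
  obtain ⟨v₁, v₂, hne, hs⟩ := Finset.card_eq_two.mp hc
  have hmem : ∀ v, p v ↔ v = v₁ ∨ v = v₂ := by
    intro v
    have : v ∈ hfin.toFinset ↔ v ∈ ({v₁, v₂} : Finset α) := by rw [hs]
    rw [Set.Finite.mem_toFinset, Set.mem_setOf_eq, Finset.mem_insert, Finset.mem_singleton] at this
    exact this
  refine ⟨v₁, v₂, hne, (hmem v₁).mpr (Or.inl rfl), (hmem v₂).mpr (Or.inr rfl),
    fun v hv => (hmem v).mp hv, fun o => ?_⟩
  rw [hs, Finset.sum_pair hne]

/-- a finite fibre with one point. -/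
theorem exists_single_of_card_one {α : Type*} {p : α → Prop} (hfin : {v | p v}.Finite)
    (hcard : Nat.card {v // p v} = 1) :
    ∃ v₁ : α, p v₁ ∧ (∀ v, p v → v = v₁) ∧
      ∀ o : α → ℤ, ∑ v ∈ hfin.toFinset, o v = o v₁ := by
  classical
  have hc : hfin.toFinset.card = 1 := by
    rw [← hcard, ← Set.ncard_eq_toFinset_card _ hfin, ← Nat.card_coe_set_eq]
    rfl
  obtain ⟨v₁, hs⟩ := Finset.card_eq_one.mp hc
  have hmem : ∀ v, p v ↔ v = v₁ := by
    intro v
    have : v ∈ hfin.toFinset ↔ v ∈ ({v₁} : Finset α) := by rw [hs]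
    rw [Set.Finite.mem_toFinset, Set.mem_setOf_eq, Finset.mem_singleton] at this
    exact this
  refine ⟨v₁, (hmem v₁).mpr rfl, fun v hv => (hmem v).mp hv, fun o => ?_⟩
  rw [hs, Finset.sum_singleton]

end Fermat.Agent.GoodRedSmall
end MergeWrap_Lib_GoodRed_Small_Pairs

section MergeWrap_Lib_GoodRed_Small_Haupt3 -- from Lib/GoodRed/Small/Haupt3.lean

/-!
# Cluster B / GoodRed (23), piece S1.3: the Hauptmodul of `X₀(3)`  (helper12)

`existsT3 : ExistsT3`, i.e. `∃ x : F_3, j x³ = (x + 27)(x + 243)³`, from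
* genus `0` (S24 + Lib/GenusEq), Riemann–Roch (Lib/RR),
* the fibres of `j` over `0, 1728, ∞` (S24 / GoodRed/ModularBranch, `OrdDvd`, `SimplePole`),
* the rigidity computation `rigidity3`.
-/

set_option autoImplicit false

noncomputable section

open AlgebraicCurve ModularCurve

namespace Fermat.Agent.GoodRedSmall

open Fermat.Agent.RR Fermat.Agent.S24 Fermat.Agent.GoodRedBranch

theorem dedekindPsi_three : dedekindPsi 3 = 4 := by
  have h3 : Squarefree (3 : ℕ) := Nat.prime_three.squarefree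
  rw [dedekindPsi, Nat.Prime.divisors Nat.prime_three, Finset.filter_insert, if_pos squarefree_one,
    Finset.filter_singleton, if_pos h3, Finset.sum_insert (by decide), Finset.sum_singleton]

theorem nuTwo_three : nuTwo 3 = 0 := by
  unfold nuTwo
  rw [Nat.card_eq_fintype_card]
  decide

theorem nuThree_three : nuThree 3 = 1 := by
  unfold nuThree
  rw [Nat.card_eq_fintype_card]
  decide

theorem cuspCount_three : cuspCount 3 = 2 := by decide

theorem genusFF_three : genusFF Kbar (FBar 3) = 0 := by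
  have h := Fermat.Agent.GenusEq.genusFF_modularFunctionFieldBar 3
  rw [genusFormula, dedekindPsi_three, nuTwo_three, nuThree_three, cuspCount_three] at h
  have : (genusFF (AlgebraicClosure ℚ) ↥(ModularCurve.modularFunctionFieldBar 3) : ℚ) = 0 := by
    rw [h]; norm_num
  exact_mod_cast this

theorem finrank_three : Module.finrank (IntermediateField.adjoin Kbar {jBar 3}) (FBar 3) = 4 := by
  rw [show Module.finrank (IntermediateField.adjoin Kbar {jBar 3}) (FBar 3) =
    (CongruenceSubgroup.Gamma0 3).index from finrank_jBar 3,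
    Fermat.Agent.S24.index_Gamma0, dedekindPsi_three]

set_option maxHeartbeats 1600000 in
set_option synthInstance.maxHeartbeats 400000 in
/-- **S1.3**: the Hauptmodul of `X₀(3)`. -/
theorem existsT3 : ExistsT3 := by
  have hRR := Fermat.Agent.GenusEq.isRRField_modularFunctionFieldBar 3
  have hFF := isFunctionFieldOver_jBar 3
  have htr : Transcendental Kbar (jBar 3) := hFF.transcendental
  have h0 := ordDvd 3
  obtain ⟨Qi, hQi⟩ := simplePole 3
  -- the poles
  have hpc : Nat.card {v : Place Kbar ↥(ModularCurve.modularFunctionFieldBar 3) // v.ord (jBar 3) < 0} = 2 := by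
    rw [card_poles_jBar 3, Fermat.Agent.S24.orbCount_T, cuspCount_three]
  have hpfin := Fermat.Agent.S24Fund.finite_poles hFF htr
  obtain ⟨q₁, q₂, hq12, hq₁, hq₂, hqall, hqsum⟩ := exists_pair_of_card_two hpfin hpc
  have hps := Fermat.Agent.S24Fund.sum_ord_poles hFF htr
  rw [hqsum (fun v => v.ord (jBar 3)), finrank_three] at hps
  obtain ⟨Q0, hQ0, hpoles⟩ : ∃ Q0 : Place Kbar ↥(ModularCurve.modularFunctionFieldBar 3), Q0.ord (jBar 3) = -3 ∧
      ∀ v : Place Kbar ↥(ModularCurve.modularFunctionFieldBar 3), v.ord (jBar 3) < 0 → v = Qi ∨ v = Q0 := by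
    rcases hqall Qi (by rw [hQi]; norm_num) with h | h
    · refine ⟨q₂, ?_, fun v hv => ?_⟩
      · rw [← h, hQi] at hps
        push_cast at hps
        omega
      · rcases hqall v hv with h' | h'
        · left; rw [h', h]
        · right; exact h'
    · refine ⟨q₁, ?_, fun v hv => ?_⟩
      · rw [← h, hQi] at hps
        push_cast at hps
        omega
      · rcases hqall v hv with h' | h'
        · right; exact h'
        · left; rw [h', h]
  -- the zeros
  have hz : ∀ v : Place Kbar ↥(ModularCurve.modularFunctionFieldBar 3),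
      v.ord (jBar 3 - algebraMap Kbar ↥(ModularCurve.modularFunctionFieldBar 3) 0) = v.ord (jBar 3) := by
    intro v
    rw [map_zero, sub_zero]
  have hzc : Nat.card {v : Place Kbar ↥(ModularCurve.modularFunctionFieldBar 3) //
      0 < v.ord (jBar 3 - algebraMap Kbar ↥(ModularCurve.modularFunctionFieldBar 3) 0)} = 2 := by
    rw [card_fibre_jBar_zero 3]
    have := Fermat.Agent.S24.three_mul_orbCount_ST 3
    rw [dedekindPsi_three, nuThree_three] at this
    omega
  have hzfin := Fermat.Agent.S24Fund.finite_zeros hFF htr 0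
  obtain ⟨p₁, p₂, hp12, hp₁, hp₂, hpall, hpsum⟩ := exists_pair_of_card_two hzfin hzc
  have hzs := Fermat.Agent.S24Fund.sum_ord_zeros hFF htr 0
  rw [hpsum (fun v => v.ord (jBar 3 - algebraMap Kbar ↥(ModularCurve.modularFunctionFieldBar 3) 0)), finrank_three] at hzs
  have hd₁ : p₁.ord (jBar 3 - algebraMap Kbar ↥(ModularCurve.modularFunctionFieldBar 3) 0) ∣ 3 :=
    (h0 0 p₁ hp₁).1 rfl
  have hd₂ : p₂.ord (jBar 3 - algebraMap Kbar ↥(ModularCurve.modularFunctionFieldBar 3) 0) ∣ 3 :=
    (h0 0 p₂ hp₂).1 rfl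
  have hcase : ∀ n : ℤ, 0 < n → n ∣ 3 → n = 1 ∨ n = 3 := by
    intro n hn hdvd
    have hle : n ≤ 3 := Int.le_of_dvd (by norm_num) hdvd
    interval_cases n
    · left; rfl
    · exfalso; revert hdvd; decide
    · right; rfl
  have hzs' : p₁.ord (jBar 3) + p₂.ord (jBar 3) = 4 := by
    have h := hzs
    simp only [hz] at h
    exact_mod_cast h
  rw [hz] at hp₁ hp₂ hd₁ hd₂
  obtain ⟨P1, P3, hP1, hP3, hzeros⟩ : ∃ P1 P3 : Place Kbar ↥(ModularCurve.modularFunctionFieldBar 3),
      P1.ord (jBar 3) = 1 ∧ P3.ord (jBar 3) = 3 ∧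
      ∀ v : Place Kbar ↥(ModularCurve.modularFunctionFieldBar 3), 0 < v.ord (jBar 3) → v = P1 ∨ v = P3 := by
    rcases hcase _ hp₁ hd₁ with h1 | h1
    · exact ⟨p₁, p₂, h1, by omega, fun v hv => hpall v (by rw [hz]; exact hv)⟩
    · exact ⟨p₂, p₁, by omega, h1, fun v hv => (hpall v (by rw [hz]; exact hv)).symm⟩
  -- the fibre over `1728`
  have hrc : Nat.card {v : Place Kbar ↥(ModularCurve.modularFunctionFieldBar 3) //
      0 < v.ord (jBar 3 - algebraMap Kbar ↥(ModularCurve.modularFunctionFieldBar 3) 1728)} = 2 := by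
    rw [card_fibre_jBar_1728 3]
    have := Fermat.Agent.S24.two_mul_orbCount_S 3
    rw [dedekindPsi_three, nuTwo_three] at this
    omega
  have hrfin := Fermat.Agent.S24Fund.finite_zeros hFF htr 1728
  obtain ⟨R, R', hRR', hR, hR', hrall, hrsum⟩ := exists_pair_of_card_two hrfin hrc
  have hrs := Fermat.Agent.S24Fund.sum_ord_zeros hFF htr 1728
  rw [hrsum (fun v => v.ord (jBar 3 - algebraMap Kbar ↥(ModularCurve.modularFunctionFieldBar 3) 1728)), finrank_three] at hrs
  have hr₁ : R.ord (jBar 3 - algebraMap Kbar ↥(ModularCurve.modularFunctionFieldBar 3) 1728) ∣ 2 :=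
    (h0 1728 R hR).2.1 rfl
  have hr₂ : R'.ord (jBar 3 - algebraMap Kbar ↥(ModularCurve.modularFunctionFieldBar 3) 1728) ∣ 2 :=
    (h0 1728 R' hR').2.1 rfl
  have hcase2 : ∀ n : ℤ, 0 < n → n ∣ 2 → n ≤ 2 := fun n _ hdvd =>
    Int.le_of_dvd (by norm_num) hdvd
  have hle₁ := hcase2 _ hR hr₁
  have hle₂ := hcase2 _ hR' hr₂
  have hrs' : R.ord (jBar 3 - algebraMap Kbar ↥(ModularCurve.modularFunctionFieldBar 3) 1728) +
      R'.ord (jBar 3 - algebraMap Kbar ↥(ModularCurve.modularFunctionFieldBar 3) 1728) = 4 := by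
    exact_mod_cast hrs
  have hRe : R.ord (jBar 3 - algebraMap Kbar ↥(ModularCurve.modularFunctionFieldBar 3) 1728) = 2 := by omega
  have hR'e : R'.ord (jBar 3 - algebraMap Kbar ↥(ModularCurve.modularFunctionFieldBar 3) 1728) = 2 := by omega
  exact exists_T3_of_fibres hRR genusFF_three (jBar 3) Qi Q0 P1 P3 R R' hQi hQ0 hpoles hP1 hP3
    hzeros hRe hR'e hRR' hrall

end Fermat.Agent.GoodRedSmall
end
end MergeWrap_Lib_GoodRed_Small_Haupt3

section MergeWrap_Lib_GoodRed_Small_Unram -- from Lib/GoodRed/Small/Unram.lean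

/-!
# Cluster B / GoodRed (23), piece S2: `F_M / K(x)` is unramified outside `0, -64, ∞` resp.
`0, -27, ∞`  (helper19)

* `unramT2 M : OrdDvd M → UnramT2 M`
* `unramT3 M : OrdDvd M → UnramT3 M`

Route (blueprint-B-GoodRed-23, (S2)): for a place `v` over `x = c`, with `j₀ = P(c)/Q(c)`,
`ord_v (j - j₀) = m · ord_v (x - c)` where `m` is the multiplicity of `c` as a root of
`P - j₀ Q` (MULT lemma of `Small/PolyOrd.lean`); `OrdDvd` bounds the left side, so
`ord_v (x - c) = 1`; then the fundamental identity `Σ ord = [F : K(x)]` counts the fibre.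
-/

set_option autoImplicit false
set_option synthInstance.maxHeartbeats 400000
set_option maxHeartbeats 800000

noncomputable section

open AlgebraicCurve Polynomial IntermediateField

namespace Fermat.Agent.GoodRedSmall

namespace Unram

section generic

variable {K F : Type} [Field K] [Field F] [Algebra K F]

/-- **MULT for a relation** `j Q(x) = P(x)`: at a zero `v` of `x - c` with `Q(c) ≠ 0` and
`j₀ Q(c) = P(c)`:  `ord_v (j - j₀) = m · ord_v (x - c)`, `m ≥ 1` the multiplicity of the root `c`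
of `P - j₀ Q`. -/
theorem ord_sub_eq_mul (v : Place K F) {x j : F} {c : K} {P Q : K[X]}
    (hrel : j * Polynomial.aeval x Q = Polynomial.aeval x P)
    (hv : 0 < v.ord (x - algebraMap K F c)) (hQ : Q.eval c ≠ 0) (j0 : K)
    (hj0 : j0 * Q.eval c = P.eval c) (hf : P - C j0 * Q ≠ 0) :
    v.ord (j - algebraMap K F j0) =
        ((P - C j0 * Q).rootMultiplicity c : ℤ) * v.ord (x - algebraMap K F c) ∧
      0 < (P - C j0 * Q).rootMultiplicity c := by
  set f := P - C j0 * Q with hfdef
  have hroot : f.IsRoot c := by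
    rw [Polynomial.IsRoot.def, hfdef, eval_sub, eval_mul, eval_C, hj0, sub_self]
  have hm : 0 < f.rootMultiplicity c := (rootMultiplicity_pos hf).mpr hroot
  refine ⟨?_, hm⟩
  have hfx : Polynomial.aeval x f = (j - algebraMap K F j0) * Polynomial.aeval x Q := by
    rw [hfdef, map_sub, map_mul, Polynomial.aeval_C, sub_mul, hrel]
  have hmult := ord_aeval_eq v hv hf
  have hQ0 := ord_aeval_eq_zero v hv hQ
  have hpos : 0 < v.ord (Polynomial.aeval x f) := by
    rw [hmult]
    have : (0 : ℤ) < (f.rootMultiplicity c : ℤ) := by exact_mod_cast hm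
    positivity
  have hne : Polynomial.aeval x f ≠ 0 := by
    intro h0
    rw [h0, v.ord_zero] at hpos
    exact lt_irrefl _ hpos
  rw [hfx] at hne
  have h1 : j - algebraMap K F j0 ≠ 0 := left_ne_zero_of_mul hne
  have h2 : Polynomial.aeval x Q ≠ 0 := right_ne_zero_of_mul hne
  rw [← hmult, hfx, v.ord_mul h1 h2, hQ0, add_zero]

variable [IsAlgClosed K] [CharZero K]

/-- the fundamental identity for an unramified fibre. -/
theorem card_zeros_eq_finrank {t : F} (h : Fermat.Agent.S24Diff.IsFunctionFieldOver K F t)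
    {x : F} (hx : Transcendental K x) (c : K)
    (hord : ∀ v : Place K F, 0 < v.ord (x - algebraMap K F c) →
      v.ord (x - algebraMap K F c) = 1) :
    Nat.card {v : Place K F // 0 < v.ord (x - algebraMap K F c)} = Module.finrank K⟮x⟯ F := by
  classical
  have hfin := Fermat.Agent.S24Fund.finite_zeros h hx c
  have hsum := Fermat.Agent.S24Fund.sum_ord_zeros h hx c
  have h1 : ∑ v ∈ hfin.toFinset, v.ord (x - algebraMap K F c) = ∑ v ∈ hfin.toFinset, (1 : ℤ) := by
    refine Finset.sum_congr rfl fun v hv => ?_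
    rw [Set.Finite.mem_toFinset] at hv
    exact hord v hv
  rw [h1, Finset.sum_const, nsmul_eq_mul, mul_one] at hsum
  have h2 : Nat.card {v : Place K F // 0 < v.ord (x - algebraMap K F c)} = hfin.toFinset.card := by
    rw [← Set.ncard_eq_toFinset_card _ hfin, ← Nat.card_coe_set_eq]
    rfl
  rw [h2]
  exact_mod_cast hsum

end generic

/-- integer arithmetic: `m * o ∣ d`, `d ≤ m`, `o > 0` force `o = 1`. -/
theorem eq_one_of_mul_dvd {m : ℕ} {o d : ℤ} (hd : 0 < d) (hmd : d ≤ m) (ho : 0 < o)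
    (h : (m : ℤ) * o ∣ d) : o = 1 := by
  have hle : (m : ℤ) * o ≤ d := Int.le_of_dvd hd h
  have hm : (0 : ℤ) < m := lt_of_lt_of_le hd hmd
  nlinarith

end Unram

open Fermat.Agent.S24

section T2

variable (M : ℕ) [NeZero M]

theorem Unram.ne_zero_of_isT2 {x : FBar M} (hT : IsT2 x) : x ≠ 0 := by
  intro h0
  unfold IsT2 at hT
  rw [h0] at hT
  norm_num at hT

theorem Unram.transcendental_of_isT2 {x : FBar M} (hT : IsT2 x) : Transcendental Kbar x := by
  intro halg
  apply transcendental_jBar M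
  have hx0 := Unram.ne_zero_of_isT2 M hT
  have hj : jBar M = (x + algebraMap Kbar (FBar M) 256) ^ 3 * (x ^ 2)⁻¹ := by
    unfold IsT2 at hT
    rw [map_ofNat, ← hT]
    field_simp
  rw [hj]
  exact ((halg.add (isAlgebraic_algebraMap _)).pow 3).mul (halg.pow 2).inv

/-- **(S2) for `X₀(2)`**. -/
theorem unramT2 (h : OrdDvd M) : UnramT2 M := by
  intro x hT c hc0 hc64
  have hFF := isFunctionFieldOver_jBar M
  have hx := Unram.transcendental_of_isT2 M hT
  apply Unram.card_zeros_eq_finrank hFF hx c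
  intro v hv
  set P : Kbar[X] := (X + C 256) ^ 3 with hP
  set Q : Kbar[X] := X ^ 2 with hQ
  have hrel : jBar M * Polynomial.aeval x Q = Polynomial.aeval x P := by
    rw [hP, hQ, map_pow, map_pow, map_add, Polynomial.aeval_X, Polynomial.aeval_C, map_ofNat]
    exact hT
  have hQc : Q.eval c ≠ 0 := by
    rw [hQ, eval_pow, eval_X]
    exact pow_ne_zero 2 hc0
  set j0 : Kbar := (c + 256) ^ 3 / c ^ 2 with hj0
  have hj0' : j0 * Q.eval c = P.eval c := by
    rw [hP, hQ, eval_pow, eval_pow, eval_add, eval_X, eval_C, hj0]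
    field_simp
  have hmon : (P - C j0 * Q).Monic := by
    apply Monic.sub_of_left ((monic_X_add_C (256 : Kbar)).pow 3)
    rw [hQ, degree_pow, degree_X_add_C]
    refine lt_of_le_of_lt (degree_C_mul_X_pow_le 2 j0) ?_
    norm_num
  have hf : P - C j0 * Q ≠ 0 := hmon.ne_zero
  obtain ⟨hord, hm⟩ := Unram.ord_sub_eq_mul v hrel hv hQc j0 hj0' hf
  have hjpos : 0 < v.ord (jBar M - algebraMap Kbar (FBar M) j0) := by
    rw [hord]
    have : (0 : ℤ) < ((P - C j0 * Q).rootMultiplicity c : ℤ) := by exact_mod_cast hm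
    positivity
  obtain ⟨h0, h1728, hgen⟩ := h j0 v hjpos
  have hc2 : c ^ 2 ≠ 0 := pow_ne_zero 2 hc0
  by_cases hj00 : j0 = 0
  · have hc : c = -256 := by
      rw [hj0, div_eq_zero_iff] at hj00
      rcases hj00 with h1 | h1
      · have := pow_eq_zero_iff (n := 3) (by norm_num) |>.mp h1
        linear_combination this
      · exact absurd h1 hc2
    have h3 : 3 ≤ (P - C j0 * Q).rootMultiplicity c := by
      rw [le_rootMultiplicity_iff hf, hj00, hc, hP]
      refine ⟨1, ?_⟩
      rw [map_zero, zero_mul, sub_zero, mul_one, map_neg, sub_neg_eq_add]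
    have hd := h0 hj00
    rw [hord] at hd
    exact Unram.eq_one_of_mul_dvd (by norm_num) (by exact_mod_cast h3) hv hd
  by_cases hj01 : j0 = 1728
  · have hrel2 : (c + 256) ^ 3 = 1728 * c ^ 2 := by
      rw [hj0, div_eq_iff hc2] at hj01
      exact hj01
    have hprod : (c - 512) ^ 2 * (c + 64) = 0 := by linear_combination hrel2
    have hc : c = 512 := by
      rcases mul_eq_zero.mp hprod with h1 | h1
      · have := pow_eq_zero_iff (n := 2) (by norm_num) |>.mp h1
        linear_combination this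
      · exact absurd (by linear_combination h1) hc64
    have h2 : 2 ≤ (P - C j0 * Q).rootMultiplicity c := by
      rw [le_rootMultiplicity_iff hf, hj01, hc, hP, hQ]
      refine ⟨X + C 64, ?_⟩
      simp only [map_ofNat]
      ring
    have hd := h1728 hj01
    rw [hord] at hd
    exact Unram.eq_one_of_mul_dvd (by norm_num) (by exact_mod_cast h2) hv hd
  · have h1 := hgen hj00 hj01
    rw [hord] at h1
    exact Unram.eq_one_of_mul_dvd one_pos (by exact_mod_cast hm) hv (by rw [h1])

end T2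

section T3

variable (M : ℕ) [NeZero M]

theorem Unram.ne_zero_of_isT3 {x : FBar M} (hT : IsT3 x) : x ≠ 0 := by
  intro h0
  unfold IsT3 at hT
  rw [h0] at hT
  norm_num at hT

theorem Unram.transcendental_of_isT3 {x : FBar M} (hT : IsT3 x) : Transcendental Kbar x := by
  intro halg
  apply transcendental_jBar M
  have hx0 := Unram.ne_zero_of_isT3 M hT
  have hj : jBar M = (x + algebraMap Kbar (FBar M) 27) *
      (x + algebraMap Kbar (FBar M) 243) ^ 3 * (x ^ 3)⁻¹ := by
    unfold IsT3 at hT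
    rw [map_ofNat, map_ofNat, ← hT]
    field_simp
  rw [hj]
  exact ((halg.add (isAlgebraic_algebraMap _)).mul
    ((halg.add (isAlgebraic_algebraMap _)).pow 3)).mul (halg.pow 3).inv

/-- **(S2) for `X₀(3)`**. -/
theorem unramT3 (h : OrdDvd M) : UnramT3 M := by
  intro x hT c hc0 hc27
  have hFF := isFunctionFieldOver_jBar M
  have hx := Unram.transcendental_of_isT3 M hT
  apply Unram.card_zeros_eq_finrank hFF hx c
  intro v hv
  set P : Kbar[X] := (X + C 27) * (X + C 243) ^ 3 with hP
  set Q : Kbar[X] := X ^ 3 with hQ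
  have hrel : jBar M * Polynomial.aeval x Q = Polynomial.aeval x P := by
    rw [hP, hQ, map_mul, map_pow, map_pow, map_add, map_add, Polynomial.aeval_X,
      Polynomial.aeval_C, Polynomial.aeval_C, map_ofNat, map_ofNat]
    exact hT
  have hQc : Q.eval c ≠ 0 := by
    rw [hQ, eval_pow, eval_X]
    exact pow_ne_zero 3 hc0
  set j0 : Kbar := (c + 27) * (c + 243) ^ 3 / c ^ 3 with hj0
  have hj0' : j0 * Q.eval c = P.eval c := by
    rw [hP, hQ, eval_mul, eval_pow, eval_pow, eval_add, eval_add, eval_X, eval_C, eval_C, hj0]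
    field_simp
  have hmon : (P - C j0 * Q).Monic := by
    apply Monic.sub_of_left
      ((monic_X_add_C (27 : Kbar)).mul ((monic_X_add_C (243 : Kbar)).pow 3))
    have hdegP : ((X + C 27) * (X + C 243) ^ 3 : Kbar[X]).degree = 4 := by
      rw [degree_mul, degree_pow, degree_X_add_C, degree_X_add_C]
      norm_num
    rw [hQ, hdegP]
    refine lt_of_le_of_lt (degree_C_mul_X_pow_le 3 j0) ?_
    norm_num
  have hf : P - C j0 * Q ≠ 0 := hmon.ne_zero
  obtain ⟨hord, hm⟩ := Unram.ord_sub_eq_mul v hrel hv hQc j0 hj0' hf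
  have hjpos : 0 < v.ord (jBar M - algebraMap Kbar (FBar M) j0) := by
    rw [hord]
    have : (0 : ℤ) < ((P - C j0 * Q).rootMultiplicity c : ℤ) := by exact_mod_cast hm
    positivity
  obtain ⟨h0, h1728, hgen⟩ := h j0 v hjpos
  have hc3 : c ^ 3 ≠ 0 := pow_ne_zero 3 hc0
  by_cases hj00 : j0 = 0
  · have hc : c = -243 := by
      rw [hj0, div_eq_zero_iff] at hj00
      rcases hj00 with h1 | h1
      · rcases mul_eq_zero.mp h1 with h2 | h2
        · exact absurd (by linear_combination h2) hc27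
        · have := pow_eq_zero_iff (n := 3) (by norm_num) |>.mp h2
          linear_combination this
      · exact absurd h1 hc3
    have h3 : 3 ≤ (P - C j0 * Q).rootMultiplicity c := by
      rw [le_rootMultiplicity_iff hf, hj00, hc, hP]
      refine ⟨X + C 27, ?_⟩
      rw [map_zero, zero_mul, sub_zero, map_neg, sub_neg_eq_add]
      ring
    have hd := h0 hj00
    rw [hord] at hd
    exact Unram.eq_one_of_mul_dvd (by norm_num) (by exact_mod_cast h3) hv hd
  by_cases hj01 : j0 = 1728
  · have hrel2 : (c + 27) * (c + 243) ^ 3 = 1728 * c ^ 3 := by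
      rw [hj0, div_eq_iff hc3] at hj01
      exact hj01
    have hsq : (c ^ 2 - 486 * c - 19683) ^ 2 = 0 := by linear_combination hrel2
    have hH : c ^ 2 - 486 * c - 19683 = 0 := pow_eq_zero_iff (n := 2) (by norm_num) |>.mp hsq
    have hPQ : P - C j0 * Q = (X ^ 2 - C 486 * X - C 19683) ^ 2 := by
      rw [hj01, hP, hQ]
      simp only [map_ofNat]
      ring
    have hdvd : (X - C c) ∣ (X ^ 2 - C 486 * X - C 19683 : Kbar[X]) := by
      rw [dvd_iff_isRoot, Polynomial.IsRoot.def]
      simp only [eval_sub, eval_mul, eval_pow, eval_X, eval_C]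
      exact hH
    have h2 : 2 ≤ (P - C j0 * Q).rootMultiplicity c := by
      rw [le_rootMultiplicity_iff hf, hPQ]
      exact pow_dvd_pow_of_dvd hdvd 2
    have hd := h1728 hj01
    rw [hord] at hd
    exact Unram.eq_one_of_mul_dvd (by norm_num) (by exact_mod_cast h2) hv hd
  · have h1 := hgen hj00 hj01
    rw [hord] at h1
    exact Unram.eq_one_of_mul_dvd one_pos (by exact_mod_cast hm) hv (by rw [h1])

end T3

end Fermat.Agent.GoodRedSmall
end
end MergeWrap_Lib_GoodRed_Small_Unram

section MergeWrap_Lib_IgusaDeg_Deg -- from Lib/IgusaDeg/Deg.lean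

set_option autoImplicit false
set_option linter.unusedSectionVars false
set_option linter.style.haveILetI false

noncomputable section

namespace Fermat.Agent.IgusaDeg

open MatrixGroups Matrix.SpecialLinearGroup ModularCurve IntermediateField

/-- `#(SL₂(ℤ)/Γ₀(N)) = [SL₂(ℤ) : Γ₀(N)]`. -/
theorem card_Q_eq_index (N : ℕ) [NeZero N] :
    Fintype.card (Fermat.Agent.S23.Q N) = (CongruenceSubgroup.Gamma0 N).index := by
  rw [← Nat.card_eq_fintype_card]
  show (Fermat.Agent.S23.G0 N).relIndex 𝒮ℒ = _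
  unfold Fermat.Agent.S23.G0
  rw [MonoidHom.range_eq_map, Subgroup.relIndex_map_map_of_injective _ _ mapGL_injective,
    Subgroup.relIndex_top_right]

variable (N : ℕ) [NeZero N] {ℓ : ℕ} (hℓ : ℓ.Prime)
  {A : ValuationSubring (AlgebraicClosure ℚ)} (hA : A.LiesOverPrime ℓ)
  (hR : Fermat.Agent.GoodRed.RangeAt N A)

set_option synthInstance.maxHeartbeats 400000 in
set_option maxHeartbeats 1000000 in
/-- the reduction of `j` in the modular `RedModel` is `j̄ = jqModC k`, as an element of `F_k`. -/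
theorem modularRedModel_xbar :
    (Fermat.Agent.GoodRed.modularRedModel N hℓ hA hR).xbar
      = Fermat.Agent.RRMod.jC (IsLocalRing.ResidueField A) N :=
  Subtype.ext (Fermat.Agent.GoodRed.coe_modularRedModel_xbar N hℓ hA hR)

set_option synthInstance.maxHeartbeats 400000 in
set_option maxHeartbeats 1000000 in
/-- **`sepk`**: `F_k / k(j̄)` is separable. -/
theorem isSeparable_xbar :
    Algebra.IsSeparable
      (IntermediateField.adjoin (IsLocalRing.ResidueField A)
        {(Fermat.Agent.GoodRed.modularRedModel N hℓ hA hR).xbar})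
      ↥(modularFunctionFieldFullC (IsLocalRing.ResidueField A) N) := by
  haveI : IsAlgClosed (IsLocalRing.ResidueField A) :=
    Fermat.Agent.FrobTrace.isAlgClosed_residueField A
  rw [modularRedModel_xbar]
  exact Fermat.Agent.RRMod.isSeparable_fullC' (IsLocalRing.ResidueField A) N

set_option synthInstance.maxHeartbeats 400000 in
set_option maxHeartbeats 1000000 in
/-- **`degk`** from the degree of `F_k / k(j̄)` in the form `#Q(N)`, for any presentation `x`
of `j̄` as an element of `F_k`. -/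
theorem finrank_xbar_of_finrank
    (x : ↥(modularFunctionFieldFullC (IsLocalRing.ResidueField A) N))
    (hx : (x : LaurentSeries (IsLocalRing.ResidueField A)) = jqModC (IsLocalRing.ResidueField A))
    (hdeg : Module.finrank (IntermediateField.adjoin (IsLocalRing.ResidueField A) {x})
        ↥(modularFunctionFieldFullC (IsLocalRing.ResidueField A) N)
          = Fintype.card (Fermat.Agent.S23.Q N)) :
    Module.finrank
        (IntermediateField.adjoin (IsLocalRing.ResidueField A)
          {(Fermat.Agent.GoodRed.modularRedModel N hℓ hA hR).xbar})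
        ↥(modularFunctionFieldFullC (IsLocalRing.ResidueField A) N)
          = (CongruenceSubgroup.Gamma0 N).index := by
  have hxx : (Fermat.Agent.GoodRed.modularRedModel N hℓ hA hR).xbar = x :=
    Subtype.ext ((Fermat.Agent.GoodRed.coe_modularRedModel_xbar N hℓ hA hR).trans hx.symm)
  rw [hxx, hdeg, card_Q_eq_index]

set_option synthInstance.maxHeartbeats 400000 in
set_option maxHeartbeats 1000000 in
/-- `DegData` of the modular `RedModel` from the degree `[F_k : k(j̄)] = #Q(N)` alone. -/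
theorem degData_of_finrank
    (x : ↥(modularFunctionFieldFullC (IsLocalRing.ResidueField A) N))
    (hx : (x : LaurentSeries (IsLocalRing.ResidueField A)) = jqModC (IsLocalRing.ResidueField A))
    (hdeg : Module.finrank (IntermediateField.adjoin (IsLocalRing.ResidueField A) {x})
        ↥(modularFunctionFieldFullC (IsLocalRing.ResidueField A) N)
          = Fintype.card (Fermat.Agent.S23.Q N)) :
    Fermat.Agent.GoodRed.DegData (Fermat.Agent.GoodRed.modularRedModel N hℓ hA hR)
      (CongruenceSubgroup.Gamma0 N).index :=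
  Fermat.Agent.GoodRed.degData_modularRedModel N hℓ hA hR
    (finrank_xbar_of_finrank N hℓ hA hR x hx hdeg) (isSeparable_xbar N hℓ hA hR)

set_option synthInstance.maxHeartbeats 400000 in
set_option maxHeartbeats 1000000 in
/-- **`degk`**, unconditional for `ℓ ∤ N`: `[F_k : k(j̄)] = [SL₂(ℤ) : Γ₀(N)]`. -/
theorem finrank_xbar (hℓN : ¬ ℓ ∣ N) :
    Module.finrank
        (IntermediateField.adjoin (IsLocalRing.ResidueField A)
          {(Fermat.Agent.GoodRed.modularRedModel N hℓ hA hR).xbar})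
        ↥(modularFunctionFieldFullC (IsLocalRing.ResidueField A) N)
          = (CongruenceSubgroup.Gamma0 N).index :=
  finrank_xbar_of_finrank N hℓ hA hR _
    (Fermat.Agent.GoodRed.coe_modularRedModel_xbar N hℓ hA hR)
    (Fermat.Agent.GaussVal.finrank_fullC_of_isAlgClosed A ℓ N hℓ hA hℓN _
      (Fermat.Agent.GoodRed.coe_modularRedModel_xbar N hℓ hA hR))

set_option synthInstance.maxHeartbeats 400000 in
set_option maxHeartbeats 1000000 in
/-- **`DegData`** of the modular `RedModel` at a place over `ℓ ∤ N`, unconditional: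
`[F : ℚ̄(j)] = [SL₂(ℤ) : Γ₀(N)] = [F_k : k(j̄)]`, and `F_k / k(j̄)` is separable. -/
theorem degData_modular (hℓN : ¬ ℓ ∣ N) :
    Fermat.Agent.GoodRed.DegData (Fermat.Agent.GoodRed.modularRedModel N hℓ hA hR)
      (CongruenceSubgroup.Gamma0 N).index :=
  Fermat.Agent.GoodRed.degData_modularRedModel N hℓ hA hR
    (finrank_xbar N hℓ hA hR hℓN) (isSeparable_xbar N hℓ hA hR)

set_option synthInstance.maxHeartbeats 400000 in
set_option maxHeartbeats 1000000 in
/-- **`DegData`** of `modularRedModelOf`, unconditional. -/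
theorem degData_modularRedModelOf (hℓN : ¬ ℓ ∣ N) :
    Fermat.Agent.GoodRed.DegData (Fermat.Agent.GoodRed.modularRedModelOf N hℓ hA hℓN)
      (CongruenceSubgroup.Gamma0 N).index :=
  degData_modular N hℓ hA (Fermat.Agent.GoodRed.rangeAt N hℓ hA hℓN) hℓN

end Fermat.Agent.IgusaDeg
end
end MergeWrap_Lib_IgusaDeg_Deg

section MergeWrap_Lib_GoodRed_Small_Final23 -- from Lib/GoodRed/Small/Final23.lean

/-!
# Cluster B / GoodRed (23): ASSEMBLY (helper18)

The genus inequality `g(F_N) ≤ g(F_{N,k})` at a place over `ℓ ∤ N`, for the primes that the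
chain with `x = j` cannot treat:

* `genusFF_le_of_even` : `2 ∣ N`, `ℓ ≠ 2` (in particular `ℓ = 3`), with `x` = the Hauptmodul of
  `X₀(2)`, branch values `0, -64, ∞`;
* `genusFF_le_of_three_dvd` : `3 ∣ N`, `ℓ ≠ 3` (in particular `ℓ = 2`), with `x` = the Hauptmodul
  of `X₀(3)`, branch values `0, -27, ∞`.
-/

set_option autoImplicit false
set_option linter.unusedSectionVars false
set_option linter.style.haveILetI false

noncomputable section

namespace Fermat.Agent.GoodRedSmall

open AlgebraicCurve ModularCurve IntermediateField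
open Fermat.Agent.S24 Fermat.Agent.GoodRed

namespace Final23

variable {ℓ : ℕ} {A : ValuationSubring Kbar}

/-- a natural number prime to `ℓ` is nonzero in the residue field. -/
theorem natCast_residue_ne_zero (hA : A.LiesOverPrime ℓ) {d : ℕ} (hd : d.Coprime ℓ) :
    ((d : ℕ) : IsLocalRing.ResidueField A) ≠ 0 := by
  have hu := Fermat.Agent.GaussVal.natCast_isUnit_of_coprime A ℓ hA hd
  have h : IsLocalRing.residue A ((d : ℕ) : A) ≠ 0 := by
    rw [Ne, IsLocalRing.residue_eq_zero_iff, IsLocalRing.mem_maximalIdeal, mem_nonunits_iff,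
      not_not]
    exact hu
  rwa [map_natCast] at h

/-- the inverse of a natural number prime to `ℓ` lies in `A`. -/
theorem inv_natCast_mem (hA : A.LiesOverPrime ℓ) {d : ℕ} (hd : d.Coprime ℓ) :
    ((d : ℕ) : Kbar)⁻¹ ∈ A := by
  have hu := Fermat.Agent.GaussVal.natCast_isUnit_of_coprime A ℓ hA hd
  obtain ⟨u, hu⟩ := hu
  have h1 : ((u⁻¹ : Aˣ) : A) * ((d : ℕ) : A) = 1 := by
    rw [← hu]
    exact u.inv_mul
  have h2 : (((u⁻¹ : Aˣ) : A) : Kbar) * ((d : ℕ) : Kbar) = 1 := congrArg Subtype.val h1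
  have h3 : ((d : ℕ) : Kbar)⁻¹ = (((u⁻¹ : Aˣ) : A) : Kbar) := by
    rw [eq_comm]
    exact eq_inv_of_mul_eq_one_left h2
  rw [h3]
  exact ((u⁻¹ : Aˣ) : A).2

end Final23

set_option synthInstance.maxHeartbeats 400000 in
set_option maxHeartbeats 1000000 in
/-- **GoodRed (23), even level, `ℓ` odd**: `g(F_N) ≤ g(F_{N,k})`. -/
theorem genusFF_le_of_even (N : ℕ) [NeZero N] (h2N : 2 ∣ N) {ℓ : ℕ} (hℓ : ℓ.Prime)
    (hℓ2 : ℓ ≠ 2) {A : ValuationSubring Kbar} (hA : A.LiesOverPrime ℓ) (hℓN : ¬ ℓ ∣ N)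
    (hdegk : Module.finrank
        (IntermediateField.adjoin (IsLocalRing.ResidueField A)
          {(modularRedModel N hℓ hA (rangeAt N hℓ hA hℓN)).xbar})
        ↥(modularFunctionFieldFullC (IsLocalRing.ResidueField A) N)
          = (CongruenceSubgroup.Gamma0 N).index)
    (hsep : Algebra.IsSeparable
        (IntermediateField.adjoin (IsLocalRing.ResidueField A)
          {(modularRedModel N hℓ hA (rangeAt N hℓ hA hℓN)).xbar})
        ↥(modularFunctionFieldFullC (IsLocalRing.ResidueField A) N))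
    (hk : Fermat.Agent.RR.IsRRField (IsLocalRing.ResidueField A)
      ↥(modularFunctionFieldFullC (IsLocalRing.ResidueField A) N)) :
    genusFF Kbar (FBar N) ≤
      genusFF (IsLocalRing.ResidueField A)
        ↥(modularFunctionFieldFullC (IsLocalRing.ResidueField A) N) := by
  haveI : IsAlgClosed (IsLocalRing.ResidueField A) :=
    Fermat.Agent.FrobTrace.isAlgClosed_residueField A
  have hdeg := degData_modularRedModel N hℓ hA (rangeAt N hℓ hA hℓN) hdegk hsep
  have hcop : Nat.Coprime 2 ℓ := (Nat.coprime_primes Nat.prime_two hℓ).mpr (Ne.symm hℓ2)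
  have h2 : (2 : IsLocalRing.ResidueField A) ≠ 0 := by
    have := Final23.natCast_residue_ne_zero hA hcop
    exact_mod_cast this
  obtain ⟨x, hxT⟩ := existsT2At N h2N existsT2
  obtain ⟨hx, htr, n', hdeg', BD, hS⟩ :=
    branchT2 N (unramT2 N (ordDvd N)) _ _
      (modularRedModel N hℓ hA (rangeAt N hℓ hA hℓN)) _ rfl hdeg h2 x hxT
  have hfib := fibreBound_of_branchData _ n' hdeg' BD.toA
  have hinvS : ∀ c ∈ BD.S, c ≠ 0 →
      c⁻¹ ∈ (swapX (modularRedModel N hℓ hA (rangeAt N hℓ hA hℓN)) x hx htr).A := by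
    intro c hc hc0
    rcases (hS c).mp hc with h | h
    · exact absurd h hc0
    · have h64 : Nat.Coprime 64 ℓ := by
        have e : (64 : ℕ) = 2 ^ 6 := by norm_num
        rw [e]
        exact Nat.Coprime.pow_left _ hcop
      have hmem := Final23.inv_natCast_mem hA h64
      show c⁻¹ ∈ A
      have e : c⁻¹ = -(((64 : ℕ) : Kbar)⁻¹) := by
        rw [h]
        push_cast
        rw [inv_neg]
      rw [e]
      exact neg_mem hmem
  have hinf := (fibreBound_inv _ n' hdeg' BD hinvS).at_infty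
  exact genusFF_le_of_fibreBound _ n' hdeg' BD
    (Fermat.Agent.GenusEq.isRRField_modularFunctionFieldBar N) hk hfib hinf

set_option synthInstance.maxHeartbeats 400000 in
set_option maxHeartbeats 1000000 in
/-- **GoodRed (23), level divisible by `3`, `ℓ ≠ 3`**: `g(F_N) ≤ g(F_{N,k})`. -/
theorem genusFF_le_of_three_dvd (N : ℕ) [NeZero N] (h3N : 3 ∣ N) {ℓ : ℕ} (hℓ : ℓ.Prime)
    (hℓ3 : ℓ ≠ 3) {A : ValuationSubring Kbar} (hA : A.LiesOverPrime ℓ) (hℓN : ¬ ℓ ∣ N)
    (hdegk : Module.finrank
        (IntermediateField.adjoin (IsLocalRing.ResidueField A)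
          {(modularRedModel N hℓ hA (rangeAt N hℓ hA hℓN)).xbar})
        ↥(modularFunctionFieldFullC (IsLocalRing.ResidueField A) N)
          = (CongruenceSubgroup.Gamma0 N).index)
    (hsep : Algebra.IsSeparable
        (IntermediateField.adjoin (IsLocalRing.ResidueField A)
          {(modularRedModel N hℓ hA (rangeAt N hℓ hA hℓN)).xbar})
        ↥(modularFunctionFieldFullC (IsLocalRing.ResidueField A) N))
    (hk : Fermat.Agent.RR.IsRRField (IsLocalRing.ResidueField A)
      ↥(modularFunctionFieldFullC (IsLocalRing.ResidueField A) N)) :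
    genusFF Kbar (FBar N) ≤
      genusFF (IsLocalRing.ResidueField A)
        ↥(modularFunctionFieldFullC (IsLocalRing.ResidueField A) N) := by
  haveI : IsAlgClosed (IsLocalRing.ResidueField A) :=
    Fermat.Agent.FrobTrace.isAlgClosed_residueField A
  have hdeg := degData_modularRedModel N hℓ hA (rangeAt N hℓ hA hℓN) hdegk hsep
  have hcop : Nat.Coprime 3 ℓ := (Nat.coprime_primes Nat.prime_three hℓ).mpr (Ne.symm hℓ3)
  have h3 : (3 : IsLocalRing.ResidueField A) ≠ 0 := by
    have := Final23.natCast_residue_ne_zero hA hcop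
    exact_mod_cast this
  obtain ⟨x, hxT⟩ := existsT3At N h3N existsT3
  obtain ⟨hx, htr, n', hdeg', BD, hS⟩ :=
    branchT3 N (unramT3 N (ordDvd N)) _ _
      (modularRedModel N hℓ hA (rangeAt N hℓ hA hℓN)) _ rfl hdeg h3 x hxT
  have hfib := fibreBound_of_branchData _ n' hdeg' BD.toA
  have hinvS : ∀ c ∈ BD.S, c ≠ 0 →
      c⁻¹ ∈ (swapX (modularRedModel N hℓ hA (rangeAt N hℓ hA hℓN)) x hx htr).A := by
    intro c hc hc0
    rcases (hS c).mp hc with h | h
    · exact absurd h hc0
    · have h27 : Nat.Coprime 27 ℓ := by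
        have e : (27 : ℕ) = 3 ^ 3 := by norm_num
        rw [e]
        exact Nat.Coprime.pow_left _ hcop
      have hmem := Final23.inv_natCast_mem hA h27
      show c⁻¹ ∈ A
      have e : c⁻¹ = -(((27 : ℕ) : Kbar)⁻¹) := by
        rw [h]
        push_cast
        rw [inv_neg]
      rw [e]
      exact neg_mem hmem
  have hinf := (fibreBound_inv _ n' hdeg' BD hinvS).at_infty
  exact genusFF_le_of_fibreBound _ n' hdeg' BD
    (Fermat.Agent.GenusEq.isRRField_modularFunctionFieldBar N) hk hfib hinf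

set_option synthInstance.maxHeartbeats 400000 in
set_option maxHeartbeats 1000000 in
/-- **GoodRed (23), even level, `ℓ` odd, UNCONDITIONAL**: `g(F_N) ≤ g(F_{N,k})`
(degree data: helper94's `IgusaDeg.finrank_xbar`, `IgusaDeg.isSeparable_xbar`;
Riemann-Roch for `F_{N,k}`: helper19's `RRMod.isRRField_fullC'`). -/
theorem genusFF_le_of_even' (N : ℕ) [NeZero N] (h2N : 2 ∣ N) {ℓ : ℕ} (hℓ : ℓ.Prime)
    (hℓ2 : ℓ ≠ 2) {A : ValuationSubring Kbar} (hA : A.LiesOverPrime ℓ) (hℓN : ¬ ℓ ∣ N) :
    genusFF Kbar (FBar N) ≤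
      genusFF (IsLocalRing.ResidueField A)
        ↥(modularFunctionFieldFullC (IsLocalRing.ResidueField A) N) := by
  haveI : IsAlgClosed (IsLocalRing.ResidueField A) :=
    Fermat.Agent.FrobTrace.isAlgClosed_residueField A
  exact genusFF_le_of_even N h2N hℓ hℓ2 hA hℓN
    (Fermat.Agent.IgusaDeg.finrank_xbar N hℓ hA (rangeAt N hℓ hA hℓN) hℓN)
    (Fermat.Agent.IgusaDeg.isSeparable_xbar N hℓ hA (rangeAt N hℓ hA hℓN))
    (Fermat.Agent.RRMod.isRRField_fullC' (IsLocalRing.ResidueField A) N)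

set_option synthInstance.maxHeartbeats 400000 in
set_option maxHeartbeats 1000000 in
/-- **GoodRed (23), level divisible by `3`, `ℓ ≠ 3`, UNCONDITIONAL**: `g(F_N) ≤ g(F_{N,k})`. -/
theorem genusFF_le_of_three_dvd' (N : ℕ) [NeZero N] (h3N : 3 ∣ N) {ℓ : ℕ} (hℓ : ℓ.Prime)
    (hℓ3 : ℓ ≠ 3) {A : ValuationSubring Kbar} (hA : A.LiesOverPrime ℓ) (hℓN : ¬ ℓ ∣ N) :
    genusFF Kbar (FBar N) ≤
      genusFF (IsLocalRing.ResidueField A)
        ↥(modularFunctionFieldFullC (IsLocalRing.ResidueField A) N) := by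
  haveI : IsAlgClosed (IsLocalRing.ResidueField A) :=
    Fermat.Agent.FrobTrace.isAlgClosed_residueField A
  exact genusFF_le_of_three_dvd N h3N hℓ hℓ3 hA hℓN
    (Fermat.Agent.IgusaDeg.finrank_xbar N hℓ hA (rangeAt N hℓ hA hℓN) hℓN)
    (Fermat.Agent.IgusaDeg.isSeparable_xbar N hℓ hA (rangeAt N hℓ hA hℓN))
    (Fermat.Agent.RRMod.isRRField_fullC' (IsLocalRing.ResidueField A) N)

end Fermat.Agent.GoodRedSmall
end
end MergeWrap_Lib_GoodRed_Small_Final23

section MergeWrap_Lib_BadRed_Mod_SSCount23 -- from Lib/BadRed/Mod/SSCount23.lean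

/-!
# Cluster T / M3 at `q = 2, 3`: the count of supersingular points  (helper94)

`q ∈ {2, 3}`, `N₀` prime to `q` and divisible by the other prime of `{2, 3}` (auxiliary level:
the covering `X₀(N₀) → X(1)` is wildly ramified over `j̄ = 0 = 1728` in characteristic `2, 3`, so
we count through the Hauptmodul of `X₀(3)` resp. `X₀(2)`).  `A` a place of `ℚ̄` over `q`,
`k` its residue field, `Fk = modularFunctionFieldFullC k N₀`.  The supersingular points of
`X₀(N₀)` mod `q` are the zeros of `j̄` on `Fk`, and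

  `g(X₀(q N₀)) + 1 = 2 g(X₀(N₀)) + #{P place of Fk : 0 < ord_P j̄}`.

* `ss_count_two`   : `q = 2`, `3 ∣ N₀`, `2 ∤ N₀`;
* `ss_count_three` : `q = 3`, `2 ∣ N₀`, `3 ∤ N₀`.

Proof.  Char `0`: with `x` the Hauptmodul of `X₀(3)` (`j x³ = (x + 27)(x + 243)³`) the fibre of
`j` over `0` is the union of the fibres of `x` over `-27` (multiplicity `1`) and `-243`
(multiplicity `3`, unramified); so `#x⁻¹(-27) = #j⁻¹(0) - n'`, `4 n' = ψ(N₀)`.  The discriminant
chain (cluster B, `FibreEq`) gives `#x̄⁻¹(-27) = #x⁻¹(-27)`; in characteristic `2` the reduced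
relation is `j̄ x̄³ = (x̄ + 1)⁴`, so `j̄⁻¹(0) = x̄⁻¹(-27)`.  Then `ssArith_two`.
-/

set_option autoImplicit false
set_option linter.unusedSectionVars false
set_option linter.style.haveILetI false

noncomputable section

open AlgebraicCurve Polynomial IntermediateField

namespace Fermat.Agent.BadRed.SS23

open Fermat.Agent.GoodRedSmall Fermat.Agent.RR

section generic

variable {K F : Type} [Field K] [Field F] [Algebra K F]

/-- a place at which `f - c` has positive order: `f` is integral there. -/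
theorem ord_nonneg_of_sub_pos (v : Place K F) {f : F} {c : K}
    (h : 0 < v.ord (f - algebraMap K F c)) : 0 ≤ v.ord f :=
  Fermat.Agent.S24Res.ord_nonneg_of_mem v (mem_of_ord_sub_pos v h)

/-- the value of `x` at a place is unique. -/
theorem value_unique (v : Place K F) {x : F} {c c' : K}
    (h : 0 < v.ord (x - algebraMap K F c)) (h' : 0 < v.ord (x - algebraMap K F c')) : c = c' := by
  by_contra hne
  have hcc : c' - c ≠ 0 := sub_ne_zero.mpr (Ne.symm hne)
  have e : x - algebraMap K F c = (x - algebraMap K F c') + algebraMap K F (c' - c) := by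
    rw [map_sub]; ring
  have h0 := ord_eq_zero_of_sub_pos v hcc (f := x - algebraMap K F c) (by
    rw [e, add_sub_cancel_right]
    exact h')
  omega

/-- for a relation `j Q(x) = P(x)` with `deg Q < deg P`: the poles of `x` are poles of `j`. -/
theorem ord_nonneg_of_rel {x j : F} (hx : Transcendental K x) {P Q : K[X]}
    (hrel : j * Polynomial.aeval x Q = Polynomial.aeval x P) (hQ : Q ≠ 0)
    (hdeg : Q.natDegree < P.natDegree) (v : Place K F) (hj : 0 ≤ v.ord j) : 0 ≤ v.ord x := by
  by_contra hneg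
  rw [not_le] at hneg
  have hP : P ≠ 0 := by
    rintro rfl
    simp at hdeg
  have hQx : Polynomial.aeval x Q ≠ 0 := Fermat.Agent.RRHur.aeval_ne_zero_of_transcendental hx hQ
  have hPx : Polynomial.aeval x P ≠ 0 := Fermat.Agent.RRHur.aeval_ne_zero_of_transcendental hx hP
  have hj0 : j ≠ 0 := by
    rintro rfl
    rw [zero_mul] at hrel
    exact hPx hrel.symm
  have h1 := Fermat.Agent.RRHur.ord_aeval_of_pole hx v hneg hP
  have h2 := Fermat.Agent.RRHur.ord_aeval_of_pole hx v hneg hQ
  have h3 := congrArg v.ord hrel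
  rw [v.ord_mul hj0 hQx, h1, h2] at h3
  have h4 : ((Q.natDegree : ℤ)) < P.natDegree := by exact_mod_cast hdeg
  nlinarith

/-- **fibres of `j` in terms of fibres of `x`**, for a relation `j Q(x) = P(x)`, `P`, `Q` coprime,
`deg Q < deg P`: the zeros of `j - j₀` are the zeros of the `x - c`, `c` a root of `P - j₀ Q`. -/
theorem ord_sub_pos_iff (hRR : IsRRField K F) {x j : F} (hx : Transcendental K x) {P Q : K[X]}
    (hrel : j * Polynomial.aeval x Q = Polynomial.aeval x P) (hcop : IsCoprime P Q)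
    (hdeg : Q.natDegree < P.natDegree) (hQ : Q ≠ 0) (j0 : K) (v : Place K F) :
    0 < v.ord (j - algebraMap K F j0) ↔
      ∃ c : K, (P - C j0 * Q).IsRoot c ∧ 0 < v.ord (x - algebraMap K F c) := by
  have hf : P - C j0 * Q ≠ 0 := by
    intro h0
    have h1 : P = C j0 * Q := sub_eq_zero.mp h0
    have h2 : P.natDegree ≤ Q.natDegree := by
      rw [h1]
      exact Polynomial.natDegree_C_mul_le _ _
    omega
  have hfx : Polynomial.aeval x (P - C j0 * Q) = (j - algebraMap K F j0) * Polynomial.aeval x Q := by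
    rw [map_sub, map_mul, Polynomial.aeval_C, sub_mul, hrel]
  have hQx : Polynomial.aeval x Q ≠ 0 := Fermat.Agent.RRHur.aeval_ne_zero_of_transcendental hx hQ
  constructor
  · intro hv
    have hj : 0 ≤ v.ord j := ord_nonneg_of_sub_pos v hv
    have hxv : 0 ≤ v.ord x := ord_nonneg_of_rel hx hrel hQ hdeg v hj
    obtain ⟨c, hc | hc⟩ := exists_const_sub hRR v hxv
    · exfalso
      apply hx
      rw [hc]
      exact isAlgebraic_algebraMap c
    · refine ⟨c, ?_, hc⟩
      by_contra hroot
      have h0 := ord_aeval_eq_zero v hc (g := P - C j0 * Q) hroot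
      have hne : j - algebraMap K F j0 ≠ 0 := by
        intro h0'
        rw [h0', v.ord_zero] at hv
        exact lt_irrefl _ hv
      rw [hfx, v.ord_mul hne hQx] at h0
      have hQmem := Fermat.Agent.S24Res.ord_nonneg_of_mem v
        (aeval_mem_of_mem v (mem_of_ord_sub_pos v hc) Q)
      omega
  · rintro ⟨c, hroot, hc⟩
    have hQc : Q.eval c ≠ 0 := by
      intro hQ0
      have hP0 : P.eval c = 0 := by
        have := hroot
        rw [Polynomial.IsRoot.def, eval_sub, eval_mul, eval_C, hQ0, mul_zero, sub_zero] at this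
        exact this
      obtain ⟨a, b, hab⟩ := hcop
      have := congrArg (Polynomial.eval c) hab
      rw [eval_add, eval_mul, eval_mul, hP0, hQ0, mul_zero, mul_zero, add_zero, eval_one] at this
      exact zero_ne_one this
    have hj0 : j0 * Q.eval c = P.eval c := by
      have := hroot
      rw [Polynomial.IsRoot.def, eval_sub, eval_mul, eval_C, sub_eq_zero] at this
      exact this.symm
    obtain ⟨h1, h2⟩ := Unram.ord_sub_eq_mul v hrel hc hQc j0 hj0 hf
    rw [h1]
    have : (0 : ℤ) < ((P - C j0 * Q).rootMultiplicity c : ℤ) := by exact_mod_cast h2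
    positivity

/-- the zero set of `y - a`. -/
def zeros (y : F) (a : K) : Set (Place K F) := {v | 0 < v.ord (y - algebraMap K F a)}

theorem mem_zeros {y : F} {a : K} {v : Place K F} :
    v ∈ zeros y a ↔ 0 < v.ord (y - algebraMap K F a) := Iff.rfl

theorem disjoint_zeros {x : F} {c c' : K} (h : c ≠ c') : Disjoint (zeros x c) (zeros x c') := by
  rw [Set.disjoint_left]
  intro v hv hv'
  exact h (value_unique v hv hv')

theorem card_zeros_eq_ncard (y : F) (a : K) :
    Nat.card {v : Place K F // 0 < v.ord (y - algebraMap K F a)} = (zeros y a).ncard := by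
  rw [← Nat.card_coe_set_eq]
  rfl

variable [IsAlgClosed K] [CharZero K]

/-- **degree relation**: if the zeros of `j - j₀` are the zeros of `x - c₁` and of `x - c₂`
(`c₁ ≠ c₂`), with `ord (j - j₀) = mᵢ ord (x - cᵢ)` there, then `[F : K(j)] = (m₁ + m₂) [F : K(x)]`. -/
theorem finrank_eq_of_two {t : F} (h : Fermat.Agent.S24Diff.IsFunctionFieldOver K F t)
    {x j : F} (hx : Transcendental K x) (hj : Transcendental K j) {j0 c1 c2 : K} (hc : c1 ≠ c2)
    (hz : zeros j j0 = zeros x c1 ∪ zeros x c2) (m1 m2 : ℕ)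
    (h1 : ∀ v ∈ zeros x c1, v.ord (j - algebraMap K F j0) = m1 * v.ord (x - algebraMap K F c1))
    (h2 : ∀ v ∈ zeros x c2, v.ord (j - algebraMap K F j0) = m2 * v.ord (x - algebraMap K F c2)) :
    Module.finrank K⟮j⟯ F = (m1 + m2) * Module.finrank K⟮x⟯ F := by
  classical
  have hj0 := Fermat.Agent.S24Fund.sum_ord_zeros h hj j0
  have hx1 := Fermat.Agent.S24Fund.sum_ord_zeros h hx c1
  have hx2 := Fermat.Agent.S24Fund.sum_ord_zeros h hx c2
  have hset : (Fermat.Agent.S24Fund.finite_zeros h hj j0).toFinset =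
      (Fermat.Agent.S24Fund.finite_zeros h hx c1).toFinset ∪
        (Fermat.Agent.S24Fund.finite_zeros h hx c2).toFinset := by
    ext v
    rw [Finset.mem_union, Set.Finite.mem_toFinset, Set.Finite.mem_toFinset,
      Set.Finite.mem_toFinset]
    have := Set.ext_iff.mp hz v
    exact this
  have hdisj : Disjoint (Fermat.Agent.S24Fund.finite_zeros h hx c1).toFinset
      (Fermat.Agent.S24Fund.finite_zeros h hx c2).toFinset := by
    rw [Finset.disjoint_left]
    intro v hv hv'
    rw [Set.Finite.mem_toFinset] at hv hv'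
    exact hc (value_unique v hv hv')
  rw [hset, Finset.sum_union hdisj] at hj0
  have e1 : ∑ v ∈ (Fermat.Agent.S24Fund.finite_zeros h hx c1).toFinset,
      v.ord (j - algebraMap K F j0) = m1 * (Module.finrank K⟮x⟯ F : ℤ) := by
    rw [← hx1, Finset.mul_sum]
    refine Finset.sum_congr rfl fun v hv => ?_
    rw [Set.Finite.mem_toFinset] at hv
    exact h1 v hv
  have e2 : ∑ v ∈ (Fermat.Agent.S24Fund.finite_zeros h hx c2).toFinset,
      v.ord (j - algebraMap K F j0) = m2 * (Module.finrank K⟮x⟯ F : ℤ) := by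
    rw [← hx2, Finset.mul_sum]
    refine Finset.sum_congr rfl fun v hv => ?_
    rw [Set.Finite.mem_toFinset] at hv
    exact h2 v hv
  rw [e1, e2] at hj0
  have : ((Module.finrank K⟮j⟯ F : ℕ) : ℤ) = (((m1 + m2) * Module.finrank K⟮x⟯ F : ℕ) : ℤ) := by
    rw [← hj0]
    push_cast
    ring
  exact_mod_cast this

/-- the same with one root. -/
theorem finrank_eq_of_one {t : F} (h : Fermat.Agent.S24Diff.IsFunctionFieldOver K F t)
    {x j : F} (hx : Transcendental K x) (hj : Transcendental K j) {j0 c1 : K}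
    (hz : zeros j j0 = zeros x c1) (m1 : ℕ)
    (h1 : ∀ v ∈ zeros x c1, v.ord (j - algebraMap K F j0) = m1 * v.ord (x - algebraMap K F c1)) :
    Module.finrank K⟮j⟯ F = m1 * Module.finrank K⟮x⟯ F := by
  classical
  have hj0 := Fermat.Agent.S24Fund.sum_ord_zeros h hj j0
  have hx1 := Fermat.Agent.S24Fund.sum_ord_zeros h hx c1
  have hset : (Fermat.Agent.S24Fund.finite_zeros h hj j0).toFinset =
      (Fermat.Agent.S24Fund.finite_zeros h hx c1).toFinset := by
    ext v
    rw [Set.Finite.mem_toFinset, Set.Finite.mem_toFinset]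
    exact Set.ext_iff.mp hz v
  rw [hset] at hj0
  have e1 : ∑ v ∈ (Fermat.Agent.S24Fund.finite_zeros h hx c1).toFinset,
      v.ord (j - algebraMap K F j0) = m1 * (Module.finrank K⟮x⟯ F : ℤ) := by
    rw [← hx1, Finset.mul_sum]
    refine Finset.sum_congr rfl fun v hv => ?_
    rw [Set.Finite.mem_toFinset] at hv
    exact h1 v hv
  rw [e1] at hj0
  have : ((Module.finrank K⟮j⟯ F : ℕ) : ℤ) = ((m1 * Module.finrank K⟮x⟯ F : ℕ) : ℤ) := by
    rw [← hj0]
    push_cast
    ring
  exact_mod_cast this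

/-- cardinality of a disjoint union of two fibres. -/
theorem ncard_zeros_of_two {t : F} (h : Fermat.Agent.S24Diff.IsFunctionFieldOver K F t)
    {x j : F} (hx : Transcendental K x) {j0 c1 c2 : K} (hc : c1 ≠ c2)
    (hz : zeros j j0 = zeros x c1 ∪ zeros x c2) :
    (zeros j j0).ncard = (zeros x c1).ncard + (zeros x c2).ncard := by
  rw [hz]
  exact Set.ncard_union_eq (disjoint_zeros hc) (Fermat.Agent.S24Fund.finite_zeros h hx c1)
    (Fermat.Agent.S24Fund.finite_zeros h hx c2)

end generic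


section poly

variable {K : Type} [Field K]

theorem isCoprime_T3 (h27 : (27 : K) ≠ 0) (h243 : (243 : K) ≠ 0) :
    IsCoprime ((X + C 27) * (X + C 243) ^ 3 : K[X]) (X ^ 3) :=
  IsCoprime.mul_left ((Branch.isCoprime_X_add_C_X h27).pow_right)
    (IsCoprime.pow (Branch.isCoprime_X_add_C_X h243))

theorem isCoprime_T2 (h256 : (256 : K) ≠ 0) :
    IsCoprime ((X + C 256) ^ 3 : K[X]) (X ^ 2) :=
  IsCoprime.pow (Branch.isCoprime_X_add_C_X h256)

theorem natDegree_T3_lt : (X ^ 3 : K[X]).natDegree < ((X + C 27) * (X + C 243) ^ 3 : K[X]).natDegree := by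
  have h1 : ((X + C 27) * (X + C 243) ^ 3 : K[X]).natDegree = 4 := by
    rw [((Polynomial.monic_X_add_C (27 : K)).natDegree_mul
      ((Polynomial.monic_X_add_C (243 : K)).pow 3)), (Polynomial.monic_X_add_C (243 : K)).natDegree_pow,
      Polynomial.natDegree_X_add_C, Polynomial.natDegree_X_add_C]
  rw [h1, Polynomial.natDegree_X_pow]
  norm_num

theorem natDegree_T2_lt : (X ^ 2 : K[X]).natDegree < ((X + C 256) ^ 3 : K[X]).natDegree := by
  rw [(Polynomial.monic_X_add_C (256 : K)).natDegree_pow, Polynomial.natDegree_X_add_C,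
    Polynomial.natDegree_X_pow]
  norm_num

theorem isRoot_T3 (c : K) :
    ((X + C 27) * (X + C 243) ^ 3 - C 0 * X ^ 3 : K[X]).IsRoot c ↔ c = -27 ∨ c = -243 := by
  rw [Polynomial.IsRoot.def]
  simp only [eval_sub, eval_mul, eval_pow, eval_add, eval_X, eval_C, zero_mul, sub_zero,
    mul_eq_zero, pow_eq_zero_iff, ne_eq, OfNat.ofNat_ne_zero, not_false_eq_true]
  rw [eq_neg_iff_add_eq_zero, eq_neg_iff_add_eq_zero]

theorem isRoot_T2_zero (c : K) :
    ((X + C 256) ^ 3 - C 0 * X ^ 2 : K[X]).IsRoot c ↔ c = -256 := by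
  rw [Polynomial.IsRoot.def]
  simp only [eval_sub, eval_mul, eval_pow, eval_add, eval_X, eval_C, zero_mul, sub_zero,
    pow_eq_zero_iff, ne_eq, OfNat.ofNat_ne_zero, not_false_eq_true]
  rw [eq_neg_iff_add_eq_zero]

theorem isRoot_T2_1728 (c : K) :
    ((X + C 256) ^ 3 - C 1728 * X ^ 2 : K[X]).IsRoot c ↔ c = -64 ∨ c = 512 := by
  rw [Polynomial.IsRoot.def]
  simp only [eval_sub, eval_mul, eval_pow, eval_add, eval_X, eval_C]
  have e : (c + 256) ^ 3 - 1728 * c ^ 2 = (c + 64) * (c - 512) ^ 2 := by ring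
  rw [e, mul_eq_zero, pow_eq_zero_iff (by norm_num), eq_neg_iff_add_eq_zero, sub_eq_zero]

end poly

section rel

variable {K F : Type} [Field K] [Field F] [Algebra K F]

theorem aeval_T3_P (x : F) : Polynomial.aeval x ((X + C 27) * (X + C 243) ^ 3 : K[X]) =
    (x + 27) * (x + 243) ^ 3 := by
  simp only [map_mul, map_pow, map_add, Polynomial.aeval_X, map_ofNat]

theorem aeval_T3_Q (x : F) : Polynomial.aeval x (X ^ 3 : K[X]) = x ^ 3 := by
  simp only [map_pow, Polynomial.aeval_X]

theorem aeval_T2_P (x : F) : Polynomial.aeval x ((X + C 256) ^ 3 : K[X]) = (x + 256) ^ 3 := by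
  simp only [map_pow, map_add, Polynomial.aeval_X, map_ofNat]

theorem aeval_T2_Q (x : F) : Polynomial.aeval x (X ^ 2 : K[X]) = x ^ 2 := by
  simp only [map_pow, Polynomial.aeval_X]

/-- `x - (-a) = x + a`. -/
theorem sub_algebraMap_neg_ofNat (x : F) (a : ℕ) [a.AtLeastTwo] :
    x - algebraMap K F (-(OfNat.ofNat a)) = x + OfNat.ofNat a := by
  rw [map_neg, map_ofNat, sub_neg_eq_add]

/-- `T3`, the simple root `-27`: `ord j = ord (x + 27)`. -/
theorem ord_T3_a (h216 : (216 : K) ≠ 0) (h27 : (27 : K) ≠ 0) (v : Place K F) {x j : F}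
    (hrel : j * x ^ 3 = (x + 27) * (x + 243) ^ 3)
    (hv : 0 < v.ord (x - algebraMap K F (-27))) :
    v.ord j = v.ord (x - algebraMap K F (-27)) := by
  have hx0 : v.ord x = 0 := ord_eq_zero_of_sub_pos v (neg_ne_zero.mpr h27) hv
  have e1 : x - algebraMap K F (-27) = x + 27 := sub_algebraMap_neg_ofNat x 27
  have h243 : v.ord (x + 243) = 0 := by
    apply ord_eq_zero_of_sub_pos v h216 (f := x + 243)
    have e : x + 243 - algebraMap K F 216 = x - algebraMap K F (-27) := by
      rw [e1, map_ofNat]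
      ring
    rw [e]
    exact hv
  have hxne : x ≠ 0 := by
    rintro rfl
    rw [e1, zero_add] at hv
    have := ord_const v (27 : K)
    rw [map_ofNat] at this
    omega
  have h27ne : x + 27 ≠ 0 := by
    intro h
    rw [e1, h, v.ord_zero] at hv
    exact lt_irrefl _ hv
  have h243ne : x + 243 ≠ 0 := by
    intro h
    have e : x + 27 = -algebraMap K F 216 := by
      have : x + 27 = (x + 243) - 216 := by ring
      rw [this, h, zero_sub, map_ofNat]
    rw [e1, e, ord_neg', ord_const] at hv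
    exact lt_irrefl _ hv
  have hjne : j ≠ 0 := by
    rintro rfl
    rw [zero_mul] at hrel
    exact mul_ne_zero h27ne (pow_ne_zero 3 h243ne) hrel.symm
  have h := congrArg v.ord hrel
  rw [v.ord_mul hjne (pow_ne_zero 3 hxne), v.ord_mul h27ne (pow_ne_zero 3 h243ne), ord_pow',
    ord_pow', hx0, h243, ← e1] at h
  linarith

/-- `T3`, the triple root `-243`: `ord j = 3 ord (x + 243)`. -/
theorem ord_T3_b (h216 : (216 : K) ≠ 0) (h243 : (243 : K) ≠ 0) (v : Place K F) {x j : F}
    (hrel : j * x ^ 3 = (x + 27) * (x + 243) ^ 3)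
    (hv : 0 < v.ord (x - algebraMap K F (-243))) :
    v.ord j = 3 * v.ord (x - algebraMap K F (-243)) := by
  have hx0 : v.ord x = 0 := ord_eq_zero_of_sub_pos v (neg_ne_zero.mpr h243) hv
  have e1 : x - algebraMap K F (-243) = x + 243 := sub_algebraMap_neg_ofNat x 243
  have h27 : v.ord (x + 27) = 0 := by
    apply ord_eq_zero_of_sub_pos v (neg_ne_zero.mpr h216) (f := x + 27)
    have e : x + 27 - algebraMap K F (-216) = x - algebraMap K F (-243) := by
      rw [e1, map_neg, map_ofNat]
      ring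
    rw [e]
    exact hv
  have hxne : x ≠ 0 := by
    rintro rfl
    rw [e1, zero_add] at hv
    have := ord_const v (243 : K)
    rw [map_ofNat] at this
    omega
  have h243ne : x + 243 ≠ 0 := by
    intro h
    rw [e1, h, v.ord_zero] at hv
    exact lt_irrefl _ hv
  have h27ne : x + 27 ≠ 0 := by
    intro h
    have e : x + 243 = algebraMap K F 216 := by
      have : x + 243 = (x + 27) + 216 := by ring
      rw [this, h, zero_add, map_ofNat]
    rw [e1, e, ord_const] at hv
    exact lt_irrefl _ hv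
  have hjne : j ≠ 0 := by
    rintro rfl
    rw [zero_mul] at hrel
    exact mul_ne_zero h27ne (pow_ne_zero 3 h243ne) hrel.symm
  have h := congrArg v.ord hrel
  rw [v.ord_mul hjne (pow_ne_zero 3 hxne), v.ord_mul h27ne (pow_ne_zero 3 h243ne), ord_pow',
    ord_pow', hx0, h27, ← e1] at h
  simp only [Nat.cast_ofNat] at h
  linarith

/-- `T2`, the triple root `-256`: `ord j = 3 ord (x + 256)`. -/
theorem ord_T2 (h256 : (256 : K) ≠ 0) (v : Place K F) {x j : F}
    (hrel : j * x ^ 2 = (x + 256) ^ 3)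
    (hv : 0 < v.ord (x - algebraMap K F (-256))) :
    v.ord j = 3 * v.ord (x - algebraMap K F (-256)) := by
  have hx0 : v.ord x = 0 := ord_eq_zero_of_sub_pos v (neg_ne_zero.mpr h256) hv
  have e1 : x - algebraMap K F (-256) = x + 256 := sub_algebraMap_neg_ofNat x 256
  have hxne : x ≠ 0 := by
    rintro rfl
    rw [e1, zero_add] at hv
    have := ord_const v (256 : K)
    rw [map_ofNat] at this
    omega
  have h256ne : x + 256 ≠ 0 := by
    intro h
    rw [e1, h, v.ord_zero] at hv
    exact lt_irrefl _ hv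
  have hjne : j ≠ 0 := by
    rintro rfl
    rw [zero_mul] at hrel
    exact (pow_ne_zero 3 h256ne) hrel.symm
  have h := congrArg v.ord hrel
  rw [v.ord_mul hjne (pow_ne_zero 2 hxne), ord_pow', ord_pow', hx0, ← e1] at h
  simp only [Nat.cast_ofNat] at h
  linarith

end rel


section char0

open Fermat.Agent.S24

set_option synthInstance.maxHeartbeats 400000
set_option maxHeartbeats 1000000

variable (N : ℕ) [NeZero N]

/-- **`T3`, characteristic `0`**: with `n' = [F_N : ℚ̄(x)]`:  `[SL₂(ℤ) : Γ₀(N)] = 4 n'` and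
`#j⁻¹(0) = #x⁻¹(-27) + n'`. -/
theorem count_T3 {x : FBar N} (hT : IsT3 x) :
    (CongruenceSubgroup.Gamma0 N).index = 4 * Module.finrank Kbar⟮x⟯ (FBar N) ∧
    orbCount (CongruenceSubgroup.Gamma0 N) (ModularGroup.S * ModularGroup.T) =
      Nat.card {v : Place Kbar (FBar N) // 0 < v.ord (x - algebraMap Kbar (FBar N) (-27))} +
        Module.finrank Kbar⟮x⟯ (FBar N) := by
  have hFF := isFunctionFieldOver_jBar N
  have hRR := Fermat.Agent.GenusEq.isRRField_modularFunctionFieldBar N
  have hx := Unram.transcendental_of_isT3 N hT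
  have hj := transcendental_jBar N
  have h27 : (27 : Kbar) ≠ 0 := by norm_num
  have h243 : (243 : Kbar) ≠ 0 := by norm_num
  have h216 : (216 : Kbar) ≠ 0 := by norm_num
  have hne : (-27 : Kbar) ≠ -243 := by norm_num
  have hrel : jBar N * Polynomial.aeval x (X ^ 3 : Kbar[X]) =
      Polynomial.aeval x ((X + C 27) * (X + C 243) ^ 3 : Kbar[X]) := by
    rw [aeval_T3_P, aeval_T3_Q]
    exact hT
  have hz : zeros (jBar N) (0 : Kbar) = zeros x (-27 : Kbar) ∪ zeros x (-243 : Kbar) := by
    ext v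
    rw [Set.mem_union, mem_zeros, mem_zeros, mem_zeros,
      ord_sub_pos_iff hRR hx hrel (isCoprime_T3 h27 h243) natDegree_T3_lt
        (pow_ne_zero 3 Polynomial.X_ne_zero) 0 v]
    constructor
    · rintro ⟨c, hc, hv⟩
      rcases (isRoot_T3 c).mp hc with rfl | rfl
      · exact Or.inl hv
      · exact Or.inr hv
    · rintro (hv | hv)
      · exact ⟨-27, (isRoot_T3 _).mpr (Or.inl rfl), hv⟩
      · exact ⟨-243, (isRoot_T3 _).mpr (Or.inr rfl), hv⟩
  have h1 : ∀ v ∈ zeros x (-27 : Kbar), v.ord (jBar N - algebraMap Kbar (FBar N) 0) =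
      ((1 : ℕ) : ℤ) * v.ord (x - algebraMap Kbar (FBar N) (-27)) := by
    intro v hv
    rw [map_zero, sub_zero, Nat.cast_one, one_mul]
    exact ord_T3_a h216 h27 v hT hv
  have h2 : ∀ v ∈ zeros x (-243 : Kbar), v.ord (jBar N - algebraMap Kbar (FBar N) 0) =
      ((3 : ℕ) : ℤ) * v.ord (x - algebraMap Kbar (FBar N) (-243)) := by
    intro v hv
    rw [map_zero, sub_zero, Nat.cast_ofNat]
    exact ord_T3_b h216 h243 v hT hv
  have hdeg := finrank_eq_of_two hFF hx hj hne hz 1 3 h1 h2
  have hcard := ncard_zeros_of_two hFF hx hne hz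
  rw [← card_zeros_eq_ncard, ← card_zeros_eq_ncard, ← card_zeros_eq_ncard,
    Fermat.Agent.GoodRedBranch.card_fibre_jBar_zero N,
    unramT3 N (ordDvd N) x hT (-243) (by norm_num) (by norm_num)] at hcard
  rw [Fermat.Agent.GoodRedBranch.finrank_jBar N] at hdeg
  exact ⟨hdeg, hcard⟩

/-- **`T2`, characteristic `0`**: with `n' = [F_N : ℚ̄(x)]`:  `[SL₂(ℤ) : Γ₀(N)] = 3 n'` and
`#j⁻¹(1728) = #x⁻¹(-64) + n'`. -/
theorem count_T2 {x : FBar N} (hT : IsT2 x) :
    (CongruenceSubgroup.Gamma0 N).index = 3 * Module.finrank Kbar⟮x⟯ (FBar N) ∧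
    orbCount (CongruenceSubgroup.Gamma0 N) ModularGroup.S =
      Nat.card {v : Place Kbar (FBar N) // 0 < v.ord (x - algebraMap Kbar (FBar N) (-64))} +
        Module.finrank Kbar⟮x⟯ (FBar N) := by
  have hFF := isFunctionFieldOver_jBar N
  have hRR := Fermat.Agent.GenusEq.isRRField_modularFunctionFieldBar N
  have hx := Unram.transcendental_of_isT2 N hT
  have hj := transcendental_jBar N
  have h256 : (256 : Kbar) ≠ 0 := by norm_num
  have hne : (-64 : Kbar) ≠ 512 := by norm_num
  have hrel : jBar N * Polynomial.aeval x (X ^ 2 : Kbar[X]) =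
      Polynomial.aeval x ((X + C 256) ^ 3 : Kbar[X]) := by
    rw [aeval_T2_P, aeval_T2_Q]
    exact hT
  have hz0 : zeros (jBar N) (0 : Kbar) = zeros x (-256 : Kbar) := by
    ext v
    rw [mem_zeros, mem_zeros,
      ord_sub_pos_iff hRR hx hrel (isCoprime_T2 h256) natDegree_T2_lt
        (pow_ne_zero 2 Polynomial.X_ne_zero) 0 v]
    constructor
    · rintro ⟨c, hc, hv⟩
      rcases (isRoot_T2_zero c).mp hc with rfl
      exact hv
    · intro hv
      exact ⟨-256, (isRoot_T2_zero _).mpr rfl, hv⟩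
  have hz : zeros (jBar N) (1728 : Kbar) = zeros x (-64 : Kbar) ∪ zeros x (512 : Kbar) := by
    ext v
    rw [Set.mem_union, mem_zeros, mem_zeros, mem_zeros,
      ord_sub_pos_iff hRR hx hrel (isCoprime_T2 h256) natDegree_T2_lt
        (pow_ne_zero 2 Polynomial.X_ne_zero) 1728 v]
    constructor
    · rintro ⟨c, hc, hv⟩
      rcases (isRoot_T2_1728 c).mp hc with rfl | rfl
      · exact Or.inl hv
      · exact Or.inr hv
    · rintro (hv | hv)
      · exact ⟨-64, (isRoot_T2_1728 _).mpr (Or.inl rfl), hv⟩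
      · exact ⟨512, (isRoot_T2_1728 _).mpr (Or.inr rfl), hv⟩
  have h1 : ∀ v ∈ zeros x (-256 : Kbar), v.ord (jBar N - algebraMap Kbar (FBar N) 0) =
      ((3 : ℕ) : ℤ) * v.ord (x - algebraMap Kbar (FBar N) (-256)) := by
    intro v hv
    rw [map_zero, sub_zero, Nat.cast_ofNat]
    exact ord_T2 h256 v hT hv
  have hdeg := finrank_eq_of_one hFF hx hj hz0 3 h1
  have hcard := ncard_zeros_of_two hFF hx hne hz
  rw [← card_zeros_eq_ncard, ← card_zeros_eq_ncard, ← card_zeros_eq_ncard,
    Fermat.Agent.GoodRedBranch.card_fibre_jBar_1728 N,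
    unramT2 N (ordDvd N) x hT 512 (by norm_num) (by norm_num)] at hcard
  rw [Fermat.Agent.GoodRedBranch.finrank_jBar N] at hdeg
  exact ⟨hdeg, hcard⟩

end char0


section charq

open Fermat.Agent.GoodRed

variable {K k F Fk : Type} [Field K] [Field k] [Field F] [Field Fk] [Algebra K F] [Algebra k Fk]

/-- **characteristic `2`**: the reduced relation is `j̄ x̄³ = (x̄ + 1)⁴`, so the zeros of `j̄` are
the zeros of `x̄ + 27`. -/
theorem ord_xbar_pos_iff_T3 (M : RedModel K k F Fk) (hRR : IsRRField k Fk) (h3 : (3 : k) ≠ 0)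
    (h2 : (2 : k) = 0) {x : F} (hT : M.x * x ^ 3 = (x + 27) * (x + 243) ^ 3) (hx : x ∈ M.O)
    (htr : Transcendental k (M.rho ⟨x, hx⟩)) (v : Place k Fk) :
    0 < v.ord M.xbar ↔ 0 < v.ord (M.rho ⟨x, hx⟩ - algebraMap k Fk (-27)) := by
  have h27 : (27 : k) ≠ 0 := by
    have : (27 : k) = 3 ^ 3 := by norm_num
    rw [this]
    exact pow_ne_zero _ h3
  have h243 : (243 : k) ≠ 0 := by
    have : (243 : k) = 3 ^ 5 := by norm_num
    rw [this]
    exact pow_ne_zero _ h3
  have heq : (-243 : k) = -27 := by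
    have : (243 : k) = 27 + 2 * 108 := by norm_num
    rw [this, h2, zero_mul, add_zero]
  have hrel := Swap.rho_rel (Branch.hauptRel_T3 M h3 hT) hx
  have eP : ((Polynomial.X + Polynomial.C (27 : M.A)) *
      (Polynomial.X + Polynomial.C (243 : M.A)) ^ 3).map M.res =
        ((X + C 27) * (X + C 243) ^ 3 : k[X]) := by
    simp only [Polynomial.map_mul, Polynomial.map_pow, Polynomial.map_add, Polynomial.map_X,
      Polynomial.map_C]
    have e27 : M.res (27 : M.A) = (27 : k) := map_ofNat M.res 27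
    have e243 : M.res (243 : M.A) = (243 : k) := map_ofNat M.res 243
    rw [e27, e243]
  have eQ : ((Polynomial.X : Polynomial M.A) ^ 3).map M.res = (X ^ 3 : k[X]) := by
    simp only [Polynomial.map_pow, Polynomial.map_X]
  rw [eP, eQ] at hrel
  have h := ord_sub_pos_iff hRR htr hrel (isCoprime_T3 h27 h243) natDegree_T3_lt
    (pow_ne_zero 3 Polynomial.X_ne_zero) 0 v
  rw [map_zero, sub_zero] at h
  rw [h]
  constructor
  · rintro ⟨c, hc, hv⟩
    rcases (isRoot_T3 c).mp hc with rfl | rfl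
    · exact hv
    · rw [heq] at hv
      exact hv
  · intro hv
    exact ⟨-27, (isRoot_T3 _).mpr (Or.inl rfl), hv⟩

/-- **characteristic `3`**: the reduced relation is `j̄ x̄² = (x̄ + 1)³`, so the zeros of `j̄` are
the zeros of `x̄ + 64`. -/
theorem ord_xbar_pos_iff_T2 (M : RedModel K k F Fk) (hRR : IsRRField k Fk) (h2 : (2 : k) ≠ 0)
    (h3 : (3 : k) = 0) {x : F} (hT : M.x * x ^ 2 = (x + 256) ^ 3) (hx : x ∈ M.O)
    (htr : Transcendental k (M.rho ⟨x, hx⟩)) (v : Place k Fk) :
    0 < v.ord M.xbar ↔ 0 < v.ord (M.rho ⟨x, hx⟩ - algebraMap k Fk (-64)) := by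
  have h256 : (256 : k) ≠ 0 := by
    have : (256 : k) = 2 ^ 8 := by norm_num
    rw [this]
    exact pow_ne_zero _ h2
  have heq : (-256 : k) = -64 := by
    have : (256 : k) = 64 + 3 * 64 := by norm_num
    rw [this, h3, zero_mul, add_zero]
  have hrel := Swap.rho_rel (Branch.hauptRel_T2 M h2 hT) hx
  have eP : ((Polynomial.X + Polynomial.C (256 : M.A)) ^ 3).map M.res =
        ((X + C 256) ^ 3 : k[X]) := by
    simp only [Polynomial.map_pow, Polynomial.map_add, Polynomial.map_X,
      Polynomial.map_C]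
    have e256 : M.res (256 : M.A) = (256 : k) := map_ofNat M.res 256
    rw [e256]
  have eQ : ((Polynomial.X : Polynomial M.A) ^ 2).map M.res = (X ^ 2 : k[X]) := by
    simp only [Polynomial.map_pow, Polynomial.map_X]
  rw [eP, eQ] at hrel
  have h := ord_sub_pos_iff hRR htr hrel (isCoprime_T2 h256) natDegree_T2_lt
    (pow_ne_zero 2 Polynomial.X_ne_zero) 0 v
  rw [map_zero, sub_zero] at h
  rw [h]
  constructor
  · rintro ⟨c, hc, hv⟩
    rcases (isRoot_T2_zero c).mp hc with rfl
    rw [heq] at hv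
    exact hv
  · intro hv
    refine ⟨-256, (isRoot_T2_zero _).mpr rfl, ?_⟩
    rw [heq]
    exact hv

/-- the residue of `-c₀`. -/
theorem res_neg_natCast (M : RedModel K k F Fk) (c₀ : ℕ) (h : -(c₀ : K) ∈ M.A) :
    M.res ⟨-(c₀ : K), h⟩ = -(c₀ : k) := by
  have : (⟨-(c₀ : K), h⟩ : M.A) = -((c₀ : ℕ) : M.A) := by
    apply Subtype.ext
    simp
  rw [this, map_neg, map_natCast]

/-- **(FIB=) at a branch value, in terms of places**: for a model with degree data and branch
data, at a branch value `c` the fibres of `x̄` over `c̄` and of `x` over `c` have the same number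
of places. -/
theorem card_zeros_red_eq [IsAlgClosed K] [CharZero K] [IsAlgClosed k]
    (M : RedModel K k F Fk) (n : ℕ) (hdeg : DegData M n) (BD : BranchData M n)
    (c : K) (hc : c ∈ BD.S) (hcA : c ∈ M.A) :
    Nat.card {v : Place k Fk // 0 < v.ord (M.xbar - algebraMap k Fk (M.res ⟨c, hcA⟩))} =
      Nat.card {v : Place K F // 0 < v.ord (M.x - algebraMap K F c)} := by
  haveI : FiniteDimensional K⟮M.x⟯ F :=
    Module.finite_of_finrank_pos (by rw [hdeg.deg]; exact hdeg.pos)
  haveI : FiniteDimensional k⟮M.xbar⟯ Fk :=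
    Module.finite_of_finrank_pos (by rw [hdeg.degk]; exact hdeg.pos)
  haveI : Algebra.IsSeparable k⟮M.xbar⟯ Fk := hdeg.sepk
  have h := fibreEq_of_branchData M n hdeg BD.toA c hcA (Or.inl hc)
  rw [fibreCard_eq_card_zeros M.x_transcendental c] at h
  have htr : Transcendental k M.xbar := M.x_trans
  rw [fibreCard_eq_card_zeros htr] at h
  exact h

end charq


section final

open Fermat.Agent.S24 Fermat.Agent.GoodRed ModularCurve

set_option synthInstance.maxHeartbeats 400000
set_option maxHeartbeats 1000000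

variable {A : ValuationSubring Kbar}

/-- the residue field of `A | q` has `q = 0`. -/
theorem natCast_residue_eq_zero {q : ℕ} (hq : q.Prime) (hA : A.LiesOverPrime q) :
    ((q : ℕ) : IsLocalRing.ResidueField A) = 0 := by
  haveI : Fact q.Prime := ⟨hq⟩
  haveI := Fermat.Agent.FrobTrace.charP_residueField A hA
  exact CharP.cast_eq_zero _ q

/-- **the number of supersingular points in characteristic `2`** (level divisible by `3`):
`12 s = ψ(N) + 8 ν₃(N)`. -/
theorem twelve_card_ss_two (N : ℕ) [NeZero N] (h3N : 3 ∣ N) (h2N : ¬ 2 ∣ N)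
    (hA : A.LiesOverPrime 2) :
    12 * Nat.card {v : Place (IsLocalRing.ResidueField A)
        ↥(modularFunctionFieldFullC (IsLocalRing.ResidueField A) N) //
          0 < v.ord (Fermat.Agent.RRMod.jC (IsLocalRing.ResidueField A) N)} =
      dedekindPsi N + 8 * nuThree N := by
  haveI : IsAlgClosed (IsLocalRing.ResidueField A) :=
    Fermat.Agent.FrobTrace.isAlgClosed_residueField A
  have hℓ : Nat.Prime 2 := Nat.prime_two
  have hR := rangeAt N hℓ hA h2N
  have hdeg := Fermat.Agent.IgusaDeg.degData_modular N hℓ hA hR h2N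
  have hcop : Nat.Coprime 3 2 := by norm_num
  have h3 : (3 : IsLocalRing.ResidueField A) ≠ 0 := by
    have := Final23.natCast_residue_ne_zero hA hcop
    exact_mod_cast this
  have h2 : (2 : IsLocalRing.ResidueField A) = 0 := by
    have := natCast_residue_eq_zero hℓ hA
    exact_mod_cast this
  obtain ⟨x, hxT⟩ := existsT3At N h3N existsT3
  obtain ⟨hx, htr, n', hdeg', BD, hS⟩ :=
    branchT3 N (unramT3 N (ordDvd N)) _ _ (modularRedModel N hℓ hA hR) _ rfl hdeg h3 x hxT
  have hmem : -((27 : ℕ) : Kbar) ∈ BD.S := (hS _).mpr (Or.inr (by norm_num))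
  have hcA := BD.S_mem _ hmem
  have hfe := card_zeros_red_eq (swapX (modularRedModel N hℓ hA hR) x hx htr) n' hdeg' BD
    _ hmem hcA
  rw [res_neg_natCast (swapX (modularRedModel N hℓ hA hR) x hx htr) 27 hcA] at hfe
  have hRRk := Fermat.Agent.RRMod.isRRField_fullC' (IsLocalRing.ResidueField A) N
  have hT' : (modularRedModel N hℓ hA hR).x * x ^ 3 = (x + 27) * (x + 243) ^ 3 := hxT
  have hiff := ord_xbar_pos_iff_T3 (modularRedModel N hℓ hA hR) hRRk h3 h2 hT' hx htr
  rw [Fermat.Agent.IgusaDeg.modularRedModel_xbar] at hiff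
  have hcard : Nat.card {v : Place (IsLocalRing.ResidueField A)
        ↥(modularFunctionFieldFullC (IsLocalRing.ResidueField A) N) //
          0 < v.ord (Fermat.Agent.RRMod.jC (IsLocalRing.ResidueField A) N)} =
      Nat.card {v : Place Kbar (FBar N) // 0 < v.ord (x - algebraMap Kbar (FBar N) (-27))} := by
    have e1 : (-((27 : ℕ) : Kbar)) = (-27 : Kbar) := by norm_num
    have e2 : (-((27 : ℕ) : IsLocalRing.ResidueField A)) = -27 := by norm_num
    rw [e1, e2] at hfe
    refine Eq.trans (Nat.card_congr (Equiv.subtypeEquivRight fun v => ?_)) hfe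
    exact hiff v
  obtain ⟨hc1, hc2⟩ := count_T3 N hxT
  have h4 := three_mul_orbCount_ST N
  have h5 := index_Gamma0 N
  rw [hcard]
  omega

/-- **the number of supersingular points in characteristic `3`** (even level):
`12 s = 2 ψ(N) + 6 ν₂(N)`. -/
theorem twelve_card_ss_three (N : ℕ) [NeZero N] (h2N : 2 ∣ N) (h3N : ¬ 3 ∣ N)
    (hA : A.LiesOverPrime 3) :
    12 * Nat.card {v : Place (IsLocalRing.ResidueField A)
        ↥(modularFunctionFieldFullC (IsLocalRing.ResidueField A) N) //
          0 < v.ord (Fermat.Agent.RRMod.jC (IsLocalRing.ResidueField A) N)} =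
      2 * dedekindPsi N + 6 * nuTwo N := by
  haveI : IsAlgClosed (IsLocalRing.ResidueField A) :=
    Fermat.Agent.FrobTrace.isAlgClosed_residueField A
  have hℓ : Nat.Prime 3 := Nat.prime_three
  have hR := rangeAt N hℓ hA h3N
  have hdeg := Fermat.Agent.IgusaDeg.degData_modular N hℓ hA hR h3N
  have hcop : Nat.Coprime 2 3 := by norm_num
  have h2 : (2 : IsLocalRing.ResidueField A) ≠ 0 := by
    have := Final23.natCast_residue_ne_zero hA hcop
    exact_mod_cast this
  have h3 : (3 : IsLocalRing.ResidueField A) = 0 := by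
    have := natCast_residue_eq_zero hℓ hA
    exact_mod_cast this
  obtain ⟨x, hxT⟩ := existsT2At N h2N existsT2
  obtain ⟨hx, htr, n', hdeg', BD, hS⟩ :=
    branchT2 N (unramT2 N (ordDvd N)) _ _ (modularRedModel N hℓ hA hR) _ rfl hdeg h2 x hxT
  have hmem : -((64 : ℕ) : Kbar) ∈ BD.S := (hS _).mpr (Or.inr (by norm_num))
  have hcA := BD.S_mem _ hmem
  have hfe := card_zeros_red_eq (swapX (modularRedModel N hℓ hA hR) x hx htr) n' hdeg' BD
    _ hmem hcA
  rw [res_neg_natCast (swapX (modularRedModel N hℓ hA hR) x hx htr) 64 hcA] at hfe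
  have hRRk := Fermat.Agent.RRMod.isRRField_fullC' (IsLocalRing.ResidueField A) N
  have hT' : (modularRedModel N hℓ hA hR).x * x ^ 2 = (x + 256) ^ 3 := hxT
  have hiff := ord_xbar_pos_iff_T2 (modularRedModel N hℓ hA hR) hRRk h2 h3 hT' hx htr
  rw [Fermat.Agent.IgusaDeg.modularRedModel_xbar] at hiff
  have hcard : Nat.card {v : Place (IsLocalRing.ResidueField A)
        ↥(modularFunctionFieldFullC (IsLocalRing.ResidueField A) N) //
          0 < v.ord (Fermat.Agent.RRMod.jC (IsLocalRing.ResidueField A) N)} =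
      Nat.card {v : Place Kbar (FBar N) // 0 < v.ord (x - algebraMap Kbar (FBar N) (-64))} := by
    have e1 : (-((64 : ℕ) : Kbar)) = (-64 : Kbar) := by norm_num
    have e2 : (-((64 : ℕ) : IsLocalRing.ResidueField A)) = -64 := by norm_num
    rw [e1, e2] at hfe
    refine Eq.trans (Nat.card_congr (Equiv.subtypeEquivRight fun v => ?_)) hfe
    exact hiff v
  obtain ⟨hc1, hc2⟩ := count_T2 N hxT
  have h4 := two_mul_orbCount_S N
  have h5 := index_Gamma0 N
  rw [hcard]
  omega

/-- Deuring's inequality for the modular curve: `g(F_{N,k}) ≤ g(F_N)`, `ℓ ∤ N`. -/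
theorem genusFF_residue_le (N : ℕ) [NeZero N] {ℓ : ℕ} (hℓ : ℓ.Prime) (hA : A.LiesOverPrime ℓ)
    (hℓN : ¬ ℓ ∣ N) :
    genusFF (IsLocalRing.ResidueField A)
        ↥(modularFunctionFieldFullC (IsLocalRing.ResidueField A) N) ≤
      genusFF Kbar (FBar N) := by
  haveI := Fermat.Agent.GaussInt.infinite_residue A
  exact Fermat.Agent.Deuring.genusFF_le (Fermat.Agent.GaussInt.modularValSetup A ℓ N hℓ hA hℓN)
    (Fermat.Agent.GaussInt.hasLattice_modularValSetup A ℓ N hℓ hA hℓN)

/-- **good reduction at `2`** (level divisible by `3`): `g(F_N) = g(F_{N,k})`. -/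
theorem genusFF_eq_two (N : ℕ) [NeZero N] (h3N : 3 ∣ N) (h2N : ¬ 2 ∣ N)
    (hA : A.LiesOverPrime 2) :
    genusFF Kbar (FBar N) =
      genusFF (IsLocalRing.ResidueField A)
        ↥(modularFunctionFieldFullC (IsLocalRing.ResidueField A) N) :=
  le_antisymm (genusFF_le_of_three_dvd' N h3N Nat.prime_two (by norm_num) hA h2N)
    (genusFF_residue_le N Nat.prime_two hA h2N)

/-- **good reduction at `3`** (even level): `g(F_N) = g(F_{N,k})`. -/
theorem genusFF_eq_three (N : ℕ) [NeZero N] (h2N : 2 ∣ N) (h3N : ¬ 3 ∣ N)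
    (hA : A.LiesOverPrime 3) :
    genusFF Kbar (FBar N) =
      genusFF (IsLocalRing.ResidueField A)
        ↥(modularFunctionFieldFullC (IsLocalRing.ResidueField A) N) :=
  le_antisymm (genusFF_le_of_even' N h2N Nat.prime_three (by norm_num) hA h3N)
    (genusFF_residue_le N Nat.prime_three hA h3N)

/-- **(G) at `q = 2`**: `g(X₀(2 N₀)) + 1 = 2 g(X₀(N₀)) + s`, `s` the number of zeros of `j̄` on
`X₀(N₀)` mod `2` (`3 ∣ N₀`, `2 ∤ N₀`). -/
theorem ss_count_two (N₀ : ℕ) [NeZero N₀] (h3 : 3 ∣ N₀) (h2 : ¬ 2 ∣ N₀)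
    (hA : A.LiesOverPrime 2) :
    genusFF Kbar (FBar (2 * N₀)) + 1 =
      2 * genusFF Kbar (FBar N₀) +
        Nat.card {v : Place (IsLocalRing.ResidueField A)
          ↥(modularFunctionFieldFullC (IsLocalRing.ResidueField A) N₀) //
            0 < v.ord (Fermat.Agent.RRMod.jC (IsLocalRing.ResidueField A) N₀)} := by
  haveI : NeZero (2 * N₀) := ⟨Nat.mul_ne_zero two_ne_zero (NeZero.ne N₀)⟩
  have hs := twelve_card_ss_two N₀ h3 h2 hA
  have hA₀ := Fermat.Agent.BadRed.ssArith_two (NeZero.ne N₀) h2 h3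
  have hg₀ := Fermat.Agent.GenusEq.genusFF_modularFunctionFieldBar N₀
  have hg := Fermat.Agent.GenusEq.genusFF_modularFunctionFieldBar (2 * N₀)
  rw [← hg, ← hg₀] at hA₀
  have hs' : ((12 * Nat.card {v : Place (IsLocalRing.ResidueField A)
          ↥(modularFunctionFieldFullC (IsLocalRing.ResidueField A) N₀) //
            0 < v.ord (Fermat.Agent.RRMod.jC (IsLocalRing.ResidueField A) N₀)} : ℕ) : ℚ) =
      ((dedekindPsi N₀ + 8 * nuThree N₀ : ℕ) : ℚ) := by rw [hs]
  push_cast at hs'
  have key : ((12 * (genusFF Kbar (FBar (2 * N₀)) + 1) : ℕ) : ℚ) =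
      ((12 * (2 * genusFF Kbar (FBar N₀) +
        Nat.card {v : Place (IsLocalRing.ResidueField A)
          ↥(modularFunctionFieldFullC (IsLocalRing.ResidueField A) N₀) //
            0 < v.ord (Fermat.Agent.RRMod.jC (IsLocalRing.ResidueField A) N₀)}) : ℕ) : ℚ) := by
    push_cast
    linarith
  have key' := Nat.cast_injective (R := ℚ) key
  omega

/-- **(G) at `q = 3`**: `g(X₀(3 N₀)) + 1 = 2 g(X₀(N₀)) + s`, `s` the number of zeros of `j̄` on
`X₀(N₀)` mod `3` (`2 ∣ N₀`, `3 ∤ N₀`). -/
theorem ss_count_three (N₀ : ℕ) [NeZero N₀] (h2 : 2 ∣ N₀) (h3 : ¬ 3 ∣ N₀)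
    (hA : A.LiesOverPrime 3) :
    genusFF Kbar (FBar (3 * N₀)) + 1 =
      2 * genusFF Kbar (FBar N₀) +
        Nat.card {v : Place (IsLocalRing.ResidueField A)
          ↥(modularFunctionFieldFullC (IsLocalRing.ResidueField A) N₀) //
            0 < v.ord (Fermat.Agent.RRMod.jC (IsLocalRing.ResidueField A) N₀)} := by
  haveI : NeZero (3 * N₀) := ⟨Nat.mul_ne_zero three_ne_zero (NeZero.ne N₀)⟩
  have hs := twelve_card_ss_three N₀ h2 h3 hA
  have hA₀ := Fermat.Agent.BadRed.ssArith_three (NeZero.ne N₀) h3 h2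
  have hg₀ := Fermat.Agent.GenusEq.genusFF_modularFunctionFieldBar N₀
  have hg := Fermat.Agent.GenusEq.genusFF_modularFunctionFieldBar (3 * N₀)
  rw [← hg, ← hg₀] at hA₀
  have hs' : ((12 * Nat.card {v : Place (IsLocalRing.ResidueField A)
          ↥(modularFunctionFieldFullC (IsLocalRing.ResidueField A) N₀) //
            0 < v.ord (Fermat.Agent.RRMod.jC (IsLocalRing.ResidueField A) N₀)} : ℕ) : ℚ) =
      ((2 * dedekindPsi N₀ + 6 * nuTwo N₀ : ℕ) : ℚ) := by rw [hs]
  push_cast at hs'
  have key : ((12 * (genusFF Kbar (FBar (3 * N₀)) + 1) : ℕ) : ℚ) =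
      ((12 * (2 * genusFF Kbar (FBar N₀) +
        Nat.card {v : Place (IsLocalRing.ResidueField A)
          ↥(modularFunctionFieldFullC (IsLocalRing.ResidueField A) N₀) //
            0 < v.ord (Fermat.Agent.RRMod.jC (IsLocalRing.ResidueField A) N₀)}) : ℕ) : ℚ) := by
    push_cast
    linarith
  have key' := Nat.cast_injective (R := ℚ) key
  omega

end final


section ssfun

open ModularCurve

/-- `E₄ ≡ 1` modulo `240`. -/
theorem eisenstein4_map_eq_one (k : Type*) [CommRing k] (h240 : (240 : k) = 0) :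
    eisenstein4.map (Int.castRingHom k) = 1 := by
  ext n
  rw [PowerSeries.coeff_map, PowerSeries.coeff_one]
  unfold eisenstein4
  rw [PowerSeries.coeff_mk]
  split_ifs with h
  · simp
  · rw [map_mul, map_ofNat, h240, zero_mul]

/-- `j ≡ Δ⁻¹` modulo `240`. -/
theorem jNum_map_eq (k : Type*) [CommRing k] (h240 : (240 : k) = 0) :
    jNum.map (Int.castRingHom k) = dedekindEtaUnitInv.map (Int.castRingHom k) := by
  unfold jNum
  rw [map_mul, map_pow, eisenstein4_map_eq_one k h240, one_pow, one_mul]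

/-- in characteristic `2`: `ssFun = Δ̄⁻¹ = j̄`. -/
theorem ssFun_two (k : Type*) [CommRing k] (h2 : (2 : k) = 0) : ssFun k 2 = jqModC k := by
  have h240 : (240 : k) = 0 := by
    have : (240 : k) = 2 * 120 := by norm_num
    rw [this, h2, zero_mul]
  unfold ssFun jqModC
  rw [jNum_map_eq k h240]
  norm_num

/-- in characteristic `3`: `ssFun = Δ̄⁻² = j̄²`. -/
theorem ssFun_three (k : Type*) [CommRing k] (h3 : (3 : k) = 0) : ssFun k 3 = jqModC k ^ 2 := by
  have h240 : (240 : k) = 0 := by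
    have : (240 : k) = 3 * 80 := by norm_num
    rw [this, h3, zero_mul]
  have e1 : (HahnSeries.single (-(((3 : ℕ) : ℤ) - 1)) (1 : k) : LaurentSeries k) =
      (HahnSeries.single (-1 : ℤ) (1 : k)) ^ 2 := by
    rw [pow_two, HahnSeries.single_mul_single]
    norm_num
  have e2 : (dedekindEtaUnitInv ^ (3 - 1)).map (Int.castRingHom k) =
      (dedekindEtaUnitInv.map (Int.castRingHom k)) ^ 2 := by
    rw [map_pow]
  unfold ssFun jqModC
  rw [jNum_map_eq k h240, mul_pow, e1, e2, map_pow]

end ssfun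

section shape

open Fermat.Agent.S24 Fermat.Agent.GoodRed ModularCurve

set_option synthInstance.maxHeartbeats 400000
set_option maxHeartbeats 1000000

local notation "Qb" => AlgebraicClosure ℚ

variable {A : ValuationSubring Qb}

/-- `ssFun k 2` lies in `F_k(N₀)`. -/
theorem ssFun_two_mem_fullC (hA : A.LiesOverPrime 2) (N₀ : ℕ) [NeZero N₀] :
    ssFun (IsLocalRing.ResidueField A) 2 ∈
      modularFunctionFieldFullC (IsLocalRing.ResidueField A) N₀ := by
  have h2 : (2 : IsLocalRing.ResidueField A) = 0 := by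
    have := natCast_residue_eq_zero Nat.prime_two hA
    exact_mod_cast this
  rw [ssFun_two _ h2]
  exact (Fermat.Agent.RRMod.jC (IsLocalRing.ResidueField A) N₀).2

/-- `ssFun k 3` lies in `F_k(N₀)`. -/
theorem ssFun_three_mem_fullC (hA : A.LiesOverPrime 3) (N₀ : ℕ) [NeZero N₀] :
    ssFun (IsLocalRing.ResidueField A) 3 ∈
      modularFunctionFieldFullC (IsLocalRing.ResidueField A) N₀ := by
  have h3 : (3 : IsLocalRing.ResidueField A) = 0 := by
    have := natCast_residue_eq_zero Nat.prime_three hA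
    exact_mod_cast this
  rw [ssFun_three _ h3]
  exact pow_mem (Fermat.Agent.RRMod.jC (IsLocalRing.ResidueField A) N₀).2 2

/-- **(G) at `q = 2`, in the form of `ssCount_ge`** (`q ≥ 5`, helper98): for `3 ∣ N₀`, `2 ∤ N₀`,
`N = 2 N₀`, and `h ∈ F_k(N₀)` with `q`-expansion `ssFun k 2`:
`g(X₀(N)) + 1 = 2 g(X₀(N₀) mod 2) + #{zeros of h}`. -/
theorem ssCount_two (N₀ N : ℕ) [NeZero N₀] [NeZero N] (h3 : 3 ∣ N₀) (h2 : ¬ 2 ∣ N₀)
    (hN : N = 2 * N₀) (hA : A.LiesOverPrime 2)
    (h : modularFunctionFieldFullC (IsLocalRing.ResidueField A) N₀)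
    (hh : (h : LaurentSeries (IsLocalRing.ResidueField A)) =
      ssFun (IsLocalRing.ResidueField A) 2) :
    genusFF Qb ↥(modularFunctionFieldBar N) + 1 =
      genusFF (IsLocalRing.ResidueField A)
          ↥(modularFunctionFieldFullC (IsLocalRing.ResidueField A) N₀) +
        genusFF (IsLocalRing.ResidueField A)
          ↥(modularFunctionFieldFullC (IsLocalRing.ResidueField A) N₀) +
        Nat.card {v : Place (IsLocalRing.ResidueField A)
          ↥(modularFunctionFieldFullC (IsLocalRing.ResidueField A) N₀) // 0 < v.ord h} := by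
  subst hN
  have hk2 : (2 : IsLocalRing.ResidueField A) = 0 := by
    have := natCast_residue_eq_zero Nat.prime_two hA
    exact_mod_cast this
  have hj : h = Fermat.Agent.RRMod.jC (IsLocalRing.ResidueField A) N₀ := by
    apply Subtype.ext
    rw [hh, ssFun_two _ hk2]
    rfl
  have h1 := ss_count_two N₀ h3 h2 hA
  have h2' := genusFF_eq_two N₀ h3 h2 hA
  rw [hj, ← h2']
  have e : genusFF Qb ↥(modularFunctionFieldBar (2 * N₀)) + 1 =
      genusFF Kbar (FBar (2 * N₀)) + 1 := rfl
  rw [e, h1]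
  ring

/-- **(G) at `q = 3`, in the form of `ssCount_ge`**: for `2 ∣ N₀`, `3 ∤ N₀`, `N = 3 N₀`, and
`h ∈ F_k(N₀)` with `q`-expansion `ssFun k 3`:
`g(X₀(N)) + 1 = 2 g(X₀(N₀) mod 3) + #{zeros of h}`. -/
theorem ssCount_three (N₀ N : ℕ) [NeZero N₀] [NeZero N] (h2 : 2 ∣ N₀) (h3 : ¬ 3 ∣ N₀)
    (hN : N = 3 * N₀) (hA : A.LiesOverPrime 3)
    (h : modularFunctionFieldFullC (IsLocalRing.ResidueField A) N₀)
    (hh : (h : LaurentSeries (IsLocalRing.ResidueField A)) =
      ssFun (IsLocalRing.ResidueField A) 3) :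
    genusFF Qb ↥(modularFunctionFieldBar N) + 1 =
      genusFF (IsLocalRing.ResidueField A)
          ↥(modularFunctionFieldFullC (IsLocalRing.ResidueField A) N₀) +
        genusFF (IsLocalRing.ResidueField A)
          ↥(modularFunctionFieldFullC (IsLocalRing.ResidueField A) N₀) +
        Nat.card {v : Place (IsLocalRing.ResidueField A)
          ↥(modularFunctionFieldFullC (IsLocalRing.ResidueField A) N₀) // 0 < v.ord h} := by
  subst hN
  have hk3 : (3 : IsLocalRing.ResidueField A) = 0 := by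
    have := natCast_residue_eq_zero Nat.prime_three hA
    exact_mod_cast this
  have hj : h = Fermat.Agent.RRMod.jC (IsLocalRing.ResidueField A) N₀ ^ 2 := by
    apply Subtype.ext
    rw [hh, ssFun_three _ hk3]
    rfl
  have hcard : Nat.card {v : Place (IsLocalRing.ResidueField A)
          ↥(modularFunctionFieldFullC (IsLocalRing.ResidueField A) N₀) // 0 < v.ord h} =
      Nat.card {v : Place (IsLocalRing.ResidueField A)
          ↥(modularFunctionFieldFullC (IsLocalRing.ResidueField A) N₀) //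
            0 < v.ord (Fermat.Agent.RRMod.jC (IsLocalRing.ResidueField A) N₀)} := by
    refine Nat.card_congr (Equiv.subtypeEquivRight fun v => ?_)
    rw [hj, ord_pow']
    constructor
    · intro hv
      have : (0 : ℤ) < 2 * v.ord (Fermat.Agent.RRMod.jC (IsLocalRing.ResidueField A) N₀) := by
        exact_mod_cast hv
      omega
    · intro hv
      have : (0 : ℤ) < 2 * v.ord (Fermat.Agent.RRMod.jC (IsLocalRing.ResidueField A) N₀) := by
        omega
      exact_mod_cast this
  have h1 := ss_count_three N₀ h2 h3 hA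
  have h2' := genusFF_eq_three N₀ h2 h3 hA
  rw [hcard, ← h2']
  have e : genusFF Qb ↥(modularFunctionFieldBar (3 * N₀)) + 1 =
      genusFF Kbar (FBar (3 * N₀)) + 1 := rfl
  rw [e, h1]
  ring

/-- `ssCount_two` with `Fintype.card` (the form of `NodalSeed.genus_le`). -/
theorem ssCount_two_fintype (N₀ N : ℕ) [NeZero N₀] [NeZero N] (h3 : 3 ∣ N₀) (h2 : ¬ 2 ∣ N₀)
    (hN : N = 2 * N₀) (hA : A.LiesOverPrime 2)
    (h : modularFunctionFieldFullC (IsLocalRing.ResidueField A) N₀)
    (hh : (h : LaurentSeries (IsLocalRing.ResidueField A)) =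
      ssFun (IsLocalRing.ResidueField A) 2)
    [Fintype {v : Place (IsLocalRing.ResidueField A)
          ↥(modularFunctionFieldFullC (IsLocalRing.ResidueField A) N₀) // 0 < v.ord h}] :
    genusFF Qb ↥(modularFunctionFieldBar N) + 1 ≤
      genusFF (IsLocalRing.ResidueField A)
          ↥(modularFunctionFieldFullC (IsLocalRing.ResidueField A) N₀) +
        genusFF (IsLocalRing.ResidueField A)
          ↥(modularFunctionFieldFullC (IsLocalRing.ResidueField A) N₀) +
        Fintype.card {v : Place (IsLocalRing.ResidueField A)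
          ↥(modularFunctionFieldFullC (IsLocalRing.ResidueField A) N₀) // 0 < v.ord h} := by
  rw [← Nat.card_eq_fintype_card]
  exact (ssCount_two N₀ N h3 h2 hN hA h hh).le

/-- `ssCount_three` with `Fintype.card` (the form of `NodalSeed.genus_le`). -/
theorem ssCount_three_fintype (N₀ N : ℕ) [NeZero N₀] [NeZero N] (h2 : 2 ∣ N₀) (h3 : ¬ 3 ∣ N₀)
    (hN : N = 3 * N₀) (hA : A.LiesOverPrime 3)
    (h : modularFunctionFieldFullC (IsLocalRing.ResidueField A) N₀)
    (hh : (h : LaurentSeries (IsLocalRing.ResidueField A)) =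
      ssFun (IsLocalRing.ResidueField A) 3)
    [Fintype {v : Place (IsLocalRing.ResidueField A)
          ↥(modularFunctionFieldFullC (IsLocalRing.ResidueField A) N₀) // 0 < v.ord h}] :
    genusFF Qb ↥(modularFunctionFieldBar N) + 1 ≤
      genusFF (IsLocalRing.ResidueField A)
          ↥(modularFunctionFieldFullC (IsLocalRing.ResidueField A) N₀) +
        genusFF (IsLocalRing.ResidueField A)
          ↥(modularFunctionFieldFullC (IsLocalRing.ResidueField A) N₀) +
        Fintype.card {v : Place (IsLocalRing.ResidueField A)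
          ↥(modularFunctionFieldFullC (IsLocalRing.ResidueField A) N₀) // 0 < v.ord h} := by
  rw [← Nat.card_eq_fintype_card]
  exact (ssCount_three N₀ N h2 h3 hN hA h hh).le

end shape

end Fermat.Agent.BadRed.SS23
end
end MergeWrap_Lib_BadRed_Mod_SSCount23
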