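import Mathlib
import Fermat.Agent.MUL.Lib.RR.Hurwitz.Norm
import Fermat.Agent.MUL.Orig.S24.Bridge
import Fermat.Agent.MUL.Lib.BadRed.Nodal.Setup
import Fermat.Agent.MUL.Orig.Lib.RR.Riemann
import Fermat.Agent.MUL.Lib.Kronecker.Integral

section MergeWrap_Lib_BadRed_Mod_SeedNodeC1 -- from Lib/BadRed/Mod/SeedNodeC1.lean

set_option autoImplicit false
set_option linter.style.haveILetI false
set_option linter.unusedSectionVars false

/-!
# Cluster T, WP M2 (seed node condition), piece C, part 1: integral bases  (helper33)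

`F / K` a function field (`IsRRField`), `x ∈ F` transcendental, `[F : K(x)] = n`.

* `toAdj x : K[T] →+* K(x)`;
* `exists_int_basis` : a `K(x)`-basis of `F` which is a `K[x]`-basis of the ring of functions
  without poles off the poles of `x` (from the reduced basis of `Lib/RR/Hurwitz/Norm.lean`);
* `exists_matrix` : the matrix over `K[T]` of an integral function;
* `exists_charpoly_poly` (C1), `regular_of_charpoly_poly` (C-reg).

Sorry-free.
-/

noncomputable section

open AlgebraicCurve IntermediateField Polynomial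

namespace Fermat.Agent.BadRed.SeedNode

open Fermat.Agent.RR Fermat.Agent.RRHur

variable {K F : Type*} [Field K] [Field F] [Algebra K F]

/-- `K[T] → K(x)`, `T ↦ x`. -/
def toAdj (x : F) : K[X] →+* K⟮x⟯ :=
  (Polynomial.aeval (R := K) (⟨x, mem_adjoin_simple_self K x⟩ : K⟮x⟯)).toRingHom

theorem toAdj_apply (x : F) (p : K[X]) :
    toAdj x p = Polynomial.aeval (R := K) (⟨x, mem_adjoin_simple_self K x⟩ : K⟮x⟯) p := rfl

theorem coe_toAdj (x : F) (p : K[X]) : ((toAdj x p : K⟮x⟯) : F) = Polynomial.aeval x p := by
  rw [toAdj_apply]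
  have := Polynomial.aeval_algebraMap_apply (A := K⟮x⟯) F
    (⟨x, mem_adjoin_simple_self K x⟩ : K⟮x⟯) p
  exact this.symm

theorem toAdj_injective {x : F} (hx : Transcendental K x) : Function.Injective (toAdj (K := K) x) := by
  intro p q hpq
  have h1 : Polynomial.aeval x p = Polynomial.aeval x q := by
    rw [← coe_toAdj, ← coe_toAdj, hpq]
  exact (transcendental_iff_injective.mp hx) h1

theorem toAdj_C (x : F) (c : K) : toAdj x (Polynomial.C c) = algebraMap K K⟮x⟯ c := by
  rw [toAdj_apply, Polynomial.aeval_C]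

theorem intAway_iff {x f : F} :
    IntAway (K := K) x f ↔ ∀ v : Place K F, 0 ≤ v.ord x → 0 ≤ v.ord f := by
  refine forall_congr' fun v => ?_
  rw [adicValuation_le_one_iff', adicValuation_le_one_iff']

/-- the reduced basis as a basis of `F / K(x)`, with its integrality properties. -/
theorem exists_int_basis (h : IsRRField K F) {x : F} (hx : Transcendental K x)
    [FiniteDimensional K⟮x⟯ F] :
    ∃ b : Module.Basis (Fin (Module.finrank K⟮x⟯ F)) K⟮x⟯ F,
      (∀ i, IntAway (K := K) x (b i)) ∧
      ∀ f : F, IntAway (K := K) x f →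
        ∃ a : Fin (Module.finrank K⟮x⟯ F) → K[X], f = ∑ i, toAdj x (a i) • b i := by
  have hx0 : x ≠ 0 := fun h0 => hx (h0 ▸ isAlgebraic_zero)
  obtain ⟨u, d, hred⟩ := exists_isReducedBasis h hx
  haveI : Nonempty (Fin (Module.finrank K⟮x⟯ F)) := ⟨⟨0, Module.finrank_pos⟩⟩
  let b : Module.Basis (Fin (Module.finrank K⟮x⟯ F)) K⟮x⟯ F :=
    basisOfLinearIndependentOfCardEqFinrank hred.linInd (by simp)
  have hb : ∀ i, b i = u i := fun i => by
    simp [b, coe_basisOfLinearIndependentOfCardEqFinrank]
  refine ⟨b, fun i => ?_, fun f hf => ?_⟩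
  · rw [hb]
    exact ((mem_riemannRochSpace_nsmul_poleDiv_iff h hx0 (d i) (u i)).mp (hred.mem i)).1
  · obtain ⟨a, ha⟩ := hred.integral f (intAway_iff.mp hf)
    refine ⟨a, ?_⟩
    rw [ha]
    refine Finset.sum_congr rfl fun i _ => ?_
    rw [hb, IntermediateField.smul_def, coe_toAdj, smul_eq_mul]

/-- the matrix over `K[T]` of an integral function with respect to an integral basis. -/
theorem exists_matrix {x : F} [FiniteDimensional K⟮x⟯ F] {n : ℕ}
    (b : Module.Basis (Fin n) K⟮x⟯ F)
    (hint : ∀ f : F, IntAway (K := K) x f → ∃ a : Fin n → K[X], f = ∑ i, toAdj x (a i) • b i)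
    (hb : ∀ i, IntAway (K := K) x (b i)) (f : F) (hf : IntAway (K := K) x f) :
    ∃ m : Matrix (Fin n) (Fin n) K[X],
      (∀ j, f * b j = ∑ i, toAdj x (m i j) • b i) ∧
      Algebra.leftMulMatrix b f = m.map (toAdj x) := by
  choose a ha using fun j => hint (f * b j) (hf.mul (hb j))
  refine ⟨Matrix.of fun i j => a j i, ha, ?_⟩
  refine Matrix.ext fun i j => ?_
  rw [Algebra.leftMulMatrix_eq_repr_mul, Matrix.map_apply, Matrix.of_apply, ha j]
  simp only [map_sum, map_smul, Module.Basis.repr_self, Finsupp.coe_finsetSum, Finsupp.coe_smul,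
    Finset.sum_apply, Pi.smul_apply, smul_eq_mul, Finsupp.single_apply, mul_ite, mul_one,
    mul_zero]
  rw [Finset.sum_eq_single i]
  · simp
  · intro j' _ hj'
    rw [if_neg hj']
  · intro hi
    exact absurd (Finset.mem_univ i) hi

theorem charpoly_mulLeft_eq {L : Type*} [Field L] [Algebra L F] [FiniteDimensional L F] {n : ℕ}
    (b : Module.Basis (Fin n) L F) (f : F) :
    LinearMap.charpoly (LinearMap.mulLeft L f) = (Algebra.leftMulMatrix b f).charpoly := by
  rw [Algebra.leftMulMatrix_apply, LinearMap.charpoly_toMatrix]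
  rfl

/-- (C1) the characteristic polynomial of a function without poles off the poles of `x` has
coefficients in `K[x]`. -/
theorem exists_charpoly_poly (h : IsRRField K F) {x : F} (hx : Transcendental K x)
    [FiniteDimensional K⟮x⟯ F] (f : F) (hf : ∀ v : Place K F, 0 ≤ v.ord x → 0 ≤ v.ord f) :
    ∃ Φ : Polynomial (Polynomial K), Φ.Monic ∧
      Φ.map (toAdj x) = LinearMap.charpoly (LinearMap.mulLeft K⟮x⟯ f) := by
  obtain ⟨b, hb, hint⟩ := exists_int_basis h hx
  obtain ⟨m, -, hm⟩ := exists_matrix b hint hb f (intAway_iff.mpr hf)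
  refine ⟨m.charpoly, Matrix.charpoly_monic m, ?_⟩
  rw [charpoly_mulLeft_eq b f, hm, Matrix.charpoly_map]

/-- Cayley-Hamilton for the multiplication map. -/
theorem aeval_charpoly_mulLeft {L : Type*} [Field L] [Algebra L F] [FiniteDimensional L F]
    (f : F) : Polynomial.aeval f (LinearMap.charpoly (LinearMap.mulLeft L f)) = 0 := by
  have h := LinearMap.aeval_self_charpoly (LinearMap.mulLeft L f)
  have h3 := congrArg (fun φ : Module.End L F => φ 1) h
  have h4 : (Polynomial.aeval (LinearMap.mulLeft L f)
      (LinearMap.charpoly (LinearMap.mulLeft L f))) =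
      LinearMap.mulLeft L (Polynomial.aeval f (LinearMap.charpoly (LinearMap.mulLeft L f))) := by
    have := Polynomial.aeval_algHom_apply (Algebra.lmul L F) f
      (LinearMap.charpoly (LinearMap.mulLeft L f))
    exact this
  rw [h4] at h3
  simpa using h3

/-- (C-reg) conversely: coefficients in `K[x]` imply no poles off the poles of `x`. -/
theorem regular_of_charpoly_poly {x : F} [FiniteDimensional K⟮x⟯ F] (f : F)
    (Φ : Polynomial (Polynomial K))
    (hΦ : Φ.map (toAdj x) = LinearMap.charpoly (LinearMap.mulLeft K⟮x⟯ f)) :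
    ∀ v : Place K F, 0 ≤ v.ord x → 0 ≤ v.ord f := by
  intro v hv
  apply Fermat.Agent.S24Res.ord_nonneg_of_mem
  -- `f` is integral over the image `R` of `K[T]` in `K(x)`
  let R : Subring K⟮x⟯ := (toAdj (K := K) x).range
  letI : Algebra R F := ((algebraMap K⟮x⟯ F).comp R.subtype).toAlgebra
  have halg : ∀ r : R, algebraMap R F r = ((r : K⟮x⟯) : F) := fun r => rfl
  refine Fermat.Agent.S24Bridge.mem_of_isIntegral (R := R) v (fun r => ?_) ?_
  · rw [halg]
    obtain ⟨p, hp⟩ := r.2
    rw [← hp, coe_toAdj]
    have := adicValuation_aeval_le_one v ((adicValuation_le_one_iff' v).mpr hv) p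
    exact Fermat.Agent.S24Res.mem_of_ord_nonneg v ((adicValuation_le_one_iff' v).mp this)
  · have hmap : (Φ.map (toAdj (K := K) x).rangeRestrict).map R.subtype = Φ.map (toAdj x) := by
      rw [Polynomial.map_map]
      rfl
    have hmonic : (Φ.map (toAdj (K := K) x).rangeRestrict).Monic := by
      apply Polynomial.monic_of_injective (f := R.subtype) Subtype.val_injective
      rw [hmap, hΦ]
      exact LinearMap.charpoly_monic _
    refine ⟨Φ.map (toAdj (K := K) x).rangeRestrict, hmonic, ?_⟩
    have h2 := aeval_charpoly_mulLeft (L := K⟮x⟯) f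
    rw [← hΦ, ← hmap, Polynomial.aeval_def, Polynomial.eval₂_map] at h2
    exact h2

end Fermat.Agent.BadRed.SeedNode
end
end MergeWrap_Lib_BadRed_Mod_SeedNodeC1

section MergeWrap_Lib_BadRed_Mod_SeedNodeC2 -- from Lib/BadRed/Mod/SeedNodeC2.lean

set_option autoImplicit false
set_option linter.style.haveILetI false
set_option linter.unusedSectionVars false

/-!
# Cluster T, WP M2 (seed node condition), piece C, part 2: the two directions of the root formula
(helper33)

`b` an integral basis of `F / K(x)`, `g` an integral function with matrix `m ∈ M_n(K[T])`: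
`det m (a) = 0` iff `x - a` and `g` have a common zero.  Sorry-free.
-/

noncomputable section

open AlgebraicCurve IntermediateField Polynomial

namespace Fermat.Agent.BadRed.SeedNode

open Fermat.Agent.RR Fermat.Agent.RRHur

variable {K F : Type*} [Field K] [Field F] [Algebra K F]

/-- at a zero of `x - a`, a polynomial `p(x)` with `p(a) ≠ 0` is a unit. -/
theorem adicValuation_aeval_eq_one (v : Place K F) {x : F} {a : K}
    (hv : v.adicValuation (x - algebraMap K F a) < 1) (p : K[X]) (hp : p.eval a ≠ 0) :
    v.adicValuation (Polynomial.aeval x p) = 1 := by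
  have hx1 : v.adicValuation x ≤ 1 := by
    have : x = (x - algebraMap K F a) + algebraMap K F a := by ring
    rw [this]
    exact (Valuation.map_add _ _ _).trans
      (max_le hv.le (v.adicValuation_algebraMap_le_one a))
  obtain ⟨q, hq⟩ : (X - C a) ∣ p - C (p.eval a) := by
    rw [Polynomial.dvd_iff_isRoot]
    simp
  have hdecomp : Polynomial.aeval x p =
      (x - algebraMap K F a) * Polynomial.aeval x q + algebraMap K F (p.eval a) := by
    have h1 : p = (X - C a) * q + C (p.eval a) := by rw [← hq]; ring
    conv_lhs => rw [h1]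
    simp [Polynomial.aeval_C]
  have hlt : v.adicValuation ((x - algebraMap K F a) * Polynomial.aeval x q) < 1 := by
    rw [map_mul]
    calc v.adicValuation (x - algebraMap K F a) * v.adicValuation (Polynomial.aeval x q)
        ≤ v.adicValuation (x - algebraMap K F a) * 1 := by
          gcongr
          exact adicValuation_aeval_le_one v hx1 q
      _ < 1 := by rwa [mul_one]
  have hone : v.adicValuation (algebraMap K F (p.eval a)) = 1 :=
    adicValuation_algebraMap_eq_one v hp
  rw [hdecomp, add_comm]
  rw [Valuation.map_add_eq_of_lt_left _ (by rw [hone]; exact hlt), hone]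

section RootFormula

variable {x : F} [FiniteDimensional K⟮x⟯ F] {n : ℕ} (b : Module.Basis (Fin n) K⟮x⟯ F)

theorem smul_toAdj (p : K[X]) (y : F) : toAdj x p • y = Polynomial.aeval x p * y := by
  rw [IntermediateField.smul_def, coe_toAdj, smul_eq_mul]

/-- (⇐) a common zero of `x - a` and `g` forces `det m (a) = 0`. -/
theorem det_eval_eq_zero_of_place
    (hint : ∀ f : F, IntAway (K := K) x f → ∃ a : Fin n → K[X], f = ∑ i, toAdj x (a i) • b i)
    (hb : ∀ i, IntAway (K := K) x (b i)) (g : F) (m : Matrix (Fin n) (Fin n) K[X])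
    (hm : ∀ j, g * b j = ∑ i, toAdj x (m i j) • b i) (a : K) (Q : Place K F)
    (hQ : Q.adicValuation (x - algebraMap K F a) < 1) (hg : Q.adicValuation g < 1) :
    (m.det).eval a = 0 := by
  classical
  by_contra hne
  have hx1 : Q.adicValuation x ≤ 1 := by
    have : x = (x - algebraMap K F a) + algebraMap K F a := by ring
    rw [this]
    exact (Valuation.map_add _ _ _).trans
      (max_le hQ.le (Q.adicValuation_algebraMap_le_one a))
  -- the matrix over `F`
  set M : Matrix (Fin n) (Fin n) F := m.map (Polynomial.aeval (R := K) x) with hM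
  set e : Fin n → F := fun i => b i with he
  have heM : Matrix.vecMul e M = g • e := by
    funext j
    simp only [Matrix.vecMul, dotProduct, Pi.smul_apply, smul_eq_mul, hM, Matrix.map_apply, he]
    rw [hm j]
    refine Finset.sum_congr rfl fun i _ => ?_
    rw [smul_toAdj, mul_comm]
  have hadj : M.det • e = g • Matrix.vecMul e M.adjugate := by
    have h1 : Matrix.vecMul (Matrix.vecMul e M) M.adjugate = M.det • e := by
      rw [Matrix.vecMul_vecMul, Matrix.mul_adjugate, Matrix.vecMul_smul, Matrix.vecMul_one]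
    rw [← h1, heM, Matrix.smul_vecMul]
  have hMdet : M.det = Polynomial.aeval x m.det := by
    rw [hM]
    exact (RingHom.map_det (Polynomial.aeval (R := K) x).toRingHom m).symm
  have hMadj : M.adjugate = m.adjugate.map (Polynomial.aeval (R := K) x) := by
    rw [hM]
    exact (RingHom.map_adjugate (Polynomial.aeval (R := K) x).toRingHom m).symm
  -- `1` in the basis
  have h1int : IntAway (K := K) x (1 : F) := fun v _ => by simp
  obtain ⟨t, ht⟩ := hint 1 h1int
  set H : F := ∑ j, Polynomial.aeval x (t j) * Matrix.vecMul e M.adjugate j with hH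
  have hdet : M.det = g * H := by
    have h2 : ∀ j, M.det * b j = g * Matrix.vecMul e M.adjugate j := by
      intro j
      have := congrFun hadj j
      simpa [he] using this
    calc M.det = M.det * 1 := (mul_one _).symm
      _ = M.det * ∑ j, toAdj x (t j) • b j := by rw [← ht]
      _ = ∑ j, Polynomial.aeval x (t j) * (M.det * b j) := by
          rw [Finset.mul_sum]
          refine Finset.sum_congr rfl fun j _ => ?_
          rw [smul_toAdj]; ring
      _ = ∑ j, Polynomial.aeval x (t j) * (g * Matrix.vecMul e M.adjugate j) := by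
          refine Finset.sum_congr rfl fun j _ => ?_
          rw [h2 j]
      _ = g * H := by
          rw [hH, Finset.mul_sum]
          refine Finset.sum_congr rfl fun j _ => ?_
          ring
  have hHint : Q.adicValuation H ≤ 1 := by
    rw [hH]
    refine Valuation.map_sum_le _ fun j _ => ?_
    rw [map_mul]
    have h3 : Q.adicValuation (Matrix.vecMul e M.adjugate j) ≤ 1 := by
      simp only [Matrix.vecMul, dotProduct]
      refine Valuation.map_sum_le _ fun i _ => ?_
      rw [map_mul, hMadj, Matrix.map_apply]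
      calc Q.adicValuation (e i) * Q.adicValuation (Polynomial.aeval x (m.adjugate i j))
          ≤ 1 * 1 := by
            gcongr
            · exact hb i Q hx1
            · exact adicValuation_aeval_le_one Q hx1 _
        _ = 1 := one_mul _
    calc Q.adicValuation (Polynomial.aeval x (t j)) *
          Q.adicValuation (Matrix.vecMul e M.adjugate j) ≤ 1 * 1 := by
            gcongr
            exact adicValuation_aeval_le_one Q hx1 _
      _ = 1 := one_mul _
  have hlt : Q.adicValuation M.det < 1 := by
    rw [hdet, map_mul]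
    calc Q.adicValuation g * Q.adicValuation H ≤ Q.adicValuation g * 1 := by gcongr
      _ < 1 := by rwa [mul_one]
  rw [hMdet, adicValuation_aeval_eq_one Q hQ m.det hne] at hlt
  exact lt_irrefl _ hlt

end RootFormula


section RootFormula

variable {x : F} [FiniteDimensional K⟮x⟯ F] {n : ℕ} (b : Module.Basis (Fin n) K⟮x⟯ F)


/-- (⇒) if `det m (a) = 0`, then `x - a` and `g` have a common zero. -/
theorem exists_place_of_det_eval_eq_zero (hx : Transcendental K x)
    (hint : ∀ f : F, IntAway (K := K) x f → ∃ a : Fin n → K[X], f = ∑ i, toAdj x (a i) • b i)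
    (hb : ∀ i, IntAway (K := K) x (b i)) (g : F) (hg : IntAway (K := K) x g)
    (m : Matrix (Fin n) (Fin n) K[X])
    (hm : ∀ j, g * b j = ∑ i, toAdj x (m i j) • b i) (a : K)
    (hdet : (m.det).eval a = 0) :
    ∃ Q : Place K F, Q.adicValuation (x - algebraMap K F a) < 1 ∧ Q.adicValuation g < 1 := by
  classical
  by_contra hcon
  push Not at hcon
  -- a kernel vector of `m(a)`
  have hdet' : (m.map (Polynomial.evalRingHom a)).det = 0 := by
    have := RingHom.map_det (Polynomial.evalRingHom a) m
    rw [RingHom.mapMatrix_apply] at this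
    rw [← this]
    exact hdet
  obtain ⟨w, hw0, hw⟩ := Matrix.exists_mulVec_eq_zero_iff.mpr hdet'
  -- the polynomials `p i = ∑ j, m i j * C (w j)` vanish at `a`
  set p : Fin n → K[X] := fun i => ∑ j, m i j * Polynomial.C (w j) with hp
  have hpa : ∀ i, (p i).eval a = 0 := by
    intro i
    have := congrFun hw i
    simp only [Matrix.mulVec, dotProduct, Matrix.map_apply, Polynomial.coe_evalRingHom,
      Pi.zero_apply] at this
    rw [hp]
    simp only [Polynomial.eval_finsetSum, Polynomial.eval_mul, Polynomial.eval_C]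
    exact this
  have hdiv : ∀ i, ∃ r : K[X], p i = (X - C a) * r := fun i =>
    Polynomial.dvd_iff_isRoot.mpr (hpa i)
  choose r hr using hdiv
  set β : F := ∑ j, toAdj x (Polynomial.C (w j)) • b j with hβ
  set β' : F := ∑ i, toAdj x (r i) • b i with hβ'
  have hxa0 : x - algebraMap K F a ≠ 0 := by
    intro h0
    apply hx
    rw [sub_eq_zero] at h0
    rw [h0]
    exact isAlgebraic_algebraMap a
  have hβint : IntAway (K := K) x β := by
    rw [hβ]
    refine IntAway.sum _ _ fun j _ => ?_
    rw [smul_toAdj]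
    exact (intAway_aeval x _).mul (hb j)
  have hβ'int : IntAway (K := K) x β' := by
    rw [hβ']
    refine IntAway.sum _ _ fun j _ => ?_
    rw [smul_toAdj]
    exact (intAway_aeval x _).mul (hb j)
  have hgβ : g * β = (x - algebraMap K F a) * β' := by
    have h1 : g * β = ∑ i, toAdj x (p i) • b i := by
      rw [hβ, Finset.mul_sum]
      have h2 : ∀ j, g * toAdj x (Polynomial.C (w j)) • b j =
          ∑ i, toAdj x (m i j * Polynomial.C (w j)) • b i := by
        intro j
        rw [smul_toAdj, mul_left_comm, hm j, Finset.mul_sum]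
        refine Finset.sum_congr rfl fun i _ => ?_
        rw [smul_toAdj, smul_toAdj, map_mul]
        ring
      rw [Finset.sum_congr rfl fun j _ => h2 j, Finset.sum_comm]
      refine Finset.sum_congr rfl fun i _ => ?_
      rw [hp]
      simp only [map_sum, Finset.sum_smul]
    rw [h1, hβ', Finset.mul_sum]
    refine Finset.sum_congr rfl fun i _ => ?_
    rw [hr i, smul_toAdj, smul_toAdj, map_mul]
    simp only [map_sub, Polynomial.aeval_X, Polynomial.aeval_C]
    ring
  -- `γ = β / (x - a)` is integral
  set γ : F := β / (x - algebraMap K F a) with hγ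
  have hγint : IntAway (K := K) x γ := by
    intro v hv
    have hxa1 : v.adicValuation (x - algebraMap K F a) ≤ 1 :=
      (Valuation.map_sub _ _ _).trans (max_le hv (v.adicValuation_algebraMap_le_one a))
    rcases hxa1.lt_or_eq with hlt | heq
    · have hg1 : 1 ≤ v.adicValuation g := hcon v hlt
      have hg1' : v.adicValuation g = 1 := le_antisymm (hg v hv) hg1
      have hg0 : g ≠ 0 := by
        intro h0
        rw [h0, map_zero] at hg1'
        exact zero_ne_one hg1'
      have hγ' : γ = β' / g := by
        rw [hγ, div_eq_div_iff hxa0 hg0]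
        rw [mul_comm β g, hgβ]
        ring
      rw [hγ', map_div₀, hg1', div_one]
      exact hβ'int v hv
    · rw [hγ, map_div₀, heq, div_one]
      exact hβint v hv
  obtain ⟨s, hs⟩ := hint γ hγint
  -- compare coordinates
  have hβ2 : β = ∑ i, toAdj x ((X - C a) * s i) • b i := by
    have : β = (x - algebraMap K F a) * γ := by
      rw [hγ]; field_simp
    rw [this, hs, Finset.mul_sum]
    refine Finset.sum_congr rfl fun i _ => ?_
    rw [smul_toAdj, smul_toAdj, map_mul]
    simp only [map_sub, Polynomial.aeval_X, Polynomial.aeval_C]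
    ring
  have hcoord : ∀ i, toAdj x (Polynomial.C (w i)) = toAdj x ((X - C a) * s i) := by
    have h3 : ∑ i, (toAdj x (Polynomial.C (w i)) - toAdj x ((X - C a) * s i)) • b i = 0 := by
      simp only [sub_smul, Finset.sum_sub_distrib]
      rw [← hβ2, ← hβ, sub_self]
    have h4 := (Fintype.linearIndependent_iff.mp b.linearIndependent) _ h3
    intro i
    exact sub_eq_zero.mp (h4 i)
  apply hw0
  funext i
  have h5 := toAdj_injective hx (hcoord i)
  have h6 := congrArg (Polynomial.eval a) h5
  simpa using h6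

end RootFormula

end Fermat.Agent.BadRed.SeedNode
end
end MergeWrap_Lib_BadRed_Mod_SeedNodeC2

section MergeWrap_Lib_BadRed_Mod_SeedNodeCGen -- from Lib/BadRed/Mod/SeedNodeCGen.lean

set_option autoImplicit false

/-!
# Cluster T, WP M2 (seed node condition), piece C-gen: LAURENT coefficients  (helper47)

`F / K` a function field, `u ∈ F` transcendental.  If the poles of `f` are among the zeros and
poles of `u`, the coefficients of the characteristic polynomial of `f` over `K(u)` are Laurent
polynomials in `u` (`exists_laurent_coeff_gen`).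
-/

noncomputable section

open AlgebraicCurve IntermediateField Polynomial

namespace Fermat.Agent.BadRed.SeedNode

open Fermat.Agent.RR Fermat.Agent.RRHur

variable {K F : Type*} [Field K] [Field F] [Algebra K F]

/-- the subring of Laurent polynomials in `u` inside `K(u)`. -/
def laurentSubring (u : F) : Subring K⟮u⟯ where
  carrier := {a | ∃ (M : ℕ) (P : K[X]), a * toAdj u X ^ M = toAdj u P}
  mul_mem' := by
    rintro a a' ⟨M, P, h⟩ ⟨M', P', h'⟩
    refine ⟨M + M', P * P', ?_⟩
    rw [map_mul, ← h, ← h', pow_add]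
    ring
  one_mem' := ⟨0, 1, by simp⟩
  add_mem' := by
    rintro a a' ⟨M, P, h⟩ ⟨M', P', h'⟩
    refine ⟨M + M', P * X ^ M' + P' * X ^ M, ?_⟩
    rw [map_add, map_mul, map_mul, map_pow, map_pow, ← h, ← h', pow_add]
    ring
  zero_mem' := ⟨0, 0, by simp⟩
  neg_mem' := by
    rintro a ⟨M, P, h⟩
    exact ⟨M, -P, by rw [map_neg, ← h, neg_mul]⟩

theorem mem_laurentSubring {u : F} {a : K⟮u⟯} :
    a ∈ laurentSubring (K := K) u ↔ ∃ (M : ℕ) (P : K[X]), a * toAdj u X ^ M = toAdj u P :=
  Iff.rfl

theorem toAdj_mem_laurentSubring (u : F) (P : K[X]) : toAdj u P ∈ laurentSubring (K := K) u :=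
  ⟨0, P, by simp⟩

theorem toAdj_X_coe (u : F) : ((toAdj (K := K) u X : K⟮u⟯) : F) = u := by
  rw [coe_toAdj, aeval_X]

/-- `u⁻¹` is a Laurent polynomial. -/
theorem inv_mem_laurentSubring {u : F} (hu0 : u ≠ 0) :
    (toAdj (K := K) u X)⁻¹ ∈ laurentSubring (K := K) u := by
  refine ⟨1, 1, ?_⟩
  have hne : toAdj (K := K) u X ≠ 0 := by
    intro h0
    apply hu0
    rw [← toAdj_X_coe (K := K) u, h0]
    rfl
  rw [pow_one, inv_mul_cancel₀ hne, map_one]

/-- a nonnegative divisor has coefficients bounded by its degree. -/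
theorem sn_coeff_le_degree (h : IsRRField K F) {D : Divisor K F} (hD : 0 ≤ D) (v : Place K F) :
    D v ≤ Divisor.degree D := by
  classical
  rw [degree_eq_sum h]
  by_cases hv : v ∈ D.support
  · exact Finset.single_le_sum (f := fun w => D w) (fun w _ => hD w) hv
  · rw [Finsupp.notMem_support_iff.mp hv]
    exact Finset.sum_nonneg fun w _ => hD w

/-- if the poles of `f` are among the zeros and poles of `u`, then `f * u ^ M` has no poles off
the poles of `u`, for `M` large. -/
theorem sn_exists_pow_intAway (h : IsRRField K F) {u : F} (hu0 : u ≠ 0) (f : F)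
    (hf : ∀ v : Place K F, v.ord f < 0 → v.ord u ≠ 0) :
    ∃ M : ℕ, IntAway (K := K) u (f * u ^ M) := by
  rcases eq_or_ne f 0 with rfl | hf0
  · exact ⟨0, by simpa using IntAway.zero (K := K) u⟩
  refine ⟨(Divisor.degree (poleDiv h f)).toNat, ?_⟩
  rw [intAway_iff]
  intro v hv
  set M := (Divisor.degree (poleDiv h f)).toNat with hM
  have hMge : poleDiv h f v ≤ (M : ℤ) := by
    have h1 := sn_coeff_le_degree h (poleDiv_nonneg h f) v
    have h2 : Divisor.degree (poleDiv h f) ≤ (M : ℤ) := Int.self_le_toNat _
    omega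
  have hpd : -(v.ord f) ≤ poleDiv h f v := by
    rw [poleDiv_apply]
    exact le_max_left _ _
  have hord : v.ord (f * u ^ M) = v.ord f + M * v.ord u := by
    rw [v.ord_mul hf0 (pow_ne_zero _ hu0)]
    congr 1
    have := v.ord_zpow u (M : ℤ)
    rw [zpow_natCast] at this
    exact this
  rw [hord]
  by_cases h0 : v.ord u = 0
  · have h1 : ¬ v.ord f < 0 := fun hlt => hf v hlt h0
    rw [h0]
    omega
  · have h1 : 1 ≤ v.ord u := by omega
    have h2 : (M : ℤ) * 1 ≤ M * v.ord u := by
      apply mul_le_mul_of_nonneg_left h1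
      exact Int.natCast_nonneg _
    omega

/-- (C-gen) generic fibre: if the poles of `f` are among the zeros and poles of `u`, the
coefficients of the characteristic polynomial of `f` over `K(u)` are Laurent polynomials in
`u`. -/
theorem exists_laurent_coeff_gen (h : IsRRField K F) {u : F} (hu : Transcendental K u)
    [FiniteDimensional K⟮u⟯ F] (f : F) (hf : ∀ v : Place K F, v.ord f < 0 → v.ord u ≠ 0)
    (r : ℕ) :
    ∃ (M : ℕ) (P : K[X]),
      (((LinearMap.charpoly (LinearMap.mulLeft K⟮u⟯ f)).coeff r : K⟮u⟯) : F) * u ^ M =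
        Polynomial.aeval u P := by
  classical
  have hu0 : u ≠ 0 := fun h0 => hu (h0 ▸ isAlgebraic_zero)
  obtain ⟨b, hb, hint⟩ := exists_int_basis h hu
  obtain ⟨M₀, hM₀⟩ := sn_exists_pow_intAway h hu0 f hf
  obtain ⟨m, -, hm⟩ := exists_matrix b hint hb (f * u ^ M₀) hM₀
  set uK : K⟮u⟯ := toAdj u X with huK
  have huK0 : uK ≠ 0 := by
    intro h0
    apply hu0
    rw [← toAdj_X_coe (K := K) u, ← huK, h0]
    rfl
  -- `f = uK⁻¹ ^ M₀ • (f * u ^ M₀)`
  have hf' : f = (uK⁻¹ ^ M₀) • (f * u ^ M₀) := by
    rw [IntermediateField.smul_def, smul_eq_mul]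
    push_cast
    rw [huK, toAdj_X_coe, mul_comm f, ← mul_assoc, ← mul_pow, inv_mul_cancel₀ hu0, one_pow, one_mul]
  have hmat : Algebra.leftMulMatrix b f = (uK⁻¹ ^ M₀) • (m.map (toAdj u)) := by
    conv_lhs => rw [hf']
    rw [map_smul, hm]
  have hentry : ∀ i j, Algebra.leftMulMatrix b f i j ∈ laurentSubring (K := K) u := by
    intro i j
    rw [hmat, Matrix.smul_apply, Matrix.map_apply, smul_eq_mul]
    exact mul_mem (pow_mem (inv_mem_laurentSubring hu0) _) (toAdj_mem_laurentSubring u _)
  let M' : Matrix (Fin (Module.finrank K⟮u⟯ F)) (Fin (Module.finrank K⟮u⟯ F))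
      (laurentSubring (K := K) u) := fun i j => ⟨Algebra.leftMulMatrix b f i j, hentry i j⟩
  have hM' : M'.map (laurentSubring (K := K) u).subtype = Algebra.leftMulMatrix b f := by
    ext i j
    rfl
  have hchar : LinearMap.charpoly (LinearMap.mulLeft K⟮u⟯ f) =
      M'.charpoly.map (laurentSubring (K := K) u).subtype := by
    rw [charpoly_mulLeft_eq b f, ← hM', Matrix.charpoly_map]
  obtain ⟨M, P, hMP⟩ := (M'.charpoly.coeff r).2
  refine ⟨M, P, ?_⟩
  rw [hchar, Polynomial.coeff_map]
  have h1 : (((M'.charpoly.coeff r : laurentSubring (K := K) u) : K⟮u⟯) : F) *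
      ((toAdj (K := K) u X : K⟮u⟯) : F) ^ M = ((toAdj u P : K⟮u⟯) : F) := by
    rw [← hMP]
    push_cast
    rfl
  rw [toAdj_X_coe] at h1
  rw [← coe_toAdj]
  exact h1

end Fermat.Agent.BadRed.SeedNode
end
end MergeWrap_Lib_BadRed_Mod_SeedNodeCGen

section MergeWrap_Lib_BadRed_Mod_SeedNodeC -- from Lib/BadRed/Mod/SeedNodeC.lean

set_option autoImplicit false
set_option linter.style.haveILetI false
set_option linter.unusedSectionVars false

/-!
# Cluster T, WP M2 (seed node condition), piece C: the IMAGE CURVE  (helper33)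

`F / K` a function field (`IsRRField`), `x ∈ F` transcendental, `[F : K(x)] = n`.

* `exists_charpoly_poly` (in `SeedNodeC1.lean`): if `f` has no poles off the poles of `x`, the
  characteristic polynomial of `f` on `F / K(x)` is `Φ(x, X)` with `Φ ∈ K[T][X]` monic.
* `regular_of_charpoly_poly` (in `SeedNodeC1.lean`): conversely.
* `root_iff_exists_place` : for such `Φ` and `a c : K`:
  `Φ(a, c) = 0  ↔  ∃ Q, x(Q) = a ∧ f(Q) = c`.   PROVED.
* `exists_poly_root_iff` : (C1) + (C2) at `a = 0` in one statement.  PROVED.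
* `exists_laurent_coeff` : if the poles of `f` are among the zeros and poles of `u`, the
  coefficients of the characteristic polynomial of `f` on `F / K(u)` are Laurent polynomials
  in `u`.   PROVED.

Sorry-free.

No separability hypothesis (the proofs use the reduced basis of `Lib/RR/Hurwitz/Norm.lean`).
-/

noncomputable section

open AlgebraicCurve IntermediateField Polynomial

namespace Fermat.Agent.BadRed.SeedNode

open Fermat.Agent.RR Fermat.Agent.RRHur

variable {K F : Type*} [Field K] [Field F] [Algebra K F]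

theorem adicValuation_lt_one_iff (v : Place K F) (y : F) :
    v.adicValuation y < 1 ↔ y = 0 ∨ 0 < v.ord y := by
  rcases eq_or_ne y 0 with rfl | hy
  · simp
  · rw [v.adicValuation_eq_exp_neg_ord hy, ← WithZero.exp_zero, WithZero.exp_lt_exp,
      or_iff_right hy]
    omega

theorem valAt_iff (Q : Place K F) (f : F) (c : K) :
    ValAt Q f c ↔ Q.adicValuation (algebraMap K F c - f) < 1 := by
  rw [adicValuation_lt_one_iff, ValAt]
  have h1 : algebraMap K F c - f = -(f - algebraMap K F c) := by ring
  have h2 : Q.ord (algebraMap K F c - f) = Q.ord (f - algebraMap K F c) := by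
    unfold Place.ord
    rw [h1, Valuation.map_neg]
  rw [h2, sub_eq_zero, sub_eq_zero.symm.trans (by rw [sub_eq_zero] : f - algebraMap K F c = 0 ↔ f = algebraMap K F c)]
  constructor
  · rintro (h | h)
    · exact Or.inl h.symm
    · exact Or.inr h
  · rintro (h | h)
    · exact Or.inl h.symm
    · exact Or.inr h

/-- evaluation of a bivariate polynomial in the two orders. -/
theorem eval_map_evalRingHom (Φ : Polynomial (Polynomial K)) (a c : K) :
    (Φ.map (Polynomial.evalRingHom a)).eval c = (Φ.eval (Polynomial.C c)).eval a := by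
  rw [Polynomial.eval_map]
  have := Polynomial.hom_eval₂ Φ (RingHom.id (Polynomial K)) (Polynomial.evalRingHom a)
    (Polynomial.C c)
  simp only [RingHom.comp_id, Polynomial.coe_evalRingHom, Polynomial.eval_C] at this
  rw [← this]
  rfl

/-- the value of the characteristic polynomial at a constant is the determinant of the matrix
of `c - f`. -/
theorem eval_C_eq_det {x : F} (hx : Transcendental K x) [FiniteDimensional K⟮x⟯ F] {n : ℕ}
    (b : Module.Basis (Fin n) K⟮x⟯ F) (f : F) (Φ : Polynomial (Polynomial K))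
    (hΦ : Φ.map (toAdj x) = LinearMap.charpoly (LinearMap.mulLeft K⟮x⟯ f)) (c : K)
    (m : Matrix (Fin n) (Fin n) K[X])
    (hm : Algebra.leftMulMatrix b (algebraMap K F c - f) = m.map (toAdj x)) :
    Φ.eval (Polynomial.C c) = m.det := by
  classical
  apply toAdj_injective hx
  have h1 : toAdj x (Φ.eval (Polynomial.C c)) = (Φ.map (toAdj x)).eval (toAdj x (Polynomial.C c)) := by
    rw [Polynomial.eval_map, Polynomial.eval₂_at_apply]
  rw [h1, hΦ, charpoly_mulLeft_eq b f, Matrix.eval_charpoly, toAdj_C]
  have h2 : Matrix.scalar (Fin n) (algebraMap K K⟮x⟯ c) - Algebra.leftMulMatrix b f =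
      Algebra.leftMulMatrix b (algebraMap K F c - f) := by
    rw [map_sub]
    congr 1
    have h3 : algebraMap K F c = algebraMap K⟮x⟯ F (algebraMap K K⟮x⟯ c) := rfl
    rw [h3, AlgHom.commutes]
    rfl
  rw [h2, hm]
  have := RingHom.map_det (toAdj (K := K) x) m
  rw [RingHom.mapMatrix_apply] at this
  exact this.symm

/-- (C2) the ROOT FORMULA: `Φ(a, c) = 0` iff some place over `x = a` has `f = c`. -/
theorem root_iff_exists_place (h : IsRRField K F) {x : F} (hx : Transcendental K x)
    [FiniteDimensional K⟮x⟯ F] (f : F) (Φ : Polynomial (Polynomial K))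
    (hΦ : Φ.map (toAdj x) = LinearMap.charpoly (LinearMap.mulLeft K⟮x⟯ f)) (a c : K) :
    (Φ.map (Polynomial.evalRingHom a)).eval c = 0 ↔
      ∃ Q : Place K F, 0 < Q.ord (x - algebraMap K F a) ∧ ValAt Q f c := by
  have hxa0 : x - algebraMap K F a ≠ 0 := by
    intro h0
    apply hx
    rw [sub_eq_zero] at h0
    rw [h0]
    exact isAlgebraic_algebraMap a
  have hf : IntAway (K := K) x f := intAway_iff.mpr (regular_of_charpoly_poly f Φ hΦ)
  have hg : IntAway (K := K) x (algebraMap K F c - f) := by
    refine IntAway.sub (fun v _ => v.adicValuation_algebraMap_le_one c) hf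
  obtain ⟨b, hb, hint⟩ := exists_int_basis h hx
  obtain ⟨m, hm, hmat⟩ := exists_matrix b hint hb _ hg
  rw [eval_map_evalRingHom, eval_C_eq_det hx b f Φ hΦ c m hmat]
  have hconv : ∀ Q : Place K F, (0 < Q.ord (x - algebraMap K F a) ∧ ValAt Q f c) ↔
      (Q.adicValuation (x - algebraMap K F a) < 1 ∧
        Q.adicValuation (algebraMap K F c - f) < 1) := by
    intro Q
    rw [valAt_iff, adicValuation_lt_one_iff Q (x - algebraMap K F a), or_iff_right hxa0]
  simp only [hconv]
  constructor
  · intro hdet
    exact exists_place_of_det_eval_eq_zero b hx hint hb _ hg m hm a hdet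
  · rintro ⟨Q, hQ, hgQ⟩
    exact det_eval_eq_zero_of_place b hint hb _ m hm a Q hQ hgQ

/-- helper47's shape of (C1) + (C2) at `a = 0`. -/
theorem exists_poly_root_iff (h : IsRRField K F) {x : F} (hx : Transcendental K x)
    [FiniteDimensional K⟮x⟯ F] (f : F) (hf : ∀ v : Place K F, 0 ≤ v.ord x → 0 ≤ v.ord f) :
    ∃ Φ : Polynomial (Polynomial K), Φ.Monic ∧
      (∀ i, (((LinearMap.charpoly (LinearMap.mulLeft K⟮x⟯ f)).coeff i : K⟮x⟯) : F) =
        Polynomial.aeval x (Φ.coeff i)) ∧
      ∀ c : K, (Φ.map (Polynomial.evalRingHom 0)).eval c = 0 ↔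
        ∃ Q : Place K F, 0 < Q.ord x ∧ ValAt Q f c := by
  obtain ⟨Φ, hmonic, hΦ⟩ := exists_charpoly_poly h hx f hf
  refine ⟨Φ, hmonic, fun i => ?_, fun c => ?_⟩
  · rw [← hΦ, Polynomial.coeff_map, coe_toAdj]
  · have := root_iff_exists_place h hx f Φ hΦ 0 c
    simpa using this

/-- (C-gen) generic fibre: if the poles of `f` are among the zeros and poles of `u`, the
coefficients of the characteristic polynomial of `f` over `K(u)` are Laurent polynomials in `u`.
(Proof: helper47, `SeedNodeCGen.lean`.) -/
theorem exists_laurent_coeff (h : IsRRField K F) {u : F} (hu : Transcendental K u)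
    [FiniteDimensional K⟮u⟯ F] (f : F) (hf : ∀ v : Place K F, v.ord f < 0 → v.ord u ≠ 0)
    (r : ℕ) :
    ∃ (M : ℕ) (P : K[X]),
      (((LinearMap.charpoly (LinearMap.mulLeft K⟮u⟯ f)).coeff r : K⟮u⟯) : F) * u ^ M =
        Polynomial.aeval u P :=
  exists_laurent_coeff_gen h hu f hf r

end Fermat.Agent.BadRed.SeedNode
end
end MergeWrap_Lib_BadRed_Mod_SeedNodeC
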