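import Mathlib
import Fermat.Prelude.Def_ModularCurve_X0
import Fermat.Agent.MUL.S28.QExp
import Fermat.Agent.MUL.Orig.S20.Ramanujan
import Fermat.Agent.MUL.Orig.S23.LevelOne
import Fermat.Agent.MUL.Orig.Lib.BadRed.Mod.SSDefs
import Fermat.Agent.MUL.Lib.BadRed.Mod.SSArith
import Fermat.Agent.MUL.Lib.GoodRed.ModularFibres
import Fermat.Agent.MUL.Lib.GoodRed.Small.PolyOrd
import Fermat.Agent.MUL.Lib.GenusEq.GenusFM
import Fermat.Agent.MUL.S24.Comb
import Fermat.Agent.MUL.Lib.BadRed.Nodal.Gluing.Push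

section MergeWrap_S16_SwD_Series -- from S16/SwD/Series.lean

set_option autoImplicit false

namespace Fermat.Agent.SwD

open PowerSeries

/-- `θ = q d/dq` on power series, defined coefficientwise. -/
noncomputable def thetaOp {A : Type*} [Semiring A] (f : PowerSeries A) : PowerSeries A :=
  PowerSeries.mk fun n => (n : A) * PowerSeries.coeff n f

@[simp] lemma coeff_thetaOp {A : Type*} [Semiring A] (f : PowerSeries A) (n : ℕ) :
    PowerSeries.coeff n (thetaOp f) = (n : A) * PowerSeries.coeff n f := by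
  simp [thetaOp]

lemma thetaOp_eq_X_mul_derivative {A : Type*} [CommRing A] (f : PowerSeries A) :
    thetaOp f = PowerSeries.X * PowerSeries.derivative A f := by
  ext n
  rcases n with _ | n
  · simp
  · rw [coeff_thetaOp, PowerSeries.coeff_succ_X_mul, PowerSeries.coeff_derivative]
    push_cast
    ring

lemma map_thetaOp {A B : Type*} [Semiring A] [Semiring B] (φ : A →+* B) (f : PowerSeries A) :
    PowerSeries.map φ (thetaOp f) = thetaOp (PowerSeries.map φ f) := by
  ext n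
  simp

/-- The integer `q`-series of `E₂`. -/
noncomputable def e2Z : PowerSeries ℤ :=
  PowerSeries.mk fun n => if n = 0 then 1 else -24 * ∑ d ∈ n.divisors, (d : ℤ)

/-- The integer `q`-series of `E₄` (the Prelude's `eisenstein4`). -/
noncomputable def e4Z : PowerSeries ℤ := ModularCurve.eisenstein4

/-- The integer `q`-series of `E₆`. -/
noncomputable def e6Z : PowerSeries ℤ :=
  PowerSeries.mk fun n => if n = 0 then 1 else -504 * ∑ d ∈ n.divisors, (d : ℤ) ^ 5

/-- The integer `q`-series of `Δ`. -/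
noncomputable def deltaZ : PowerSeries ℤ := PowerSeries.X * ModularCurve.dedekindEtaUnit

@[simp] lemma constantCoeff_e2Z : PowerSeries.constantCoeff e2Z = 1 := by
  rw [← PowerSeries.coeff_zero_eq_constantCoeff]; simp [e2Z]

@[simp] lemma constantCoeff_e4Z : PowerSeries.constantCoeff e4Z = 1 :=
  ModularCurve.constantCoeff_eisenstein4

@[simp] lemma constantCoeff_e6Z : PowerSeries.constantCoeff e6Z = 1 := by
  rw [← PowerSeries.coeff_zero_eq_constantCoeff]; simp [e6Z]

end Fermat.Agent.SwD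
end MergeWrap_S16_SwD_Series

section MergeWrap_S16_SwD_QExp -- from S16/SwD/QExp.lean

set_option autoImplicit false

namespace Fermat.Agent.SwD

open UpperHalfPlane ModularForm EisensteinSeries Filter
open scoped MatrixGroups ModularForm Manifold Derivative Topology
open Fermat.Agent.S28.QExp (taylor0 coeff_taylor0 qFun qa_of_eq taylor0_mul taylor0_id)

theorem qExpansion_E₄_eq : qExpansion 1 E₄ = PowerSeries.map (Int.castRingHom ℂ) e4Z :=
  Fermat.Agent.S28.QExp.qExpansion_E4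

theorem qExpansion_E₆_eq : qExpansion 1 E₆ = PowerSeries.map (Int.castRingHom ℂ) e6Z := by
  ext n
  rw [E_qExpansion_coeff _ ⟨3, rfl⟩, PowerSeries.coeff_map, e6Z, PowerSeries.coeff_mk]
  by_cases h : n = 0
  · simp [h]
  · simp only [h, if_false]
    rw [ArithmeticFunction.sigma_apply]
    norm_num [show bernoulli 6 = 1 / 42 by decide +kernel]

theorem qExpansion_discriminant_eq :
    qExpansion 1 ModularForm.discriminant = PowerSeries.map (Int.castRingHom ℂ) deltaZ := by
  rw [Fermat.Agent.S28.QExp.qExpansion_discriminant, deltaZ, map_mul, PowerSeries.map_X]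

lemma analyticAt_cuspFunction_E2 : AnalyticAt ℂ (cuspFunction 1 E2) 0 :=
  analyticAt_cuspFunction_zero one_pos Fermat.Agent.S20.ramanujanAux_periodic_E2
    E2_mdifferentiable isBoundedAtImInfty_E2

theorem qExpansion_E2_eq :
    UpperHalfPlane.qExpansion 1 E2 = PowerSeries.map (Int.castRingHom ℂ) e2Z := by
  have hsum : ∀ τ : ℍ, HasSum (fun m : ℕ =>
      (if m = 0 then 1 else -24 * (ArithmeticFunction.sigma 1 m : ℂ)) •
        Function.Periodic.qParam 1 τ ^ m) (E2 τ) := fun τ => by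
    simpa only [Function.Periodic.qParam, Complex.ofReal_one, div_one] using
      hasSum_qExpansion_E2 (z := τ)
  have hps := hasFPowerSeriesOnBall_cuspFunction (h := 1) (f := E2)
    (c := fun m : ℕ => (if m = 0 then 1 else -24 * (ArithmeticFunction.sigma 1 m : ℂ)))
    one_pos analyticAt_cuspFunction_E2 hsum
  have h1 := Fermat.Agent.S28.QExp.taylor0_eq_of_hasFPowerSeriesAt hps.hasFPowerSeriesAt
  rw [Fermat.Agent.S28.QExp.qExpansion_eq_taylor0, h1]
  ext n
  rw [PowerSeries.coeff_mk, PowerSeries.coeff_map, e2Z, PowerSeries.coeff_mk]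
  by_cases h0 : n = 0
  · simp only [h0, if_true]
    simp
  · simp only [h0, if_false]
    rw [ArithmeticFunction.sigma_apply]
    push_cast
    simp

lemma taylor0_deriv (g : ℂ → ℂ) :
    taylor0 (deriv g) = PowerSeries.derivative ℂ (taylor0 g) := by
  ext n
  rw [coeff_taylor0, PowerSeries.coeff_derivative, coeff_taylor0, ← iteratedDeriv_succ',
    Nat.factorial_succ]
  have hn : ((n : ℂ) + 1) ≠ 0 := by exact_mod_cast Nat.succ_ne_zero n
  have hf : ((n.factorial : ℕ) : ℂ) ≠ 0 := by exact_mod_cast Nat.factorial_ne_zero n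
  push_cast
  field_simp

/-- The `q`-expansion of `D F = (2πi)⁻¹ F'` is `θ = q d/dq` of the `q`-expansion of `F`. -/
theorem qExpansion_D_eq {F : ℍ → ℂ} (hper : Function.Periodic (F ∘ ofComplex) 1)
    (hhol : MDiff F) (hbdd : IsBoundedAtImInfty F) :
    UpperHalfPlane.qExpansion 1 (D F) = thetaOp (UpperHalfPlane.qExpansion 1 F) := by
  have han : AnalyticAt ℂ (cuspFunction 1 F) 0 :=
    analyticAt_cuspFunction_zero one_pos hper hhol hbdd
  have h1 := (qa_of_eq (f := D F) (c := (fun q : ℂ => q) * deriv (cuspFunction 1 F)) one_pos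
    (analyticAt_id.mul han.deriv) (fun τ _ => by
      simpa [qFun] using Fermat.Agent.S20.ramanujanAux_D_eq hper hhol hbdd τ)).2
  rw [h1, taylor0_mul (c := fun q : ℂ => q) analyticAt_id han.deriv, taylor0_id, taylor0_deriv,
    thetaOp_eq_X_mul_derivative]
  rfl

/-- `D F` is analytic at the cusp. -/
theorem analyticAt_cuspFunction_D {F : ℍ → ℂ} (hper : Function.Periodic (F ∘ ofComplex) 1)
    (hhol : MDiff F) (hbdd : IsBoundedAtImInfty F) :
    AnalyticAt ℂ (cuspFunction 1 (D F)) 0 := by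
  have han : AnalyticAt ℂ (cuspFunction 1 F) 0 :=
    analyticAt_cuspFunction_zero one_pos hper hhol hbdd
  exact (qa_of_eq (f := D F) (c := (fun q : ℂ => q) * deriv (cuspFunction 1 F)) one_pos
    (analyticAt_id.mul han.deriv) (fun τ _ => by
      simpa [qFun] using Fermat.Agent.S20.ramanujanAux_D_eq hper hhol hbdd τ)).1

end Fermat.Agent.SwD
end MergeWrap_S16_SwD_QExp

section MergeWrap_S16_SwD_RamZ -- from S16/SwD/RamZ.lean

set_option autoImplicit false

namespace Fermat.Agent.SwD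

open UpperHalfPlane ModularForm EisensteinSeries Filter
open scoped MatrixGroups ModularForm Manifold Derivative Topology
open Fermat.Agent.S23 (QA)

/-- Ramanujan's identity for `E₂`, as functions on the upper half plane. -/
def RamanujanE2 : Prop := D E2 = (12 : ℂ)⁻¹ • (E2 * E2 - ⇑E₄)

lemma qa_E2 : QA E2 := analyticAt_cuspFunction_E2

lemma qa_modularForm {k : ℤ} (F : ModularForm 𝒮ℒ k) : QA (F : ℍ → ℂ) :=
  ModularFormClass.analyticAt_cuspFunction_zero F one_pos
    Fermat.Agent.S23.one_mem_strictPeriods_SL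

local notation "ιZ" => PowerSeries.map (Int.castRingHom ℂ)

lemma ιZ_injective : Function.Injective ιZ :=
  PowerSeries.map_injective _ Int.cast_injective

theorem ram4_complex : thetaOp (ιZ e4Z) = (3 : ℂ)⁻¹ • (ιZ e2Z * ιZ e4Z - ιZ e6Z) := by
  have h := congrArg (UpperHalfPlane.qExpansion 1) Fermat.Agent.S20.ramanujan_E₄
  rw [qExpansion_D_eq (Fermat.Agent.S20.ramanujanAux_periodic_MF E₄) E₄.holo'
      (Fermat.Agent.S20.ramanujanAux_bdd_MF E₄),
    QA.qExpansion_smul _ ((qa_E2.mul (qa_modularForm E₄)).sub (qa_modularForm E₆)),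
    sub_eq_add_neg, QA.qExpansion_add (qa_E2.mul (qa_modularForm E₄)) (qa_modularForm E₆).neg,
    QA.qExpansion_neg (qa_modularForm E₆), QA.qExpansion_mul qa_E2 (qa_modularForm E₄),
    qExpansion_E₄_eq, qExpansion_E₆_eq, qExpansion_E2_eq, ← sub_eq_add_neg] at h
  exact h

theorem ram6_complex : thetaOp (ιZ e6Z) = (2 : ℂ)⁻¹ • (ιZ e2Z * ιZ e6Z - ιZ e4Z * ιZ e4Z) := by
  have h := congrArg (UpperHalfPlane.qExpansion 1) Fermat.Agent.S20.ramanujan_E₆
  rw [qExpansion_D_eq (Fermat.Agent.S20.ramanujanAux_periodic_MF E₆) E₆.holo'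
      (Fermat.Agent.S20.ramanujanAux_bdd_MF E₆),
    QA.qExpansion_smul _ ((qa_E2.mul (qa_modularForm E₆)).sub
      ((qa_modularForm E₄).mul (qa_modularForm E₄))),
    sub_eq_add_neg, QA.qExpansion_add (qa_E2.mul (qa_modularForm E₆))
      ((qa_modularForm E₄).mul (qa_modularForm E₄)).neg,
    QA.qExpansion_neg ((qa_modularForm E₄).mul (qa_modularForm E₄)),
    QA.qExpansion_mul qa_E2 (qa_modularForm E₆),
    QA.qExpansion_mul (qa_modularForm E₄) (qa_modularForm E₄),
    qExpansion_E₄_eq, qExpansion_E₆_eq, qExpansion_E2_eq, ← sub_eq_add_neg] at h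
  exact h

theorem ram2_complex (hR : RamanujanE2) :
    thetaOp (ιZ e2Z) = (12 : ℂ)⁻¹ • (ιZ e2Z * ιZ e2Z - ιZ e4Z) := by
  have h := congrArg (UpperHalfPlane.qExpansion 1) hR
  rw [qExpansion_D_eq Fermat.Agent.S20.ramanujanAux_periodic_E2 E2_mdifferentiable
      isBoundedAtImInfty_E2,
    QA.qExpansion_smul _ ((qa_E2.mul qa_E2).sub (qa_modularForm E₄)),
    sub_eq_add_neg, QA.qExpansion_add (qa_E2.mul qa_E2) (qa_modularForm E₄).neg,
    QA.qExpansion_neg (qa_modularForm E₄), QA.qExpansion_mul qa_E2 qa_E2,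
    qExpansion_E₄_eq, qExpansion_E2_eq, ← sub_eq_add_neg] at h
  exact h

lemma mul_of_eq_inv_smul (c : ℂ) (hc : c ≠ 0) {a b : PowerSeries ℂ} (h : a = c⁻¹ • b) :
    PowerSeries.C c * a = b := by
  rw [h]
  ext n
  rw [PowerSeries.coeff_C_mul, PowerSeries.coeff_smul, smul_eq_mul]
  field_simp

theorem delta_complex : (1728 : PowerSeries ℂ) * ιZ deltaZ = ιZ e4Z ^ 3 - ιZ e6Z ^ 2 := by
  have hfun : (ModularForm.discriminant : ℍ → ℂ) =
      (1728 : ℂ)⁻¹ • ((E₄ : ℍ → ℂ) ^ 3 - (E₆ : ℍ → ℂ) ^ 2) := by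
    funext z
    simp only [Pi.smul_apply, Pi.sub_apply, Pi.pow_apply, smul_eq_mul]
    rw [discriminant_eq_E₄_cube_sub_E₆_sq z]
    ring
  have h := congrArg (UpperHalfPlane.qExpansion 1) hfun
  rw [QA.qExpansion_smul _ (((qa_modularForm E₄).pow 3).sub ((qa_modularForm E₆).pow 2)),
    sub_eq_add_neg, QA.qExpansion_add ((qa_modularForm E₄).pow 3) ((qa_modularForm E₆).pow 2).neg,
    QA.qExpansion_neg ((qa_modularForm E₆).pow 2), QA.qExpansion_pow (qa_modularForm E₄),
    QA.qExpansion_pow (qa_modularForm E₆),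
    qExpansion_E₄_eq, qExpansion_E₆_eq, qExpansion_discriminant_eq, ← sub_eq_add_neg] at h
  have h2 := mul_of_eq_inv_smul 1728 (by norm_num) h
  rwa [map_ofNat] at h2

/-! ### The identities over `ℤ` -/

theorem ram4_int : 3 * thetaOp e4Z = e2Z * e4Z - e6Z := by
  apply ιZ_injective
  rw [map_mul, map_thetaOp, map_sub, map_mul, map_ofNat]
  have h2 := mul_of_eq_inv_smul 3 (by norm_num) ram4_complex
  rwa [map_ofNat] at h2

theorem ram6_int : 2 * thetaOp e6Z = e2Z * e6Z - e4Z ^ 2 := by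
  apply ιZ_injective
  rw [map_mul, map_thetaOp, map_sub, map_mul, map_pow, map_ofNat, pow_two]
  have h2 := mul_of_eq_inv_smul 2 (by norm_num) ram6_complex
  rwa [map_ofNat] at h2

theorem ram2_int (hR : RamanujanE2) : 12 * thetaOp e2Z = e2Z ^ 2 - e4Z := by
  apply ιZ_injective
  rw [map_mul, map_thetaOp, map_sub, map_pow, map_ofNat, pow_two]
  have h2 := mul_of_eq_inv_smul 12 (by norm_num) (ram2_complex hR)
  rwa [map_ofNat] at h2

theorem delta_int : 1728 * deltaZ = e4Z ^ 3 - e6Z ^ 2 := by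
  apply ιZ_injective
  rw [map_mul, map_sub, map_pow, map_pow, map_ofNat]
  exact delta_complex

/-! ### The identities over any commutative ring -/

section general

variable {A : Type*} [CommRing A]

theorem ram4_map : 3 * thetaOp (PowerSeries.map (Int.castRingHom A) e4Z) =
    PowerSeries.map (Int.castRingHom A) e2Z * PowerSeries.map (Int.castRingHom A) e4Z -
      PowerSeries.map (Int.castRingHom A) e6Z := by
  have h := congrArg (PowerSeries.map (Int.castRingHom A)) ram4_int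
  rwa [map_mul, map_thetaOp, map_sub, map_mul, map_ofNat] at h

theorem ram6_map : 2 * thetaOp (PowerSeries.map (Int.castRingHom A) e6Z) =
    PowerSeries.map (Int.castRingHom A) e2Z * PowerSeries.map (Int.castRingHom A) e6Z -
      PowerSeries.map (Int.castRingHom A) e4Z ^ 2 := by
  have h := congrArg (PowerSeries.map (Int.castRingHom A)) ram6_int
  rwa [map_mul, map_thetaOp, map_sub, map_mul, map_pow, map_ofNat] at h

theorem ram2_map (hR : RamanujanE2) : 12 * thetaOp (PowerSeries.map (Int.castRingHom A) e2Z) =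
    PowerSeries.map (Int.castRingHom A) e2Z ^ 2 - PowerSeries.map (Int.castRingHom A) e4Z := by
  have h := congrArg (PowerSeries.map (Int.castRingHom A)) (ram2_int hR)
  rwa [map_mul, map_thetaOp, map_sub, map_pow, map_ofNat] at h

theorem delta_map : 1728 * PowerSeries.map (Int.castRingHom A) deltaZ =
    PowerSeries.map (Int.castRingHom A) e4Z ^ 3 - PowerSeries.map (Int.castRingHom A) e6Z ^ 2 := by
  have h := congrArg (PowerSeries.map (Int.castRingHom A)) delta_int
  rwa [map_mul, map_sub, map_pow, map_pow, map_ofNat] at h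

end general

end Fermat.Agent.SwD
end MergeWrap_S16_SwD_RamZ

section MergeWrap_S16_SwD_Alg -- from S16/SwD/Alg.lean

/-!
# Algebraic core of the Swinnerton-Dyer theorem (constants modulo `ℓ ≥ 5` at level one)

Pure algebra in `κ[Q, R]` and `κ⟦X⟧` (no modular forms): see `Fermat.Agent.S16SwD.alg_core`.
-/

namespace Fermat.Agent.S16SwD

open MvPolynomial

section Factor

variable {σ : Type*} {R : Type*} [CommRing R] (w : σ → ℕ)

/-- the grading homomorphism `X i ↦ X i * T ^ w i` -/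
noncomputable def gradHom : MvPolynomial σ R →ₐ[R] Polynomial (MvPolynomial σ R) :=
  aeval (fun i => Polynomial.C (X i) * Polynomial.X ^ (w i))

lemma gradHom_monomial (d : σ →₀ ℕ) (r : R) :
    gradHom w (monomial d r) = Polynomial.C (monomial d r) * Polynomial.X ^ (Finsupp.weight w d) := by
  classical
  unfold gradHom
  rw [aeval_monomial]
  have h1 : (d.prod fun i k => (Polynomial.C (X i : MvPolynomial σ R) * Polynomial.X ^ (w i)) ^ k)
      = Polynomial.C (d.prod fun i k => (X i : MvPolynomial σ R) ^ k) *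
        Polynomial.X ^ (Finsupp.weight w d) := by
    rw [Finsupp.weight_apply]
    simp only [Finsupp.prod, Finsupp.sum, mul_pow, Finset.prod_mul_distrib, map_prod, map_pow,
      ← pow_mul, Finset.prod_pow_eq_pow_sum, smul_eq_mul]
    congr 2
    exact Finset.sum_congr rfl (fun i _ => mul_comm _ _)
  rw [h1, ← mul_assoc]
  congr 1
  rw [monomial_eq, map_mul]
  rfl

lemma gradHom_of_isWeightedHomogeneous {P : MvPolynomial σ R} {n : ℕ}
    (h : IsWeightedHomogeneous w P n) :
    gradHom w P = Polynomial.C P * Polynomial.X ^ n := by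
  induction h using IsWeightedHomogeneous.induction_on with
  | zero => simp
  | add p q hp hq ihp ihq => rw [map_add, ihp, ihq, map_add, add_mul]
  | monomial d r hr => rw [gradHom_monomial, hr]

lemma coeff_coeff_gradHom (P : MvPolynomial σ R) (m : ℕ) (d : σ →₀ ℕ) :
    coeff d ((gradHom w P).coeff m) = if Finsupp.weight w d = m then coeff d P else 0 := by
  classical
  induction P using MvPolynomial.induction_on' with
  | monomial e r =>
    rw [gradHom_monomial, Polynomial.coeff_C_mul, Polynomial.coeff_X_pow]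
    by_cases hm : m = Finsupp.weight w e
    · subst hm
      simp only [if_true, mul_one, coeff_monomial]
      by_cases hde : e = d
      · subst hde; simp
      · simp [hde]
    · simp only [hm, if_false, mul_zero, coeff_zero, coeff_monomial]
      by_cases hde : e = d
      · subst hde; simp [Ne.symm hm]
      · simp [hde]
  | add p q hp hq =>
    rw [map_add, Polynomial.coeff_add, coeff_add, hp, hq, coeff_add]
    split_ifs <;> simp

lemma isWeightedHomogeneous_of_gradHom {P : MvPolynomial σ R} {n : ℕ}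
    (h : gradHom w P = Polynomial.C P * Polynomial.X ^ n) : IsWeightedHomogeneous w P n := by
  classical
  intro d hd
  have h1 := coeff_coeff_gradHom w P (Finsupp.weight w d) d
  rw [h, Polynomial.coeff_C_mul, Polynomial.coeff_X_pow] at h1
  simp only [if_true] at h1
  by_contra hne
  rw [if_neg hne] at h1
  simp at h1
  exact hd h1.symm

lemma eval_one_gradHom (P : MvPolynomial σ R) : (gradHom w P).eval 1 = P := by
  have : ((Polynomial.evalRingHom (1 : MvPolynomial σ R)).comp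
      (gradHom w : MvPolynomial σ R →ₐ[R] Polynomial (MvPolynomial σ R)).toRingHom)
      = RingHom.id _ := by
    apply MvPolynomial.ringHom_ext
    · intro r
      simp [gradHom]
    · intro i
      simp [gradHom]
  exact congrArg (fun f => f P) this

/-- A factor of a nonzero weighted homogeneous polynomial over a domain is weighted
homogeneous. -/
theorem isWeightedHomogeneous_of_mul [IsDomain R] {U V : MvPolynomial σ R} {n : ℕ}
    (h : IsWeightedHomogeneous w (U * V) n) (h0 : U * V ≠ 0) :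
    ∃ i j, i + j = n ∧ IsWeightedHomogeneous w U i ∧ IsWeightedHomogeneous w V j := by
  have hU0 : U ≠ 0 := left_ne_zero_of_mul h0
  have hV0 : V ≠ 0 := right_ne_zero_of_mul h0
  have hgU : gradHom w U ≠ 0 := by
    intro h1
    apply hU0
    rw [← eval_one_gradHom w U, h1]; simp
  have hgV : gradHom w V ≠ 0 := by
    intro h1
    apply hV0
    rw [← eval_one_gradHom w V, h1]; simp
  have hprod : gradHom w U * gradHom w V = Polynomial.C (U * V) * Polynomial.X ^ n := by
    rw [← map_mul, gradHom_of_isWeightedHomogeneous w h]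
  have hd : (gradHom w U).natDegree + (gradHom w V).natDegree = n := by
    rw [← Polynomial.natDegree_mul hgU hgV, hprod, Polynomial.natDegree_C_mul_X_pow _ _ h0]
  have ht : (gradHom w U).natTrailingDegree + (gradHom w V).natTrailingDegree = n := by
    rw [← Polynomial.natTrailingDegree_mul hgU hgV, hprod]
    rw [Polynomial.natTrailingDegree_mul_X_pow (by simpa using h0),
      Polynomial.natTrailingDegree_C, zero_add]
  have hU1 := Polynomial.natTrailingDegree_le_natDegree (p := gradHom w U)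
  have hV1 := Polynomial.natTrailingDegree_le_natDegree (p := gradHom w V)
  have hUe : (gradHom w U).natTrailingDegree = (gradHom w U).natDegree := by omega
  have hVe : (gradHom w V).natTrailingDegree = (gradHom w V).natDegree := by omega
  have key : ∀ (W : MvPolynomial σ R),
      (gradHom w W).natTrailingDegree = (gradHom w W).natDegree →
      IsWeightedHomogeneous w W (gradHom w W).natDegree := by
    intro W hW
    apply isWeightedHomogeneous_of_gradHom
    have h1 : gradHom w W = Polynomial.C ((gradHom w W).coeff (gradHom w W).natDegree) *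
        Polynomial.X ^ (gradHom w W).natDegree := by
      ext1 m
      rw [Polynomial.coeff_C_mul, Polynomial.coeff_X_pow]
      by_cases hm : m = (gradHom w W).natDegree
      · rw [if_pos hm, mul_one, hm]
      · rw [if_neg hm, mul_zero]
        rcases lt_or_gt_of_ne hm with hlt | hgt
        · exact Polynomial.coeff_eq_zero_of_lt_natTrailingDegree (hW ▸ hlt)
        · exact Polynomial.coeff_eq_zero_of_natDegree_lt hgt
    have h2 : (gradHom w W).coeff (gradHom w W).natDegree = W := by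
      have := eval_one_gradHom w W
      rw [h1] at this
      simpa using this
    rw [h2] at h1
    exact h1
  exact ⟨_, _, hd, key U hUe, key V hVe⟩

end Factor

section Core

variable {κ : Type*} [Field κ]

/-- weights (4, 6) -/
def wt : Fin 2 → ℕ := ![4, 6]

@[simp] lemma wt_zero : wt 0 = 4 := rfl
@[simp] lemma wt_one : wt 1 = 6 := rfl

/-- The Ramanujan–Serre derivation `D = 12 ∂` on `κ[Q, R]`: `D Q = -4 R`, `D R = -6 Q ^ 2`. -/
noncomputable def dRam (P : MvPolynomial (Fin 2) κ) : MvPolynomial (Fin 2) κ :=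
  -4 * X 1 * pderiv 0 P + -6 * X 0 ^ 2 * pderiv 1 P

lemma dRam_add (P Q : MvPolynomial (Fin 2) κ) : dRam (P + Q) = dRam P + dRam Q := by
  simp only [dRam, map_add]; ring

lemma dRam_mul (P Q : MvPolynomial (Fin 2) κ) : dRam (P * Q) = P * dRam Q + Q * dRam P := by
  simp only [dRam, Derivation.leibniz, smul_eq_mul]; ring

lemma dRam_pow (P : MvPolynomial (Fin 2) κ) (n : ℕ) :
    dRam (P ^ (n + 1)) = (n + 1 : ℕ) * P ^ n * dRam P := by
  induction n with
  | zero => simp
  | succ n ih =>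
    rw [pow_succ, dRam_mul, ih]
    push_cast
    ring

lemma isWH_mul_pderiv {σ : Type*} {w : σ → ℕ} {i : σ} {g : MvPolynomial σ κ} {c : ℕ}
    (hg : IsWeightedHomogeneous w g (w i + c)) {P : MvPolynomial σ κ} {k : ℕ}
    (hP : IsWeightedHomogeneous w P k) : IsWeightedHomogeneous w (g * pderiv i P) (k + c) := by
  induction hP using IsWeightedHomogeneous.induction_on with
  | zero => simpa using isWeightedHomogeneous_zero κ w (k + c)
  | add p q hp hq ihp ihq => rw [map_add, mul_add]; exact ihp.add ihq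
  | monomial d r hr =>
    rw [pderiv_monomial]
    by_cases hi : d i = 0
    · rw [hi]; simpa using isWeightedHomogeneous_zero κ w (k + c)
    · have h1 : IsWeightedHomogeneous w (monomial (d - Finsupp.single i 1) (r * (d i : κ)))
          (Finsupp.weight w (d - Finsupp.single i 1)) :=
        isWeightedHomogeneous_monomial w _ _ rfl
      have h2 := hg.mul h1
      have h3 : w i + c + Finsupp.weight w (d - Finsupp.single i 1) = k + c := by
        have := Finsupp.weight_sub_single_add (w := w) hi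
        omega
      rwa [h3] at h2

lemma isWH_dRam {P : MvPolynomial (Fin 2) κ} {k : ℕ} (hP : IsWeightedHomogeneous wt P k) :
    IsWeightedHomogeneous wt (dRam P) (k + 2) := by
  unfold dRam
  apply IsWeightedHomogeneous.add
  · apply isWH_mul_pderiv _ hP
    have h1 : IsWeightedHomogeneous wt (X 1 : MvPolynomial (Fin 2) κ) 6 :=
      isWeightedHomogeneous_X κ wt 1
    have := h1.C_mul (-4)
    rwa [map_neg, map_ofNat] at this
  · apply isWH_mul_pderiv _ hP
    have h1 : IsWeightedHomogeneous wt (X 0 : MvPolynomial (Fin 2) κ) 4 :=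
      isWeightedHomogeneous_X κ wt 0
    have := (h1.pow 2).C_mul (-6)
    rwa [map_neg, map_ofNat] at this

open PowerSeries in
lemma chain_rule (d : Derivation κ κ⟦X⟧ κ⟦X⟧) (e : Fin 2 → κ⟦X⟧) (P : MvPolynomial (Fin 2) κ) :
    d (aeval e P) = aeval e (pderiv 0 P) * d (e 0) + aeval e (pderiv 1 P) * d (e 1) := by
  induction P using MvPolynomial.induction_on with
  | C a =>
    have h1 : d (PowerSeries.C a) = 0 := by
      rw [show PowerSeries.C a = algebraMap κ κ⟦X⟧ a from rfl, Derivation.map_algebraMap]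
    simp [h1]
  | add p q hp hq => simp only [map_add, hp, hq]; ring
  | mul_X p i hp =>
    simp only [map_mul, aeval_X, Derivation.leibniz, smul_eq_mul, hp, map_add]
    fin_cases i
    · simp [pderiv_X]; ring
    · simp [pderiv_X]; ring



open PowerSeries in
/-- Ramanujan data over `κ`: three power series with constant term `1` satisfying the Ramanujan
differential equations, such that `e4 ^ 3 - e6 ^ 2 ≠ 0`. -/
structure RamSys (κ : Type*) [Field κ] where
  e2 : κ⟦X⟧
  e4 : κ⟦X⟧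
  e6 : κ⟦X⟧
  h2 : PowerSeries.constantCoeff e2 = 1
  h4 : PowerSeries.constantCoeff e4 = 1
  h6 : PowerSeries.constantCoeff e6 = 1
  hδ : e4 ^ 3 - e6 ^ 2 ≠ 0
  R2 : 12 * (PowerSeries.X * PowerSeries.derivative κ e2) = e2 ^ 2 - e4
  R4 : 3 * (PowerSeries.X * PowerSeries.derivative κ e4) = e2 * e4 - e6
  R6 : 2 * (PowerSeries.X * PowerSeries.derivative κ e6) = e2 * e6 - e4 ^ 2

namespace RamSys

open PowerSeries

variable (S : RamSys κ)

/-- evaluation `Q ↦ e4`, `R ↦ e6` -/
noncomputable def ev : MvPolynomial (Fin 2) κ →ₐ[κ] κ⟦X⟧ := aeval ![S.e4, S.e6]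

@[simp] lemma ev_X0 : S.ev (MvPolynomial.X 0) = S.e4 := by simp [ev]
@[simp] lemma ev_X1 : S.ev (MvPolynomial.X 1) = S.e6 := by simp [ev]
@[simp] lemma ev_C (a : κ) : S.ev (MvPolynomial.C a) = PowerSeries.C a := by
  simp [ev]

lemma ev_dRam {P : MvPolynomial (Fin 2) κ} {k : ℕ} (hP : IsWeightedHomogeneous wt P k) :
    S.ev (dRam P) = 12 * (PowerSeries.X * PowerSeries.derivative κ (S.ev P))
      - (k : κ⟦X⟧) * S.e2 * S.ev P := by
  have hc := chain_rule (PowerSeries.derivative κ) ![S.e4, S.e6] P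
  have hE := congrArg S.ev hP.sum_weight_X_mul_pderiv
  simp only [Fin.sum_univ_two, wt_zero, wt_one, map_add, map_mul, ev_X0, ev_X1,
    nsmul_eq_mul, map_ofNat, map_natCast, Nat.cast_ofNat] at hE
  have hD : S.ev (dRam P) = -4 * S.e6 * S.ev (pderiv 0 P) + -6 * S.e4 ^ 2 * S.ev (pderiv 1 P) := by
    simp only [dRam, map_add, map_mul, map_neg, map_pow, ev_X0, ev_X1, map_ofNat]
  rw [hD]
  change (PowerSeries.derivative κ) (S.ev P) = S.ev (pderiv 0 P) * _ + S.ev (pderiv 1 P) * _ at hc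
  simp only [Matrix.cons_val_zero, Matrix.cons_val_one] at hc
  rw [hc]
  linear_combination (-4 * S.ev (pderiv 0 P)) * S.R4 + (-6 * S.ev (pderiv 1 P)) * S.R6
    + (-S.e2) * hE

lemma constantCoeff_ev (P : MvPolynomial (Fin 2) κ) :
    PowerSeries.constantCoeff (S.ev P) = MvPolynomial.eval (fun _ => (1 : κ)) P := by
  have : ((PowerSeries.constantCoeff (R := κ)).comp (S.ev : MvPolynomial (Fin 2) κ →+* κ⟦X⟧))
      = MvPolynomial.eval (fun _ => (1 : κ)) := by
    apply MvPolynomial.ringHom_ext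
    · intro r; simp
    · intro i
      fin_cases i
      · simp [S.h4]
      · simp [S.h6]
  exact congrArg (fun f => f P) this

end RamSys


/-- `Δ' = Q ^ 3 - R ^ 2` -/
noncomputable def dlt : MvPolynomial (Fin 2) κ := X 0 ^ 3 - X 1 ^ 2

lemma isWH_X0 : IsWeightedHomogeneous wt (X 0 : MvPolynomial (Fin 2) κ) 4 :=
  isWeightedHomogeneous_X κ wt 0

lemma isWH_X1 : IsWeightedHomogeneous wt (X 1 : MvPolynomial (Fin 2) κ) 6 :=
  isWeightedHomogeneous_X κ wt 1

lemma isWH_dlt : IsWeightedHomogeneous wt (dlt : MvPolynomial (Fin 2) κ) 12 :=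
  ((isWH_X0 (κ := κ)).pow 3).sub ((isWH_X1 (κ := κ)).pow 2)

/-- canonical monomial of weight `k` -/
noncomputable def canMon (k : ℕ) : MvPolynomial (Fin 2) κ :=
  X 0 ^ ((k - 6 * ((k / 2) % 2)) / 4) * X 1 ^ ((k / 2) % 2)

lemma weight_wt (d : Fin 2 →₀ ℕ) : Finsupp.weight wt d = 4 * d 0 + 6 * d 1 := by
  rw [Finsupp.weight_apply, Finsupp.sum_fintype _ _ (by simp)]
  simp [Fin.sum_univ_two, mul_comm]

lemma monomial_eq_X_pow (d : Fin 2 →₀ ℕ) (r : κ) :
    monomial d r = C r * (X 0 ^ d 0 * X 1 ^ d 1) := by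
  rw [monomial_eq, Finsupp.prod_fintype _ _ (by simp)]
  simp [Fin.prod_univ_two]

lemma dlt_dvd_canMon_sub (d : Fin 2 →₀ ℕ) :
    (dlt : MvPolynomial (Fin 2) κ) ∣ canMon (Finsupp.weight wt d) - monomial d (1 : κ) := by
  rw [weight_wt, monomial_eq_X_pow, C_1, one_mul]
  unfold canMon
  have h1 : ((4 * d 0 + 6 * d 1) / 2) % 2 = d 1 % 2 := by omega
  have h2 : (4 * d 0 + 6 * d 1 - 6 * (d 1 % 2)) / 4 = d 0 + 3 * (d 1 / 2) := by omega
  rw [h1, h2]
  have h3 : (X 1 : MvPolynomial (Fin 2) κ) ^ d 1 = (X 1 ^ 2) ^ (d 1 / 2) * X 1 ^ (d 1 % 2) := by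
    rw [← pow_mul, ← pow_add]
    congr 1
    omega
  have h4 : (X 0 : MvPolynomial (Fin 2) κ) ^ (d 0 + 3 * (d 1 / 2)) * X 1 ^ (d 1 % 2)
      - X 0 ^ d 0 * X 1 ^ d 1
      = X 0 ^ d 0 * X 1 ^ (d 1 % 2) * ((X 0 ^ 3) ^ (d 1 / 2) - (X 1 ^ 2) ^ (d 1 / 2)) := by
    rw [h3, pow_add, pow_mul]
    ring
  rw [h4]
  exact Dvd.dvd.mul_left (sub_dvd_pow_sub_pow _ _ _) _

lemma dlt_dvd_sub_canMon {P : MvPolynomial (Fin 2) κ} {k : ℕ}
    (hP : IsWeightedHomogeneous wt P k) :
    (dlt : MvPolynomial (Fin 2) κ) ∣ P - C (MvPolynomial.eval (fun _ => (1 : κ)) P) * canMon k := by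
  induction hP using IsWeightedHomogeneous.induction_on with
  | zero => simp
  | add p q hp hq ihp ihq =>
    have : p + q - C (MvPolynomial.eval (fun _ => (1 : κ)) (p + q)) * canMon k
        = (p - C (MvPolynomial.eval (fun _ => (1 : κ)) p) * canMon k)
          + (q - C (MvPolynomial.eval (fun _ => (1 : κ)) q) * canMon k) := by
      simp only [map_add]; ring
    rw [this]
    exact dvd_add ihp ihq
  | monomial d r hr =>
    have h1 : MvPolynomial.eval (fun _ => (1 : κ)) (monomial d r) = r := by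
      simp [eval_monomial]
    have h2 : monomial d r - C r * canMon k = -(C r * (canMon k - monomial d (1 : κ))) := by
      rw [mul_sub, C_mul_monomial, mul_one]
      ring
    rw [h1, h2, ← hr]
    exact (Dvd.dvd.mul_left (dlt_dvd_canMon_sub d) _).neg_right

namespace RamSys

variable (S : RamSys κ)

lemma ev_dlt : S.ev dlt = S.e4 ^ 3 - S.e6 ^ 2 := by
  simp [dlt]

/-- `ev` is injective on each isobaric piece. -/
theorem eq_zero_of_ev_eq_zero : ∀ (k : ℕ) (P : MvPolynomial (Fin 2) κ),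
    IsWeightedHomogeneous wt P k → S.ev P = 0 → P = 0 := by
  intro k
  induction k using Nat.strong_induction_on with
  | _ k ih =>
    intro P hP h
    have hc : MvPolynomial.eval (fun _ => (1 : κ)) P = 0 := by
      rw [← S.constantCoeff_ev, h]; simp
    have hdvd : (dlt : MvPolynomial (Fin 2) κ) ∣ P := by
      simpa [hc] using dlt_dvd_sub_canMon hP
    obtain ⟨P₁, rfl⟩ := hdvd
    by_contra hne
    obtain ⟨i, j, hij, hi, hj⟩ := isWeightedHomogeneous_of_mul wt hP hne
    have hdlt0 : (dlt : MvPolynomial (Fin 2) κ) ≠ 0 := left_ne_zero_of_mul hne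
    have hi12 : i = 12 := hi.inj_right hdlt0 isWH_dlt
    have hev : S.ev dlt * S.ev P₁ = 0 := by rw [← map_mul]; exact h
    rcases mul_eq_zero.mp hev with h1 | h1
    · exact S.hδ (S.ev_dlt ▸ h1)
    · have := ih j (by omega) P₁ hj h1
      rw [this, mul_zero] at hne
      exact hne rfl

theorem eq_of_ev_eq {k : ℕ} {P P' : MvPolynomial (Fin 2) κ}
    (hP : IsWeightedHomogeneous wt P k) (hP' : IsWeightedHomogeneous wt P' k)
    (h : S.ev P = S.ev P') : P = P' := by
  have := S.eq_zero_of_ev_eq_zero k (P - P') (hP.sub hP') (by rw [map_sub, h, sub_self])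
  exact sub_eq_zero.mp this

end RamSys


lemma eq_C_of_isWH_zero {P : MvPolynomial (Fin 2) κ} (h : IsWeightedHomogeneous wt P 0) :
    P = C (coeff 0 P) := by
  have := h.eq_monomial_of_unique_weight (d₀ := 0) (fun d hd => by
    rw [weight_wt] at hd
    ext i
    fin_cases i
    · simp only [Fin.zero_eta, Finsupp.coe_zero, Pi.zero_apply]; omega
    · simp only [Fin.mk_one, Finsupp.coe_zero, Pi.zero_apply]; omega)
  exact this

lemma eq_zero_of_isWH_two {P : MvPolynomial (Fin 2) κ} (h : IsWeightedHomogeneous wt P 2) :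
    P = 0 :=
  h.eq_zero_of_no_monomials (fun d => by rw [weight_wt]; omega)

lemma weight_pos_of_prime {π : MvPolynomial (Fin 2) κ} (hπ : Prime π) {w : ℕ}
    (hw : IsWeightedHomogeneous wt π w) : 0 < w := by
  rcases Nat.eq_zero_or_pos w with h0 | h0
  · exfalso
    subst h0
    have h1 := eq_C_of_isWH_zero hw
    have h2 : coeff 0 π ≠ 0 := by
      intro h3
      rw [h3, map_zero] at h1
      exact hπ.ne_zero h1
    apply hπ.not_isUnit
    rw [h1]
    exact (isUnit_iff_ne_zero.mpr h2).map C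
  · exact h0

namespace RamSys

variable (S : RamSys κ) (ℓ : ℕ) [hℓ : Fact ℓ.Prime] [CharP κ ℓ]

omit hℓ in
lemma cast_char_ps : ((ℓ : ℕ) : PowerSeries κ) = 0 := by
  rw [← map_natCast (PowerSeries.C (R := κ)), CharP.cast_eq_zero, map_zero]

variable {A : MvPolynomial (Fin 2) κ}

include hℓ in
lemma ev_dRam_A (hA : IsWeightedHomogeneous wt A (ℓ - 1)) (hA1 : S.ev A = 1) :
    S.ev (dRam A) = S.e2 := by
  rw [S.ev_dRam hA, hA1]
  have h1 : ((ℓ - 1 : ℕ) : PowerSeries κ) = -1 := by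
    have h : 1 ≤ ℓ := hℓ.out.one_le
    rw [Nat.cast_sub h, cast_char_ps, Nat.cast_one, zero_sub]
  rw [h1]
  simp

include hℓ in
lemma dRam_dRam_A (hA : IsWeightedHomogeneous wt A (ℓ - 1)) (hA1 : S.ev A = 1) :
    dRam (dRam A) = -(X 0 * A) := by
  have h : 1 ≤ ℓ := hℓ.out.one_le
  have hB : IsWeightedHomogeneous wt (dRam A) (ℓ - 1 + 2) := isWH_dRam hA
  have hDB : IsWeightedHomogeneous wt (dRam (dRam A)) (ℓ - 1 + 2 + 2) := isWH_dRam hB
  have hXA : IsWeightedHomogeneous wt (-(X 0 * A)) (4 + (ℓ - 1)) := (isWH_X0.mul hA).neg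
  have e1 : ℓ - 1 + 2 + 2 = 4 + (ℓ - 1) := by omega
  rw [e1] at hDB
  apply S.eq_of_ev_eq hDB hXA
  rw [S.ev_dRam hB, S.ev_dRam_A ℓ hA hA1, map_neg, map_mul, hA1, ev_X0, mul_one]
  have h1 : ((ℓ - 1 + 2 : ℕ) : PowerSeries κ) = 1 := by
    have e2 : ℓ - 1 + 2 = ℓ + 1 := by omega
    rw [e2, Nat.cast_add, cast_char_ps, Nat.cast_one, zero_add]
  rw [h1, S.R2]
  ring

omit hℓ in
lemma not_dvd_dRam {π : MvPolynomial (Fin 2) κ} (hπ : Prime π) (hA1 : S.ev A = 1)
    (hπA : π ∣ A) {w : ℕ} (hw : IsWeightedHomogeneous wt π w) (hwℓ : w < ℓ) :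
    ¬ π ∣ dRam π := by
  intro hdvd
  have hw0 : 0 < w := weight_pos_of_prime hπ hw
  have hD0 : dRam π = 0 := by
    by_contra hne
    obtain ⟨g, hg⟩ := hdvd
    have hDw : IsWeightedHomogeneous wt (π * g) (w + 2) := hg ▸ isWH_dRam hw
    obtain ⟨i, j, hij, hi, hj⟩ := isWeightedHomogeneous_of_mul wt hDw (hg ▸ hne)
    have hiw : i = w := hi.inj_right hπ.ne_zero hw
    have hj2 : j = 2 := by omega
    rw [hj2] at hj
    rw [hg, eq_zero_of_isWH_two hj, mul_zero] at hne
    exact hne rfl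
  have hev := S.ev_dRam hw
  rw [hD0, map_zero] at hev
  have hcc := congrArg (PowerSeries.constantCoeff (R := κ)) hev
  obtain ⟨q, hq⟩ := hπA
  have h1 : S.ev π * S.ev q = 1 := by rw [← map_mul, ← hq, hA1]
  have h2 := congrArg (PowerSeries.constantCoeff (R := κ)) h1
  simp only [map_mul, map_one] at h2
  have hc0 : PowerSeries.constantCoeff (S.ev π) ≠ 0 := left_ne_zero_of_mul_eq_one h2
  simp only [map_zero, map_sub, map_mul, PowerSeries.constantCoeff_X, zero_mul, mul_zero,
    map_natCast, S.h2, mul_one, zero_sub, zero_eq_neg] at hcc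
  rcases mul_eq_zero.mp hcc with h3 | h3
  · rw [CharP.cast_eq_zero_iff κ ℓ] at h3
    have := Nat.le_of_dvd hw0 h3
    omega
  · exact hc0 h3

include hℓ in
lemma not_sq_dvd (hA : IsWeightedHomogeneous wt A (ℓ - 1)) (hA1 : S.ev A = 1)
    {π : MvPolynomial (Fin 2) κ} (hπ : Prime π) : ¬ π ^ 2 ∣ A := by
  intro h2
  have hℓ1 : 1 ≤ ℓ := hℓ.out.one_le
  have hA0 : A ≠ 0 := by
    intro h; rw [h, map_zero] at hA1; exact zero_ne_one hA1
  have hfin : FiniteMultiplicity π A := FiniteMultiplicity.of_prime_left hπ hA0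
  obtain ⟨h, hAe, hndvd⟩ := hfin.exists_eq_pow_mul_and_not_dvd
  have he2 : 2 ≤ multiplicity π A := hfin.le_multiplicity_of_pow_dvd h2
  obtain ⟨n, hn⟩ := Nat.exists_eq_add_of_le he2
  rw [hn] at hAe
  have hn2 : 2 + n = n + 2 := by omega
  rw [hn2] at hAe
  -- weights
  have hAe' : IsWeightedHomogeneous wt (π ^ (n + 2) * h) (ℓ - 1) := hAe ▸ hA
  obtain ⟨i, j, hij, hi, hj⟩ := isWeightedHomogeneous_of_mul wt hAe' (hAe ▸ hA0)
  have hπpow : π ^ (n + 2) ≠ 0 := pow_ne_zero _ hπ.ne_zero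
  have hi' : IsWeightedHomogeneous wt (π * π ^ (n + 1)) i := by
    rw [← pow_succ']; exact hi
  obtain ⟨w, w', hww, hw, -⟩ := isWeightedHomogeneous_of_mul wt hi'
    (by rw [← pow_succ']; exact hπpow)
  have hw0 : 0 < w := weight_pos_of_prime hπ hw
  have hiw : i = (n + 2) * w := by
    have := hw.pow (n + 2)
    rw [smul_eq_mul] at this
    exact hi.inj_right hπpow this
  have hle : (n + 2) * 1 ≤ (n + 2) * w := Nat.mul_le_mul_left _ hw0
  have hle' : 1 * w ≤ (n + 2) * w := Nat.mul_le_mul_right _ (by omega)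
  have hnℓ : n + 2 < ℓ := by omega
  have hwℓ : w < ℓ := by omega
  have hπA : π ∣ A := (dvd_pow_self π (by omega : (2 : ℕ) ≠ 0)).trans h2
  have hndD := S.not_dvd_dRam ℓ hπ hA1 hπA hw hwℓ
  have hc1 : ((n + 1 : ℕ) : κ) ≠ 0 := by
    intro h3
    rw [CharP.cast_eq_zero_iff κ ℓ] at h3
    have := Nat.le_of_dvd (by omega) h3
    omega
  have hc2 : ((n + 2 : ℕ) : κ) ≠ 0 := by
    intro h3
    rw [CharP.cast_eq_zero_iff κ ℓ] at h3
    have := Nat.le_of_dvd (by omega) h3
    omega
  have hu1 : IsUnit (C ((n + 1 : ℕ) : κ) : MvPolynomial (Fin 2) κ) :=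
    (isUnit_iff_ne_zero.mpr hc1).map C
  have hu2 : IsUnit (C ((n + 2 : ℕ) : κ) : MvPolynomial (Fin 2) κ) :=
    (isUnit_iff_ne_zero.mpr hc2).map C
  -- derivative computations
  set B₁ : MvPolynomial (Fin 2) κ := π * dRam h + C ((n + 2 : ℕ) : κ) * (h * dRam π) with hB₁
  have hDA : dRam A = π ^ (n + 1) * B₁ := by
    rw [hAe, dRam_mul, dRam_pow, hB₁]
    simp only [map_natCast]
    ring
  have hDDA : dRam (dRam A) = π ^ n * (π * dRam B₁ + C ((n + 1 : ℕ) : κ) * (B₁ * dRam π)) := by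
    rw [hDA, dRam_mul, dRam_pow]
    simp only [map_natCast]
    ring
  have hkey : π ^ n * (π * dRam B₁ + C ((n + 1 : ℕ) : κ) * (B₁ * dRam π) + X 0 * π ^ 2 * h) = 0 := by
    have := S.dRam_dRam_A ℓ hA hA1
    rw [hDDA] at this
    have h3 : π ^ n * (X 0 * π ^ 2 * h) = X 0 * A := by rw [hAe]; ring
    rw [mul_add, this, h3]
    ring
  have hkey' : π * dRam B₁ + C ((n + 1 : ℕ) : κ) * (B₁ * dRam π) + X 0 * π ^ 2 * h = 0 :=
    (mul_eq_zero.mp hkey).resolve_left (pow_ne_zero _ hπ.ne_zero)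
  have hd1 : π ∣ C ((n + 1 : ℕ) : κ) * (B₁ * dRam π) := by
    have : C ((n + 1 : ℕ) : κ) * (B₁ * dRam π) = π * (-(dRam B₁) - X 0 * π * h) := by
      linear_combination hkey'
    exact Dvd.intro _ this.symm
  have hd2 : π ∣ B₁ * dRam π := (hu1.dvd_mul_left).mp hd1
  rcases hπ.dvd_or_dvd hd2 with h3 | h3
  · have hd3 : π ∣ C ((n + 2 : ℕ) : κ) * (h * dRam π) := by
      have := (dvd_add_right (dvd_mul_right π (dRam h))).mp h3
      exact this
    have hd4 : π ∣ h * dRam π := (hu2.dvd_mul_left).mp hd3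
    rcases hπ.dvd_or_dvd hd4 with h4 | h4
    · exact hndvd h4
    · exact hndD h4
  · exact hndD h3

end RamSys


namespace RamSys

variable (S : RamSys κ) (ℓ : ℕ) [hℓ : Fact ℓ.Prime] [CharP κ ℓ]

include hℓ in
theorem sub_one_dvd_weight {A : MvPolynomial (Fin 2) κ}
    (hA : IsWeightedHomogeneous wt A (ℓ - 1)) (hA1 : S.ev A = 1)
    {k : ℕ} {F : MvPolynomial (Fin 2) κ} (hF : IsWeightedHomogeneous wt F k)
    {c : κ} (hc : c ≠ 0) (hFc : S.ev F = PowerSeries.C c) : (ℓ - 1) ∣ k := by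
  have hℓ2 : 2 ≤ ℓ := hℓ.out.two_le
  have hA0 : A ≠ 0 := by
    intro h; rw [h, map_zero] at hA1; exact zero_ne_one hA1
  have hF0 : F ≠ 0 := by
    intro h
    rw [h, map_zero] at hFc
    have := congrArg (PowerSeries.constantCoeff (R := κ)) hFc
    simp at this
    exact hc this.symm
  -- the key identity
  have hpow : F ^ (ℓ - 1) = C (c ^ (ℓ - 1)) * A ^ k := by
    have h1 : IsWeightedHomogeneous wt (F ^ (ℓ - 1)) ((ℓ - 1) * k) := by
      have := hF.pow (ℓ - 1)
      rwa [smul_eq_mul] at this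
    have h2 : IsWeightedHomogeneous wt (C (c ^ (ℓ - 1)) * A ^ k) ((ℓ - 1) * k) := by
      have := (hA.pow k).C_mul (c ^ (ℓ - 1))
      rwa [smul_eq_mul, mul_comm k (ℓ - 1)] at this
    apply S.eq_of_ev_eq h1 h2
    simp only [map_pow, map_mul, hFc, hA1, one_pow, mul_one, ev_C]
  -- `A` is not a unit
  have hAu : ¬ IsUnit A := by
    intro hu
    obtain ⟨A', hA'⟩ := hu.exists_right_inv
    have h1 : IsWeightedHomogeneous wt (A * A') 0 := by
      rw [hA']; exact isWeightedHomogeneous_one κ wt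
    obtain ⟨i, j, hij, hi, -⟩ := isWeightedHomogeneous_of_mul wt h1 (by rw [hA']; exact one_ne_zero)
    have : i = ℓ - 1 := hi.inj_right hA0 hA
    omega
  obtain ⟨π, hπirr, hπA⟩ := WfDvdMonoid.exists_irreducible_factor hAu hA0
  have hπ : Prime π := UniqueFactorizationMonoid.irreducible_iff_prime.mp hπirr
  have hvA : emultiplicity π A = 1 := by
    have := emultiplicity_eq_of_dvd_of_not_dvd (a := π) (b := A) (k := 1)
      (by simpa using hπA) (S.not_sq_dvd ℓ hA hA1 hπ)
    simpa using this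
  have hfinF : FiniteMultiplicity π F := FiniteMultiplicity.of_prime_left hπ hF0
  have hvF := hfinF.emultiplicity_eq_multiplicity
  have hcu : IsUnit (C (c ^ (ℓ - 1)) : MvPolynomial (Fin 2) κ) :=
    (isUnit_iff_ne_zero.mpr (pow_ne_zero _ hc)).map C
  have h3 := congrArg (emultiplicity π) hpow
  rw [emultiplicity_pow hπ, emultiplicity_mul hπ, emultiplicity_pow hπ, hvA, hvF,
    emultiplicity_of_isUnit_right hπ.not_isUnit hcu, zero_add, mul_one] at h3
  have h4 : (ℓ - 1) * multiplicity π F = k := by exact_mod_cast h3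
  exact Dvd.intro _ h4

end RamSys

end Core

/-- **Algebraic core of the Swinnerton-Dyer theorem on constants mod `ℓ`.**
Let `κ` be a field of characteristic `ℓ ≥ 5` and let `e2, e4, e6 ∈ κ⟦X⟧` have constant term `1`
and satisfy Ramanujan's differential equations, with `e4 ^ 3 - e6 ^ 2 ≠ 0`.
If `A` is isobaric of weight `ℓ - 1` with `A(e4, e6) = 1` and `F` is isobaric of weight `k`
with `F(e4, e6)` a nonzero constant, then `ℓ - 1 ∣ k`. -/
theorem alg_core {κ : Type*} [Field κ] (ℓ : ℕ) [Fact ℓ.Prime] [CharP κ ℓ] (_h5 : 5 ≤ ℓ)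
    (e2 e4 e6 : PowerSeries κ)
    (h2 : PowerSeries.constantCoeff e2 = 1) (h4 : PowerSeries.constantCoeff e4 = 1)
    (h6 : PowerSeries.constantCoeff e6 = 1)
    (hδ : e4 ^ 3 - e6 ^ 2 ≠ 0)
    (R2 : 12 * (PowerSeries.X * PowerSeries.derivative κ e2) = e2 ^ 2 - e4)
    (R4 : 3 * (PowerSeries.X * PowerSeries.derivative κ e4) = e2 * e4 - e6)
    (R6 : 2 * (PowerSeries.X * PowerSeries.derivative κ e6) = e2 * e6 - e4 ^ 2)
    (A : MvPolynomial (Fin 2) κ) (hA : IsWeightedHomogeneous wt A (ℓ - 1))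
    (hA1 : aeval ![e4, e6] A = 1)
    {k : ℕ} (F : MvPolynomial (Fin 2) κ) (hF : IsWeightedHomogeneous wt F k)
    (c : κ) (hc : c ≠ 0) (hFc : aeval ![e4, e6] F = PowerSeries.C c) : (ℓ - 1) ∣ k :=
  RamSys.sub_one_dvd_weight ⟨e2, e4, e6, h2, h4, h6, hδ, R2, R4, R6⟩ ℓ hA hA1 hF hc hFc


end Fermat.Agent.S16SwD
end MergeWrap_S16_SwD_Alg

section MergeWrap_S16_SwD_Miller -- from S16/SwD/Miller.lean

set_option autoImplicit false

namespace Fermat.Agent.SwD

open UpperHalfPlane ModularForm ModularFormClass MatrixGroups EisensteinSeries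
open Fermat.Agent.S16SwD (wt dlt isWH_X0 isWH_X1 isWH_dlt)
open Fermat.Agent.S23 (monoForm qExpansion_monoForm qExpansion_monoForm_coeff_zero
  exists_monoForm_of_even)

/-- Reduction of an integer power series to a commutative ring `A`. -/
noncomputable abbrev zmap (A : Type*) [CommRing A] : PowerSeries ℤ →+* PowerSeries A :=
  PowerSeries.map (Int.castRingHom A)

lemma map_zmap {A B : Type*} [CommRing A] [CommRing B] (f : A →+* B) (x : PowerSeries ℤ) :
    PowerSeries.map f (zmap A x) = zmap B x := by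
  ext n
  simp [zmap]

lemma constantCoeff_zmap (A : Type*) [CommRing A] (x : PowerSeries ℤ) :
    PowerSeries.constantCoeff (zmap A x) = ((PowerSeries.constantCoeff x : ℤ) : A) := by
  rw [← PowerSeries.coeff_zero_eq_constantCoeff_apply, PowerSeries.coeff_map,
    PowerSeries.coeff_zero_eq_constantCoeff_apply]
  rfl

/-- Evaluation `κ[Q,R] → κ⟦X⟧`, `Q ↦ E₄`, `R ↦ E₆` (reduced integer `q`-series). -/
noncomputable def evK (κ : Type*) [Field κ] : MvPolynomial (Fin 2) κ →ₐ[κ] PowerSeries κ :=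
  MvPolynomial.aeval ![zmap κ e4Z, zmap κ e6Z]

@[simp] lemma evK_X0 (κ : Type*) [Field κ] : evK κ (MvPolynomial.X 0) = zmap κ e4Z := by
  simp [evK]

@[simp] lemma evK_X1 (κ : Type*) [Field κ] : evK κ (MvPolynomial.X 1) = zmap κ e6Z := by
  simp [evK]

lemma evK_C (κ : Type*) [Field κ] (c : κ) : evK κ (MvPolynomial.C c) = PowerSeries.C c := by
  simp [evK]

lemma evK_dlt {κ : Type*} [Field κ] : evK κ dlt = 1728 * zmap κ deltaZ := by
  rw [delta_map]
  simp [dlt]

section

variable {κ : Type*} [Field κ] {O : Type*} [CommRing O]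

lemma qExpansion_zero_form (k : ℤ) :
    qExpansion 1 ((0 : ModularForm 𝒮ℒ k) : ℍ → ℂ) = 0 := by
  rw [FunLike.coe_zero]
  exact qExpansion_zero 1

lemma series_eq_zero_of_form_eq_zero (ι : O →+* ℂ) (hι : Function.Injective ι) {k : ℤ}
    (f : ModularForm 𝒮ℒ k) (hf : f = 0) (a : PowerSeries O)
    (ha : PowerSeries.map ι a = qExpansion 1 f) : a = 0 := by
  subst hf
  apply PowerSeries.map_injective ι hι
  rw [ha, map_zero, qExpansion_zero_form]

/-- The statement proved by induction on the weight. -/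
def MillerAt (κ : Type*) [Field κ] {O : Type*} [CommRing O] (ι : O →+* ℂ) (φ : O →+* κ)
    (k : ℤ) : Prop :=
  ∀ (f : ModularForm 𝒮ℒ k) (a : PowerSeries O), PowerSeries.map ι a = qExpansion 1 f →
    ∃ F : MvPolynomial (Fin 2) κ, MvPolynomial.IsWeightedHomogeneous wt F k.toNat ∧
      (k < 0 → F = 0) ∧ evK κ F = PowerSeries.map φ a

lemma millerAt_of_forall_eq_zero (ι : O →+* ℂ) (hι : Function.Injective ι) (φ : O →+* κ)
    {k : ℤ} (h : ∀ f : ModularForm 𝒮ℒ k, f = 0) : MillerAt κ ι φ k := by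
  intro f a ha
  have := series_eq_zero_of_form_eq_zero ι hι f (h f) a ha
  subst this
  exact ⟨0, MvPolynomial.isWeightedHomogeneous_zero _ _ _, fun _ => rfl, by simp⟩

lemma millerAt_neg (ι : O →+* ℂ) (hι : Function.Injective ι) (φ : O →+* κ)
    {k : ℤ} (hk : k < 0) : MillerAt κ ι φ k :=
  millerAt_of_forall_eq_zero ι hι φ
    (rank_zero_iff_forall_zero.mp (levelOne_neg_weight_rank_zero hk))

lemma millerAt_step (ι : O →+* ℂ) (φ : O →+* κ) (h1728 : (1728 : κ) ≠ 0)
    {k : ℤ} (hk : 0 ≤ k) (a' b' : ℕ) (hab : (4 * a' + 6 * b' : ℤ) = k)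
    (IH : MillerAt κ ι φ (k - 12)) : MillerAt κ ι φ k := by
  intro f a ha
  set M := monoForm k a' b' hab with hM
  set c₀ : O := PowerSeries.constantCoeff a with hc₀
  have hc : (qExpansion 1 f).coeff 0 = ι c₀ := by
    rw [← ha, PowerSeries.coeff_map, PowerSeries.coeff_zero_eq_constantCoeff]
  have h0 : (qExpansion 1 ((f - ι c₀ • M : ModularForm 𝒮ℒ k) : ℍ → ℂ)).coeff 0 = 0 := by
    rw [FunLike.coe_sub, ModularForm.qExpansion_sub one_pos one_mem_strictPeriods_SL,
      FunLike.coe_smul, ModularForm.qExpansion_smul one_pos one_mem_strictPeriods_SL, map_sub,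
      PowerSeries.coeff_smul, qExpansion_monoForm_coeff_zero, smul_eq_mul, mul_one, hc, sub_self]
  set g := CuspForm.discriminantEquiv (toCuspForm (f - ι c₀ • M) h0) with hg
  have hq : qExpansion 1 ((f - ι c₀ • M : ModularForm 𝒮ℒ k) : ℍ → ℂ) =
      qExpansion 1 discriminant * qExpansion 1 g :=
    qExpansion_eq_qExpansion_discriminant_mul _ h0
  set mO : PowerSeries O := zmap O (e4Z ^ a' * e6Z ^ b') with hmO
  set aO : PowerSeries O := a - PowerSeries.C c₀ * mO with haO
  have hmap : PowerSeries.map ι aO =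
      qExpansion 1 ((f - ι c₀ • M : ModularForm 𝒮ℒ k) : ℍ → ℂ) := by
    rw [FunLike.coe_sub, ModularForm.qExpansion_sub one_pos one_mem_strictPeriods_SL,
      FunLike.coe_smul, ModularForm.qExpansion_smul one_pos one_mem_strictPeriods_SL,
      qExpansion_monoForm, qExpansion_E₄_eq, qExpansion_E₆_eq, haO, map_sub, map_mul,
      PowerSeries.map_C, ha, hmO, map_zmap, map_mul, map_pow, map_pow]
    congr 1
    ext n
    rw [PowerSeries.coeff_C_mul, PowerSeries.coeff_smul, smul_eq_mul]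
  set bO : PowerSeries O := PowerSeries.mk fun n => PowerSeries.coeff (n + 1) aO with hbO
  have hconst : PowerSeries.constantCoeff aO = 0 := by
    rw [haO, map_sub, map_mul, PowerSeries.constantCoeff_C, hmO]
    rw [map_mul, map_pow, map_pow, map_mul, map_pow, map_pow, constantCoeff_zmap,
      constantCoeff_zmap, constantCoeff_e4Z, constantCoeff_e6Z, ← hc₀]
    simp
  have haOb : aO = PowerSeries.X * bO := by
    ext n
    rcases n with _ | n
    · simp [hconst]
    · rw [PowerSeries.coeff_succ_X_mul, hbO, PowerSeries.coeff_mk]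
  set hO : PowerSeries O := bO * zmap O ModularCurve.dedekindEtaUnitInv with hhO
  have hmapH : PowerSeries.map ι hO = qExpansion 1 g := by
    have h1 : PowerSeries.X * PowerSeries.map ι bO =
        PowerSeries.X * (zmap ℂ ModularCurve.dedekindEtaUnit * qExpansion 1 g) := by
      rw [← PowerSeries.map_X ι, ← map_mul, ← haOb, hmap, hq, qExpansion_discriminant_eq, deltaZ,
        map_mul, PowerSeries.map_X, PowerSeries.map_X, mul_assoc]
    have h2 := mul_left_cancel₀ PowerSeries.X_ne_zero h1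
    rw [hhO, map_mul, map_zmap, h2, mul_comm (zmap ℂ ModularCurve.dedekindEtaUnit) _, mul_assoc,
      ← map_mul, ModularCurve.dedekindEtaUnit_mul_inv, map_one, mul_one]
  obtain ⟨H, hH, hH0, hHev⟩ := IH g hO hmapH
  refine ⟨MvPolynomial.C (φ c₀) * (MvPolynomial.X 0 ^ a' * MvPolynomial.X 1 ^ b') +
    MvPolynomial.C ((1728 : κ)⁻¹) * (dlt * H), ?_, fun h => absurd hk (not_le.mpr h), ?_⟩
  · have hw1 : MvPolynomial.IsWeightedHomogeneous wt
        (MvPolynomial.X 0 ^ a' * MvPolynomial.X 1 ^ b' : MvPolynomial (Fin 2) κ) k.toNat := by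
      have := ((isWH_X0 (κ := κ)).pow a').mul ((isWH_X1 (κ := κ)).pow b')
      have e : a' • 4 + b' • 6 = k.toNat := by
        simp only [smul_eq_mul]
        omega
      rwa [e] at this
    have hw2 : MvPolynomial.IsWeightedHomogeneous wt (dlt * H) k.toNat := by
      rcases lt_or_ge (k - 12) 0 with hneg | hnn
      · rw [hH0 hneg, mul_zero]
        exact MvPolynomial.isWeightedHomogeneous_zero _ _ _
      · have := (isWH_dlt (κ := κ)).mul hH
        have e : 12 + (k - 12).toNat = k.toNat := by omega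
        rwa [e] at this
    exact (hw1.C_mul _).add (hw2.C_mul _)
  · rw [map_add, map_mul, map_mul, map_mul, map_mul, map_pow, map_pow, evK_X0, evK_X1, evK_C,
      evK_C, evK_dlt, hHev, hhO, map_mul, map_zmap]
    have e1 : PowerSeries.C ((1728 : κ)⁻¹) * (1728 * zmap κ deltaZ *
        (PowerSeries.map φ bO * zmap κ ModularCurve.dedekindEtaUnitInv)) =
        PowerSeries.map φ aO := by
      have hC : PowerSeries.C ((1728 : κ)⁻¹) * (1728 : PowerSeries κ) = 1 := by
        rw [← map_ofNat (PowerSeries.C (R := κ)) 1728, ← map_mul, inv_mul_cancel₀ h1728, map_one]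
      have hη : zmap κ ModularCurve.dedekindEtaUnit * zmap κ ModularCurve.dedekindEtaUnitInv =
          1 := by
        rw [← map_mul, ModularCurve.dedekindEtaUnit_mul_inv, map_one]
      rw [haOb, map_mul, PowerSeries.map_X, deltaZ, map_mul, PowerSeries.map_X]
      calc PowerSeries.C ((1728 : κ)⁻¹) * (1728 * (PowerSeries.X * zmap κ ModularCurve.dedekindEtaUnit) *
            (PowerSeries.map φ bO * zmap κ ModularCurve.dedekindEtaUnitInv))
          = (PowerSeries.C ((1728 : κ)⁻¹) * 1728) * (zmap κ ModularCurve.dedekindEtaUnit *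
              zmap κ ModularCurve.dedekindEtaUnitInv) * (PowerSeries.X * PowerSeries.map φ bO) := by
            ring
        _ = PowerSeries.X * PowerSeries.map φ bO := by rw [hC, hη, one_mul, one_mul]
    rw [e1, haO, map_sub, map_mul, PowerSeries.map_C, hmO, map_zmap, map_mul, map_pow, map_pow]
    ring

/-- **Integral Miller basis, reduced to `κ`.** -/
theorem millerAt_all (ι : O →+* ℂ) (hι : Function.Injective ι) (φ : O →+* κ)
    (h1728 : (1728 : κ) ≠ 0) : ∀ (n : ℕ) (k : ℤ), k.toNat = n → MillerAt κ ι φ k := by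
  intro n
  induction n using Nat.strong_induction_on with
  | _ n ih =>
  intro k hkn
  rcases lt_or_ge k 0 with hneg | hnn
  · exact millerAt_neg ι hι φ hneg
  rcases Int.even_or_odd k with hev | hodd
  swap
  · exact millerAt_of_forall_eq_zero ι hι φ (ModularForm.levelOne_odd_weight_eq_zero hodd)
  rcases lt_or_ge k 4 with hlt | hge
  · have hk02 : k = 0 ∨ k = 2 := by
      obtain ⟨m, hm⟩ := hev
      omega
    rcases hk02 with rfl | rfl
    · exact millerAt_step ι φ h1728 le_rfl 0 0 (by norm_num)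
        (millerAt_neg ι hι φ (by norm_num))
    · exact millerAt_of_forall_eq_zero ι hι φ
        (rank_zero_iff_forall_zero.mp levelOne_weight_two_rank_zero)
  · obtain ⟨a', b', hab⟩ := exists_monoForm_of_even hge hev
    exact millerAt_step ι φ h1728 hnn a' b' hab (ih (k - 12).toNat (by omega) (k - 12) rfl)

theorem miller (ι : O →+* ℂ) (hι : Function.Injective ι) (φ : O →+* κ)
    (h1728 : (1728 : κ) ≠ 0) (k : ℤ) (f : ModularForm 𝒮ℒ k) (a : PowerSeries O)
    (ha : PowerSeries.map ι a = qExpansion 1 f) :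
    ∃ F : MvPolynomial (Fin 2) κ, MvPolynomial.IsWeightedHomogeneous wt F k.toNat ∧
      evK κ F = PowerSeries.map φ a := by
  obtain ⟨F, h1, -, h2⟩ := millerAt_all ι hι φ h1728 _ k rfl f a ha
  exact ⟨F, h1, h2⟩

end

end Fermat.Agent.SwD
end MergeWrap_S16_SwD_Miller

section MergeWrap_Lib_BadRed_Mod_SSHom -- from Lib/BadRed/Mod/SSHom.lean

/-!
# Cluster T / M3: homogenisation of polynomials in `j` (helper98)

`κ[Q, R]` with weights `(4, 6)`, `Δ' = Q³ - R² = 1728 Δ`.  For `P ∈ κ[j]` of degree `≤ m`,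
`ssHom m P = ∑ P_i (1728 Q³)^i Δ'^(m - i)` is isobaric of weight `12 m`, every isobaric form of
weight `12 m` is of this shape (`exists_ssHom_eq`), its `q`-expansion is `(1728 Δ)^m P(j)`
(`ofPS_evK_ssHom`), and a root `c` of multiplicity `e` of `P` gives the factor
`(1728 Q³ - c Δ')^e` (`ssLin_pow_dvd_ssHom`).
-/

set_option autoImplicit false
set_option linter.unusedSectionVars false

noncomputable section

open Fermat.Agent.S16SwD MvPolynomial ModularCurve
open Fermat.Agent.SwD (zmap evK e2Z e4Z e6Z deltaZ)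

namespace Fermat.Agent.BadRed

section Hom

variable {κ : Type*} [Field κ]

/-- the isobaric form `1728 Q³ - c Δ'` of weight `12` (the point `j = c`) -/
def ssLin (c : κ) : MvPolynomial (Fin 2) κ := C 1728 * X 0 ^ 3 - C c * dlt

/-- homogenisation of `P ∈ κ[j]` at degree `m` in the forms `1728 Q³` and `Δ' = Q³ - R²`
(both of weight `12`): `∑_{i ≤ m} P_i (1728 Q³)^i Δ'^(m - i)`. -/
def ssHom (m : ℕ) (P : Polynomial κ) : MvPolynomial (Fin 2) κ :=
  ∑ i ∈ Finset.range (m + 1), C (P.coeff i) * (C 1728 * X 0 ^ 3) ^ i * dlt ^ (m - i)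

lemma ssHom_add (m : ℕ) (P Q : Polynomial κ) : ssHom m (P + Q) = ssHom m P + ssHom m Q := by
  simp only [ssHom, Polynomial.coeff_add, map_add, add_mul, Finset.sum_add_distrib]

lemma ssHom_C_mul (m : ℕ) (c : κ) (P : Polynomial κ) :
    ssHom m (Polynomial.C c * P) = C c * ssHom m P := by
  simp only [ssHom, Polynomial.coeff_C_mul, map_mul, Finset.mul_sum]
  refine Finset.sum_congr rfl (fun i _ => ?_)
  ring

lemma ssHom_succ {m : ℕ} {P : Polynomial κ} (hP : P.natDegree ≤ m) :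
    ssHom (m + 1) P = dlt * ssHom m P := by
  simp only [ssHom]
  rw [Finset.sum_range_succ, Polynomial.coeff_eq_zero_of_natDegree_lt (by omega), map_zero,
    zero_mul, zero_mul, add_zero, Finset.mul_sum]
  refine Finset.sum_congr rfl (fun i hi => ?_)
  have hi' : i ≤ m := by
    have := Finset.mem_range.mp hi
    omega
  have e : m + 1 - i = (m - i) + 1 := by omega
  rw [e, pow_succ]
  ring

lemma ssHom_X_mul (m : ℕ) (P : Polynomial κ) :
    ssHom (m + 1) (Polynomial.X * P) = C 1728 * X 0 ^ 3 * ssHom m P := by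
  simp only [ssHom]
  rw [Finset.sum_range_succ', Polynomial.coeff_X_mul_zero, map_zero, zero_mul, zero_mul, add_zero,
    Finset.mul_sum]
  refine Finset.sum_congr rfl (fun i _ => ?_)
  rw [Polynomial.coeff_X_mul, Nat.add_sub_add_right, pow_succ]
  ring

lemma ssHom_lin_mul {m : ℕ} {P : Polynomial κ} (hP : P.natDegree ≤ m) (c : κ) :
    ssHom (m + 1) ((Polynomial.X - Polynomial.C c) * P) = ssLin c * ssHom m P := by
  have e : (Polynomial.X - Polynomial.C c) * P
      = Polynomial.X * P + Polynomial.C (-c) * P := by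
    rw [map_neg]; ring
  rw [e, ssHom_add, ssHom_X_mul, ssHom_C_mul, ssHom_succ hP, ssLin, map_neg]
  ring

lemma ssHom_lin_pow_mul (e : ℕ) {m : ℕ} {P : Polynomial κ} (hP : P.natDegree ≤ m) (c : κ) :
    ssHom (m + e) ((Polynomial.X - Polynomial.C c) ^ e * P) = ssLin c ^ e * ssHom m P := by
  induction e with
  | zero => simp
  | succ e ih =>
    have hdeg : ((Polynomial.X - Polynomial.C c) ^ e * P).natDegree ≤ m + e := by
      refine (Polynomial.natDegree_mul_le).trans ?_
      have h1 : ((Polynomial.X - Polynomial.C c) ^ e).natDegree ≤ e := by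
        refine (Polynomial.natDegree_pow_le).trans ?_
        rw [Polynomial.natDegree_X_sub_C, mul_one]
      omega
    rw [pow_succ', mul_assoc, ← add_assoc, ssHom_lin_mul hdeg, ih, pow_succ']
    ring

/-- a root of multiplicity `e` of `P` gives the factor `(1728 Q³ - c Δ')^e` of the
homogenisation -/
lemma ssLin_pow_dvd_ssHom {m : ℕ} {P : Polynomial κ} (hP0 : P ≠ 0) (hP : P.natDegree ≤ m)
    (c : κ) {e : ℕ} (he : (Polynomial.X - Polynomial.C c) ^ e ∣ P) :
    ssLin c ^ e ∣ ssHom m P := by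
  obtain ⟨P₂, hP₂⟩ := he
  have hP₂0 : P₂ ≠ 0 := by
    rintro rfl
    rw [mul_zero] at hP₂
    exact hP0 hP₂
  have hpow0 : (Polynomial.X - Polynomial.C c) ^ e ≠ 0 :=
    pow_ne_zero _ (Polynomial.X_sub_C_ne_zero c)
  have hdeg : P.natDegree = e + P₂.natDegree := by
    rw [hP₂, Polynomial.natDegree_mul hpow0 hP₂0, Polynomial.natDegree_pow,
      Polynomial.natDegree_X_sub_C, mul_one]
  have hP₂m : P₂.natDegree ≤ m - e := by omega
  have hme : m = (m - e) + e := by omega
  rw [hme, hP₂, ssHom_lin_pow_mul e hP₂m]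
  exact dvd_mul_right _ _


lemma ssHom_zero_poly (m : ℕ) : ssHom m (0 : Polynomial κ) = 0 := by
  simp [ssHom]

lemma ssHom_X_pow (m : ℕ) :
    ssHom m ((Polynomial.X : Polynomial κ) ^ m) = (C 1728 * X 0 ^ 3) ^ m := by
  induction m with
  | zero => simp [ssHom]
  | succ m ih =>
    rw [pow_succ' Polynomial.X m, ssHom_X_mul, ih]
    exact (pow_succ' _ m).symm

lemma canMon_twelve (m : ℕ) : (canMon (12 * m) : MvPolynomial (Fin 2) κ) = X 0 ^ (3 * m) := by
  unfold canMon
  have h1 : (12 * m / 2) % 2 = 0 := by omega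
  have h2 : (12 * m - 6 * 0) / 4 = 3 * m := by omega
  rw [h1, h2, pow_zero, mul_one]

lemma isWH_ssHom (m : ℕ) (P : Polynomial κ) :
    IsWeightedHomogeneous wt (ssHom m P) (12 * m) := by
  unfold ssHom
  refine IsWeightedHomogeneous.sum _ _ _ (fun i hi => ?_)
  have hi' : i ≤ m := by
    have := Finset.mem_range.mp hi
    omega
  have h1 : IsWeightedHomogeneous wt ((C 1728 * X 0 ^ 3 : MvPolynomial (Fin 2) κ) ^ i) (12 * i) := by
    have h0 : IsWeightedHomogeneous wt (C 1728 * X 0 ^ 3 : MvPolynomial (Fin 2) κ) 12 := by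
      have := ((isWH_X0 (κ := κ)).pow 3).C_mul (1728 : κ)
      simpa using this
    have := h0.pow i
    rwa [smul_eq_mul, mul_comm i 12] at this
  have h2 : IsWeightedHomogeneous wt ((dlt : MvPolynomial (Fin 2) κ) ^ (m - i)) (12 * (m - i)) := by
    have := (isWH_dlt (κ := κ)).pow (m - i)
    rwa [smul_eq_mul, mul_comm (m - i) 12] at this
  have h3 := ((h1.mul h2).C_mul (P.coeff i))
  have e : 12 * i + 12 * (m - i) = 12 * m := by omega
  rw [e] at h3
  rwa [mul_assoc]

/-- **structure of isobaric forms of weight `12 m`**: they are the homogenisations of the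
polynomials of degree `≤ m` in `j`. -/
theorem exists_ssHom_eq (h1728 : (1728 : κ) ≠ 0) :
    ∀ (m : ℕ) (F : MvPolynomial (Fin 2) κ), IsWeightedHomogeneous wt F (12 * m) →
      ∃ P : Polynomial κ, P.natDegree ≤ m ∧ F = ssHom m P := by
  intro m
  induction m with
  | zero =>
    intro F hF
    refine ⟨Polynomial.C (coeff 0 F), Polynomial.natDegree_C _ |>.le, ?_⟩
    have h := eq_C_of_isWH_zero (by simpa using hF)
    simp only [ssHom, zero_add, Finset.sum_range_one, Polynomial.coeff_C_zero, pow_zero, mul_one,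
      Nat.sub_self]
    exact h
  | succ m ih =>
    intro F hF
    set a : κ := MvPolynomial.eval (fun _ => (1 : κ)) F with ha
    obtain ⟨G, hG⟩ := dlt_dvd_sub_canMon hF
    rw [canMon_twelve] at hG
    have hmon : IsWeightedHomogeneous wt (C a * X 0 ^ (3 * (m + 1)) : MvPolynomial (Fin 2) κ)
        (12 * (m + 1)) := by
      have := ((isWH_X0 (κ := κ)).pow (3 * (m + 1))).C_mul a
      have e : (3 * (m + 1)) • 4 = 12 * (m + 1) := by simp; omega
      rwa [e] at this
    have hGw : IsWeightedHomogeneous wt (dlt * G) (12 * (m + 1)) := hG ▸ hF.sub hmon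
    have hGex : ∃ P' : Polynomial κ, P'.natDegree ≤ m ∧ G = ssHom m P' := by
      by_cases hG0 : G = 0
      · exact ⟨0, by simp, by rw [hG0, ssHom_zero_poly]⟩
      · have hne : (dlt : MvPolynomial (Fin 2) κ) * G ≠ 0 := by
          intro h0
          rcases mul_eq_zero.mp h0 with h | h
          · have h1 := congrArg (MvPolynomial.eval ![0, 1]) h
            simp [dlt] at h1
          · exact hG0 h
        obtain ⟨i, j, hij, hi, hj⟩ := isWeightedHomogeneous_of_mul wt hGw hne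
        have hdlt0 : (dlt : MvPolynomial (Fin 2) κ) ≠ 0 := left_ne_zero_of_mul hne
        have hi12 : i = 12 := hi.inj_right hdlt0 isWH_dlt
        have hj' : j = 12 * m := by omega
        rw [hj'] at hj
        exact ih G hj
    obtain ⟨P', hP', hGP⟩ := hGex
    set a' : κ := a / 1728 ^ (m + 1) with ha'
    refine ⟨Polynomial.C a' * Polynomial.X ^ (m + 1) + P', ?_, ?_⟩
    · refine (Polynomial.natDegree_add_le _ _).trans (max_le ?_ (by omega))
      exact (Polynomial.natDegree_C_mul_X_pow_le a' (m + 1))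
    · rw [ssHom_add, ssHom_C_mul, ssHom_X_pow, ssHom_succ hP', ← hGP, ← hG, mul_pow, ← map_pow,
        ← mul_assoc, ← map_mul, ha', div_mul_cancel₀ _ (pow_ne_zero _ h1728), ← pow_mul]
      ring


/-! ### multiplicities -/

lemma isWH_ssLin (c : κ) : IsWeightedHomogeneous wt (ssLin c) 12 := by
  unfold ssLin
  have h0 : IsWeightedHomogeneous wt (C 1728 * X 0 ^ 3 : MvPolynomial (Fin 2) κ) 12 := by
    have := ((isWH_X0 (κ := κ)).pow 3).C_mul (1728 : κ)
    simpa using this
  exact h0.sub ((isWH_dlt (κ := κ)).C_mul c)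

lemma ssLin_zero : ssLin (0 : κ) = C 1728 * X 0 ^ 3 := by
  simp [ssLin]

lemma ssLin_1728 : ssLin (1728 : κ) = C 1728 * X 1 ^ 2 := by
  simp only [ssLin, dlt]
  ring

lemma eval_ssLin (x : Fin 2 → κ) (c : κ) :
    MvPolynomial.eval x (ssLin c) = 1728 * x 0 ^ 3 - c * (x 0 ^ 3 - x 1 ^ 2) := by
  simp [ssLin, dlt]

lemma eval_ssLin_zero_one (c : κ) : MvPolynomial.eval ![0, 1] (ssLin c) = c := by
  simp [ssLin, dlt]

lemma eval_ssLin_one_zero (c : κ) : MvPolynomial.eval ![1, 0] (ssLin c) = 1728 - c := by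
  simp [ssLin, dlt]

lemma ssLin_ne_zero (h1728 : (1728 : κ) ≠ 0) (c : κ) : ssLin c ≠ 0 := by
  intro h
  have h1 := eval_ssLin_zero_one c
  have h2 := eval_ssLin_one_zero c
  rw [h, map_zero] at h1 h2
  apply h1728
  linear_combination -h2 - h1

lemma not_isUnit_of_isWH {F : MvPolynomial (Fin 2) κ} {w : ℕ} (hw : 0 < w)
    (hF : IsWeightedHomogeneous wt F w) (hF0 : F ≠ 0) : ¬ IsUnit F := by
  intro hu
  obtain ⟨F', hF'⟩ := hu.exists_right_inv
  have h1 : IsWeightedHomogeneous wt (F * F') 0 := by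
    rw [hF']; exact isWeightedHomogeneous_one κ wt
  obtain ⟨i, j, hij, hi, -⟩ := isWeightedHomogeneous_of_mul wt h1 (by rw [hF']; exact one_ne_zero)
  have : i = w := hi.inj_right hF0 hF
  omega

/-- the Hasse invariant is squarefree, hence `π ^ e ∣ A ^ n` forces `e ≤ n`. -/
lemma le_of_prime_pow_dvd_pow {A π : MvPolynomial (Fin 2) κ} (hA0 : A ≠ 0) (hπ : Prime π)
    (hsq : ¬ π ^ 2 ∣ A) {e n : ℕ} (h : π ^ e ∣ A ^ n) : e ≤ n := by
  have hfin : FiniteMultiplicity π A := FiniteMultiplicity.of_prime_left hπ hA0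
  have hfinn : FiniteMultiplicity π (A ^ n) :=
    FiniteMultiplicity.of_prime_left hπ (pow_ne_zero _ hA0)
  have h1 : multiplicity π A ≤ 1 := by
    by_contra hlt
    exact hsq (pow_dvd_of_le_multiplicity (by omega))
  have h2 : e ≤ multiplicity π (A ^ n) := hfinn.le_multiplicity_of_pow_dvd h
  have h3 : multiplicity π (A ^ n) = n * multiplicity π A := hfin.multiplicity_pow hπ
  calc e ≤ n * multiplicity π A := by rw [← h3]; exact h2
    _ ≤ n * 1 := Nat.mul_le_mul_left _ h1
    _ = n := mul_one n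

/-! ### values -/

lemma eval_ssHom (x : Fin 2 → κ) (m : ℕ) (P : Polynomial κ) :
    MvPolynomial.eval x (ssHom m P) = ∑ i ∈ Finset.range (m + 1),
      P.coeff i * (1728 * x 0 ^ 3) ^ i * (x 0 ^ 3 - x 1 ^ 2) ^ (m - i) := by
  simp [ssHom, dlt, map_sum]

lemma eval_ssHom_zero_one (m : ℕ) (P : Polynomial κ) :
    MvPolynomial.eval ![0, 1] (ssHom m P) = P.coeff 0 * (-1) ^ m := by
  rw [eval_ssHom, Finset.sum_eq_single 0]
  · simp
  · intro i _ hi
    simp [hi]
  · intro h
    exact absurd (Finset.mem_range.mpr (Nat.succ_pos m)) h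

lemma eval_ssHom_one_zero {m : ℕ} {P : Polynomial κ} (hP : P.natDegree ≤ m) :
    MvPolynomial.eval ![1, 0] (ssHom m P) = P.eval 1728 := by
  rw [eval_ssHom, Polynomial.eval_eq_sum_range' (Nat.lt_succ_of_le hP)]
  refine Finset.sum_congr rfl (fun i _ => ?_)
  simp

lemma eval_ssHom_one_one (m : ℕ) (P : Polynomial κ) :
    MvPolynomial.eval (fun _ => (1 : κ)) (ssHom m P) = P.coeff m * 1728 ^ m := by
  rw [eval_ssHom, Finset.sum_eq_single m]
  · simp
  · intro i hi him
    have : m - i ≠ 0 := by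
      have := Finset.mem_range.mp hi
      omega
    simp [this]
  · intro h
    exact absurd (Finset.mem_range.mpr (Nat.lt_succ_self m)) h

lemma eval_zero_one_of_isWH {A : MvPolynomial (Fin 2) κ} {w : ℕ}
    (hA : IsWeightedHomogeneous wt A w) (hw : w % 3 = 1) :
    MvPolynomial.eval ![0, 1] A = 0 := by
  rw [MvPolynomial.eval_eq']
  refine Finset.sum_eq_zero (fun d hd => ?_)
  have h := hA (MvPolynomial.mem_support_iff.mp hd)
  rw [weight_wt] at h
  have hd0 : d 0 ≠ 0 := by omega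
  simp [Fin.prod_univ_two, hd0]

lemma eval_one_zero_of_isWH {A : MvPolynomial (Fin 2) κ} {w : ℕ}
    (hA : IsWeightedHomogeneous wt A w) (hw : w % 4 = 2) :
    MvPolynomial.eval ![1, 0] A = 0 := by
  rw [MvPolynomial.eval_eq']
  refine Finset.sum_eq_zero (fun d hd => ?_)
  have h := hA (MvPolynomial.mem_support_iff.mp hd)
  rw [weight_wt] at h
  have hd1 : d 1 ≠ 0 := by omega
  simp [Fin.prod_univ_two, hd1]

end Hom

section QExp

variable (k : Type*) [Field k]

/-- `1728 Δ` as a Laurent series over `k`. -/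
def ssD : LaurentSeries k := HahnSeries.ofPowerSeries ℤ k (evK k dlt)

lemma ssD_eq : ssD k = HahnSeries.C (1728 : k) * HahnSeries.single (1 : ℤ) (1 : k) *
    HahnSeries.ofPowerSeries ℤ k (zmap k dedekindEtaUnit) := by
  rw [ssD, Fermat.Agent.SwD.evK_dlt, deltaZ, map_mul, map_mul, map_mul, PowerSeries.map_X,
    HahnSeries.ofPowerSeries_X, ← map_ofNat (PowerSeries.C (R := k)) 1728,
    HahnSeries.ofPowerSeries_C]
  exact (mul_assoc _ _ _).symm

lemma zmap_eta_mul_inv : zmap k dedekindEtaUnit * zmap k dedekindEtaUnitInv = 1 := by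
  rw [← map_mul, dedekindEtaUnit_mul_inv, map_one]

lemma single_one_mul_neg_one :
    (HahnSeries.single (1 : ℤ) (1 : k)) * HahnSeries.single (-1 : ℤ) (1 : k) = 1 := by
  rw [HahnSeries.single_mul_single]
  simp

/-- **key identity**: `1728 Δ · j = 1728 E₄³` -/
lemma ssD_mul_jq : ssD k * jqModC k =
    HahnSeries.ofPowerSeries ℤ k (evK k (C 1728 * X 0 ^ 3)) := by
  have h1 : HahnSeries.ofPowerSeries ℤ k (zmap k dedekindEtaUnit) *
      HahnSeries.ofPowerSeries ℤ k (zmap k dedekindEtaUnitInv) = 1 := by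
    rw [← map_mul, zmap_eta_mul_inv, map_one]
  have h2 := single_one_mul_neg_one k
  rw [ssD_eq, jqModC, jNum, map_mul, map_mul, map_pow, map_pow, map_mul, map_pow,
    Fermat.Agent.SwD.evK_C, Fermat.Agent.SwD.evK_X0, map_mul, map_pow,
    HahnSeries.ofPowerSeries_C, e4Z]
  linear_combination (HahnSeries.C (1728 : k) *
      HahnSeries.ofPowerSeries ℤ k (zmap k eisenstein4) ^ 3 *
      HahnSeries.ofPowerSeries ℤ k (zmap k dedekindEtaUnit) *
      HahnSeries.ofPowerSeries ℤ k (zmap k dedekindEtaUnitInv)) * h2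
    + (HahnSeries.C (1728 : k) * HahnSeries.ofPowerSeries ℤ k (zmap k eisenstein4) ^ 3) * h1

lemma algebraMap_mul_laurent (c : k) (x : LaurentSeries k) :
    (algebraMap k (LaurentSeries k) c) * x = HahnSeries.C c * x := by
  have h1 : algebraMap k (PowerSeries k) c = PowerSeries.C c := by simp
  rw [HahnSeries.algebraMap_apply', h1, HahnSeries.ofPowerSeries_C]

lemma ofPS_evK_ssHom {m : ℕ} {P : Polynomial k} (hP : P.natDegree ≤ m) :
    HahnSeries.ofPowerSeries ℤ k (evK k (ssHom m P)) =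
      ssD k ^ m * Polynomial.aeval (jqModC k) P := by
  rw [Polynomial.aeval_eq_sum_range' (Nat.lt_succ_of_le hP), Finset.mul_sum, ssHom, map_sum,
    map_sum]
  refine Finset.sum_congr rfl (fun i hi => ?_)
  have hi' : i ≤ m := by
    have := Finset.mem_range.mp hi
    omega
  have hm : ssD k ^ m = ssD k ^ i * ssD k ^ (m - i) := by
    rw [← pow_add]
    congr 1
    omega
  rw [map_mul, map_mul, map_mul, map_mul, map_pow, map_pow, map_pow, map_pow, ← ssD_mul_jq,
    Fermat.Agent.SwD.evK_C, HahnSeries.ofPowerSeries_C, hm, Algebra.smul_def,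
    algebraMap_mul_laurent]
  change _ * _ * ssD k ^ (m - i) = _
  ring

/-- `Δ^{-(q-1)} · (1728 Δ)^{q-1} = 1728^{q-1}` -/
lemma ssFun_mul_ssD_pow (q : ℕ) (hq : 1 ≤ q) :
    ssFun k q * ssD k ^ (q - 1) = HahnSeries.C ((1728 : k) ^ (q - 1)) := by
  have h1 : HahnSeries.ofPowerSeries ℤ k ((dedekindEtaUnitInv ^ (q - 1)).map (Int.castRingHom k)) *
      HahnSeries.ofPowerSeries ℤ k (zmap k dedekindEtaUnit) ^ (q - 1) = 1 := by
    rw [← map_pow, ← map_mul, map_pow, ← mul_pow]
    have : PowerSeries.map (Int.castRingHom k) dedekindEtaUnitInv * zmap k dedekindEtaUnit = 1 := by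
      rw [mul_comm]; exact zmap_eta_mul_inv k
    rw [this, one_pow, map_one]
  have h2 : HahnSeries.single (-((q : ℤ) - 1)) (1 : k) *
      HahnSeries.single (1 : ℤ) (1 : k) ^ (q - 1) = 1 := by
    rw [HahnSeries.single_pow, HahnSeries.single_mul_single]
    have : -((q : ℤ) - 1) + (q - 1) • (1 : ℤ) = 0 := by
      rw [nsmul_eq_mul, mul_one, Nat.cast_sub hq]
      simp
    rw [this]
    simp
  rw [ssFun, ssD_eq, mul_pow, mul_pow, map_pow (HahnSeries.C (Γ := ℤ) (R := k))]
  linear_combination (HahnSeries.C (1728 : k) ^ (q - 1) *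
      HahnSeries.ofPowerSeries ℤ k ((dedekindEtaUnitInv ^ (q - 1)).map (Int.castRingHom k)) *
      HahnSeries.ofPowerSeries ℤ k (zmap k dedekindEtaUnit) ^ (q - 1)) * h2
    + (HahnSeries.C (1728 : k) ^ (q - 1)) * h1

end QExp

end Fermat.Agent.BadRed
end
end MergeWrap_Lib_BadRed_Mod_SSHom

section MergeWrap_S16_SwD_Main -- from S16/SwD/Main.lean

set_option autoImplicit false

namespace Fermat.Agent.SwD

open UpperHalfPlane ModularForm ModularFormClass MatrixGroups EisensteinSeries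
open Fermat.Agent.S16SwD (wt alg_core)

section

variable {κ : Type*} [Field κ]

lemma ne_zero_1728 (ℓ : ℕ) [hℓ : Fact ℓ.Prime] [CharP κ ℓ] (h5 : 5 ≤ ℓ) : (1728 : κ) ≠ 0 := by
  have h : ((1728 : ℕ) : κ) ≠ 0 := by
    rw [Ne, CharP.cast_eq_zero_iff κ ℓ]
    intro hdvd
    have h1 : ℓ ∣ 2 ^ 6 * 3 ^ 3 := by simpa using hdvd
    rcases (Nat.Prime.dvd_mul hℓ.out).mp h1 with h2 | h3
    · have := Nat.le_of_dvd (by norm_num) (hℓ.out.dvd_of_dvd_pow h2)
      omega
    · have := Nat.le_of_dvd (by norm_num) (hℓ.out.dvd_of_dvd_pow h3)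
      omega
  exact_mod_cast h

lemma zmap_deltaZ_ne_zero : zmap κ deltaZ ≠ 0 := by
  intro h
  have h1 := congrArg (PowerSeries.coeff 1) h
  rw [deltaZ, map_mul, PowerSeries.map_X, PowerSeries.coeff_succ_X_mul,
    PowerSeries.coeff_zero_eq_constantCoeff_apply, constantCoeff_zmap,
    ModularCurve.constantCoeff_dedekindEtaUnit] at h1
  simp at h1

/-- **Swinnerton-Dyer, general coefficient ring.** -/
theorem sub_one_dvd_weight_of_const (hR : RamanujanE2)
    (ℓ : ℕ) [hℓ : Fact ℓ.Prime] (h5 : 5 ≤ ℓ) [CharP κ ℓ]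
    {O : Type*} [CommRing O] (ι : O →+* ℂ) (hι : Function.Injective ι) (φ : O →+* κ)
    (fE : ModularForm 𝒮ℒ ((ℓ - 1 : ℕ) : ℤ)) (aE : PowerSeries O)
    (haE : PowerSeries.map ι aE = qExpansion 1 fE) (hφE : PowerSeries.map φ aE = 1)
    (k : ℤ) (f : ModularForm 𝒮ℒ k) (a : PowerSeries O)
    (ha : PowerSeries.map ι a = qExpansion 1 f)
    (c : κ) (hc : c ≠ 0) (hφ : PowerSeries.map φ a = PowerSeries.C c) :
    ((ℓ : ℤ) - 1) ∣ k := by
  have h1728 : (1728 : κ) ≠ 0 := ne_zero_1728 ℓ h5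
  obtain ⟨A, hA, hA1⟩ := miller ι hι φ h1728 _ fE aE haE
  obtain ⟨F, hF, hF1⟩ := miller ι hι φ h1728 k f a ha
  rw [hφE] at hA1
  rw [hφ] at hF1
  rw [Int.toNat_natCast] at hA
  have hδ : zmap κ e4Z ^ 3 - zmap κ e6Z ^ 2 ≠ 0 := by
    rw [← delta_map]
    refine mul_ne_zero ?_ zmap_deltaZ_ne_zero
    rw [← map_ofNat (PowerSeries.C (R := κ)) 1728]
    intro h
    exact h1728 (PowerSeries.C_injective (by rw [h, map_zero]))
  have hdvd : (ℓ - 1) ∣ k.toNat :=
    alg_core ℓ h5 (zmap κ e2Z) (zmap κ e4Z) (zmap κ e6Z)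
      (by rw [constantCoeff_zmap, constantCoeff_e2Z]; simp)
      (by rw [constantCoeff_zmap, constantCoeff_e4Z]; simp)
      (by rw [constantCoeff_zmap, constantCoeff_e6Z]; simp) hδ
      (by rw [← thetaOp_eq_X_mul_derivative]; exact ram2_map hR)
      (by rw [← thetaOp_eq_X_mul_derivative]; exact ram4_map)
      (by rw [← thetaOp_eq_X_mul_derivative]; exact ram6_map)
      A hA hA1 F hF c hc hF1
  have hk0 : 0 ≤ k := by
    by_contra hneg
    have hf0 : f = 0 :=
      rank_zero_iff_forall_zero.mp (levelOne_neg_weight_rank_zero (not_le.mp hneg)) f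
    have ha0 := series_eq_zero_of_form_eq_zero ι hι f hf0 a ha
    rw [ha0, map_zero] at hφ
    exact hc (PowerSeries.C_injective (by rw [← hφ, map_zero]))
  have h1 : ((ℓ : ℤ) - 1) = ((ℓ - 1 : ℕ) : ℤ) := by
    have := hℓ.out.one_lt
    omega
  rw [h1, ← Int.toNat_of_nonneg hk0]
  exact_mod_cast hdvd

end

end Fermat.Agent.SwD
end MergeWrap_S16_SwD_Main

section MergeWrap_S16_SwD_RatInt -- from S16/SwD/RatInt.lean

/-!
# `ℓ`-integral rationals, reduction mod `ℓ`, and `2 (ℓ - 1) / B_{ℓ - 1} ≡ 0 mod ℓ`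

PIECE A of the Swinnerton-Dyer piece of S16 (pure arithmetic, Mathlib only).
-/

namespace Fermat.Agent.S16SwD

open Finset

section RatInt

variable (ℓ : ℕ) [hℓ : Fact ℓ.Prime]

/-- The subring of `ℓ`-integral rationals. -/
def ratInt : Subring ℚ := (Rat.padicValuation ℓ).integer

variable {ℓ}

theorem mem_ratInt_iff {x : ℚ} : x ∈ ratInt ℓ ↔ ¬ ℓ ∣ x.den := by
  rw [ratInt, Valuation.mem_integer_iff]
  exact Rat.padicValuation_le_one_iff

lemma natCast_den_ne_zero_of_mem {x : ℚ} (hx : x ∈ ratInt ℓ) : ((x.den : ℕ) : ZMod ℓ) ≠ 0 := by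
  rw [Ne, ZMod.natCast_eq_zero_iff]
  exact mem_ratInt_iff.mp hx

lemma intCast_mem_ratInt (n : ℤ) : (n : ℚ) ∈ ratInt ℓ := by
  rw [mem_ratInt_iff, Rat.den_intCast]
  exact hℓ.out.not_dvd_one

lemma natCast_mem_ratInt (n : ℕ) : (n : ℚ) ∈ ratInt ℓ := by
  rw [mem_ratInt_iff, Rat.den_natCast]
  exact hℓ.out.not_dvd_one

/-- An `ℓ`-adic unit has `ℓ`-integral inverse. -/
lemma inv_mem_ratInt {x : ℚ} (hx : ¬ (ℓ : ℤ) ∣ x.num) : x⁻¹ ∈ ratInt ℓ := by
  rw [mem_ratInt_iff]
  intro h
  apply hx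
  have h1 : ((x⁻¹).den : ℤ) ∣ x.num := by
    rw [Rat.inv_def]
    exact Rat.den_dvd _ _
  exact (Int.natCast_dvd_natCast.mpr h).trans h1

variable (ℓ)

/-- Reduction modulo `ℓ` on `ℓ`-integral rationals. -/
def ratIntToZMod : ratInt ℓ →+* ZMod ℓ where
  toFun x := ((x : ℚ) : ZMod ℓ)
  map_one' := by simp
  map_mul' x y := by
    simpa using Rat.cast_mul_of_ne_zero (natCast_den_ne_zero_of_mem x.2)
      (natCast_den_ne_zero_of_mem y.2)
  map_zero' := by simp
  map_add' x y := by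
    simpa using Rat.cast_add_of_ne_zero (natCast_den_ne_zero_of_mem x.2)
      (natCast_den_ne_zero_of_mem y.2)

theorem ratIntToZMod_apply (x : ratInt ℓ) : ratIntToZMod ℓ x = ((x : ℚ) : ZMod ℓ) := rfl

theorem ratIntToZMod_eq_zero_iff (x : ratInt ℓ) :
    ratIntToZMod ℓ x = 0 ↔ (ℓ : ℤ) ∣ (x : ℚ).num := by
  rw [ratIntToZMod_apply, Rat.cast_def, div_eq_zero_iff,
    or_iff_left (natCast_den_ne_zero_of_mem x.2), ZMod.intCast_zmod_eq_zero_iff_dvd]

theorem ratIntToZMod_natCast (n : ℕ) :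
    ratIntToZMod ℓ ⟨(n : ℚ), natCast_mem_ratInt n⟩ = (n : ZMod ℓ) := by
  simp [ratIntToZMod_apply]

theorem ratIntToZMod_intCast (n : ℤ) :
    ratIntToZMod ℓ ⟨(n : ℚ), intCast_mem_ratInt n⟩ = (n : ZMod ℓ) := by
  simp [ratIntToZMod_apply]

end RatInt

section Bernoulli

variable {ℓ : ℕ} [hℓ : Fact ℓ.Prime]

/-- By von Staudt–Clausen, `ℓ * B_{ℓ-1} ≡ -1 mod ℓ`; hence `2 (ℓ - 1) / B_{ℓ - 1}` is
`ℓ`-integral and reduces to `0` modulo `ℓ`. -/
theorem exists_bernoulli_ratio (hℓ3 : 3 ≤ ℓ) :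
    ∃ y : ratInt ℓ, ratIntToZMod ℓ y = 0 ∧
      (y : ℚ) = 2 * ((ℓ - 1 : ℕ) : ℚ) / bernoulli (ℓ - 1) := by
  have hp : ℓ.Prime := hℓ.out
  have hodd : Odd ℓ := hp.odd_of_ne_two (by omega)
  obtain ⟨k, hk⟩ := hodd
  have hk' : ℓ - 1 = 2 * k := by omega
  obtain ⟨n, hn⟩ := Bernoulli.vonStaudt_clausen k
  set F : Finset ℕ := (range (2 * k + 2)).filter (fun p => p.Prime ∧ (p - 1) ∣ 2 * k) with hF
  have hmem : ℓ ∈ F := by
    rw [hF, Finset.mem_filter, Finset.mem_range]
    refine ⟨by omega, hp, ?_⟩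
    rw [hk']
  have hsplit := Finset.add_sum_erase F (fun p : ℕ => (1 : ℚ) / p) hmem
  have hS' : (∑ p ∈ F.erase ℓ, (1 : ℚ) / p) ∈ ratInt ℓ := by
    refine Subring.sum_mem _ fun p hpF => ?_
    rw [Finset.mem_erase, hF, Finset.mem_filter] at hpF
    obtain ⟨hne, -, hpp, -⟩ := hpF
    rw [one_div]
    apply inv_mem_ratInt
    rw [Rat.num_natCast, Int.natCast_dvd_natCast, Nat.prime_dvd_prime_iff_eq hp hpp]
    exact fun h => hne h.symm
  have hℓ0 : (ℓ : ℚ) ≠ 0 := Nat.cast_ne_zero.mpr hp.ne_zero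
  -- `Y = ℓ * B_{ℓ-1}` as an element of `ratInt ℓ`
  let Y : ratInt ℓ := ⟨(ℓ : ℚ), natCast_mem_ratInt ℓ⟩ *
    (⟨(n : ℚ), intCast_mem_ratInt n⟩ - ⟨_, hS'⟩) - 1
  have hY : (Y : ℚ) = (ℓ : ℚ) * bernoulli (ℓ - 1) := by
    have h1 : bernoulli (2 * k) = (n : ℚ) - (1 / (ℓ : ℚ) + ∑ p ∈ F.erase ℓ, (1 : ℚ) / p) := by
      rw [hsplit]
      linear_combination -hn
    rw [hk', h1]
    show (ℓ : ℚ) * ((n : ℚ) - ∑ p ∈ F.erase ℓ, (1 : ℚ) / p) - 1 = _
    field_simp
    ring
  have hφY : ratIntToZMod ℓ Y = -1 := by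
    have h1 : ratIntToZMod ℓ ⟨(ℓ : ℚ), natCast_mem_ratInt ℓ⟩ = 0 := by
      rw [ratIntToZMod_natCast, ZMod.natCast_self]
    simp only [Y, map_sub, map_mul, map_one, h1, zero_mul, zero_sub]
  have hYnum : ¬ (ℓ : ℤ) ∣ (Y : ℚ).num := by
    rw [← ratIntToZMod_eq_zero_iff, hφY]
    exact neg_ne_zero.mpr one_ne_zero
  let Yinv : ratInt ℓ := ⟨(Y : ℚ)⁻¹, inv_mem_ratInt hYnum⟩
  refine ⟨⟨((2 * (ℓ - 1 : ℕ) : ℕ) : ℚ), natCast_mem_ratInt _⟩ *
    ⟨(ℓ : ℚ), natCast_mem_ratInt ℓ⟩ * Yinv, ?_, ?_⟩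
  · have h1 : ratIntToZMod ℓ ⟨(ℓ : ℚ), natCast_mem_ratInt ℓ⟩ = 0 := by
      rw [ratIntToZMod_natCast, ZMod.natCast_self]
    rw [map_mul, map_mul, h1, mul_zero, zero_mul]
  · show ((2 * (ℓ - 1 : ℕ) : ℕ) : ℚ) * (ℓ : ℚ) * (Y : ℚ)⁻¹ = _
    rw [hY, mul_inv, div_eq_mul_inv]
    push_cast
    have : (2 * ((ℓ - 1 : ℕ) : ℚ)) * (ℓ : ℚ) * ((ℓ : ℚ)⁻¹ * (bernoulli (ℓ - 1))⁻¹)
        = 2 * ((ℓ - 1 : ℕ) : ℚ) * ((ℓ : ℚ) * (ℓ : ℚ)⁻¹) * (bernoulli (ℓ - 1))⁻¹ := by ring
    rw [this, mul_inv_cancel₀ hℓ0, mul_one]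

theorem bernoulli_ratio_mem (hℓ3 : 3 ≤ ℓ) :
    (2 * ((ℓ - 1 : ℕ) : ℚ) / bernoulli (ℓ - 1)) ∈ ratInt ℓ := by
  obtain ⟨y, -, hy⟩ := exists_bernoulli_ratio (ℓ := ℓ) hℓ3
  rw [← hy]
  exact y.2

theorem bernoulli_ratio_num (hℓ3 : 3 ≤ ℓ) :
    (ℓ : ℤ) ∣ (2 * ((ℓ - 1 : ℕ) : ℚ) / bernoulli (ℓ - 1)).num := by
  obtain ⟨y, hy0, hy⟩ := exists_bernoulli_ratio (ℓ := ℓ) hℓ3
  rw [← hy]
  exact (ratIntToZMod_eq_zero_iff ℓ y).mp hy0

end Bernoulli

end Fermat.Agent.S16SwD
end MergeWrap_S16_SwD_RatInt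

section MergeWrap_S16_SwD_RamanujanE2 -- from S16/SwD/RamanujanE2.lean

namespace Fermat.Agent.S16SwD

open UpperHalfPlane ModularForm EisensteinSeries Filter
open scoped MatrixGroups ModularForm Manifold Derivative Topology

local notation "𝕢" => Function.Periodic.qParam

/-- `D₂ γ` is holomorphic. -/
lemma mdiff_D2 (γ : SL(2, ℤ)) : MDiff (D2 γ) := by
  intro z
  rw [mdifferentiableAt_iff]
  have h1 := (hasDerivAt_denom_zpow (γ : GL (Fin 2) ℝ) (-1) z).differentiableAt
  have h2 : DifferentiableAt ℂ (fun w : ℂ => 2 * Real.pi * Complex.I * (γ 1 0 : ℂ) *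
      denom (γ : GL (Fin 2) ℝ) w ^ (-1 : ℤ)) z := h1.const_mul _
  refine h2.congr_of_eventuallyEq ?_
  filter_upwards [isOpen_upperHalfPlaneSet.mem_nhds z.im_pos] with w hw
  simp only [Function.comp_apply, ofComplex_apply_of_im_pos hw, D2, zpow_neg_one]
  simp [div_eq_mul_inv]

/-- `D (D₂ γ) = - c² / (cz + d)²`. -/
lemma D_D2 (γ : SL(2, ℤ)) (z : ℍ) :
    D (D2 γ) z = -((γ 1 0 : ℂ)) ^ 2 / (denom (γ : GL (Fin 2) ℝ) z) ^ 2 := by
  have h1 := hasDerivAt_denom_zpow (γ : GL (Fin 2) ℝ) (-1) z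
  have h2 : HasDerivAt (fun w : ℂ => 2 * Real.pi * Complex.I * (γ 1 0 : ℂ) *
      denom (γ : GL (Fin 2) ℝ) w ^ (-1 : ℤ))
      (2 * Real.pi * Complex.I * (γ 1 0 : ℂ) * (((-1 : ℤ) : ℂ) * ((γ : GL (Fin 2) ℝ) 1 0 : ℂ) *
        denom (γ : GL (Fin 2) ℝ) z ^ ((-1 : ℤ) - 1))) z := h1.const_mul _
  have h3 : (D2 γ ∘ ofComplex) =ᶠ[𝓝 (z : ℂ)] (fun w : ℂ => 2 * Real.pi * Complex.I * (γ 1 0 : ℂ) *
      denom (γ : GL (Fin 2) ℝ) w ^ (-1 : ℤ)) := by
    filter_upwards [isOpen_upperHalfPlaneSet.mem_nhds z.im_pos] with w hw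
    simp only [Function.comp_apply, ofComplex_apply_of_im_pos hw, D2, zpow_neg_one]
    simp [div_eq_mul_inv]
  rw [Derivative.normalizedDerivOfComplex, h3.deriv_eq, h2.deriv]
  have hz := denom_ne_zero (γ : GL (Fin 2) ℝ) z
  have hpi : (2 * (Real.pi : ℂ) * Complex.I) ≠ 0 := by simp [Real.pi_ne_zero]
  have e : ((-1 : ℤ) - 1) = -2 := by norm_num
  rw [e, zpow_neg, zpow_ofNat]
  have hc : ((γ : GL (Fin 2) ℝ) 1 0 : ℂ) = (γ 1 0 : ℂ) := by simp
  rw [hc]
  field_simp
  push_cast
  ring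


/-- The weight-4 combination `D E₂ - E₂² / 12`. -/
noncomputable def gE2 : ℍ → ℂ := fun z => D E2 z - 12⁻¹ * (E2 z * E2 z)

lemma gE2_mdiff : MDiff gE2 := by
  have h1 : MDiff (D E2) := Derivative.normalizedDerivOfComplex_mdifferentiable E2_mdifferentiable
  have h2 : MDiff (fun z => (12 : ℂ)⁻¹ * (E2 z * E2 z)) :=
    MDifferentiable.mul mdifferentiable_const (E2_mdifferentiable.mul E2_mdifferentiable)
  exact h1.sub h2

lemma gE2_slash (γ : SL(2, ℤ)) : gE2 ∣[(4 : ℤ)] γ = gE2 := by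
  have hD2 : MDiff (D2 γ) := mdiff_D2 γ
  have hc0 : MDiff ((1 / (2 * riemannZeta 2)) • D2 γ) := by
    have : MDiff (fun z => (1 / (2 * riemannZeta 2)) * D2 γ z) :=
      MDifferentiable.mul mdifferentiable_const hD2
    exact this
  -- `D (E2 ∣[2] γ)` in two ways
  have hA := Derivative.normalizedDerivOfComplex_SL_slash (k := 2) E2_mdifferentiable (γ := γ)
  have hB : D (E2 ∣[(2 : ℤ)] γ) = D E2 - (1 / (2 * riemannZeta 2)) • D (D2 γ) := by
    rw [E2_slash_action, Derivative.normalizedDerivOfComplex_sub _ _ E2_mdifferentiable hc0,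
      Derivative.normalizedDerivOfComplex_smul _ _ hD2]
  have hE : (E2 * E2) ∣[(4 : ℤ)] γ = (E2 ∣[(2 : ℤ)] γ) * (E2 ∣[(2 : ℤ)] γ) := by
    have := ModularForm.mul_slash_SL2 2 2 γ E2 E2
    simpa using this
  ext z
  have hA' := congrFun hA z
  have hB' := congrFun hB z
  have hE' := congrFun hE z
  have hS := congrFun (E2_slash_action γ) z
  simp only [Pi.sub_apply, Pi.smul_apply, Pi.mul_apply, smul_eq_mul] at hA' hB' hE' hS
  rw [hB'] at hA'
  have hg : (gE2 ∣[(4 : ℤ)] γ) z
      = ((D E2) ∣[(4 : ℤ)] γ) z - 12⁻¹ * ((E2 * E2) ∣[(4 : ℤ)] γ) z := by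
    simp only [ModularForm.SL_slash_def, gE2, Pi.mul_apply]
    ring
  rw [hg, hE']
  have hDD := D_D2 γ z
  have hz := denom_ne_zero (γ : GL (Fin 2) ℝ) z
  have hpi : (Real.pi : ℂ) ≠ 0 := by simp [Real.pi_ne_zero]
  have hI : Complex.I ≠ 0 := Complex.I_ne_zero
  have h24 : ((2 : ℤ) + 2) = 4 := by norm_num
  rw [h24] at hA'
  have hDE : ((D E2) ∣[(4 : ℤ)] γ) z = D E2 z - 1 / (2 * riemannZeta 2) * D (D2 γ) z
      + ((2 : ℤ) : ℂ) * (2 * Real.pi * Complex.I)⁻¹ * ((γ 1 0 : ℂ) / denom (γ : GL (Fin 2) ℝ) z)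
        * (E2 ∣[(2 : ℤ)] γ) z := by
    rw [hA']; ring
  rw [hDE, hS, hDD, riemannZeta_two]
  simp only [gE2, D2]
  field_simp
  linear_combination (-72 * Complex.I * (γ 1 0 : ℂ) ^ 2
    + 24 * Real.pi * denom (γ : GL (Fin 2) ℝ) z * (γ 1 0 : ℂ) * E2 z) * Complex.I_sq

lemma gE2_tendsto : Tendsto gE2 atImInfty (𝓝 (-(12 : ℂ)⁻¹)) := by
  have hD : Tendsto (D E2) atImInfty (𝓝 0) :=
    Fermat.Agent.S20.ramanujanAux_isZeroAtImInfty_D Fermat.Agent.S20.ramanujanAux_periodic_E2
      E2_mdifferentiable isBoundedAtImInfty_E2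
  have hE := Fermat.Agent.S20.ramanujanAux_tendsto_E2
  have h1 : Tendsto (fun z : ℍ => D E2 z - 12⁻¹ * (E2 z * E2 z)) atImInfty
      (𝓝 (0 - 12⁻¹ * (1 * 1))) := hD.sub ((hE.mul hE).const_mul _)
  have h2 : (-(12 : ℂ)⁻¹) = 0 - 12⁻¹ * (1 * 1) := by norm_num
  rw [h2]
  exact h1

/-- `D E₂ - E₂² / 12` as a level one modular form of weight `4`. -/
noncomputable def gE2MF : ModularForm 𝒮ℒ ((4 : ℕ) : ℤ) where
  toFun := gE2
  slash_action_eq' := by
    rintro _ ⟨γ, rfl⟩
    exact gE2_slash γ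
  holo' := gE2_mdiff
  bdd_at_cusps' {c} hc := by
    rw [OnePoint.isBoundedAt_iff_forall_SL2Z hc]
    intro γ _
    have := gE2_slash γ
    simp only [Nat.cast_ofNat]
    rw [this]
    exact gE2_tendsto.isBigO_one ℝ

@[simp] lemma gE2MF_apply (z : ℍ) : gE2MF z = D E2 z - 12⁻¹ * (E2 z * E2 z) := rfl

/-- **Ramanujan's identity for `E₂`**: `D E₂ = (E₂² - E₄) / 12`. -/
theorem ramanujan_E2 : D E2 = (12 : ℂ)⁻¹ • (E2 * E2 - ⇑E₄) := by
  have hE4 : (E₄ : ModularForm 𝒮ℒ ((4 : ℕ) : ℤ)) ≠ 0 := E_ne_zero (by norm_num) (by decide)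
  obtain ⟨c, hc⟩ := Fermat.Agent.S20.ramanujanAux_exists_smul (k := 4) (by decide) (by decide)
    (by norm_num) E₄ hE4 gE2MF
  have hpt : ∀ z : ℍ, c * E₄ z = D E2 z - 12⁻¹ * (E2 z * E2 z) := by
    intro z
    have := congrArg (fun f : ModularForm 𝒮ℒ ((4 : ℕ) : ℤ) => f z) hc
    simp only [smul_apply, smul_eq_mul] at this
    rw [this]
    rfl
  have hlim1 : Tendsto (fun z : ℍ => c * E₄ z) atImInfty (𝓝 (c * 1)) :=
    (Fermat.Agent.S20.ramanujanAux_tendsto_E (k := 4) (by norm_num) (by decide)).const_mul c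
  have hlim3 : Tendsto (fun z : ℍ => c * E₄ z) atImInfty (𝓝 (-(12 : ℂ)⁻¹)) := by
    refine gE2_tendsto.congr fun z => ?_
    rw [hpt z]
    rfl
  have hcval : c * 1 = -(12 : ℂ)⁻¹ := tendsto_nhds_unique hlim1 hlim3
  rw [mul_one] at hcval
  ext z
  have h := hpt z
  rw [hcval] at h
  simp only [Pi.smul_apply, Pi.sub_apply, Pi.mul_apply, smul_eq_mul]
  linear_combination -h


end Fermat.Agent.S16SwD

namespace Fermat.Agent.SwD

/-- PIECE B: Ramanujan's identity for `E₂`, in the form required by `RamZ.lean`. -/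
theorem ramanujanE2 : RamanujanE2 := Fermat.Agent.S16SwD.ramanujan_E2

end Fermat.Agent.SwD
end MergeWrap_S16_SwD_RamanujanE2

section MergeWrap_Lib_BadRed_Mod_SSPoly -- from Lib/BadRed/Mod/SSPoly.lean

/-!
# Cluster T / M3: the supersingular polynomial (helper98)

`ssPoly : SSPoly`: for `k` a field of characteristic `q ≥ 5`, `Δ̄^{-(q-1)} = 1728^{q-1} P(j̄)` with
`P ∈ k[X]` of degree `q - 1`, root multiplicities `≤ 12` (`≤ 4` at `0`, `≤ 6` at `1728`),
`P(0) = 0` if `q ≡ 2 mod 3`, `P(1728) = 0` if `q ≡ 3 mod 4`.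

Proof: `A = E_{q-1} mod q` (Hasse invariant, `exists_hasse`: von Staudt-Clausen + Miller basis of
S16/SwD), `A(E₄, E₆) = 1`; `A^12` is isobaric of weight `12 (q - 1)`, hence the homogenisation of
a `P` of degree `≤ q - 1` (`SSHom.lean`); `A` is squarefree (Igusa; `RamSys.not_sq_dvd` of
S16/SwD/Alg).
-/

set_option autoImplicit false
set_option linter.unusedSectionVars false

noncomputable section

open Fermat.Agent.S16SwD MvPolynomial ModularCurve
open UpperHalfPlane ModularForm ModularFormClass MatrixGroups EisensteinSeries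
open Fermat.Agent.SwD (zmap evK miller e2Z e4Z e6Z deltaZ)

namespace Fermat.Agent.BadRed

section Hasse

variable (k : Type*) [Field k] (q : ℕ) [hq : Fact q.Prime] [CharP k q]

/-- the Hasse invariant: an isobaric `A ∈ k[Q, R]` of weight `q - 1` with `A(E₄, E₆) = 1`
(the reduction of `E_{q-1}`). -/
theorem exists_hasse (h5 : 5 ≤ q) :
    ∃ A : MvPolynomial (Fin 2) k, IsWeightedHomogeneous wt A (q - 1) ∧ evK k A = 1 := by
  set O : Subring ℚ := ratInt q with hO
  set ι : O →+* ℂ := (algebraMap ℚ ℂ).comp O.subtype with hι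
  have hιinj : Function.Injective ι := by
    intro x y hxy
    apply Subtype.val_injective
    exact (algebraMap ℚ ℂ).injective hxy
  set φ : O →+* k := (ZMod.castHom (dvd_refl q) k).comp (ratIntToZMod q) with hφ
  have hk3 : 3 ≤ q - 1 := by omega
  have hodd : Odd q := hq.out.odd_of_ne_two (by omega)
  have hk2 : Even (q - 1) := by
    obtain ⟨m, hm⟩ := hodd
    exact ⟨m, by omega⟩
  set β : O := ⟨2 * ((q - 1 : ℕ) : ℚ) / bernoulli (q - 1), bernoulli_ratio_mem (by omega)⟩ with hβ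
  have hφβ : φ β = 0 := by
    have h0 : ratIntToZMod q β = 0 :=
      (ratIntToZMod_eq_zero_iff q β).mpr (bernoulli_ratio_num (by omega))
    rw [hφ, RingHom.comp_apply, h0, map_zero]
  set aE : PowerSeries O :=
    PowerSeries.mk fun n => if n = 0 then 1 else -β * ((ArithmeticFunction.sigma (q - 1 - 1) n : ℕ) : O)
    with haE
  have haE1 : PowerSeries.map ι aE = qExpansion 1 (E hk3) := by
    ext n
    rw [E_qExpansion_coeff hk3 hk2, PowerSeries.coeff_map, haE, PowerSeries.coeff_mk]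
    by_cases hn : n = 0
    · simp [hn]
    · simp only [hn, if_false, map_mul, map_neg, map_natCast]
      congr 2
      simp [hι, hβ]
  have haE2 : PowerSeries.map φ aE = 1 := by
    ext n
    rw [PowerSeries.coeff_map, haE, PowerSeries.coeff_mk, PowerSeries.coeff_one]
    by_cases hn : n = 0
    · simp [hn]
    · simp [hn, hφβ]
  have h1728 : (1728 : k) ≠ 0 := Fermat.Agent.SwD.ne_zero_1728 q h5
  obtain ⟨A, hA, hA1⟩ := miller ι hιinj φ h1728 _ (E hk3) aE haE1
  rw [Int.toNat_natCast] at hA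
  exact ⟨A, hA, by rw [hA1, haE2]⟩

/-- the Ramanujan system `(E₂, E₄, E₆)` over `k`. -/
def ssRam (h5 : 5 ≤ q) : RamSys k where
  e2 := zmap k e2Z
  e4 := zmap k e4Z
  e6 := zmap k e6Z
  h2 := by rw [Fermat.Agent.SwD.constantCoeff_zmap, Fermat.Agent.SwD.constantCoeff_e2Z]; simp
  h4 := by rw [Fermat.Agent.SwD.constantCoeff_zmap, Fermat.Agent.SwD.constantCoeff_e4Z]; simp
  h6 := by rw [Fermat.Agent.SwD.constantCoeff_zmap, Fermat.Agent.SwD.constantCoeff_e6Z]; simp
  hδ := by
    rw [← Fermat.Agent.SwD.delta_map]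
    refine mul_ne_zero ?_ Fermat.Agent.SwD.zmap_deltaZ_ne_zero
    rw [← map_ofNat (PowerSeries.C (R := k)) 1728]
    intro h
    exact Fermat.Agent.SwD.ne_zero_1728 q h5 (PowerSeries.C_injective (by rw [h, map_zero]))
  R2 := by
    rw [← Fermat.Agent.SwD.thetaOp_eq_X_mul_derivative]
    exact Fermat.Agent.SwD.ram2_map Fermat.Agent.SwD.ramanujanE2
  R4 := by
    rw [← Fermat.Agent.SwD.thetaOp_eq_X_mul_derivative]; exact Fermat.Agent.SwD.ram4_map
  R6 := by
    rw [← Fermat.Agent.SwD.thetaOp_eq_X_mul_derivative]; exact Fermat.Agent.SwD.ram6_map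

lemma ssRam_ev (h5 : 5 ≤ q) : (ssRam k q h5).ev = evK k := rfl

end Hasse

/-- **(SS-P)**: `Δ̄^{-(q-1)} = 1728^{q-1} P(j̄)`, `P` the supersingular polynomial (to the power
`12`). -/
theorem ssPoly : SSPoly := by
  intro k _ q hq _ h5
  have h1728 : (1728 : k) ≠ 0 := Fermat.Agent.SwD.ne_zero_1728 q h5
  have hq1 : 1 ≤ q := hq.out.one_le
  obtain ⟨A, hA, hA1⟩ := exists_hasse k q h5
  have hA0 : A ≠ 0 := by
    rintro rfl
    rw [map_zero] at hA1
    exact zero_ne_one hA1
  have hA12 : IsWeightedHomogeneous wt (A ^ 12) (12 * (q - 1)) := by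
    have := hA.pow 12
    rwa [smul_eq_mul] at this
  obtain ⟨P, hPdeg, hAP⟩ := exists_ssHom_eq h1728 (q - 1) (A ^ 12) hA12
  have hkey : ssD k ^ (q - 1) * Polynomial.aeval (jqModC k) P = 1 := by
    rw [← ofPS_evK_ssHom k hPdeg, ← hAP, map_pow, hA1, one_pow, map_one]
  have hP0 : P ≠ 0 := by
    rintro rfl
    rw [map_zero, mul_zero] at hkey
    exact zero_ne_one hkey
  have hsq : ∀ π : MvPolynomial (Fin 2) k, Prime π → ¬ π ^ 2 ∣ A := fun π hπ =>
    (ssRam k q h5).not_sq_dvd q hA hA1 hπ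
  have hmult : ∀ (c : k) (π : MvPolynomial (Fin 2) k) (n : ℕ), Prime π → π ^ n ∣ ssLin c →
      n * P.rootMultiplicity c ≤ 12 := by
    intro c π n hπ hπc
    have h1 : ssLin c ^ P.rootMultiplicity c ∣ A ^ 12 := by
      rw [hAP]
      exact ssLin_pow_dvd_ssHom hP0 hPdeg c (Polynomial.pow_rootMultiplicity_dvd P c)
    have h2 : π ^ (n * P.rootMultiplicity c) ∣ A ^ 12 := by
      rw [pow_mul]
      exact (pow_dvd_pow_of_dvd hπc _).trans h1
    exact le_of_prime_pow_dvd_pow hA0 hπ (hsq π hπ) h2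
  refine ⟨P, 1728 ^ (q - 1), pow_ne_zero _ h1728, ?_, ?_, ?_, ?_, ?_, ?_, ?_⟩
  · refine le_antisymm hPdeg ?_
    have h1 : MvPolynomial.eval (fun _ => (1 : k)) (A ^ 12) = 1 := by
      rw [map_pow, ← (ssRam k q h5).constantCoeff_ev, ssRam_ev, hA1, map_one, one_pow]
    rw [hAP, eval_ssHom_one_one] at h1
    have h2 : P.coeff (q - 1) ≠ 0 := by
      intro h0
      rw [h0, zero_mul] at h1
      exact zero_ne_one h1
    exact Polynomial.le_natDegree_of_ne_zero h2
  · have h := ssFun_mul_ssD_pow k q hq1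
    calc ssFun k q = ssFun k q * (ssD k ^ (q - 1) * Polynomial.aeval (jqModC k) P) := by
          rw [hkey, mul_one]
      _ = (ssFun k q * ssD k ^ (q - 1)) * Polynomial.aeval (jqModC k) P := by ring
      _ = _ := by rw [h]
  · intro c
    have hne := ssLin_ne_zero h1728 c
    have hnu : ¬ IsUnit (ssLin c) := not_isUnit_of_isWH (by norm_num) (isWH_ssLin c) hne
    obtain ⟨π, hπirr, hπc⟩ := WfDvdMonoid.exists_irreducible_factor hnu hne
    have hπ : Prime π := UniqueFactorizationMonoid.irreducible_iff_prime.mp hπirr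
    have := hmult c π 1 hπ (by simpa using hπc)
    simpa using this
  · have h := hmult 0 (X 0) 3 MvPolynomial.X_prime (by rw [ssLin_zero]; exact dvd_mul_left _ _)
    omega
  · have h := hmult 1728 (X 1) 2 MvPolynomial.X_prime
      (by rw [ssLin_1728]; exact dvd_mul_left _ _)
    omega
  · intro h3
    have hw : (q - 1) % 3 = 1 := by omega
    have h1 : MvPolynomial.eval ![0, 1] (A ^ 12) = 0 := by
      rw [map_pow, eval_zero_one_of_isWH hA hw]
      simp
    rw [hAP, eval_ssHom_zero_one] at h1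
    have h2 : P.coeff 0 = 0 := by
      rcases mul_eq_zero.mp h1 with h | h
      · exact h
      · exact absurd h (pow_ne_zero _ (neg_ne_zero.mpr one_ne_zero))
    rw [← Polynomial.coeff_zero_eq_eval_zero]
    exact h2
  · intro h4
    have hw : (q - 1) % 4 = 2 := by omega
    have h1 : MvPolynomial.eval ![1, 0] (A ^ 12) = 0 := by
      rw [map_pow, eval_one_zero_of_isWH hA hw]
      simp
    rw [hAP, eval_ssHom_one_zero hPdeg] at h1
    exact h1

end Fermat.Agent.BadRed
end
end MergeWrap_Lib_BadRed_Mod_SSPoly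

section MergeWrap_Lib_BadRed_Mod_SSCount -- from Lib/BadRed/Mod/SSCount.lean

/-!
# Cluster T / M3: the count of supersingular points, `q ≥ 5` (helper98)

`ssCount_ge`: for a prime `q ≥ 5`, `q ∤ N₀`, a place `A` of `ℚ̄` over `q` with residue field `k`,
and `h ∈ F_k(N₀)` with `q`-expansion `ssFun k q = Δ̄^{-(q-1)}` (the reduction of
`u = Δ(z)/Δ(qz)`):

  `g(X₀(q N₀)) + 1 ≤ 2 g(X₀(N₀) mod q) + #{zeros of h}`.

This is the field `genus_le` of `NodalSeed` for the nodes = the zeros of `h` (the supersingular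
points).

Proof: `h = u₀ P(j̄)` (`ssPoly`), the zeros of `h` contain the fibres of `j̄` over the roots of `P`
(`sum_card_fibre_le`), the fibres have `ψ`, `(ψ + 2ν₃)/3`, `(ψ + ν₂)/2` points (helper24's
`card_fibre_jC_*` + S24/Comb), `deg P = q - 1` with multiplicities `≤ 12, 4, 6`, and the
arithmetic of the genus formula (`ssArith`, helper94).
-/

set_option autoImplicit false
set_option linter.unusedSectionVars false
set_option linter.style.haveILetI false

noncomputable section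

open AlgebraicCurve Polynomial ModularCurve Fermat.Agent.RR

set_option synthInstance.maxHeartbeats 400000
set_option maxHeartbeats 1000000

namespace Fermat.Agent.BadRed

section Abstract

variable {K F : Type*} [Field K] [Field F] [Algebra K F]

/-- the fibres of `x` over distinct constants are disjoint. -/
lemma fibre_const_unique (v : Place K F) {x : F} {c c' : K}
    (hc : 0 < v.ord (x - algebraMap K F c)) (hc' : 0 < v.ord (x - algebraMap K F c')) :
    c = c' := by
  by_contra hne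
  have h1 : x - algebraMap K F c - algebraMap K F (c' - c) = x - algebraMap K F c' := by
    rw [map_sub]
    ring
  have h2 := Fermat.Agent.GoodRedSmall.ord_eq_zero_of_sub_pos v
    (sub_ne_zero.mpr (Ne.symm hne)) (f := x - algebraMap K F c) (by rw [h1]; exact hc')
  omega

/-- a zero of `x - c`, `c` a root of `P`, is a zero of `u₀ P(x)`. -/
lemma ord_pos_of_root (v : Place K F) {x : F} {c : K} {P : K[X]} (hP : P ≠ 0)
    (hc : P.IsRoot c) (hv : 0 < v.ord (x - algebraMap K F c)) {u₀ : K} (hu : u₀ ≠ 0) :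
    0 < v.ord (algebraMap K F u₀ * Polynomial.aeval x P) := by
  have h1 := Fermat.Agent.GoodRedSmall.ord_aeval_eq v hv hP
  have hm : 0 < P.rootMultiplicity c := (Polynomial.rootMultiplicity_pos hP).mpr hc
  have h2 : 0 < v.ord (Polynomial.aeval x P) := by
    rw [h1]
    exact mul_pos (by exact_mod_cast hm) hv
  have hne : Polynomial.aeval x P ≠ 0 := by
    intro h0
    rw [h0, v.ord_zero] at h2
    exact lt_irrefl _ h2
  have hu' : algebraMap K F u₀ ≠ 0 := by
    rwa [ne_eq, map_eq_zero_iff _ (algebraMap K F).injective]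
  rw [v.ord_mul hu' hne, Fermat.Agent.GoodRedSmall.ord_const, zero_add]
  exact h2

/-- **the zeros of `u₀ P(x)` contain the (disjoint) fibres of `x` over the roots of `P`.** -/
theorem sum_card_fibre_le [DecidableEq K] (hRR : IsRRField K F) {x : F} {P : K[X]} (hP : P ≠ 0)
    {u₀ : K} (hu : u₀ ≠ 0) :
    ∑ c ∈ P.roots.toFinset, Nat.card {v : Place K F // 0 < v.ord (x - algebraMap K F c)} ≤
      Nat.card {v : Place K F // 0 < v.ord (algebraMap K F u₀ * Polynomial.aeval x P)} := by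
  classical
  set h : F := algebraMap K F u₀ * Polynomial.aeval x P with hh
  set Z : Finset (Place K F) := (finite_zeros hRR h).toFinset with hZ
  set Fc : K → Finset (Place K F) :=
    fun c => (finite_zeros hRR (x - algebraMap K F c)).toFinset with hFc
  have hcard : ∀ c, Nat.card {v : Place K F // 0 < v.ord (x - algebraMap K F c)} = (Fc c).card := by
    intro c
    change Nat.card ↥{v : Place K F | 0 < v.ord (x - algebraMap K F c)} = _
    rw [Nat.card_coe_set_eq, Set.ncard_eq_toFinset_card _ (finite_zeros hRR _)]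
  have hZc : Nat.card {v : Place K F // 0 < v.ord h} = Z.card := by
    change Nat.card ↥{v : Place K F | 0 < v.ord h} = _
    rw [Nat.card_coe_set_eq, Set.ncard_eq_toFinset_card _ (finite_zeros hRR _)]
  rw [hZc, Finset.sum_congr rfl (fun c _ => hcard c), ← Finset.card_biUnion]
  · apply Finset.card_le_card
    intro v hv
    rw [Finset.mem_biUnion] at hv
    obtain ⟨c, hc, hvc⟩ := hv
    have hroot : P.IsRoot c := by
      have := Multiset.mem_toFinset.mp hc
      exact (Polynomial.mem_roots hP).mp this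
    have hvc' : 0 < v.ord (x - algebraMap K F c) := by
      have := (Set.Finite.mem_toFinset _).mp hvc
      exact this
    rw [hZ, Set.Finite.mem_toFinset]
    exact ord_pos_of_root v hP hroot hvc' hu
  · intro c _ c' _ hne
    rw [Function.onFun, Finset.disjoint_left]
    intro v hv hv'
    have h1 : 0 < v.ord (x - algebraMap K F c) := by
      have := (Set.Finite.mem_toFinset _).mp hv
      exact this
    have h2 : 0 < v.ord (x - algebraMap K F c') := by
      have := (Set.Finite.mem_toFinset _).mp hv'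
      exact this
    exact hne (fibre_const_unique v h1 h2)

/-- over an algebraically closed field the root multiplicities add up to the degree. -/
lemma sum_rootMultiplicity_eq_natDegree [DecidableEq K] [IsAlgClosed K] (P : K[X]) :
    ∑ c ∈ P.roots.toFinset, P.rootMultiplicity c = P.natDegree := by
  classical
  have h1 : ∑ c ∈ P.roots.toFinset, P.roots.count c = P.roots.card :=
    Multiset.toFinset_sum_count_eq P.roots
  have h2 : P.roots.card = P.natDegree :=
    (IsAlgClosed.splits P).natDegree_eq_card_roots.symm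
  rw [← h2, ← h1]
  refine Finset.sum_congr rfl (fun c _ => ?_)
  rw [Polynomial.count_roots]

end Abstract

section Count

local notation "Qb" => AlgebraicClosure ℚ

open Fermat.Agent.GoodRed Fermat.Agent.GaussInt Fermat.Agent.S24

/-- the arithmetic core of the count. -/
lemma ssCount_arith {κ : Type*} [Field κ] [DecidableEq κ] (h1728 : (1728 : κ) ≠ 0)
    (R : Finset κ) (mult n : κ → ℕ) (ψ ν₂ ν₃ o₂ o₃ d : ℕ)
    (h2 : 2 * o₂ = ψ + ν₂) (h3 : 3 * o₃ = ψ + 2 * ν₃)
    (hn : ∀ c ∈ R, c ≠ 0 → c ≠ 1728 → n c = ψ)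
    (hn0 : n 0 = o₃) (hn1 : n 1728 = o₂)
    (hm : ∀ c, mult c ≤ 12) (hm0 : mult 0 ≤ 4) (hm1 : mult 1728 ≤ 6)
    (hsum : ∑ c ∈ R, mult c = d) :
    d * ψ + (if (0 : κ) ∈ R then 8 * ν₃ else 0) + (if (1728 : κ) ∈ R then 6 * ν₂ else 0) ≤
      12 * ∑ c ∈ R, n c := by
  have hpt : ∀ c ∈ R, mult c * ψ + ((if c = 0 then 8 * ν₃ else 0) +
      (if c = 1728 then 6 * ν₂ else 0)) ≤ 12 * n c := by
    intro c hc
    by_cases hc0 : c = 0
    · subst hc0
      have hne : (0 : κ) ≠ 1728 := fun h => h1728 h.symm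
      rw [if_pos rfl, if_neg hne, hn0]
      have : mult 0 * ψ ≤ 4 * ψ := Nat.mul_le_mul_right _ hm0
      omega
    · by_cases hc1 : c = 1728
      · subst hc1
        rw [if_neg hc0, if_pos rfl, hn1]
        have : mult 1728 * ψ ≤ 6 * ψ := Nat.mul_le_mul_right _ hm1
        omega
      · rw [if_neg hc0, if_neg hc1, hn c hc hc0 hc1]
        have : mult c * ψ ≤ 12 * ψ := Nat.mul_le_mul_right _ (hm c)
        omega
  have hs := Finset.sum_le_sum hpt
  rw [Finset.sum_add_distrib, Finset.sum_add_distrib, ← Finset.sum_mul, hsum, ← Finset.mul_sum,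
    Finset.sum_ite_eq', Finset.sum_ite_eq'] at hs
  omega

/-- **(G) the count of supersingular points**, `q ≥ 5`: `g(q N₀) + 1 ≤ 2 g₀ + s`, `s` the number
of zeros of the reduction `h` of `u` on `X₀(N₀)` mod `q`. -/
theorem ssCount_ge (N₀ N : ℕ) [NeZero N₀] [NeZero N] {q : ℕ} (hq : q.Prime) (h5 : 5 ≤ q)
    (hqN : ¬ q ∣ N₀) (hN : N = q * N₀)
    {A : ValuationSubring Qb} (hA : A.LiesOverPrime q)
    (h : modularFunctionFieldFullC (IsLocalRing.ResidueField A) N₀)
    (hh : (h : LaurentSeries (IsLocalRing.ResidueField A)) =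
      ssFun (IsLocalRing.ResidueField A) q) :
    genusFF Qb ↥(modularFunctionFieldBar N) + 1 ≤
      genusFF (IsLocalRing.ResidueField A)
          ↥(modularFunctionFieldFullC (IsLocalRing.ResidueField A) N₀) +
        genusFF (IsLocalRing.ResidueField A)
          ↥(modularFunctionFieldFullC (IsLocalRing.ResidueField A) N₀) +
        Nat.card {v : Place (IsLocalRing.ResidueField A)
          ↥(modularFunctionFieldFullC (IsLocalRing.ResidueField A) N₀) // 0 < v.ord h} := by
  classical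
  subst hN
  haveI : Fact q.Prime := ⟨hq⟩
  haveI : CharP (IsLocalRing.ResidueField A) q := Fermat.Agent.FrobTrace.charP_residueField A hA
  haveI : IsAlgClosed (IsLocalRing.ResidueField A) := isAlgClosed_residue A
  have hq2 : q ≠ 2 := by omega
  have hq3 : q ≠ 3 := by omega
  obtain ⟨P, u₀, hu₀, hdeg, hss, hm, hm0, hm1, hz0, hz1⟩ :=
    ssPoly (IsLocalRing.ResidueField A) q h5
  have h1728 : (1728 : IsLocalRing.ResidueField A) ≠ 0 := Fermat.Agent.SwD.ne_zero_1728 q h5
  have hP0 : P ≠ 0 := by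
    rintro rfl
    rw [Polynomial.natDegree_zero] at hdeg
    omega
  -- `h = u₀ P(j̄)` in `F_k`
  have hh' : h = algebraMap (IsLocalRing.ResidueField A) _ u₀ *
      Polynomial.aeval (Fermat.Agent.RRMod.jC (IsLocalRing.ResidueField A) N₀) P := by
    apply Subtype.ext
    rw [hh, hss, MulMemClass.coe_mul, ← IntermediateField.aeval_coe, Fermat.Agent.RRMod.coe_jC,
      ← algebraMap_mul_laurent]
    rfl
  have hRR := Fermat.Agent.RRMod.isRRField_fullC' (IsLocalRing.ResidueField A) N₀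
  have hcount := sum_card_fibre_le hRR (x := Fermat.Agent.RRMod.jC (IsLocalRing.ResidueField A) N₀)
    hP0 hu₀
  rw [← hh'] at hcount
  -- the arithmetic
  have harith := ssCount_arith h1728 P.roots.toFinset (fun c => P.rootMultiplicity c)
    (fun c => Nat.card {v : Place (IsLocalRing.ResidueField A)
        ↥(modularFunctionFieldFullC (IsLocalRing.ResidueField A) N₀) //
        0 < v.ord (Fermat.Agent.RRMod.jC (IsLocalRing.ResidueField A) N₀ -
          algebraMap (IsLocalRing.ResidueField A) _ c)})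
    (dedekindPsi N₀) (nuTwo N₀) (nuThree N₀)
    (orbCount (CongruenceSubgroup.Gamma0 N₀) ModularGroup.S)
    (orbCount (CongruenceSubgroup.Gamma0 N₀) (ModularGroup.S * ModularGroup.T)) (q - 1)
    (two_mul_orbCount_S N₀) (three_mul_orbCount_ST N₀)
    (fun c _ hc0 hc1 => by
      rw [card_fibre_jC_of_ne N₀ hq hA hqN hq2 hq3 c hc0 hc1, index_Gamma0])
    (card_fibre_jC_zero N₀ hq hA hqN hq2 hq3)
    (card_fibre_jC_1728 N₀ hq hA hqN hq2 hq3)
    hm hm0 hm1 (by rw [sum_rootMultiplicity_eq_natDegree, hdeg])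
  -- the genus formula
  have hA₀ := ssArith N₀ q (NeZero.ne N₀) hq h5 hqN
  have hg₀ := Fermat.Agent.GenusEq.genusFF_modularFunctionFieldBar N₀
  have hg := Fermat.Agent.GenusEq.genusFF_modularFunctionFieldBar (q * N₀)
  have hgk := genusFF_modular_eq N₀ hq hA hqN hq2 hq3
  rw [← hgk]
  rw [← hg, ← hg₀] at hA₀
  have hr0 : q % 3 = 2 → (0 : IsLocalRing.ResidueField A) ∈ P.roots.toFinset := fun h3 =>
    Multiset.mem_toFinset.mpr ((Polynomial.mem_roots hP0).mpr (hz0 h3))
  have hr1 : q % 4 = 3 → (1728 : IsLocalRing.ResidueField A) ∈ P.roots.toFinset := fun h4 =>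
    Multiset.mem_toFinset.mpr ((Polynomial.mem_roots hP0).mpr (hz1 h4))
  set G := genusFF Qb ↥(modularFunctionFieldBar (q * N₀)) with hG
  set G₀ := genusFF Qb ↥(modularFunctionFieldBar N₀) with hG₀
  set s := Nat.card {v : Place (IsLocalRing.ResidueField A)
          ↥(modularFunctionFieldFullC (IsLocalRing.ResidueField A) N₀) // 0 < v.ord h} with hs
  have hq1 : 1 ≤ q := hq.one_le
  have key : ∀ a b : ℕ,
      (12 * (G : ℚ) + 12 = 24 * (G₀ : ℚ) + ((q : ℚ) - 1) * (dedekindPsi N₀ : ℚ)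
        + 3 * (nuTwo N₀ : ℚ) * (a : ℚ) + 4 * (nuThree N₀ : ℚ) * (b : ℚ)) →
      12 * G + 12 = 24 * G₀ + (q - 1) * dedekindPsi N₀ + 3 * nuTwo N₀ * a
        + 4 * nuThree N₀ * b := by
    intro a b hab
    have e : ((q - 1 : ℕ) : ℚ) = (q : ℚ) - 1 := by
      rw [Nat.cast_sub hq1, Nat.cast_one]
    have : ((12 * G + 12 : ℕ) : ℚ) = ((24 * G₀ + (q - 1) * dedekindPsi N₀
        + 3 * nuTwo N₀ * a + 4 * nuThree N₀ * b : ℕ) : ℚ) := by
      push_cast
      rw [e]
      exact hab
    exact_mod_cast this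
  have hAn := key (if q % 4 = 3 then 2 else 0) (if q % 3 = 2 then 2 else 0)
    (by push_cast; exact hA₀)
  have hle := harith.trans (Nat.mul_le_mul_left 12 hcount)
  generalize (q - 1) * dedekindPsi N₀ = X at hAn hle
  by_cases h4 : q % 4 = 3 <;> by_cases h3 : q % 3 = 2
  · rw [if_pos (hr0 h3), if_pos (hr1 h4)] at hle
    rw [if_pos h4, if_pos h3] at hAn
    omega
  · rw [if_pos (hr1 h4)] at hle
    rw [if_pos h4, if_neg h3] at hAn
    split_ifs at hle <;> omega
  · rw [if_pos (hr0 h3)] at hle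
    rw [if_neg h4, if_pos h3] at hAn
    split_ifs at hle <;> omega
  · rw [if_neg h4, if_neg h3] at hAn
    split_ifs at hle <;> omega

/-- `ssFun k q` lies in the function field `F_k(N₀)` (`q ≥ 5`; it is a polynomial in `j̄`). -/
theorem ssFun_mem_fullC (k : Type) [Field k] (q : ℕ) [Fact q.Prime] [CharP k q] (h5 : 5 ≤ q)
    (N₀ : ℕ) [NeZero N₀] : ssFun k q ∈ modularFunctionFieldFullC k N₀ := by
  obtain ⟨P, u₀, -, -, hss, -⟩ := ssPoly k q h5
  have h1 : ssFun k q = ((algebraMap k (modularFunctionFieldFullC k N₀) u₀ *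
      Polynomial.aeval (Fermat.Agent.RRMod.jC k N₀) P :
        modularFunctionFieldFullC k N₀) : LaurentSeries k) := by
    rw [hss, MulMemClass.coe_mul, ← IntermediateField.aeval_coe, Fermat.Agent.RRMod.coe_jC,
      ← algebraMap_mul_laurent]
    rfl
  rw [h1]
  exact SetLike.coe_mem _

/-- the zeros of an element of `F_k(N₀)` are finite in number (for the `Fintype` instance on the
nodes). -/
theorem finite_ssZeros {A : ValuationSubring Qb} (N₀ : ℕ) [NeZero N₀]
    (h : modularFunctionFieldFullC (IsLocalRing.ResidueField A) N₀) :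
    Finite {v : Place (IsLocalRing.ResidueField A)
      ↥(modularFunctionFieldFullC (IsLocalRing.ResidueField A) N₀) // 0 < v.ord h} := by
  haveI : IsAlgClosed (IsLocalRing.ResidueField A) := isAlgClosed_residue A
  exact (finite_zeros (Fermat.Agent.RRMod.isRRField_fullC' (IsLocalRing.ResidueField A) N₀)
    h).to_subtype

/-- `ssCount_ge` with `Fintype.card` (the form of `NodalSeed.genus_le`). -/
theorem ssCount_ge_fintype (N₀ N : ℕ) [NeZero N₀] [NeZero N] {q : ℕ} (hq : q.Prime) (h5 : 5 ≤ q)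
    (hqN : ¬ q ∣ N₀) (hN : N = q * N₀)
    {A : ValuationSubring Qb} (hA : A.LiesOverPrime q)
    (h : modularFunctionFieldFullC (IsLocalRing.ResidueField A) N₀)
    (hh : (h : LaurentSeries (IsLocalRing.ResidueField A)) =
      ssFun (IsLocalRing.ResidueField A) q)
    [Fintype {v : Place (IsLocalRing.ResidueField A)
          ↥(modularFunctionFieldFullC (IsLocalRing.ResidueField A) N₀) // 0 < v.ord h}] :
    genusFF Qb ↥(modularFunctionFieldBar N) + 1 ≤
      genusFF (IsLocalRing.ResidueField A)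
          ↥(modularFunctionFieldFullC (IsLocalRing.ResidueField A) N₀) +
        genusFF (IsLocalRing.ResidueField A)
          ↥(modularFunctionFieldFullC (IsLocalRing.ResidueField A) N₀) +
        Fintype.card {v : Place (IsLocalRing.ResidueField A)
          ↥(modularFunctionFieldFullC (IsLocalRing.ResidueField A) N₀) // 0 < v.ord h} := by
  rw [← Nat.card_eq_fintype_card]
  exact ssCount_ge N₀ N hq h5 hqN hN hA h hh

end Count

end Fermat.Agent.BadRed
end
end MergeWrap_Lib_BadRed_Mod_SSCount
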