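import Mathlib
import Fermat.Agent.MUL.Lib.BadRed.TwoExtModular
import Fermat.Agent.MUL.Lib.GaussInt.ModularInst
import Fermat.Agent.MUL.S21.ReInvariant

section MergeWrap_Lib_BadRed_Mod_ValInf -- from Lib/BadRed/Mod/ValInf.lean

set_option autoImplicit false
set_option linter.style.haveILetI false
set_option synthInstance.maxHeartbeats 400000

noncomputable section

namespace Fermat.Agent.BadRed

open ModularCurve HahnSeries Fermat.Agent.GaussInt Fermat.Agent.S24 Fermat.Agent.Deuring

local notation "Qb" => AlgebraicClosure ℚ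

/-! ### Monotonicity of the Gauss ring in the field -/

section Mono

variable {K : Type*} [Field K] {A : ValuationSubring K}
  {F F' : IntermediateField K (LaurentSeries K)}

theorem isPres_mono_field (hFF : F ≤ F') {f : LaurentSeries K} {Y₁ Y₂ : LaurentSeries A}
    (h : IsPres A F f Y₁ Y₂) : IsPres A F' f Y₁ Y₂ :=
  ⟨hFF h.mem₁, hFF h.mem₂, h.prim, h.eq⟩

theorem gaussSub_mono_field (hFF : F ≤ F') {f : LaurentSeries K} (hf : f ∈ gaussSub A F) :
    f ∈ gaussSub A F' := by
  obtain ⟨Y₁, Y₂, h⟩ := hf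
  exact ⟨Y₁, Y₂, isPres_mono_field hFF h⟩

theorem gaussResFun_eq_of_le (hFF : F ≤ F') {f : LaurentSeries K} (hf : f ∈ gaussSub A F) :
    gaussResFun A F' f = gaussResFun A F f := by
  obtain ⟨Y₁, Y₂, h⟩ := hf
  rw [gaussResFun_eq h, gaussResFun_eq (isPres_mono_field hFF h)]

end Mono

variable (N ℓ : ℕ) [NeZero N] [NeZero ℓ]

theorem modularFunctionFieldBar_le_mul :
    modularFunctionFieldBar N ≤ modularFunctionFieldBar (N * ℓ) := by
  intro x hx
  have := (heckeAlphaBar Qb N ℓ ⟨x, hx⟩).2
  rwa [coe_heckeAlphaBar] at this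

variable {N ℓ}
variable (hℓ : ℓ.Prime) (hℓN : ¬ ℓ ∣ N) (A : ValuationSubring Qb) (hA : A.LiesOverPrime ℓ)

omit [NeZero ℓ] in
/-- elements of the maximal ideal of the Gauss ring have residue `0`. -/
theorem gaussResFun_eq_zero_of_mem_nonunits (M : ℕ) {y : ↥(modularFunctionFieldBar M)}
    (hy : y ∈ (gaussOv M hℓ A hA).nonunits) :
    gaussResFun A (modularFunctionFieldBar M) (y : LaurentSeries Qb) = 0 := by
  have hyO : y ∈ gaussOv M hℓ A hA := (gaussOv M hℓ A hA).nonunits_le hy
  have h1 : ¬ IsUnit (⟨y, hyO⟩ : gaussOv M hℓ A hA) := by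
    rw [← IsLocalRing.notMem_maximalIdeal, not_not, ← ValuationSubring.coe_mem_nonunits_iff]
    exact hy
  exact (gaussValRes_eq_zero_iff (gaussHyp_modular (K := Qb) (A := A) M hℓ hA) ⟨y, hyO⟩).mpr h1

include hℓN in
/-- **(R3) at the bad level `N ℓ`**: the residues of the Gauss ring of `F_{Nℓ}` lie in
`F_k(N)`. -/
theorem gaussResFun_mem_fullC_mul (h : ModFactsAt N hℓ A hA) :
    ∀ f ∈ gaussSub A (modularFunctionFieldBar (N * ℓ)),
      gaussResFun A (modularFunctionFieldBar (N * ℓ)) f ∈
        modularFunctionFieldFullC (IsLocalRing.ResidueField A) N := by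
  intro f hf
  have hfF : f ∈ modularFunctionFieldBar (N * ℓ) := mem_of_mem_gaussSub hf
  obtain ⟨g, hg, hgx⟩ := residue_one_modular hℓ hℓN h
    (x := (⟨f, hfF⟩ : ↥(modularFunctionFieldBar (N * ℓ)))) hf
  have hg' : (g : LaurentSeries Qb) ∈ gaussSub A (modularFunctionFieldBar N) := hg
  have hle := modularFunctionFieldBar_le_mul N ℓ
  have h0 := gaussResFun_eq_zero_of_mem_nonunits hℓ A hA (N * ℓ) hgx
  have hcoe : (((⟨f, hfF⟩ : ↥(modularFunctionFieldBar (N * ℓ))) - heckeAlphaBar Qb N ℓ g :
      ↥(modularFunctionFieldBar (N * ℓ))) : LaurentSeries Qb) = f - (g : LaurentSeries Qb) := by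
    rw [AddSubgroupClass.coe_sub, coe_heckeAlphaBar]
  rw [hcoe] at h0
  have hgM : (g : LaurentSeries Qb) ∈ gaussSub A (modularFunctionFieldBar (N * ℓ)) :=
    gaussSub_mono_field hle hg'
  have hsub : gaussResFun A (modularFunctionFieldBar (N * ℓ)) (f - (g : LaurentSeries Qb)) =
      gaussResFun A (modularFunctionFieldBar (N * ℓ)) f -
        gaussResFun A (modularFunctionFieldBar (N * ℓ)) (g : LaurentSeries Qb) :=
    map_sub (gaussRes A (modularFunctionFieldBar (N * ℓ))) ⟨f, hf⟩ ⟨_, hgM⟩
  rw [hsub, sub_eq_zero] at h0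
  rw [h0, gaussResFun_eq_of_le hle hg']
  exact Fermat.Agent.GaussVal.gaussResFun_mem_fullC_of_isAlgClosed A ℓ N hℓ hA hℓN _ hg'

/-- every element of `F_k(N)` is a residue of the Gauss ring of `F_{Nℓ}`. -/
theorem exists_gaussResFun_eq_mul :
    ∀ y ∈ modularFunctionFieldFullC (IsLocalRing.ResidueField A) N,
      ∃ f ∈ gaussSub A (modularFunctionFieldBar (N * ℓ)),
        gaussResFun A (modularFunctionFieldBar (N * ℓ)) f = y := by
  intro y hy
  obtain ⟨f, hf, hfy⟩ := Fermat.Agent.GaussVal.exists_gaussResFun_eq_of_mem A N y hy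
  have hle := modularFunctionFieldBar_le_mul N ℓ
  exact ⟨f, gaussSub_mono_field hle hf, by rw [gaussResFun_eq_of_le hle hf, hfy]⟩

/-! ### General shape of the level: `M = N * ℓ` -/

section Level

variable (M : ℕ) [NeZero M] (hM : M = N * ℓ)

include hℓN hM in
/-- **(R3) at the bad level `M = N ℓ`.** -/
theorem gaussResFun_mem_fullC_bad (h : ModFactsAt N hℓ A hA) :
    ∀ f ∈ gaussSub A (modularFunctionFieldBar M),
      gaussResFun A (modularFunctionFieldBar M) f ∈
        modularFunctionFieldFullC (IsLocalRing.ResidueField A) N := by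
  subst hM
  exact gaussResFun_mem_fullC_mul hℓ hℓN A hA h

include hM in
theorem exists_gaussResFun_eq_bad :
    ∀ y ∈ modularFunctionFieldFullC (IsLocalRing.ResidueField A) N,
      ∃ f ∈ gaussSub A (modularFunctionFieldBar M),
        gaussResFun A (modularFunctionFieldBar M) f = y := by
  subst hM
  exact exists_gaussResFun_eq_mul A

/-- **The Gauss valuation `v_∞` of `F_M`, `M = N ℓ`, `ℓ ∤ N`, at a place over `ℓ`** as a constant
reduction in the sense of `Deuring.ValSetup`, with residue function field `F_k(N)`. -/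
def badValSetup (h : ModFactsAt N hℓ A hA) :
    ValSetup Qb (modularFunctionFieldBar M) (IsLocalRing.ResidueField A)
      (modularFunctionFieldFullC (IsLocalRing.ResidueField A) N) :=
  haveI := isAlgClosed_residue A
  gaussValSetup (gaussHyp_modular M hℓ hA)
    (modularFunctionFieldFullC (IsLocalRing.ResidueField A) N)
    (gaussResFun_mem_fullC_bad hℓ hℓN A hA M hM h)
    (exists_gaussResFun_eq_bad A M hM)
    (Fermat.Agent.RRMod.isRRField_bar M)
    (Fermat.Agent.RRMod.isRRField_fullC' (IsLocalRing.ResidueField A) N)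

variable (h : ModFactsAt N hℓ A hA)

@[simp] theorem badValSetup_A : (badValSetup hℓ hℓN A hA M hM h).A = A := rfl

@[simp] theorem badValSetup_Ov :
    (badValSetup hℓ hℓN A hA M hM h).Ov = gaussValSub (gaussHyp_modular M hℓ hA) := rfl

theorem mem_badValSetup_Ov_iff (f : modularFunctionFieldBar M) :
    f ∈ (badValSetup hℓ hℓN A hA M hM h).Ov ↔
      (f : LaurentSeries Qb) ∈ gaussSub A (modularFunctionFieldBar M) :=
  Iff.rfl

theorem badValSetup_res :
    (badValSetup hℓ hℓN A hA M hM h).res = IsLocalRing.residue A := rfl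

/-- The residue map of the setup is the residue map of the Gauss ring. -/
theorem coe_badValSetup_ρ (f : modularFunctionFieldBar M)
    (hf : f ∈ (badValSetup hℓ hℓN A hA M hM h).Ov) :
    (((badValSetup hℓ hℓN A hA M hM h).ρ ⟨f, hf⟩ :
        modularFunctionFieldFullC (IsLocalRing.ResidueField A) N) :
        LaurentSeries (IsLocalRing.ResidueField A)) =
      gaussResFun A (modularFunctionFieldBar M) (f : LaurentSeries Qb) :=
  rfl

theorem coe_badValSetup_red {f : modularFunctionFieldBar M}
    (hf : (f : LaurentSeries Qb) ∈ gaussSub A (modularFunctionFieldBar M)) :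
    (((badValSetup hℓ hℓN A hA M hM h).red f :
        modularFunctionFieldFullC (IsLocalRing.ResidueField A) N) :
        LaurentSeries (IsLocalRing.ResidueField A)) =
      gaussResFun A (modularFunctionFieldBar M) (f : LaurentSeries Qb) :=
  haveI := isAlgClosed_residue A
  coe_gaussValSetup_red (gaussHyp_modular M hℓ hA) _ _ _ _ _ hf

/-- `ρ f = 1` in the setup iff the Gauss residue of `f` is `1`. -/
theorem badValSetup_ρ_eq_one_iff (f : modularFunctionFieldBar M)
    (hf : f ∈ (badValSetup hℓ hℓN A hA M hM h).Ov) :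
    (badValSetup hℓ hℓN A hA M hM h).ρ ⟨f, hf⟩ = 1 ↔
      gaussResFun A (modularFunctionFieldBar M) (f : LaurentSeries Qb) = 1 := by
  rw [← coe_badValSetup_ρ hℓ hℓN A hA M hM h f hf]
  constructor
  · intro h1
    rw [h1]
    rfl
  · intro h1
    exact Subtype.ext h1

/-- **LATTICE property of `v_∞` at the bad level** (orthonormal bases). -/
theorem hasLattice_badValSetup : HasLattice (badValSetup hℓ hℓN A hA M hM h) :=
  haveI := isAlgClosed_residue A
  hasLattice_gaussValSetup (gaussHyp_modular M hℓ hA) _ _ _ _ _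

end Level

end Fermat.Agent.BadRed
end
end MergeWrap_Lib_BadRed_Mod_ValInf
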