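import Mathlib
import Fermat.Agent.MUL.Lib.BadRed.Mod.ValInf
import Fermat.Agent.MUL.Lib.BadRed.Mod.GaussSetup
import Fermat.Agent.MUL.Lib.BadRed.Bridge.E1Sep
import Fermat.Agent.MUL.Lib.BadRed.KroneckerCharpoly
import Fermat.Agent.MUL.Orig.Lib.BadRed.FundIneq
import Fermat.Agent.MUL.Lib.BadRed.TwoExtModular
import Fermat.Agent.MUL.Lib.TraceRigidity.Density

section MergeWrap_Lib_BadRed_Mod_GaussSetupBad -- from Lib/BadRed/Mod/GaussSetupBad.lean

set_option autoImplicit false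
set_option linter.style.haveILetI false
set_option synthInstance.maxHeartbeats 400000

noncomputable section

namespace Fermat.Agent.BadRed

open ModularCurve HahnSeries Fermat.Agent.GaussInt Fermat.Agent.S24 Fermat.Agent.Deuring
  Fermat.Agent.AtkinLehner Fermat.Agent.F3G

local notation "Qb" => AlgebraicClosure ℚ

section Bad

variable {N ℓ : ℕ} [NeZero N] [NeZero ℓ]
variable (hℓ : ℓ.Prime) (hℓN : ¬ ℓ ∣ N) (A : ValuationSubring Qb) (hA : A.LiesOverPrime ℓ)
variable (M : ℕ) [NeZero M] (hM : M = N * ℓ) (h : ModFactsAt N hℓ A hA)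

/-- `badValSetup` is the Gauss setup of `F_M`, `M = N ℓ`, with residue function field
`F_k(N)`. -/
theorem isGaussSetup_badValSetup : IsGaussSetup M N A (badValSetup hℓ hℓN A hA M hM h) where
  A_eq := rfl
  res_eq := fun _ _ _ => rfl
  mem_iff := fun _ => Iff.rfl
  coe_red := fun _ hf => coe_badValSetup_red hℓ hℓN A hA M hM h hf

include hℓN hM h in
/-- **MA1, existence**: the Gauss setup at the bad level, with the lattice property. -/
theorem exists_isGaussSetup_bad :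
    ∃ S : ValSetup Qb (FBar M) (IsLocalRing.ResidueField A)
        (modularFunctionFieldFullC (IsLocalRing.ResidueField A) N),
      IsGaussSetup M N A S ∧ HasLattice S :=
  ⟨badValSetup hℓ hℓN A hA M hM h, isGaussSetup_badValSetup hℓ hℓN A hA M hM h,
    hasLattice_badValSetup hℓ hℓN A hA M hM h⟩

end Bad

/-- in a valuation setup, an integral element with reduction `0` is in the maximal ideal. -/
theorem mem_nonunits_of_red_eq_zero {K F k Fk : Type*} [Field K] [Field F] [Algebra K F]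
    [Field k] [Field Fk] [Algebra k Fk] (S : ValSetup K F k Fk) {f : F} (hf : f ∈ S.Ov)
    (h0 : S.red f = 0) : f ∈ S.Ov.nonunits := by
  rw [ValuationSubring.mem_nonunits_iff_or]
  rcases eq_or_ne f 0 with hf0 | hf0
  · exact Or.inl hf0
  · exact Or.inr ((S.red_eq_zero_iff hf hf0).mp h0)

/-- abstract incomparability of two constant reductions from a separating element. -/
theorem not_le_of_sep {K F k Fk₁ Fk₂ : Type*} [Field K] [Field F] [Algebra K F]
    [Field k] [Field Fk₁] [Algebra k Fk₁] [Field Fk₂] [Algebra k Fk₂]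
    (S₁ : ValSetup K F k Fk₁) (S₂ : ValSetup K F k Fk₂) (E : F)
    (hE1 : E ∈ S₁.Ov) (hr1 : S₁.red E = 1) (hE2 : E ∈ S₂.Ov) (hr2 : S₂.red E = 0) :
    ¬ S₁.Ov ≤ S₂.Ov ∧ ¬ S₂.Ov ≤ S₁.Ov := by
  have h1 : E - 1 ∈ S₁.Ov.nonunits := by
    apply mem_nonunits_of_red_eq_zero S₁ (sub_mem hE1 S₁.Ov.one_mem)
    rw [S₁.red_sub hE1 S₁.Ov.one_mem, hr1, S₁.red_one, sub_self]
  have h2 : E ∈ S₂.Ov.nonunits := mem_nonunits_of_red_eq_zero S₂ hE2 hr2
  have hone : ∀ O : ValuationSubring F, E ∈ O.nonunits → E - 1 ∈ O.nonunits → False := by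
    intro O ha hb
    rw [ValuationSubring.mem_nonunits_iff] at ha hb
    have h3 : O.valuation (E - (E - 1)) < 1 :=
      lt_of_le_of_lt (Valuation.map_sub _ _ _) (max_lt ha hb)
    rw [sub_sub_cancel, map_one] at h3
    exact lt_irrefl _ h3
  constructor
  · intro hle
    have := (ValuationSubring.nonunits_le_nonunits.mpr hle) h2
    exact hone _ this h1
  · intro hle
    have := (ValuationSubring.nonunits_le_nonunits.mpr hle) h1
    exact hone _ h2 this

section Incomparable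

variable (D : ALData) {N₀ : ℕ} [NeZero (D.Q * D.R)] [NeZero N₀]
  (hQ : D.Q.Prime) (A : ValuationSubring Qb) (hA : A.LiesOverPrime D.Q)
  (S : ValSetup Qb (FBar (D.Q * D.R)) (IsLocalRing.ResidueField A)
    (modularFunctionFieldFullC (IsLocalRing.ResidueField A) N₀))

set_option maxHeartbeats 2000000 in
include hQ hA in
/-- **MA1, incomparability**: `v_∞` and `v_0 = v_∞ ∘ w_q` are incomparable. -/
theorem not_le_valSetupZero (hS : IsGaussSetup (D.Q * D.R) N₀ A S) :
    ¬ S.Ov ≤ (valSetupZero D S).Ov ∧ ¬ (valSetupZero D S).Ov ≤ S.Ov := by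
  obtain ⟨E, hE1, hE2, hE3, hE4⟩ := gaussSepAt D hQ A hA
  have hEO : E ∈ S.Ov := (hS.mem_iff E).mpr hE1
  have hwEO : atkinLehner D E ∈ S.Ov := (hS.mem_iff _).mpr hE3
  have hred1 : S.red E = 1 := by
    apply Subtype.ext
    rw [hS.coe_red E hEO, hE2]
    exact (OneMemClass.coe_one _).symm
  have hred2 : S.red (atkinLehner D E) = 0 := by
    apply Subtype.ext
    rw [hS.coe_red _ hwEO, hE4]
    exact (ZeroMemClass.coe_zero _).symm
  have hEO₂ : E ∈ (valSetupZero D S).Ov := (mem_valSetupZero_Ov D S E).mpr hwEO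
  have hred3 : (valSetupZero D S).red E = 0 := by
    rw [valSetupZero_red, hred2]
  exact not_le_of_sep S (valSetupZero D S) E hEO hred1 hEO₂ hred3

end Incomparable

end Fermat.Agent.BadRed
end
end MergeWrap_Lib_BadRed_Mod_GaussSetupBad

section MergeWrap_Lib_BadRed_ModFacts -- from Lib/BadRed/ModFacts.lean

set_option autoImplicit false
set_option linter.style.haveILetI false
set_option linter.unusedSectionVars false

noncomputable section

namespace Fermat.Agent.BadRed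

open ModularCurve AlgebraicCurve Fermat.Agent.GaussInt Polynomial Fermat.Agent.Kronecker
  Fermat.Agent.F3G Fermat.Agent.S24 IntermediateField

section Mono

variable {K : Type*} [Field K] {A : ValuationSubring K}
  {F₁ F₂ : IntermediateField K (LaurentSeries K)}

theorem isPres_mono (h : F₁ ≤ F₂) {f : LaurentSeries K} {Y₁ Y₂ : LaurentSeries A}
    (hf : IsPres A F₁ f Y₁ Y₂) : IsPres A F₂ f Y₁ Y₂ :=
  ⟨h hf.mem₁, h hf.mem₂, hf.prim, hf.eq⟩

theorem gaussSub_mono (h : F₁ ≤ F₂) : gaussSub A F₁ ≤ gaussSub A F₂ := by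
  rintro f ⟨Y₁, Y₂, hf⟩
  exact ⟨Y₁, Y₂, isPres_mono h hf⟩

theorem gaussResFun_mono (h : F₁ ≤ F₂) {f : LaurentSeries K} (hf : f ∈ gaussSub A F₁) :
    gaussResFun A F₂ f = gaussResFun A F₁ f := by
  obtain ⟨Y₁, Y₂, hp⟩ := hf
  rw [gaussResFun_eq hp, gaussResFun_eq (isPres_mono h hp)]

end Mono


section Modular

variable (N ℓ : ℕ) [NeZero N] [NeZero ℓ] (hℓ : ℓ.Prime)
  (A : ValuationSubring Qb) (hA : A.LiesOverPrime ℓ)

theorem fullBar_le_mul : modularFunctionFieldBar N ≤ modularFunctionFieldBar (N * ℓ) := by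
  intro x hx
  have h := (heckeAlphaBar Qb N ℓ ⟨x, hx⟩).2
  rwa [coe_heckeAlphaBar] at h

variable {N ℓ}

/-- `ρ_∞ (α x) = ρ_v x`. -/
theorem gaussResFun_alpha {x : ↥(modularFunctionFieldBar N)} (hx : x ∈ gaussOv N hℓ A hA) :
    gaussResFun A (modularFunctionFieldBar (N * ℓ))
        ((heckeAlphaBar Qb N ℓ x : ↥(modularFunctionFieldBar (N * ℓ))) : LaurentSeries Qb) =
      gaussResFun A (modularFunctionFieldBar N) (x : LaurentSeries Qb) := by
  rw [coe_heckeAlphaBar]
  exact gaussResFun_mono (fullBar_le_mul N ℓ) hx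

/-- `O_∞ ∩ F_N = O_v`. -/
theorem alpha_mem_gaussOv_iff (x : ↥(modularFunctionFieldBar N)) :
    heckeAlphaBar Qb N ℓ x ∈ gaussOv (N * ℓ) hℓ A hA ↔ x ∈ gaussOv N hℓ A hA := by
  constructor
  · intro h
    by_contra hx
    have hx0 : x ≠ 0 := fun h0 => hx (h0 ▸ (gaussOv N hℓ A hA).zero_mem)
    have hinv : x⁻¹ ∈ gaussOv N hℓ A hA :=
      ((gaussOv N hℓ A hA).mem_or_inv_mem x).resolve_left hx
    have hres : gaussResFun A (modularFunctionFieldBar N)
        ((x⁻¹ : ↥(modularFunctionFieldBar N)) : LaurentSeries Qb) = 0 := by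
      by_contra hne
      apply hx
      have := inv_mem_gaussSub (F := modularFunctionFieldBar N) hinv hne
      show (x : LaurentSeries Qb) ∈ gaussSub A (modularFunctionFieldBar N)
      have e : (((x⁻¹ : ↥(modularFunctionFieldBar N)) : LaurentSeries Qb))⁻¹ =
          (x : LaurentSeries Qb) := by
        rw [← IntermediateField.coe_inv, inv_inv]
      rwa [e] at this
    have h1 : (x : LaurentSeries Qb) ∈ gaussSub A (modularFunctionFieldBar (N * ℓ)) := by
      have := h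
      rwa [← coe_heckeAlphaBar (L := Qb) (N := N) (ℓ := ℓ) x]
    have h2 : ((x⁻¹ : ↥(modularFunctionFieldBar N)) : LaurentSeries Qb) ∈
        gaussSub A (modularFunctionFieldBar (N * ℓ)) := gaussSub_mono (fullBar_le_mul N ℓ) hinv
    have hmul : gaussRes A (modularFunctionFieldBar (N * ℓ)) (⟨_, h1⟩ * ⟨_, h2⟩) = 1 := by
      have : (⟨_, h1⟩ * ⟨_, h2⟩ : gaussSub A (modularFunctionFieldBar (N * ℓ))) = 1 := by
        apply Subtype.ext
        show (x : LaurentSeries Qb) * ((x⁻¹ : ↥(modularFunctionFieldBar N)) : LaurentSeries Qb) = 1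
        rw [← MulMemClass.coe_mul, mul_inv_cancel₀ hx0]
        rfl
      rw [this, map_one]
    rw [map_mul] at hmul
    have h3 : gaussRes A (modularFunctionFieldBar (N * ℓ)) ⟨_, h2⟩ = 0 := by
      rw [gaussRes_apply]
      show gaussResFun A (modularFunctionFieldBar (N * ℓ))
        ((x⁻¹ : ↥(modularFunctionFieldBar N)) : LaurentSeries Qb) = 0
      rw [gaussResFun_mono (fullBar_le_mul N ℓ) hinv, hres]
    rw [h3, mul_zero] at hmul
    exact zero_ne_one hmul
  · intro h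
    show ((heckeAlphaBar Qb N ℓ x : ↥(modularFunctionFieldBar (N * ℓ))) : LaurentSeries Qb) ∈
      gaussSub A (modularFunctionFieldBar (N * ℓ))
    rw [coe_heckeAlphaBar]
    exact gaussSub_mono (fullBar_le_mul N ℓ) h

set_option maxHeartbeats 1000000 in
/-- `O_∞` lies over `O_v` (along `heckeAlphaBar`). -/
theorem liesOverV_gaussOv :
    @LiesOverV _ _ _ _ (algebraAlong (heckeAlphaBar Qb N ℓ))
      (gaussOv N hℓ A hA) (gaussOv (N * ℓ) hℓ A hA) := by
  letI := algebraAlong (heckeAlphaBar Qb N ℓ)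
  unfold LiesOverV
  apply SetLike.ext
  intro x
  rw [ValuationSubring.mem_comap]
  exact alpha_mem_gaussOv_iff hℓ A hA x

/-- `θ = j(q^ℓ)` as an integral series. -/
theorem emb_qExpand_jqModC :
    emb A (qExpand A ℓ (jqModC A)) =
      ((heckeBetaBar Qb N ℓ (jBar N) : ↥(modularFunctionFieldBar (N * ℓ))) : LaurentSeries Qb) := by
  rw [coe_heckeBetaBar, coe_jBar_eq_jqModC]
  show coeffMap A.subtype (qExpand A ℓ (jqModC A)) = _
  rw [coeffMap_qExpand, coeffMap_jqModC]

/-- `θ ∈ O_∞`. -/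
theorem theta_mem_gaussOv :
    heckeBetaBar Qb N ℓ (jBar N) ∈ gaussOv (N * ℓ) hℓ A hA := by
  show ((heckeBetaBar Qb N ℓ (jBar N) : ↥(modularFunctionFieldBar (N * ℓ))) : LaurentSeries Qb) ∈
    gaussSub A (modularFunctionFieldBar (N * ℓ))
  rw [← emb_qExpand_jqModC (N := N) A]
  exact emb_mem_gaussSub (by rw [emb_qExpand_jqModC (N := N) A]; exact Subtype.mem _)

/-- **(b)** `θ - α(j^ℓ) ∈ m_∞`. -/
theorem theta_sub_pow_mem_nonunits :
    heckeBetaBar Qb N ℓ (jBar N) - heckeAlphaBar Qb N ℓ (jBar N ^ ℓ) ∈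
      (gaussOv (N * ℓ) hℓ A hA).nonunits := by
  set Y : LaurentSeries A := qExpand A ℓ (jqModC A) - jqModC A ^ ℓ with hY
  have hemb : emb A Y = ((heckeBetaBar Qb N ℓ (jBar N) - heckeAlphaBar Qb N ℓ (jBar N ^ ℓ) :
      ↥(modularFunctionFieldBar (N * ℓ))) : LaurentSeries Qb) := by
    rw [hY, map_sub, map_pow, emb_qExpand_jqModC (N := N) A]
    show _ = ((heckeBetaBar Qb N ℓ (jBar N) : ↥(modularFunctionFieldBar (N * ℓ))) :
      LaurentSeries Qb) - ((heckeAlphaBar Qb N ℓ (jBar N ^ ℓ) :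
      ↥(modularFunctionFieldBar (N * ℓ))) : LaurentSeries Qb)
    rw [coe_heckeAlphaBar]
    congr 1
    show coeffMap A.subtype (jqModC A) ^ ℓ = ((jBar N ^ ℓ : ↥(modularFunctionFieldBar N)) :
      LaurentSeries Qb)
    rw [coeffMap_jqModC, ← coe_jBar_eq_jqModC N]
    rfl
  have hred : red A Y = 0 := by
    rw [hY, map_sub, map_pow]
    show coeffMap (IsLocalRing.residue A) (qExpand A ℓ (jqModC A)) -
      coeffMap (IsLocalRing.residue A) (jqModC A) ^ ℓ = 0
    rw [coeffMap_qExpand, coeffMap_jqModC, kc_qExpand_jbar A hℓ hA, sub_self]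
  have hmem : heckeBetaBar Qb N ℓ (jBar N) - heckeAlphaBar Qb N ℓ (jBar N ^ ℓ) ∈
      gaussOvS (N * ℓ) hℓ A hA := mem_gaussOvS_of_emb (N * ℓ) hℓ A hA hemb
  have hzero : gaussOvRes (N * ℓ) hℓ A hA ⟨_, hmem⟩ = 0 := by
    rw [gaussOvRes_of_emb (N * ℓ) hℓ A hA (f := ⟨_, hmem⟩) hemb, hred]
  have hnu := (gaussOvRes_eq_zero_iff (N * ℓ) hℓ A hA _).mp hzero
  rw [ValuationSubring.mem_nonunits_iff_exists_mem_maximalIdeal]
  exact ⟨hmem, (IsLocalRing.mem_maximalIdeal _).mpr hnu⟩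

/-- an element of `O_v` with nonzero residue is not in `m_v`. -/
theorem not_mem_nonunits_of_res_ne_zero (f : ↥(gaussOvS N hℓ A hA))
    (hf : gaussOvRes N hℓ A hA f ≠ 0) :
    (f : ↥(modularFunctionFieldBar N)) ∉ (gaussOv N hℓ A hA).nonunits := by
  intro h
  rw [ValuationSubring.mem_nonunits_iff_exists_mem_maximalIdeal] at h
  obtain ⟨h1, h2⟩ := h
  apply hf
  rw [gaussOvRes_eq_zero_iff]
  have h3 := (IsLocalRing.mem_maximalIdeal (R := ↥(gaussOv N hℓ A hA)) _).mp h2
  exact h3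

include hℓ hA in
/-- `j̄` is not an `ℓ`-th power in `k((q))`. -/
theorem jbar_ne_pow (z : LaurentSeries (IsLocalRing.ResidueField A)) :
    z ^ ℓ ≠ jqModC (IsLocalRing.ResidueField A) := by
  have : Fact ℓ.Prime := ⟨hℓ⟩
  have : CharP (IsLocalRing.ResidueField A) ℓ := charP_residueField_of_liesOverPrime A ℓ hℓ hA
  intro h
  have h1 : (z ^ ℓ).coeff (-1 : ℤ) = (jqModC (IsLocalRing.ResidueField A)).coeff (-1 : ℤ) := by
    rw [h]
  rw [pow_char_eq_qExpand_frobenius ℓ, coeff_jqModC_neg_one] at h1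
  rw [qExpand_coeff_of_not_dvd] at h1
  · exact zero_ne_one h1
  · intro hdvd
    have h2 : (ℓ : ℤ) ∣ 1 := (Int.dvd_neg).mp hdvd
    have h3 : ℓ ∣ 1 := Int.natCast_dvd_natCast.mp (by exact_mod_cast h2)
    exact hℓ.one_lt.ne' (Nat.dvd_one.mp h3)

/-- **(c')** `j̄` is not an `ℓ`-th power in the residue field: `u^ℓ - j ∉ m_v` for `u ∈ O_v`. -/
theorem pow_sub_j_not_mem_nonunits (u : ↥(modularFunctionFieldBar N))
    (hu : u ∈ gaussOv N hℓ A hA) :
    u ^ ℓ - jBar N ∉ (gaussOv N hℓ A hA).nonunits := by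
  set uO : ↥(gaussOvS N hℓ A hA) := ⟨u, hu⟩ with huO
  set jO : ↥(gaussOvS N hℓ A hA) := ⟨jBar N, jBar_mem_gaussOvS N hℓ A hA⟩ with hjO
  have h := not_mem_nonunits_of_res_ne_zero hℓ A hA (uO ^ ℓ - jO) (by
    rw [map_sub, map_pow, hjO, gaussOvRes_jBar, sub_ne_zero]
    exact jbar_ne_pow hℓ A hA _)
  exact h

/-- **(c)** `j^(ℓ²) - j` is not in `m_v`. -/
theorem j_pow_sub_j_not_mem_nonunits :
    (jBar N ^ ℓ) ^ ℓ - jBar N ∉ (gaussOv N hℓ A hA).nonunits :=
  pow_sub_j_not_mem_nonunits hℓ A hA _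
    ((gaussOv N hℓ A hA).pow_mem (jBar_mem_gaussOvS N hℓ A hA) ℓ)

/-- `ℕ`-indexed elements of `A` with pairwise distinct residues. -/
theorem exists_nodes_nat : ∃ a : ℕ → A, Function.Injective fun i => IsLocalRing.residue A (a i) := by
  haveI : IsAlgClosed (IsLocalRing.ResidueField A) :=
    Fermat.Agent.FrobTrace.isAlgClosed_residueField A
  haveI : Infinite (IsLocalRing.ResidueField A) := IsAlgClosed.instInfinite
  let e : ℕ ↪ IsLocalRing.ResidueField A := Infinite.natEmbedding _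
  choose g hg using fun x : IsLocalRing.ResidueField A => IsLocalRing.residue_surjective x
  refine ⟨fun i => g (e i), ?_⟩
  intro i j hij
  simp only [hg] at hij
  exact e.injective hij

/-- **(e)** constants with pairwise distinct residues. -/
theorem exists_constants :
    ∃ c : ℕ → ↥(modularFunctionFieldBar N), (∀ m, c m ∈ gaussOv N hℓ A hA) ∧
      ∀ m m', m ≠ m' → c m - c m' ∉ (gaussOv N hℓ A hA).nonunits := by
  obtain ⟨a, ha⟩ := exists_nodes_nat A
  refine ⟨fun m => algebraMap Qb ↥(modularFunctionFieldBar N) ((a m : A) : Qb),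
    fun m => const_mem_gaussOvS N hℓ A hA (a m), ?_⟩
  intro m m' hmm
  have h := not_mem_nonunits_of_res_ne_zero hℓ A hA
    ((⟨_, const_mem_gaussOvS N hℓ A hA (a m)⟩ : ↥(gaussOvS N hℓ A hA)) -
      ⟨_, const_mem_gaussOvS N hℓ A hA (a m')⟩) (by
    rw [map_sub, gaussOvRes_const, gaussOvRes_const, sub_ne_zero]
    intro h
    exact hmm (ha ((algebraMap _ _).injective h)))
  exact h

/-- The four elementary modular inputs of the two-extension theorem (helper50's `ModFactsAt`). -/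
theorem modFactsAt (N ℓ : ℕ) [NeZero N] [NeZero ℓ] (hℓ : ℓ.Prime) (hℓN : ¬ ℓ ∣ N)
    (A : ValuationSubring Qb) (hA : A.LiesOverPrime ℓ) : ModFactsAt N hℓ A hA where
  liesOver := alpha_mem_gaussOv_iff hℓ A hA
  theta := theta_sub_pow_mem_nonunits hℓ A hA
  not_pow := pow_sub_j_not_mem_nonunits hℓ A hA
  infinite := exists_constants hℓ A hA

end Modular

end Fermat.Agent.BadRed
end
end MergeWrap_Lib_BadRed_ModFacts

section MergeWrap_Lib_BadRed_Mod_GaussSetupFinal -- from Lib/BadRed/Mod/GaussSetupFinal.lean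

set_option autoImplicit false
set_option linter.style.haveILetI false
set_option synthInstance.maxHeartbeats 400000

noncomputable section

namespace Fermat.Agent.BadRed

open ModularCurve HahnSeries Fermat.Agent.GaussInt Fermat.Agent.S24 Fermat.Agent.Deuring
  Fermat.Agent.AtkinLehner Fermat.Agent.F3G

local notation "Qb" => AlgebraicClosure ℚ

variable (D : ALData) [NeZero (D.Q * D.R)] [NeZero D.R]
  (hQ : D.Q.Prime) (hQR : ¬ D.Q ∣ D.R) (A : ValuationSubring Qb) (hA : A.LiesOverPrime D.Q)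

/-- **The Gauss constant reduction `v_∞` of `F_{qR}` at a place over `q ∥ q R`**, with residue
function field `F_k(R)`. -/
def gaussSetupBad :
    ValSetup Qb (FBar (D.Q * D.R)) (IsLocalRing.ResidueField A)
      (modularFunctionFieldFullC (IsLocalRing.ResidueField A) D.R) :=
  haveI : NeZero D.Q := ⟨hQ.ne_zero⟩
  badValSetup hQ hQR A hA (D.Q * D.R) (Nat.mul_comm D.Q D.R) (modFactsAt D.R D.Q hQ hQR A hA)

theorem isGaussSetup_gaussSetupBad :
    IsGaussSetup (D.Q * D.R) D.R A (gaussSetupBad D hQ hQR A hA) :=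
  haveI : NeZero D.Q := ⟨hQ.ne_zero⟩
  isGaussSetup_badValSetup hQ hQR A hA (D.Q * D.R) (Nat.mul_comm D.Q D.R)
    (modFactsAt D.R D.Q hQ hQR A hA)

theorem hasLattice_gaussSetupBad : HasLattice (gaussSetupBad D hQ hQR A hA) :=
  haveI : NeZero D.Q := ⟨hQ.ne_zero⟩
  hasLattice_badValSetup hQ hQR A hA (D.Q * D.R) (Nat.mul_comm D.Q D.R)
    (modFactsAt D.R D.Q hQ hQR A hA)

theorem not_le_gaussSetupBad :
    ¬ (gaussSetupBad D hQ hQR A hA).Ov ≤ (valSetupZero D (gaussSetupBad D hQ hQR A hA)).Ov ∧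
      ¬ (valSetupZero D (gaussSetupBad D hQ hQR A hA)).Ov ≤ (gaussSetupBad D hQ hQR A hA).Ov :=
  not_le_valSetupZero D hQ A hA _ (isGaussSetup_gaussSetupBad D hQ hQR A hA)

include hQ hQR hA in
/-- **MA1** (unconditional). -/
theorem exists_isGaussSetup :
    ∃ S : ValSetup Qb (FBar (D.Q * D.R)) (IsLocalRing.ResidueField A)
        (modularFunctionFieldFullC (IsLocalRing.ResidueField A) D.R),
      IsGaussSetup (D.Q * D.R) D.R A S ∧ HasLattice S ∧
        ¬ S.Ov ≤ (valSetupZero D S).Ov ∧ ¬ (valSetupZero D S).Ov ≤ S.Ov :=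
  ⟨gaussSetupBad D hQ hQR A hA, isGaussSetup_gaussSetupBad D hQ hQR A hA,
    hasLattice_gaussSetupBad D hQ hQR A hA, (not_le_gaussSetupBad D hQ hQR A hA).1,
    (not_le_gaussSetupBad D hQ hQR A hA).2⟩

end Fermat.Agent.BadRed
end
end MergeWrap_Lib_BadRed_Mod_GaussSetupFinal
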