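import Mathlib
import Fermat.Agent.MUL.Lib.BadRed.Mod.SSCount
import Fermat.Agent.MUL.Lib.BadRed.Mod.SSCount23
import Fermat.Agent.MUL.Lib.BadRed.Mod.OldSep
import Fermat.Agent.MUL.Lib.BadRed.Bridge.AuxLevel
import Fermat.Agent.MUL.Lib.Petersson.Main

section MergeWrap_Lib_BadRed_Mod_AuxUnified -- from Lib/BadRed/Mod/AuxUnified.lean

/-!
# Cluster T: the modular inputs in UNIFORM form, for all primes `q` with the auxiliary level
(helper94)

`AuxLevelOK q N₀ := (q = 2 → 3 ∣ N₀) ∧ (q = 3 → 2 ∣ N₀)` (no condition for `q ≥ 5`).  For a prime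
`q ∤ N₀` with `AuxLevelOK q N₀` and a place `A` of `ℚ̄` over `q`:

* `genusFF_eq_of_aux`         : good reduction of `X₀(N₀)` at `q`: `g(F_{N₀}) = g(F_{N₀,k})`;
* `ssCount_ge_of_aux`         : (G)  `g(X₀(q N₀)) + 1 ≤ 2 g(F_{N₀,k}) + #{zeros of h}`,
                                `h ∈ F_{N₀,k}` with `q`-expansion `ssFun k q`;
* `ssCount_ge_fintype_of_aux` : the same with `Fintype.card` (= `NodalSeed.genus_le`);
* `exists_oldSep_of_aux`      : MA6c (helper79) with the genus equality discharged.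

By `AuxLevel.inertiaPowSq_of_toricKeyAt_aux` the data `D` with `AuxOK D`
(`↔ AuxLevelOK D.Q D.R`) suffice for `InertiaPowSq N` at EVERY level `N`.
-/

set_option autoImplicit false
set_option linter.unusedSectionVars false
set_option linter.style.haveILetI false

noncomputable section

open AlgebraicCurve ModularCurve

namespace Fermat.Agent.BadRed

local notation "Qb" => AlgebraicClosure ℚ

/-- the auxiliary level condition: `3 ∣ N₀` if `q = 2`, `2 ∣ N₀` if `q = 3`. -/
def AuxLevelOK (q N₀ : ℕ) : Prop := (q = 2 → 3 ∣ N₀) ∧ (q = 3 → 2 ∣ N₀)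

theorem AuxLevelOK.of_five_le {q N₀ : ℕ} (h5 : 5 ≤ q) : AuxLevelOK q N₀ :=
  ⟨fun h => by omega, fun h => by omega⟩

theorem auxOK_iff (D : Fermat.Agent.AtkinLehner.ALData) :
    AuxLevel.AuxOK D ↔ AuxLevelOK D.Q D.R := Iff.rfl

section

set_option synthInstance.maxHeartbeats 400000
set_option maxHeartbeats 1000000

variable {A : ValuationSubring Qb}

/-- a prime `q ∉ {2, 3}` is at least `5`. -/
theorem five_le_of_prime_ne {q : ℕ} (hq : q.Prime) (h2 : q ≠ 2) (h3 : q ≠ 3) : 5 ≤ q := by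
  have h := hq.two_le
  have h4 : q ≠ 4 := by
    rintro rfl
    exact absurd hq (by decide)
  omega

/-- **good reduction of `X₀(N₀)` at `q ∤ N₀`** (with the auxiliary level at `q = 2, 3`):
`g(F_{N₀}) = g(F_{N₀,k})`. -/
theorem genusFF_eq_of_aux (N₀ : ℕ) [NeZero N₀] {q : ℕ} (hq : q.Prime) (hqN : ¬ q ∣ N₀)
    (haux : AuxLevelOK q N₀) (hA : A.LiesOverPrime q) :
    genusFF Qb ↥(modularFunctionFieldBar N₀) =
      genusFF (IsLocalRing.ResidueField A)
        ↥(modularFunctionFieldFullC (IsLocalRing.ResidueField A) N₀) := by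
  by_cases h2 : q = 2
  · subst h2
    exact SS23.genusFF_eq_two N₀ (haux.1 rfl) hqN hA
  by_cases h3 : q = 3
  · subst h3
    exact SS23.genusFF_eq_three N₀ (haux.2 rfl) hqN hA
  exact Fermat.Agent.GoodRed.genusFF_modular_eq N₀ hq hA hqN h2 h3

/-- **(G) for every prime `q ∤ N₀`** (with the auxiliary level at `q = 2, 3`):
`g(X₀(q N₀)) + 1 ≤ 2 g(F_{N₀,k}) + #{zeros of h}`. -/
theorem ssCount_ge_of_aux (N₀ N : ℕ) [NeZero N₀] [NeZero N] {q : ℕ} (hq : q.Prime)
    (hqN : ¬ q ∣ N₀) (haux : AuxLevelOK q N₀) (hN : N = q * N₀) (hA : A.LiesOverPrime q)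
    (h : modularFunctionFieldFullC (IsLocalRing.ResidueField A) N₀)
    (hh : (h : LaurentSeries (IsLocalRing.ResidueField A)) =
      ssFun (IsLocalRing.ResidueField A) q) :
    genusFF Qb ↥(modularFunctionFieldBar N) + 1 ≤
      genusFF (IsLocalRing.ResidueField A)
          ↥(modularFunctionFieldFullC (IsLocalRing.ResidueField A) N₀) +
        genusFF (IsLocalRing.ResidueField A)
          ↥(modularFunctionFieldFullC (IsLocalRing.ResidueField A) N₀) +
        Nat.card {v : Place (IsLocalRing.ResidueField A)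
          ↥(modularFunctionFieldFullC (IsLocalRing.ResidueField A) N₀) // 0 < v.ord h} := by
  by_cases h2 : q = 2
  · subst h2
    exact (SS23.ssCount_two N₀ N (haux.1 rfl) hqN hN hA h hh).le
  by_cases h3 : q = 3
  · subst h3
    exact (SS23.ssCount_three N₀ N (haux.2 rfl) hqN hN hA h hh).le
  exact ssCount_ge N₀ N hq (five_le_of_prime_ne hq h2 h3) hqN hN hA h hh

/-- `ssCount_ge_of_aux` with `Fintype.card` (the form of `NodalSeed.genus_le`). -/
theorem ssCount_ge_fintype_of_aux (N₀ N : ℕ) [NeZero N₀] [NeZero N] {q : ℕ} (hq : q.Prime)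
    (hqN : ¬ q ∣ N₀) (haux : AuxLevelOK q N₀) (hN : N = q * N₀) (hA : A.LiesOverPrime q)
    (h : modularFunctionFieldFullC (IsLocalRing.ResidueField A) N₀)
    (hh : (h : LaurentSeries (IsLocalRing.ResidueField A)) =
      ssFun (IsLocalRing.ResidueField A) q)
    [Fintype {v : Place (IsLocalRing.ResidueField A)
          ↥(modularFunctionFieldFullC (IsLocalRing.ResidueField A) N₀) // 0 < v.ord h}] :
    genusFF Qb ↥(modularFunctionFieldBar N) + 1 ≤
      genusFF (IsLocalRing.ResidueField A)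
          ↥(modularFunctionFieldFullC (IsLocalRing.ResidueField A) N₀) +
        genusFF (IsLocalRing.ResidueField A)
          ↥(modularFunctionFieldFullC (IsLocalRing.ResidueField A) N₀) +
        Fintype.card {v : Place (IsLocalRing.ResidueField A)
          ↥(modularFunctionFieldFullC (IsLocalRing.ResidueField A) N₀) // 0 < v.ord h} := by
  rw [← Nat.card_eq_fintype_card]
  exact ssCount_ge_of_aux N₀ N hq hqN haux hN hA h hh

/-- `ssFun k q` lies in `F_k(N₀)`, for every prime `q`. -/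
theorem ssFun_mem_fullC_of_prime (N₀ : ℕ) [NeZero N₀] {q : ℕ} (hq : q.Prime)
    (hA : A.LiesOverPrime q) :
    ssFun (IsLocalRing.ResidueField A) q ∈
      modularFunctionFieldFullC (IsLocalRing.ResidueField A) N₀ := by
  by_cases h2 : q = 2
  · subst h2
    exact SS23.ssFun_two_mem_fullC hA N₀
  by_cases h3 : q = 3
  · subst h3
    exact SS23.ssFun_three_mem_fullC hA N₀
  haveI : Fact q.Prime := ⟨hq⟩
  haveI : CharP (IsLocalRing.ResidueField A) q := Fermat.Agent.FrobTrace.charP_residueField A hA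
  exact ssFun_mem_fullC (IsLocalRing.ResidueField A) q (five_le_of_prime_ne hq h2 h3) N₀

/-- **MA6c** (helper79's `exists_oldSep`) for every prime `q ∤ N₀` with the auxiliary level:
integral old functions with prescribed values at finitely many non-cuspidal places of the
reduction of `X₀(N₀)` at `q`. -/
theorem exists_oldSep_of_aux (N₀ : ℕ) [NeZero N₀] {q : ℕ} (hq : q.Prime) (hqN : ¬ q ∣ N₀)
    (haux : AuxLevelOK q N₀) (hA : A.LiesOverPrime q)
    {ι : Type*} [Fintype ι]
    (s : ι → Place (IsLocalRing.ResidueField A)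
      (modularFunctionFieldFullC (IsLocalRing.ResidueField A) N₀))
    (hs : Function.Injective s)
    (hreg : ∀ i, 0 ≤ (s i).ord (Fermat.Agent.RRMod.jC (IsLocalRing.ResidueField A) N₀))
    (c : ι → IsLocalRing.ResidueField A) :
    ∃ g₀ : modularFunctionFieldBar N₀,
      g₀ ∈ (Fermat.Agent.GaussInt.modularValSetup A q N₀ hq hA hqN).Ov ∧
      (∀ v : Place Qb (modularFunctionFieldBar N₀),
        0 ≤ v.ord (Fermat.Agent.S24.jBar N₀) → 0 ≤ v.ord g₀) ∧
      (∀ Q : Place (IsLocalRing.ResidueField A)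
          (modularFunctionFieldFullC (IsLocalRing.ResidueField A) N₀),
        0 ≤ Q.ord (Fermat.Agent.RRMod.jC (IsLocalRing.ResidueField A) N₀) →
          0 ≤ Q.ord ((Fermat.Agent.GaussInt.modularValSetup A q N₀ hq hA hqN).red g₀)) ∧
      ∀ i, ValAt (s i) ((Fermat.Agent.GaussInt.modularValSetup A q N₀ hq hA hqN).red g₀) (c i) :=
  exists_oldSep A q N₀ hq hA hqN (genusFF_eq_of_aux N₀ hq hqN haux hA) s hs hreg c

end

end Fermat.Agent.BadRed
end
end MergeWrap_Lib_BadRed_Mod_AuxUnified
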