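import Mathlib
import Fermat.Agent.MUL.Lib.BadRed.Nodal.Deuring2.Canon
import Fermat.Agent.MUL.Lib.BadRed.Nodal.Deuring2.Assembly
import Fermat.Agent.MUL.Lib.BadRed.Nodal.Gluing.Semilinear
import Fermat.Agent.MUL.Lib.BadRed.Mod.GaussSetup
import Fermat.Agent.MUL.Orig.Lib.BadRed.Mod.FrobAut
import Fermat.Agent.MUL.Lib.BadRed.Mod.ValZero
import Fermat.Agent.MUL.Orig.Lib.GaussInt.Galois
import Fermat.Agent.MUL.Lib.BadRed.Bridge.E1Sep

section MergeWrap_Lib_BadRed_Nodal_Deuring2_CanonSemi -- from Lib/BadRed/Nodal/Deuring2/CanonSemi.lean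

set_option autoImplicit false
set_option linter.unusedSectionVars false

/-!
# Cluster T, WP N4 / S35 (P2m, abstract part): SEMILINEAR canonicity of the reduction of places
(helper18)

`t` a semilinear automorphism of `F / K` which preserves both valuation rings and acts on the two
residue function fields through semilinear automorphisms `τ₁`, `τ₂`
(`red_i (t • f) = τ_i • red_i f`), which preserves the seed divisor `D₀`, such that `τ_i` preserves
`R_i` and the set of nodes (`NodalSeed.IsSemiAut`).  Then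

* `NodalType.r_smul_semi` : `T.r (t • P) = τ • T.r P`  (`τ = Sum.map τ₁ τ₂` on the ordinary
  places, `none ↦ none`);
* `NodalType.isOrd_smul` : `t` preserves the ordinary places;
* `NodalType.isFrobLike` : if moreover `τ_i` raises the constants to the power `Q` and FIXES
  every node, then `t` is Frobenius-like for the nodal package `T.toNodalSetup`
  (`Gluing.IsFrobLike`, the hypothesis of helper76's `Gluing/Main.lean`).

The inertial case of `Canon.lean` (helper16) is `τ₁ = τ₂ = 1`.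
-/

noncomputable section

open AlgebraicCurve Fermat.Agent.RR Fermat.Agent.Deuring

namespace Fermat.Agent.BadRed

variable {K F k Fk₁ Fk₂ : Type*} [Field K] [Field F] [Algebra K F]
  [Field k] [Field Fk₁] [Algebra k Fk₁] [Field Fk₂] [Algebra k Fk₂] {ι : Type*} [Fintype ι]
  {N : NodalSeed K F k Fk₁ Fk₂ ι}

/-! ### generalities -/

/-- if `t` preserves a valuation ring and acts on the residue field through a ring homomorphism,
then `t⁻¹` preserves the valuation ring. -/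
theorem cs_inv_mem {Fk : Type*} [Field Fk] [Algebra k Fk] (S : ValSetup K F k Fk)
    (t : SemilinearAut K F) (τ : Fk →+* Fk) (hm : ∀ f, f ∈ S.Ov → t • f ∈ S.Ov)
    (hr : ∀ f, f ∈ S.Ov → S.red (t • f) = τ (S.red f)) (f : F) (hf : f ∈ S.Ov) :
    t⁻¹ • f ∈ S.Ov := by
  by_cases hf0 : f = 0
  · rw [hf0, smul_zero]
    exact S.Ov.zero_mem
  by_contra hcon
  set g : F := (t⁻¹ • f)⁻¹ with hg
  have hg0 : g ≠ 0 := by
    rw [hg]
    refine inv_ne_zero ?_
    intro h
    exact hcon (h ▸ S.Ov.zero_mem)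
  have hgmem : g ∈ S.Ov := (S.Ov.mem_or_inv_mem (t⁻¹ • f)).resolve_left hcon
  have hginv : g⁻¹ ∉ S.Ov := by
    rw [hg, inv_inv]
    exact hcon
  have hgred : S.red g = 0 := (S.red_eq_zero_iff hgmem hg0).mpr hginv
  have htg : t • g = f⁻¹ := by
    rw [hg, smul_inv'', smul_inv_smul]
  have h1 : f⁻¹ ∈ S.Ov := htg ▸ hm g hgmem
  have h2 : S.red f⁻¹ = 0 := by
    rw [← htg, hr g hgmem, hgred, map_zero]
  have h3 := (S.red_eq_zero_iff h1 (inv_ne_zero hf0)).mp h2
  rw [inv_inv] at h3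
  exact h3 hf

/-- the reduction of `t⁻¹ • f`. -/
theorem cs_inv_red {Fk : Type*} [Field Fk] [Algebra k Fk] (S : ValSetup K F k Fk)
    (t : SemilinearAut K F) (τ : SemilinearAut k Fk) (hm : ∀ f, f ∈ S.Ov → t • f ∈ S.Ov)
    (hr : ∀ f, f ∈ S.Ov → S.red (t • f) = τ • S.red f) (f : F) (hf : f ∈ S.Ov) :
    S.red (t⁻¹ • f) = τ⁻¹ • S.red f := by
  have hmem := cs_inv_mem S t (SemilinearAut.toRingAut τ : Fk →+* Fk) hm
    (fun f hf => hr f hf) f hf
  have h := hr (t⁻¹ • f) hmem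
  rw [smul_inv_smul] at h
  rw [h, inv_smul_smul]

/-- a set of places indexed by a finite type which is stable under `τ` is stable under
`τ⁻¹`. -/
theorem cs_node_inv {Fk : Type*} [Field Fk] [Algebra k Fk] (τ : SemilinearAut k Fk)
    (s : ι → Place k Fk) (hs : Function.Injective s) (h : ∀ i, ∃ j, τ • s i = s j) :
    ∀ i, ∃ j, τ⁻¹ • s i = s j := by
  choose φ hφ using h
  have hinj : Function.Injective φ := by
    intro a b hab
    apply hs
    have h1 : τ • s a = τ • s b := by rw [hφ a, hφ b, hab]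
    exact MulAction.injective τ h1
  have hsurj : Function.Surjective φ := Finite.injective_iff_surjective.mp hinj
  intro i
  obtain ⟨a, rfl⟩ := hsurj i
  exact ⟨a, by rw [← hφ a, inv_smul_smul]⟩

/-! ### semilinear automorphisms of a seed -/

/-- `t` is a semilinear automorphism of the seed `N`, acting on the two components of the special
fibre through `τ₁`, `τ₂`. -/
structure NodalSeed.IsSemiAut (N : NodalSeed K F k Fk₁ Fk₂ ι) (t : SemilinearAut K F)
    (τ₁ : SemilinearAut k Fk₁) (τ₂ : SemilinearAut k Fk₂) : Prop where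
  mem₁ : ∀ f : F, f ∈ N.S₁.Ov → t • f ∈ N.S₁.Ov
  red₁ : ∀ f : F, f ∈ N.S₁.Ov → N.S₁.red (t • f) = τ₁ • N.S₁.red f
  mem₂ : ∀ f : F, f ∈ N.S₂.Ov → t • f ∈ N.S₂.Ov
  red₂ : ∀ f : F, f ∈ N.S₂.Ov → N.S₂.red (t • f) = τ₂ • N.S₂.red f
  D₀_smul : ∀ P : Place K F, N.D₀ (t • P) = N.D₀ P
  R₁_smul : ∀ Q : Place k Fk₁, N.R₁ (τ₁ • Q) = N.R₁ Q
  R₂_smul : ∀ Q : Place k Fk₂, N.R₂ (τ₂ • Q) = N.R₂ Q
  node₁ : ∀ i, ∃ j, τ₁ • N.s₁ i = N.s₁ j
  node₂ : ∀ i, ∃ j, τ₂ • N.s₂ i = N.s₂ j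

namespace NodalSeed.IsSemiAut

variable {t : SemilinearAut K F} {τ₁ : SemilinearAut k Fk₁} {τ₂ : SemilinearAut k Fk₂}

/-- the identity. -/
theorem one (N : NodalSeed K F k Fk₁ Fk₂ ι) : N.IsSemiAut 1 1 1 where
  mem₁ f hf := by rwa [one_smul]
  red₁ f _ := by rw [one_smul, one_smul]
  mem₂ f hf := by rwa [one_smul]
  red₂ f _ := by rw [one_smul, one_smul]
  D₀_smul P := by rw [one_smul]
  R₁_smul Q := by rw [one_smul]
  R₂_smul Q := by rw [one_smul]
  node₁ i := ⟨i, by rw [one_smul]⟩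
  node₂ i := ⟨i, by rw [one_smul]⟩

/-- the inverse. -/
theorem inv (h : N.IsSemiAut t τ₁ τ₂) : N.IsSemiAut t⁻¹ τ₁⁻¹ τ₂⁻¹ where
  mem₁ := cs_inv_mem N.S₁ t (SemilinearAut.toRingAut τ₁ : Fk₁ →+* Fk₁) h.mem₁ h.red₁
  red₁ := cs_inv_red N.S₁ t τ₁ h.mem₁ h.red₁
  mem₂ := cs_inv_mem N.S₂ t (SemilinearAut.toRingAut τ₂ : Fk₂ →+* Fk₂) h.mem₂ h.red₂
  red₂ := cs_inv_red N.S₂ t τ₂ h.mem₂ h.red₂
  D₀_smul P := by
    have := h.D₀_smul (t⁻¹ • P)
    rw [smul_inv_smul] at this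
    exact this.symm
  R₁_smul Q := by
    have := h.R₁_smul (τ₁⁻¹ • Q)
    rw [smul_inv_smul] at this
    exact this.symm
  R₂_smul Q := by
    have := h.R₂_smul (τ₂⁻¹ • Q)
    rw [smul_inv_smul] at this
    exact this.symm
  node₁ := cs_node_inv τ₁ N.s₁ N.s₁_inj h.node₁
  node₂ := cs_node_inv τ₂ N.s₂ N.s₂_inj h.node₂

/-- the product. -/
theorem mul {t' : SemilinearAut K F} {τ₁' : SemilinearAut k Fk₁} {τ₂' : SemilinearAut k Fk₂}
    (h : N.IsSemiAut t τ₁ τ₂) (h' : N.IsSemiAut t' τ₁' τ₂') :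
    N.IsSemiAut (t * t') (τ₁ * τ₁') (τ₂ * τ₂') where
  mem₁ f hf := by
    rw [mul_smul]
    exact h.mem₁ _ (h'.mem₁ f hf)
  red₁ f hf := by
    rw [mul_smul, mul_smul, h.red₁ _ (h'.mem₁ f hf), h'.red₁ f hf]
  mem₂ f hf := by
    rw [mul_smul]
    exact h.mem₂ _ (h'.mem₂ f hf)
  red₂ f hf := by
    rw [mul_smul, mul_smul, h.red₂ _ (h'.mem₂ f hf), h'.red₂ f hf]
  D₀_smul P := by rw [mul_smul, h.D₀_smul, h'.D₀_smul]
  R₁_smul Q := by rw [mul_smul, h.R₁_smul, h'.R₁_smul]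
  R₂_smul Q := by rw [mul_smul, h.R₂_smul, h'.R₂_smul]
  node₁ i := by
    obtain ⟨j, hj⟩ := h'.node₁ i
    obtain ⟨l, hl⟩ := h.node₁ j
    exact ⟨l, by rw [mul_smul, hj, hl]⟩
  node₂ i := by
    obtain ⟨j, hj⟩ := h'.node₂ i
    obtain ⟨l, hl⟩ := h.node₂ j
    exact ⟨l, by rw [mul_smul, hj, hl]⟩

end NodalSeed.IsSemiAut

/-! ### the theorem -/

namespace NodalType

variable {t : SemilinearAut K F} {τ₁ : SemilinearAut k Fk₁} {τ₂ : SemilinearAut k Fk₂}

/-- the action of `(τ₁, τ₂)` on the reductions of the ordinary places. -/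
def semiMap (τ₁ : SemilinearAut k Fk₁) (τ₂ : SemilinearAut k Fk₂) :
    Option (Place k Fk₁ ⊕ Place k Fk₂) → Option (Place k Fk₁ ⊕ Place k Fk₂) :=
  Option.map (Sum.map (fun Q => τ₁ • Q) (fun Q => τ₂ • Q))

@[simp]
theorem semiMap_none : semiMap τ₁ τ₂ none = none := rfl

@[simp]
theorem semiMap_inl (Q : Place k Fk₁) :
    semiMap τ₁ τ₂ (some (Sum.inl Q)) = some (Sum.inl (τ₁ • Q)) := rfl

@[simp]
theorem semiMap_inr (Q : Place k Fk₂) :
    semiMap τ₁ τ₂ (some (Sum.inr Q)) = some (Sum.inr (τ₂ • Q)) := rfl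

/-- first component. -/
theorem r_smul_inl (T : NodalType N) (h : N.IsSemiAut t τ₁ τ₂) {P : Place K F}
    {Q : Place k Fk₁} (hX : T.r P = some (Sum.inl Q)) :
    T.r (t • P) = some (Sum.inl (τ₁ • Q)) := by
  obtain ⟨m, f, hf, hred, hord⟩ := T.pole₁ P Q hX
  have hQ : ∀ i, Q ≠ N.s₁ i := fun i hi => T.r_ne_node₁ P i (hi ▸ hX)
  have hQ' : ∀ i, τ₁ • Q ≠ N.s₁ i := by
    intro i hi
    obtain ⟨j, hj⟩ := h.inv.node₁ i
    apply hQ j
    rw [← hj, ← hi, inv_smul_smul]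
  have hf' := canon_isInt_smul t h.mem₁ h.mem₂ h.D₀_smul hf
  have hred' : N.S₁.red (t • f) = τ₁ • N.S₁.red f := h.red₁ f hf.2.1
  refine T.r_eq_inl_of_pole hQ' hf' ?_ ?_
  · rw [hred']
    exact (smul_ne_zero_iff_ne τ₁).mpr hred
  · rw [hred', SemilinearAut.ord_smul, hord, Finsupp.smul_apply, Finsupp.smul_apply,
      h.R₁_smul]

/-- second component. -/
theorem r_smul_inr (T : NodalType N) (h : N.IsSemiAut t τ₁ τ₂) {P : Place K F}
    {Q : Place k Fk₂} (hX : T.r P = some (Sum.inr Q)) :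
    T.r (t • P) = some (Sum.inr (τ₂ • Q)) := by
  obtain ⟨m, f, hf, hred, hord⟩ := T.pole₂ P Q hX
  have hQ : ∀ i, Q ≠ N.s₂ i := fun i hi => T.r_ne_node₂ P i (hi ▸ hX)
  have hQ' : ∀ i, τ₂ • Q ≠ N.s₂ i := by
    intro i hi
    obtain ⟨j, hj⟩ := h.inv.node₂ i
    apply hQ j
    rw [← hj, ← hi, inv_smul_smul]
  have hf' := canon_isInt_smul t h.mem₁ h.mem₂ h.D₀_smul hf
  have hred' : N.S₂.red (t • f) = τ₂ • N.S₂.red f := h.red₂ f hf.2.2
  refine T.r_eq_inr_of_pole hQ' hf' ?_ ?_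
  · rw [hred']
    exact (smul_ne_zero_iff_ne τ₂).mpr hred
  · rw [hred', SemilinearAut.ord_smul, hord, Finsupp.smul_apply, Finsupp.smul_apply,
      h.R₂_smul]

/-- the ordinary places. -/
theorem r_smul_some (T : NodalType N) (h : N.IsSemiAut t τ₁ τ₂) {P : Place K F}
    {X : Place k Fk₁ ⊕ Place k Fk₂} (hX : T.r P = some X) :
    T.r (t • P) = semiMap τ₁ τ₂ (some X) := by
  rcases X with Q | Q
  · exact T.r_smul_inl h hX
  · exact T.r_smul_inr h hX

/-- **semilinear canonicity**: `r (t • P) = τ • r P`. -/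
theorem r_smul_semi (T : NodalType N) (h : N.IsSemiAut t τ₁ τ₂) (P : Place K F) :
    T.r (t • P) = semiMap τ₁ τ₂ (T.r P) := by
  cases hP : T.r P with
  | some X => exact T.r_smul_some h hP
  | none =>
    cases htP : T.r (t • P) with
    | none => rfl
    | some X =>
      have h1 := T.r_smul_some h.inv htP
      rw [inv_smul_smul, hP] at h1
      exact absurd h1 (by simp [semiMap])

/-- `t` preserves the ordinary places. -/
theorem isSome_r_smul (T : NodalType N) (h : N.IsSemiAut t τ₁ τ₂) {P : Place K F}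
    (hP : ∃ X, T.r P = some X) : ∃ X, T.r (t • P) = some X := by
  obtain ⟨X, hX⟩ := hP
  exact ⟨_, T.r_smul_some h hX⟩

/-- `t` preserves the ordinary places of the nodal package. -/
theorem isOrd_smul [Infinite k] (T : NodalType N) (h₁ : T.Push₁) (h₂ : T.Push₂)
    (h : N.IsSemiAut t τ₁ τ₂) (P : Place K F) (hP : (T.toNodalSetup h₁ h₂).IsOrd P) :
    (T.toNodalSetup h₁ h₂).IsOrd (t • P) :=
  T.isSome_r_smul h hP

/-- **Frobenius-like automorphisms of the nodal package of a seed**: a semilinear automorphism of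
the seed which raises the constants of the special fibre to the power `Q` and fixes every node
is Frobenius-like. -/
theorem isFrobLike [Infinite k] (T : NodalType N) (h₁ : T.Push₁) (h₂ : T.Push₂)
    (h : N.IsSemiAut t τ₁ τ₂) (Q : ℕ)
    (hc₁ : ∀ c : k, SemilinearAut.baseAut τ₁ c = c ^ Q)
    (hc₂ : ∀ c : k, SemilinearAut.baseAut τ₂ c = c ^ Q)
    (hfix₁ : ∀ i, τ₁ • N.s₁ i = N.s₁ i) (hfix₂ : ∀ i, τ₂ • N.s₂ i = N.s₂ i) :
    Gluing.IsFrobLike (T.toNodalSetup h₁ h₂) t Q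
      (SemilinearAut.toRingAut τ₁ : Fk₁ →+* Fk₁) (SemilinearAut.toRingAut τ₂ : Fk₂ →+* Fk₂) where
  mem₁ := h.mem₁
  red₁ := h.red₁
  mem₂ := h.mem₂
  red₂ := h.red₂
  const₁ c := by
    show SemilinearAut.toRingAut τ₁ (algebraMap k Fk₁ c) = _
    rw [SemilinearAut.commutes, hc₁]
  const₂ c := by
    show SemilinearAut.toRingAut τ₂ (algebraMap k Fk₂ c) = _
    rw [SemilinearAut.commutes, hc₂]
  node₁ i x hx := by
    show 0 < (N.s₁ i).ord (τ₁ • x)
    have h1 := SemilinearAut.ord_smul τ₁ (N.s₁ i) x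
    rw [hfix₁ i] at h1
    rw [h1]
    exact hx
  node₂ i x hx := by
    show 0 < (N.s₂ i).ord (τ₂ • x)
    have h1 := SemilinearAut.ord_smul τ₂ (N.s₂ i) x
    rw [hfix₂ i] at h1
    rw [h1]
    exact hx
  ord_smul := T.isOrd_smul h₁ h₂ h

end NodalType

end Fermat.Agent.BadRed
end
end MergeWrap_Lib_BadRed_Nodal_Deuring2_CanonSemi

section MergeWrap_Lib_BadRed_Mod_GaloisSemi -- from Lib/BadRed/Mod/GaloisSemi.lean

set_option autoImplicit false
set_option linter.unusedSectionVars false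

/-!
# Cluster T / S35 (P2m), modular part (i): the decomposition group acts semilinearly on a seed
(helper18)

Abstract part (any seed whose divisors are the pole divisors of ONE function `x`):
* `cs_node_stable_of_zeros` : the zeros of a `τ`-fixed function are permuted by `τ`;
* `NodalSeed.isSemiAut_of_poleDiv` : if `D₀ = (x)_∞`, `R_i = (red_i x)_∞`, `t • x = x`, `t`
  preserves `O_i` with `red_i (t • f) = τ_i • red_i f`, and `τ_i` permutes the nodes, then
  `N.IsSemiAut t τ₁ τ₂` (so `CanonSemi.lean` applies).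

Modular part (`S` with `hS : IsGaussSetup N N₀ A S`, `t = arithmeticGalois σ`):
* `IsGaussSetup.mem_of_decomposition` : `σ ∈ D_A` preserves `S.Ov`;
* `IsGaussSetup.red_inertia` : `σ ∈ I_A` ⟹ `S.red (t • f) = S.red f`;
* `IsGaussSetup.red_frob` : `σ` a Frobenius at `A | q` ⟹ `S.red (t • f) = frobAut • S.red f`;
* `valSetupZero_mem_galois`, `valSetupZero_red_galois` : the same statements pass to
  `v_0 = v_∞ ∘ w_q` (`w_q` commutes with the Galois action);
* `arithmeticGalois_smul_uF` : `u` has rational coefficients, `t • u = u`;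
  `arithmeticGalois_smul_seedFun` : `t • (u + ϖ / u) = u + ϖ / u` if `σ ϖ = ϖ` (e.g. `ϖ = q ^ 12`).
-/

noncomputable section

namespace Fermat.Agent.BadRed

open ModularCurve AlgebraicCurve Fermat.Agent.F3 Fermat.Agent.F3G Fermat.Agent.GaussInt
  Fermat.Agent.AtkinLehner Fermat.Agent.Deuring Fermat.Agent.RR

/-! ### abstract part -/

section Abstract

variable {K F k Fk₁ Fk₂ : Type*} [Field K] [Field F] [Algebra K F]
  [Field k] [Field Fk₁] [Algebra k Fk₁] [Field Fk₂] [Algebra k Fk₂] {ι : Type*}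

/-- the zeros of a `τ`-fixed function are permuted by `τ`. -/
theorem cs_node_stable_of_zeros {Fk : Type*} [Field Fk] [Algebra k Fk] (τ : SemilinearAut k Fk)
    (s : ι → Place k Fk) (y : Fk) (hτy : τ • y = y) (hs : ∀ i, 0 < (s i).ord y)
    (hz : ∀ Q : Place k Fk, 0 < Q.ord y → ∃ i, Q = s i) : ∀ i, ∃ j, τ • s i = s j := by
  intro i
  apply hz
  have h := SemilinearAut.ord_smul τ (s i) y
  rw [hτy] at h
  rw [h]
  exact hs i

/-- the pole divisor of a `t`-fixed function is `t`-stable. -/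
theorem cs_poleDiv_smul (h : IsRRField K F) (t : SemilinearAut K F) {x : F} (htx : t • x = x)
    (P : Place K F) : poleDiv h x (t • P) = poleDiv h x P := by
  rw [poleDiv_apply, poleDiv_apply]
  have h1 := SemilinearAut.ord_smul t P x
  rw [htx] at h1
  rw [h1]

variable [Fintype ι]

/-- **semilinear automorphisms of a seed of the form** `D₀ = (x)_∞`, `R_i = (red_i x)_∞`. -/
theorem NodalSeed.isSemiAut_of_poleDiv (N : NodalSeed K F k Fk₁ Fk₂ ι) {x : F}
    (hx₁ : x ∈ N.S₁.Ov) (hx₂ : x ∈ N.S₂.Ov)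
    (hD : N.D₀ = poleDiv N.S₁.hF x) (hR₁ : N.R₁ = poleDiv N.S₁.hFk (N.S₁.red x))
    (hR₂ : N.R₂ = poleDiv N.S₂.hFk (N.S₂.red x))
    {t : SemilinearAut K F} {τ₁ : SemilinearAut k Fk₁} {τ₂ : SemilinearAut k Fk₂}
    (hm₁ : ∀ f : F, f ∈ N.S₁.Ov → t • f ∈ N.S₁.Ov)
    (hr₁ : ∀ f : F, f ∈ N.S₁.Ov → N.S₁.red (t • f) = τ₁ • N.S₁.red f)
    (hm₂ : ∀ f : F, f ∈ N.S₂.Ov → t • f ∈ N.S₂.Ov)
    (hr₂ : ∀ f : F, f ∈ N.S₂.Ov → N.S₂.red (t • f) = τ₂ • N.S₂.red f)
    (htx : t • x = x)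
    (hn₁ : ∀ i, ∃ j, τ₁ • N.s₁ i = N.s₁ j) (hn₂ : ∀ i, ∃ j, τ₂ • N.s₂ i = N.s₂ j) :
    N.IsSemiAut t τ₁ τ₂ where
  mem₁ := hm₁
  red₁ := hr₁
  mem₂ := hm₂
  red₂ := hr₂
  D₀_smul P := by
    rw [hD]
    exact cs_poleDiv_smul N.S₁.hF t htx P
  R₁_smul Q := by
    rw [hR₁]
    refine cs_poleDiv_smul N.S₁.hFk τ₁ ?_ Q
    rw [← hr₁ x hx₁, htx]
  R₂_smul Q := by
    rw [hR₂]
    refine cs_poleDiv_smul N.S₂.hFk τ₂ ?_ Q
    rw [← hr₂ x hx₂, htx]
  node₁ := hn₁
  node₂ := hn₂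

end Abstract

/-! ### modular part -/

section Modular

set_option synthInstance.maxHeartbeats 400000

local notation "Qb" => AlgebraicClosure ℚ

variable {N N₀ : ℕ} [NeZero N] [NeZero N₀] {A : ValuationSubring Qb}
  {S : ValSetup Qb (FBar N) (IsLocalRing.ResidueField A)
    (modularFunctionFieldFullC (IsLocalRing.ResidueField A) N₀)}

/-- the coefficientwise Galois action preserves `F_N`. -/
theorem gs_coeffMap_mem_bar (N : ℕ) (σ : Qb ≃ₐ[ℚ] Qb) :
    ∀ y ∈ modularFunctionFieldBar N, coeffMap (σ : Qb →+* Qb) y ∈ modularFunctionFieldBar N :=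
  fun _ hy => coeffMap_mem_laurentBaseChange σ hy

/-- the decomposition group preserves the Gauss ring. -/
theorem IsGaussSetup.mem_of_decomposition (hS : IsGaussSetup N N₀ A S) (σ : Qb ≃ₐ[ℚ] Qb)
    (hσ : σ ∈ A.decompositionSubgroup ℚ) (f : FBar N) (hf : f ∈ S.Ov) :
    arithmeticGalois (modularFunctionFieldFull N) σ • f ∈ S.Ov := by
  rw [hS.mem_iff] at hf ⊢
  rw [coe_arithmeticGalois_smul]
  exact (gaussResFun_decomposition σ hσ (gs_coeffMap_mem_bar N σ) hf).1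

/-- a Frobenius element preserves the Gauss ring. -/
theorem IsGaussSetup.mem_of_frob (hS : IsGaussSetup N N₀ A S) (σ : Qb ≃ₐ[ℚ] Qb) {q : ℕ}
    (hσ : A.IsFrobeniusAt σ q) (f : FBar N) (hf : f ∈ S.Ov) :
    arithmeticGalois (modularFunctionFieldFull N) σ • f ∈ S.Ov :=
  hS.mem_of_decomposition σ hσ.mem_decompositionSubgroup f hf

/-- the inertia group preserves the Gauss ring. -/
theorem IsGaussSetup.mem_of_inertia (hS : IsGaussSetup N N₀ A S) (σ : Qb ≃ₐ[ℚ] Qb)
    (hσ : σ ∈ A.inertiaSubgroupIn ℚ) (f : FBar N) (hf : f ∈ S.Ov) :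
    arithmeticGalois (modularFunctionFieldFull N) σ • f ∈ S.Ov := by
  rw [hS.mem_iff] at hf ⊢
  rw [coe_arithmeticGalois_smul]
  exact coeffMap_mem_gaussSub_of_inertia σ hσ (gs_coeffMap_mem_bar N σ) hf

/-- the inertia group acts trivially on the reductions. -/
theorem IsGaussSetup.red_inertia (hS : IsGaussSetup N N₀ A S) (σ : Qb ≃ₐ[ℚ] Qb)
    (hσ : σ ∈ A.inertiaSubgroupIn ℚ) (f : FBar N) (hf : f ∈ S.Ov) :
    S.red (arithmeticGalois (modularFunctionFieldFull N) σ • f) = S.red f := by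
  have hf' := (hS.mem_iff f).mp hf
  apply Subtype.ext
  rw [hS.coe_red _ (hS.mem_of_inertia σ hσ f hf), hS.coe_red f hf, coe_arithmeticGalois_smul]
  exact gaussResFun_inertia σ hσ (gs_coeffMap_mem_bar N σ) hf'

/-- **a Frobenius element acts on the reductions through the coefficientwise Frobenius.** -/
theorem IsGaussSetup.red_frob (hS : IsGaussSetup N N₀ A S) (σ : Qb ≃ₐ[ℚ] Qb) {q : ℕ}
    [Fact q.Prime] [CharP (IsLocalRing.ResidueField A) q]
    [PerfectRing (IsLocalRing.ResidueField A) q]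
    (hσ : A.IsFrobeniusAt σ q) (f : FBar N) (hf : f ∈ S.Ov) :
    S.red (arithmeticGalois (modularFunctionFieldFull N) σ • f) =
      frobAut (IsLocalRing.ResidueField A) N₀ q • S.red f := by
  have hf' := (hS.mem_iff f).mp hf
  apply Subtype.ext
  rw [hS.coe_red _ (hS.mem_of_frob σ hσ f hf), coe_frobAut_smul, hS.coe_red f hf,
    coe_arithmeticGalois_smul]
  ext n
  rw [gaussResFun_frobenius_coeff σ hσ (gs_coeffMap_mem_bar N σ) hf' n, coeffMap_coeff]
  rfl

/-- `u = Δ(z) / Δ(qz)` has rational coefficients. -/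
theorem arithmeticGalois_smul_uF (N q : ℕ) [NeZero N] [NeZero q] (hq : q ∣ N)
    (σ : Qb ≃ₐ[ℚ] Qb) :
    arithmeticGalois (modularFunctionFieldFull N) σ • uF N q hq = uF N q hq := by
  apply Subtype.ext
  rw [coe_arithmeticGalois_smul, coe_uF, coeffMap_uSer]

/-- the seed function `u + ϖ / u`, `ϖ` fixed by `σ`, is fixed by the Galois action. -/
theorem arithmeticGalois_smul_seedFun (N q : ℕ) [NeZero N] [NeZero q] (hq : q ∣ N)
    (σ : Qb ≃ₐ[ℚ] Qb) (ϖ : Qb) (hϖ : σ ϖ = ϖ) :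
    arithmeticGalois (modularFunctionFieldFull N) σ •
        (uF N q hq + algebraMap Qb (FBar N) ϖ / uF N q hq) =
      uF N q hq + algebraMap Qb (FBar N) ϖ / uF N q hq := by
  rw [smul_add, Gluing.sl_smul_div, arithmeticGalois_smul_uF, SemilinearAut.smul_algebraMap]
  have e : SemilinearAut.baseAut (arithmeticGalois (modularFunctionFieldFull N) σ) ϖ = ϖ := hϖ
  rw [e]

/-- the seed function `u + q ^ 12 / u` is fixed by the Galois action. -/
theorem arithmeticGalois_smul_seedFun_pow (N q : ℕ) [NeZero N] [NeZero q] (hq : q ∣ N)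
    (σ : Qb ≃ₐ[ℚ] Qb) (e : ℕ) :
    arithmeticGalois (modularFunctionFieldFull N) σ •
        (uF N q hq + algebraMap Qb (FBar N) ((q : Qb) ^ e) / uF N q hq) =
      uF N q hq + algebraMap Qb (FBar N) ((q : Qb) ^ e) / uF N q hq :=
  arithmeticGalois_smul_seedFun N q hq σ _ (by rw [map_pow, map_natCast])

end Modular

/-! ### the second valuation `v_0 = v_∞ ∘ w_q` -/

section Zero

local notation "Qb" => AlgebraicClosure ℚ

variable {k Fk : Type*} [Field k] [Field Fk] [Algebra k Fk] (D : ALData)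
  (S : ValSetup Qb (modularFunctionFieldBar (D.Q * D.R)) k Fk)

/-- `w_q` commutes with the Galois action, elementwise. -/
theorem atkinLehner_galois_smul (σ : Qb ≃ₐ[ℚ] Qb) (f : modularFunctionFieldBar (D.Q * D.R)) :
    atkinLehner D (arithmeticGalois (modularFunctionFieldFull (D.Q * D.R)) σ • f) =
      arithmeticGalois (modularFunctionFieldFull (D.Q * D.R)) σ • atkinLehner D f :=
  atkinLehner_arithmeticRingAut D σ f

/-- if the Galois element `σ` preserves `O_∞`, it preserves `O_0`. -/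
theorem valSetupZero_mem_galois (σ : Qb ≃ₐ[ℚ] Qb)
    (hm : ∀ f, f ∈ S.Ov → arithmeticGalois (modularFunctionFieldFull (D.Q * D.R)) σ • f ∈ S.Ov)
    (f : modularFunctionFieldBar (D.Q * D.R)) (hf : f ∈ (valSetupZero D S).Ov) :
    arithmeticGalois (modularFunctionFieldFull (D.Q * D.R)) σ • f ∈ (valSetupZero D S).Ov := by
  rw [mem_valSetupZero_Ov] at hf ⊢
  rw [atkinLehner_galois_smul]
  exact hm _ hf

/-- if the Galois element `σ` acts on the reductions for `v_∞` through `τ`, it acts on the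
reductions for `v_0` through `τ`. -/
theorem valSetupZero_red_galois (σ : Qb ≃ₐ[ℚ] Qb) (τ : Fk → Fk)
    (hr : ∀ f, f ∈ S.Ov →
      S.red (arithmeticGalois (modularFunctionFieldFull (D.Q * D.R)) σ • f) = τ (S.red f))
    (f : modularFunctionFieldBar (D.Q * D.R)) (hf : f ∈ (valSetupZero D S).Ov) :
    (valSetupZero D S).red (arithmeticGalois (modularFunctionFieldFull (D.Q * D.R)) σ • f) =
      τ ((valSetupZero D S).red f) := by
  rw [mem_valSetupZero_Ov] at hf
  rw [valSetupZero_red, valSetupZero_red, atkinLehner_galois_smul]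
  exact hr _ hf

end Zero

end Fermat.Agent.BadRed
end
end MergeWrap_Lib_BadRed_Mod_GaloisSemi
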