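import Mathlib
import Fermat.Prelude.Def_ModularForm_HeckeOperator
import Fermat.Prelude.Sol.S_ModularFormClass_qCoeff_heckeU
import Fermat.Agent.MUL.Lib.RR.Hurwitz.Count
import Fermat.Agent.MUL.Lib.BadRed.Mod.UParamFun
import Fermat.Agent.MUL.S28.Retract
import Fermat.Agent.MUL.S28.QExp
import Fermat.Agent.MUL.S28.FormalUnit
import Fermat.Agent.MUL.S28.DescentD1
import Fermat.Agent.MUL.S24.EmbF
import Fermat.Agent.MUL.Lib.BadRed.Mod.UParamSeries
import Fermat.Agent.MUL.Lib.BadRed.Mod.SSArith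
import Fermat.Agent.MUL.Lib.GenusEq.Inputs
import Fermat.Agent.MUL.Lib.RR.OfModularBar
import Fermat.Agent.MUL.Orig.S23.ConverseQExp
import Fermat.Agent.MUL.Orig.S23.Defs
import Fermat.Agent.MUL.Orig.S23.Esymm
import Fermat.Agent.MUL.S28.LevelOnePoly
import Fermat.Agent.MUL.S28.LevelOneUnit
import Fermat.Agent.MUL.S23.ThetaDef
import Fermat.Agent.MUL.F3.I2.Descent.Places

section MergeWrap_Lib_BadRed_Mod_UCuspDeg -- from Lib/BadRed/Mod/UCuspDeg.lean

set_option autoImplicit false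

/-!
# Cluster T, modular assembly MA4 (helper16): poles and zeros of `u` from its modular equation

PURE ALGEBRA.  `F / K` a function field (`IsRRField K F`), `j u : F`, `q ≥ 2`, and a polynomial
relation of the shape of the modular equation of `u = Δ(z)/Δ(qz)` over `K(j)` (the conclusion of
MA3, with the SHARP degree bounds `deg c_i ≤ i - 1`):

  `u^(q+1) + c_q(j) u^q + ∑_{0 < i < q} c_i(j) u^i + c_0 = 0`,
  `c_0 ∈ K^×`, `deg c_q = q - 1`, `deg c_i ≤ i - 1` for `0 < i < q`.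

Results (`namespace Fermat.Agent.BadRed`):
* `UCuspEq`                              : the hypothesis (a `Prop` on `q j u`);
* `UCuspEq.ord_eq_zero_of_nonneg`        : `0 ≤ ord_v j → ord_v u = 0`;
* `UCuspEq.ord_of_pole`                  : `ord_v j < 0 →`
      `ord_v u = (q-1) ord_v j  ∨  q * ord_v u = -(q-1) ord_v j`   (Newton polygon);
* `UCuspEq.ord_j_neg_iff`                : (a)  `ord_v j < 0 ↔ ord_v u ≠ 0`;
* `UCuspEq.degree_poleDiv`               : (b)  `(q+1) deg (u)_∞ = (q-1) deg (j)_∞`;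
* `UCuspEq.finrank_eq`                   : `(q+1) [F : K(u)] = (q-1) [F : K(j)]`.
-/

noncomputable section

open AlgebraicCurve IntermediateField Polynomial

namespace Fermat.Agent.BadRed

open Fermat.Agent.RR Fermat.Agent.RRHur

variable {K F : Type*} [Field K] [Field F] [Algebra K F]

/-! ### the dominant term principle -/

/-- In a vanishing finite sum no nonzero term has strictly smallest order. -/
theorem ucd_exists_ord_le (v : Place K F) {ι : Type*} (s : Finset ι) (t : ι → F)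
    (hsum : ∑ i ∈ s, t i = 0) {i0 : ι} (hi0 : i0 ∈ s) (h0 : t i0 ≠ 0) :
    ∃ i1 ∈ s, i1 ≠ i0 ∧ t i1 ≠ 0 ∧ v.ord (t i1) ≤ v.ord (t i0) := by
  classical
  by_contra hcon
  push Not at hcon
  have hsplit : t i0 = -∑ i ∈ s.erase i0, t i := by
    rw [← Finset.add_sum_erase s t hi0] at hsum
    exact eq_neg_of_add_eq_zero_left hsum
  have hlt : v.adicValuation (∑ i ∈ s.erase i0, t i) < v.adicValuation (t i0) := by
    apply Valuation.map_sum_lt _ (v.adicValuation_ne_zero h0)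
    intro i hi
    rw [Finset.mem_erase] at hi
    rcases eq_or_ne (t i) 0 with h | h
    · rw [h, map_zero]
      exact zero_lt_iff.mpr (v.adicValuation_ne_zero h0)
    · rw [v.adicValuation_eq_exp_neg_ord h, v.adicValuation_eq_exp_neg_ord h0,
        WithZero.exp_lt_exp]
      have := hcon i hi.2 hi.1 h
      omega
  rw [hsplit, Valuation.map_neg] at hlt
  exact lt_irrefl _ hlt

/-- a nonzero polynomial in `j` does not vanish at a pole of `j`. -/
theorem ucd_aeval_ne_zero_of_pole (v : Place K F) {j : F} (hj : v.ord j < 0) {p : K[X]}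
    (hp : p ≠ 0) : aeval j p ≠ 0 := by
  have hj0 : j ≠ 0 := by
    rintro rfl
    simp at hj
  have h1 := adicValuation_aeval_eq v ((one_lt_adicValuation_iff v).mpr hj) hp
  intro h0
  rw [h0, map_zero] at h1
  exact pow_ne_zero _ (v.adicValuation_ne_zero hj0) h1.symm

/-- order of a polynomial in `j` at a pole of `j`. -/
theorem ucd_ord_aeval_of_pole (v : Place K F) {j : F} (hj : v.ord j < 0) {p : K[X]}
    (hp : p ≠ 0) : v.ord (aeval j p) = (p.natDegree : ℤ) * v.ord j := by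
  have hj0 : j ≠ 0 := by
    rintro rfl
    simp at hj
  have hp0 := ucd_aeval_ne_zero_of_pole v hj hp
  have h1 := adicValuation_aeval_eq v ((one_lt_adicValuation_iff v).mpr hj) hp
  rw [v.adicValuation_eq_exp_neg_ord hp0, v.adicValuation_eq_exp_neg_ord hj0,
    ← WithZero.exp_nsmul, WithZero.exp_inj] at h1
  simp only [nsmul_eq_mul] at h1
  linarith

/-- a polynomial in `j` has no pole where `j` has none. -/
theorem ucd_ord_aeval_nonneg (v : Place K F) {j : F} (hj : 0 ≤ v.ord j) (p : K[X]) :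
    0 ≤ v.ord (aeval j p) :=
  (adicValuation_le_one_iff' v).mp
    (adicValuation_aeval_le_one v ((adicValuation_le_one_iff' v).mpr hj) p)

/-! ### integer arithmetic of the Newton polygon -/

theorem ucdA_neg1 {q i1 D : ℕ} {J x : ℤ} (hq : 2 ≤ q) (hJ : J < 0) (hx : x < 0) (hi : i1 < q)
    (hD : D ≤ q - 2) (h : (D : ℤ) * J + (i1 : ℤ) * x ≤ ((q : ℤ) - 1) * J + (q : ℤ) * x) : False := by
  have h1 : ((q : ℤ) - 2 - D) * J ≤ 0 := by
    apply mul_nonpos_of_nonneg_of_nonpos _ hJ.le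
    have : (D : ℤ) ≤ (q : ℤ) - 2 := by omega
    linarith
  have h2 : ((q : ℤ) - 1 - i1) * x ≤ 0 := by
    apply mul_nonpos_of_nonneg_of_nonpos _ hx.le
    have : (i1 : ℤ) ≤ (q : ℤ) - 1 := by omega
    linarith
  nlinarith

theorem ucdA_neg2 {q i1 D : ℕ} {J x : ℤ} (hq : 2 ≤ q) (hJ : J < 0) (hx : x ≤ ((q : ℤ) - 1) * J)
    (hi : i1 < q) (hD : D ≤ q - 2)
    (h : (D : ℤ) * J + (i1 : ℤ) * x ≤ ((q : ℤ) + 1) * x) : False := by
  have hx0 : x < 0 := by
    have : ((q : ℤ) - 1) * J < 0 := mul_neg_of_pos_of_neg (by omega) hJ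
    linarith
  have h1 : ((q : ℤ) - 2 - D) * J ≤ 0 := by
    apply mul_nonpos_of_nonneg_of_nonpos _ hJ.le
    have : (D : ℤ) ≤ (q : ℤ) - 2 := by omega
    linarith
  have h2 : ((q : ℤ) - 1 - i1) * x ≤ 0 := by
    apply mul_nonpos_of_nonneg_of_nonpos _ hx0.le
    have : (i1 : ℤ) ≤ (q : ℤ) - 1 := by omega
    linarith
  have h3 : (q : ℤ) * J < 0 := mul_neg_of_pos_of_neg (by omega) hJ
  nlinarith

theorem ucdA_pos_mid {q i1 i2 D1 D2 : ℕ} {J x : ℤ} (hJ : J < 0)
    (hi1 : 0 < i1) (hD1 : D1 ≤ i1 - 1)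
    (h1 : (D1 : ℤ) * J + (i1 : ℤ) * x ≤ 0)
    (hi2 : 0 < i2) (hi2q : i2 < q) (hD2 : D2 ≤ i2 - 1)
    (h2 : (D2 : ℤ) * J + (i2 : ℤ) * x ≤ ((q : ℤ) - 1) * J + (q : ℤ) * x) : False := by
  -- from h1: i1 x ≤ (i1 - 1) (-J), so x < -J
  have a1 : ((i1 : ℤ) - 1 - D1) * J ≤ 0 := by
    apply mul_nonpos_of_nonneg_of_nonpos _ hJ.le
    have : (D1 : ℤ) ≤ (i1 : ℤ) - 1 := by omega
    linarith
  have a2 : (i1 : ℤ) * (x + J) < 0 := by nlinarith
  have a3 : x + J < 0 := by
    by_contra hcon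
    have : 0 ≤ (i1 : ℤ) * (x + J) := mul_nonneg (by omega) (by linarith)
    linarith
  -- from h2: (q - i2) (-J) ≤ (q - i2) x
  have b1 : ((i2 : ℤ) - 1 - D2) * J ≤ 0 := by
    apply mul_nonpos_of_nonneg_of_nonpos _ hJ.le
    have : (D2 : ℤ) ≤ (i2 : ℤ) - 1 := by omega
    linarith
  have b2 : 0 ≤ ((q : ℤ) - i2) * (x + J) := by nlinarith
  have b3 : ((q : ℤ) - i2) * (x + J) < 0 := mul_neg_of_pos_of_neg (by omega) a3
  linarith

theorem ucdA_pos_fin {q i1 D1 : ℕ} {J x : ℤ} (hq : 2 ≤ q) (hJ : J < 0)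
    (hi1 : 0 < i1) (hi1q : i1 ≤ q) (hD1 : D1 ≤ i1 - 1)
    (h1 : (D1 : ℤ) * J + (i1 : ℤ) * x ≤ 0)
    (h2 : 0 ≤ ((q : ℤ) - 1) * J + (q : ℤ) * x) : (q : ℤ) * x = -(((q : ℤ) - 1) * J) := by
  have a1 : ((i1 : ℤ) - 1 - D1) * J ≤ 0 := by
    apply mul_nonpos_of_nonneg_of_nonpos _ hJ.le
    have : (D1 : ℤ) ≤ (i1 : ℤ) - 1 := by omega
    linarith
  -- i1 x ≤ -(i1 - 1) J
  have a2 : (i1 : ℤ) * x ≤ -(((i1 : ℤ) - 1) * J) := by nlinarith
  rcases Nat.lt_or_ge i1 q with hlt | hge
  · exfalso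
    -- q * (i1 x) ≤ -q (i1 - 1) J ;  i1 * (q x) ≥ -i1 (q-1) J
    have c1 : (q : ℤ) * ((i1 : ℤ) * x) ≤ (q : ℤ) * (-(((i1 : ℤ) - 1) * J)) :=
      mul_le_mul_of_nonneg_left a2 (by omega)
    have c2 : (i1 : ℤ) * (-(((q : ℤ) - 1) * J)) ≤ (i1 : ℤ) * ((q : ℤ) * x) :=
      mul_le_mul_of_nonneg_left (by linarith) (by omega)
    have c3 : ((q : ℤ) - i1) * J < 0 := mul_neg_of_pos_of_neg (by omega) hJ
    nlinarith
  · have : i1 = q := le_antisymm hi1q hge
    subst this
    linarith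

/-! ### the local analysis -/

theorem ucd_ord_term (v : Place K F) {a u : F} (ha : a ≠ 0) (hu : u ≠ 0) (i : ℕ) :
    v.ord (a * u ^ i) = v.ord a + (i : ℤ) * v.ord u := by
  rw [v.ord_mul ha (pow_ne_zero i hu), ← zpow_natCast, v.ord_zpow]

/-- the equation with the leading term put into the sum. -/
theorem ucd_sum_update {q : ℕ} {j u : F} (c : ℕ → K[X])
    (hroot : u ^ (q + 1) + ∑ i ∈ Finset.range (q + 1), aeval j (c i) * u ^ i = 0) :
    ∑ i ∈ Finset.range (q + 2), aeval j (Function.update c (q + 1) 1 i) * u ^ i = 0 := by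
  rw [Finset.sum_range_succ, Function.update_self, map_one, one_mul, add_comm, ← hroot]
  congr 1
  refine Finset.sum_congr rfl fun i hi => ?_
  rw [Finset.mem_range] at hi
  rw [Function.update_of_ne (by omega)]

/-- the degrees of the coefficients. -/
theorem ucd_profile {q : ℕ} (hq : 2 ≤ q) (c : ℕ → K[X]) {c0 : K} (h0 : c 0 = C c0)
    (htop : c (q + 1) = 1) (hcq : (c q).natDegree = q - 1)
    (hci : ∀ i, 0 < i → i < q → (c i).natDegree ≤ i - 1) {i : ℕ} (hi : i ∈ Finset.range (q + 2)) :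
    (i = q + 1 ∧ (c i).natDegree = 0) ∨ (i = q ∧ (c i).natDegree = q - 1) ∨
      (i < q ∧ (c i).natDegree ≤ q - 2 ∧ (0 < i → (c i).natDegree ≤ i - 1) ∧
        (i = 0 → (c i).natDegree = 0)) := by
  rw [Finset.mem_range] at hi
  rcases Nat.lt_or_ge i q with h1 | h1
  · right; right
    rcases Nat.eq_zero_or_pos i with rfl | hpos
    · have : (c 0).natDegree = 0 := by rw [h0, natDegree_C]
      exact ⟨h1, by omega, fun h => absurd h (lt_irrefl _), fun _ => this⟩
    · have := hci i hpos h1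
      exact ⟨h1, by omega, fun _ => this, fun h => by omega⟩
  · rcases Nat.eq_or_lt_of_le h1 with h2 | h2
    · right; left
      exact ⟨h2.symm, h2 ▸ hcq⟩
    · left
      have : i = q + 1 := by omega
      exact ⟨this, by rw [this, htop, natDegree_one]⟩

/-- **Newton polygon**, in the form with the leading coefficient in the family. -/
theorem ucd_local (v : Place K F) {q : ℕ} (hq : 2 ≤ q) {j u : F} (c : ℕ → K[X]) {c0 : K}
    (hc0 : c0 ≠ 0) (h0 : c 0 = C c0) (htop : c (q + 1) = 1) (hcq : (c q).natDegree = q - 1)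
    (hci : ∀ i, 0 < i → i < q → (c i).natDegree ≤ i - 1)
    (hsum : ∑ i ∈ Finset.range (q + 2), aeval j (c i) * u ^ i = 0) :
    (0 ≤ v.ord j → v.ord u = 0) ∧
      (v.ord j < 0 → (v.ord u = ((q : ℤ) - 1) * v.ord j ∧ v.ord u < 0) ∨
        ((q : ℤ) * v.ord u = -(((q : ℤ) - 1) * v.ord j) ∧ 0 < v.ord u)) := by
  classical
  -- `u ≠ 0`
  have hu : u ≠ 0 := by
    rintro rfl
    rw [Finset.sum_eq_single_of_mem 0 (Finset.mem_range.mpr (by omega))
      (fun i _ hi => by rw [zero_pow hi, mul_zero]), pow_zero, mul_one, h0, aeval_C] at hsum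
    exact hc0 ((map_eq_zero _).mp hsum)
  have hmem : ∀ i, i ≤ q + 1 → i ∈ Finset.range (q + 2) := fun i hi =>
    Finset.mem_range.mpr (by omega)
  -- the three distinguished terms
  have ht0 : aeval j (c 0) * u ^ 0 = algebraMap K F c0 := by rw [pow_zero, mul_one, h0, aeval_C]
  have ht0ne : aeval j (c 0) * u ^ 0 ≠ 0 := by
    rw [ht0]
    exact (_root_.map_ne_zero _).mpr hc0
  have ht0ord : v.ord (aeval j (c 0) * u ^ 0) = 0 := by
    rw [ht0]
    exact Fermat.Agent.S24Res.ord_algebraMap v c0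
  have htt : aeval j (c (q + 1)) * u ^ (q + 1) = u ^ (q + 1) := by rw [htop, map_one, one_mul]
  have httne : aeval j (c (q + 1)) * u ^ (q + 1) ≠ 0 := by
    rw [htt]
    exact pow_ne_zero _ hu
  have httord : v.ord (aeval j (c (q + 1)) * u ^ (q + 1)) = ((q : ℤ) + 1) * v.ord u := by
    rw [htt, ← zpow_natCast, v.ord_zpow]
    push_cast
    ring
  -- a nonzero term has a nonzero coefficient
  have hcoef : ∀ i, aeval j (c i) * u ^ i ≠ 0 → aeval j (c i) ≠ 0 ∧ c i ≠ 0 := by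
    intro i hi
    have h1 : aeval j (c i) ≠ 0 := left_ne_zero_of_mul hi
    refine ⟨h1, ?_⟩
    rintro h2
    rw [h2, map_zero] at h1
    exact h1 rfl
  constructor
  · -- no pole of `j`
    intro hj
    by_contra hx
    rcases lt_or_gt_of_ne hx with hneg | hpos
    · obtain ⟨i1, hi1, hne, h1ne, hle⟩ :=
        ucd_exists_ord_le v _ _ hsum (hmem (q + 1) le_rfl) httne
      rw [httord, ucd_ord_term v (hcoef i1 h1ne).1 hu] at hle
      have ha := ucd_ord_aeval_nonneg v hj (c i1)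
      rw [Finset.mem_range] at hi1
      have hi1q : (i1 : ℤ) ≤ q := by omega
      have : 0 ≤ ((q : ℤ) - i1) * (-v.ord u) := mul_nonneg (by linarith) (by linarith)
      nlinarith
    · obtain ⟨i1, hi1, hne, h1ne, hle⟩ :=
        ucd_exists_ord_le v _ _ hsum (hmem 0 (by omega)) ht0ne
      rw [ht0ord, ucd_ord_term v (hcoef i1 h1ne).1 hu] at hle
      have ha := ucd_ord_aeval_nonneg v hj (c i1)
      have hi1pos : (1 : ℤ) ≤ i1 := by
        have : 0 < i1 := Nat.pos_of_ne_zero hne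
        omega
      have : 0 ≤ ((i1 : ℤ) - 1) * v.ord u := mul_nonneg (by linarith) hpos.le
      nlinarith
  · -- a pole of `j`
    intro hj
    -- the order of a nonzero term
    have hord : ∀ i, aeval j (c i) * u ^ i ≠ 0 →
        v.ord (aeval j (c i) * u ^ i) = ((c i).natDegree : ℤ) * v.ord j + (i : ℤ) * v.ord u := by
      intro i hi
      rw [ucd_ord_term v (hcoef i hi).1 hu, ucd_ord_aeval_of_pole v hj (hcoef i hi).2]
    have hcqne : c q ≠ 0 := by
      intro h
      rw [h, natDegree_zero] at hcq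
      omega
    have htqne : aeval j (c q) * u ^ q ≠ 0 :=
      mul_ne_zero (ucd_aeval_ne_zero_of_pole v hj hcqne) (pow_ne_zero _ hu)
    have htqord : v.ord (aeval j (c q) * u ^ q) = ((q : ℤ) - 1) * v.ord j + (q : ℤ) * v.ord u := by
      rw [hord q htqne, hcq]
      have : ((q - 1 : ℕ) : ℤ) = (q : ℤ) - 1 := by omega
      rw [this]
    set J : ℤ := v.ord j with hJ
    set x : ℤ := v.ord u with hxdef
    rcases lt_trichotomy x 0 with hx | hx | hx
    · -- `x < 0`
      left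
      refine ⟨?_, hx⟩
      -- step 1
      have hle1 : x ≤ ((q : ℤ) - 1) * J := by
        obtain ⟨i1, hi1, hne, h1ne, hle⟩ :=
          ucd_exists_ord_le v _ _ hsum (hmem q (by omega)) htqne
        rw [htqord, hord i1 h1ne] at hle
        rcases ucd_profile hq c h0 htop hcq hci hi1 with ⟨rfl, hD⟩ | ⟨hq', -⟩ | ⟨hlt, hD, -, -⟩
        · rw [hD] at hle
          push_cast at hle
          linarith
        · exact absurd hq' hne
        · exact (ucdA_neg1 hq hj hx hlt hD hle).elim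
      -- step 2
      obtain ⟨i1, hi1, hne, h1ne, hle⟩ :=
        ucd_exists_ord_le v _ _ hsum (hmem (q + 1) le_rfl) httne
      rw [httord, hord i1 h1ne] at hle
      rcases ucd_profile hq c h0 htop hcq hci hi1 with ⟨hq', -⟩ | ⟨hq', hD⟩ | ⟨hlt, hD, -, -⟩
      · exact absurd hq' hne
      · rw [hD, hq'] at hle
        have : ((q - 1 : ℕ) : ℤ) = (q : ℤ) - 1 := by omega
        rw [this] at hle
        linarith
      · exact (ucdA_neg2 hq hj hle1 hlt hD hle).elim
    · -- `x = 0`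
      exfalso
      obtain ⟨i1, hi1, hne, h1ne, hle⟩ :=
        ucd_exists_ord_le v _ _ hsum (hmem q (by omega)) htqne
      rw [htqord, hord i1 h1ne, hx] at hle
      have hqJ : ((q : ℤ) - 1) * J < 0 := mul_neg_of_pos_of_neg (by omega) hj
      rcases ucd_profile hq c h0 htop hcq hci hi1 with ⟨rfl, hD⟩ | ⟨hq', -⟩ | ⟨hlt, hD, -, -⟩
      · rw [hD] at hle
        push_cast at hle
        linarith
      · exact absurd hq' hne
      · have h1 : ((q : ℤ) - 2 - (c i1).natDegree) * J ≤ 0 := by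
          apply mul_nonpos_of_nonneg_of_nonpos _ hj.le
          have : ((c i1).natDegree : ℤ) ≤ (q : ℤ) - 2 := by omega
          linarith
        nlinarith
    · -- `0 < x`
      right
      refine ⟨?_, hx⟩
      -- step 1: the constant term
      obtain ⟨i1, hi1, hne1, h1ne, hle1⟩ :=
        ucd_exists_ord_le v _ _ hsum (hmem 0 (by omega)) ht0ne
      rw [ht0ord, hord i1 h1ne] at hle1
      have hi1pos : 0 < i1 := Nat.pos_of_ne_zero hne1
      have hprof1 : i1 ≤ q ∧ (c i1).natDegree ≤ i1 - 1 := by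
        rcases ucd_profile hq c h0 htop hcq hci hi1 with ⟨rfl, hD⟩ | ⟨hq', hD⟩ | ⟨hlt, -, hD, -⟩
        · exfalso
          rw [hD] at hle1
          push_cast at hle1
          nlinarith
        · exact ⟨hq'.le, by rw [hD, hq']⟩
        · exact ⟨hlt.le, hD hi1pos⟩
      -- step 2: the term `i = q`
      obtain ⟨i2, hi2, hne2, h2ne, hle2⟩ :=
        ucd_exists_ord_le v _ _ hsum (hmem q (by omega)) htqne
      rw [htqord, hord i2 h2ne] at hle2
      have h2 : 0 ≤ ((q : ℤ) - 1) * J + (q : ℤ) * x := by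
        rcases ucd_profile hq c h0 htop hcq hci hi2 with ⟨rfl, hD⟩ | ⟨hq', -⟩ | ⟨hlt, -, hD, hD0⟩
        · exfalso
          rw [hD] at hle2
          push_cast at hle2
          have : ((q : ℤ) - 1) * J < 0 := mul_neg_of_pos_of_neg (by omega) hj
          nlinarith
        · exact absurd hq' hne2
        · rcases Nat.eq_zero_or_pos i2 with rfl | hpos2
          · rw [hD0 rfl] at hle2
            push_cast at hle2
            linarith
          · exact (ucdA_pos_mid hj hi1pos hprof1.2 hle1 hpos2 hlt (hD hpos2) hle2).elim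
      exact ucdA_pos_fin hq hj hi1pos hprof1.1 hprof1.2 hle1 h2

/-! ### the hypothesis -/

/-- The shape of the modular equation of `u` over `K(j)`, with the sharp degree bounds:
`u^(q+1) + ∑_{i ≤ q} c_i(j) u^i = 0`, `c_0 ∈ K^×`, `deg c_q = q - 1`, `deg c_i ≤ i - 1`
for `0 < i < q`. -/
structure UCuspEq (K : Type*) {F : Type*} [Field K] [Field F] [Algebra K F] (q : ℕ) (j u : F) :
    Prop where
  two_le : 2 ≤ q
  exists_coeff : ∃ c : ℕ → K[X], (∃ c0 : K, c0 ≠ 0 ∧ c 0 = C c0) ∧ (c q).natDegree = q - 1 ∧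
    (∀ i, 0 < i → i < q → (c i).natDegree ≤ i - 1) ∧
    u ^ (q + 1) + ∑ i ∈ Finset.range (q + 1), aeval j (c i) * u ^ i = 0

/-- the hypothesis from a polynomial `Φ ∈ K[J][T]` (the shape of MA3). -/
theorem UCuspEq.of_poly {q : ℕ} (hq : 2 ≤ q) {j u : F} (Φ : (K[X])[X]) (hm : Φ.Monic)
    (hdeg : Φ.natDegree = q + 1) (hc0 : ∃ c0 : K, c0 ≠ 0 ∧ Φ.coeff 0 = C c0)
    (hcq : (Φ.coeff q).natDegree = q - 1)
    (hci : ∀ i, 0 < i → i < q → (Φ.coeff i).natDegree ≤ i - 1)
    (hroot : (Φ.map (aeval j : K[X] →ₐ[K] F).toRingHom).eval u = 0) : UCuspEq K q j u := by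
  refine ⟨hq, Φ.coeff, hc0, hcq, hci, ?_⟩
  have hnd : (Φ.map (aeval j : K[X] →ₐ[K] F).toRingHom).natDegree = q + 1 := by
    rw [hm.natDegree_map, hdeg]
  rw [eval_eq_sum_range, hnd, Finset.sum_range_succ] at hroot
  rw [add_comm]
  have htop : (Φ.map (aeval j : K[X] →ₐ[K] F).toRingHom).coeff (q + 1) = 1 := by
    rw [coeff_map, ← hdeg, hm.coeff_natDegree, map_one]
  rw [htop, one_mul] at hroot
  rw [← hroot]
  congr 1
  refine Finset.sum_congr rfl fun i _ => ?_
  rw [coeff_map]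
  rfl

/-- the hypothesis from a family `a_0, …, a_{q+1}` with `a_{q+1} = 1`. -/
theorem UCuspEq.of_family {q : ℕ} (hq : 2 ≤ q) {j u : F} (a : ℕ → K[X]) (htop : a (q + 1) = 1)
    (hc0 : ∃ c0 : K, c0 ≠ 0 ∧ a 0 = C c0) (hcq : (a q).natDegree = q - 1)
    (hci : ∀ i, 0 < i → i < q → (a i).natDegree ≤ i - 1)
    (hsum : ∑ i ∈ Finset.range (q + 2), aeval j (a i) * u ^ i = 0) : UCuspEq K q j u := by
  refine ⟨hq, a, hc0, hcq, hci, ?_⟩
  rw [Finset.sum_range_succ, htop, map_one, one_mul] at hsum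
  rw [add_comm]
  exact hsum

namespace UCuspEq

variable {q : ℕ} {j u : F}

/-- the Newton polygon of the modular equation at a place. -/
theorem local_ord (h : UCuspEq K q j u) (v : Place K F) :
    (0 ≤ v.ord j → v.ord u = 0) ∧
      (v.ord j < 0 → (v.ord u = ((q : ℤ) - 1) * v.ord j ∧ v.ord u < 0) ∨
        ((q : ℤ) * v.ord u = -(((q : ℤ) - 1) * v.ord j) ∧ 0 < v.ord u)) := by
  obtain ⟨c, ⟨c0, hc0, h0⟩, hcq, hci, hroot⟩ := h.exists_coeff
  have hq := h.two_le
  have hne0 : (0 : ℕ) ≠ q + 1 := by omega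
  have hneq : q ≠ q + 1 := by omega
  refine ucd_local v hq (Function.update c (q + 1) 1) hc0 ?_ ?_ ?_ ?_ (ucd_sum_update c hroot)
  · rw [Function.update_of_ne hne0, h0]
  · rw [Function.update_self]
  · rw [Function.update_of_ne hneq, hcq]
  · intro i hi hiq
    rw [Function.update_of_ne (by omega)]
    exact hci i hi hiq

theorem ne_zero (h : UCuspEq K q j u) : u ≠ 0 := by
  obtain ⟨c, ⟨c0, hc0, h0⟩, -, -, hroot⟩ := h.exists_coeff
  rintro rfl
  rw [zero_pow (by omega), zero_add, Finset.sum_eq_single_of_mem 0 (Finset.mem_range.mpr (by omega))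
    (fun i _ hi => by rw [zero_pow hi, mul_zero]), pow_zero, mul_one, h0, aeval_C] at hroot
  exact hc0 ((map_eq_zero _).mp hroot)

/-- `u` is a unit at every place where `j` has no pole. -/
theorem ord_eq_zero_of_nonneg (h : UCuspEq K q j u) (v : Place K F) (hj : 0 ≤ v.ord j) :
    v.ord u = 0 :=
  (h.local_ord v).1 hj

/-- at a pole of `j` of order `e`: `ord u = -(q-1) e` (a pole) or `q * ord u = (q-1) e`
(a zero). -/
theorem ord_of_pole (h : UCuspEq K q j u) (v : Place K F) (hj : v.ord j < 0) :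
    (v.ord u = ((q : ℤ) - 1) * v.ord j ∧ v.ord u < 0) ∨
      ((q : ℤ) * v.ord u = -(((q : ℤ) - 1) * v.ord j) ∧ 0 < v.ord u) :=
  (h.local_ord v).2 hj

/-- **(a)** the zeros and poles of `u` are exactly the poles of `j`. -/
theorem ord_j_neg_iff (h : UCuspEq K q j u) (v : Place K F) : v.ord j < 0 ↔ v.ord u ≠ 0 := by
  constructor
  · intro hj
    rcases h.ord_of_pole v hj with ⟨-, h1⟩ | ⟨-, h1⟩
    · exact h1.ne
    · exact h1.ne'
  · intro hu
    by_contra hj
    exact hu (h.ord_eq_zero_of_nonneg v (not_lt.mp hj))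

/-- the poles of `u` are poles of `j`, of order `(q-1)` times the order of `j`. -/
theorem ord_eq_of_neg (h : UCuspEq K q j u) (v : Place K F) (hu : v.ord u < 0) :
    v.ord j < 0 ∧ v.ord u = ((q : ℤ) - 1) * v.ord j := by
  have hj : v.ord j < 0 := (h.ord_j_neg_iff v).mpr hu.ne
  refine ⟨hj, ?_⟩
  rcases h.ord_of_pole v hj with ⟨h1, -⟩ | ⟨-, h1⟩
  · exact h1
  · exact absurd h1 (not_lt.mpr hu.le)

/-- the zeros of `u` are poles of `j`, with `q * ord u = (q-1) * (- ord j)`. -/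
theorem ord_eq_of_pos (h : UCuspEq K q j u) (v : Place K F) (hu : 0 < v.ord u) :
    v.ord j < 0 ∧ (q : ℤ) * v.ord u = -(((q : ℤ) - 1) * v.ord j) := by
  have hj : v.ord j < 0 := (h.ord_j_neg_iff v).mpr hu.ne'
  refine ⟨hj, ?_⟩
  rcases h.ord_of_pole v hj with ⟨-, h1⟩ | ⟨h1, -⟩
  · exact absurd h1 (not_lt.mpr hu.le)
  · exact h1

/-- the pointwise identity behind (b). -/
theorem pointwise (h : UCuspEq K q j u) (v : Place K F) :
    ((q : ℤ) + 1) * max (-(v.ord u)) 0 - ((q : ℤ) - 1) * max (-(v.ord j)) 0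
      + (q : ℤ) * v.ord u = 0 := by
  rcases lt_or_ge (v.ord j) 0 with hj | hj
  · rw [max_eq_left (by omega : (0 : ℤ) ≤ -(v.ord j))]
    rcases h.ord_of_pole v hj with ⟨h1, h2⟩ | ⟨h1, h2⟩
    · rw [max_eq_left (by omega : (0 : ℤ) ≤ -(v.ord u)), h1]
      ring
    · rw [max_eq_right (by omega : -(v.ord u) ≤ 0)]
      linarith
  · rw [h.ord_eq_zero_of_nonneg v hj, max_eq_right (by omega : -(v.ord j) ≤ 0)]
    simp

/-- **(b)** `(q+1) deg (u)_∞ = (q-1) deg (j)_∞`. -/
theorem degree_poleDiv (h : UCuspEq K q j u) (hF : IsRRField K F) :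
    ((q : ℤ) + 1) * Divisor.degree (poleDiv hF u) =
      ((q : ℤ) - 1) * Divisor.degree (poleDiv hF j) := by
  have hE : ((q : ℤ) + 1) • poleDiv hF u - ((q : ℤ) - 1) • poleDiv hF j
      + (q : ℤ) • divOf hF u = 0 := by
    ext v
    rw [Finsupp.add_apply, Finsupp.sub_apply, Finsupp.smul_apply, Finsupp.smul_apply,
      Finsupp.smul_apply, poleDiv_apply, poleDiv_apply, divOf_apply, smul_eq_mul, smul_eq_mul,
      smul_eq_mul, Finsupp.zero_apply]
    exact h.pointwise v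
  have hdeg := congrArg Divisor.degree hE
  rw [map_add, map_sub, map_zsmul, map_zsmul, map_zsmul, degree_divOf, map_zero, smul_zero,
    add_zero, smul_eq_mul, smul_eq_mul] at hdeg
  linarith

/-- `u` is transcendental as soon as `j` has a pole. -/
theorem transcendental_of_pole [IsAlgClosed K] (h : UCuspEq K q j u) {v : Place K F}
    (hj : v.ord j < 0) : Transcendental K u :=
  Fermat.Agent.S24Res.transcendental_of_ord_ne_zero v ((h.ord_j_neg_iff v).mp hj)

/-- `u` is transcendental (for `j` transcendental). -/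
theorem transcendental [IsAlgClosed K] (h : UCuspEq K q j u) (hF : IsRRField K F)
    (hj : Transcendental K j) [FiniteDimensional K⟮j⟯ F] : Transcendental K u := by
  have hdeg := degree_poleDiv_eq_finrank hF hj
  have hpos : 0 < Divisor.degree (poleDiv hF j) := by
    rw [hdeg]
    exact_mod_cast Module.finrank_pos
  have hne : poleDiv hF j ≠ 0 := by
    intro h0
    rw [h0, map_zero] at hpos
    exact lt_irrefl _ hpos
  obtain ⟨v, hv⟩ := Finsupp.support_nonempty_iff.mpr hne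
  exact h.transcendental_of_pole ((support_poleDiv hF j v).mp hv)

theorem finiteDimensional [IsAlgClosed K] (h : UCuspEq K q j u) (hF : IsRRField K F)
    (hj : Transcendental K j) [FiniteDimensional K⟮j⟯ F] : FiniteDimensional K⟮u⟯ F :=
  Fermat.Agent.S24Res.finiteDimensional_adjoin_simple ⟨hj, inferInstance⟩ (h.transcendental hF hj)

/-- `(q+1) [F : K(u)] = (q-1) [F : K(j)]`. -/
theorem finrank_eq [IsAlgClosed K] (h : UCuspEq K q j u) (hF : IsRRField K F)
    (hj : Transcendental K j) [FiniteDimensional K⟮j⟯ F] :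
    (q + 1) * Module.finrank K⟮u⟯ F = (q - 1) * Module.finrank K⟮j⟯ F := by
  have := h.finiteDimensional hF hj
  have h1 := h.degree_poleDiv hF
  rw [degree_poleDiv_eq_finrank hF hj, degree_poleDiv_eq_finrank hF (h.transcendental hF hj)] at h1
  have hq := h.two_le
  have h2 : ((q - 1 : ℕ) : ℤ) = (q : ℤ) - 1 := by omega
  have h3 : (((q + 1) * Module.finrank K⟮u⟯ F : ℕ) : ℤ) =
      (((q - 1) * Module.finrank K⟮j⟯ F : ℕ) : ℤ) := by
    push_cast
    rw [h2]
    exact h1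
  exact_mod_cast h3

/-- if `[F : K(j)] = (q+1) m` then `[F : K(u)] = (q-1) m`. -/
theorem finrank_eq_of_finrank [IsAlgClosed K] (h : UCuspEq K q j u) (hF : IsRRField K F)
    (hj : Transcendental K j) [FiniteDimensional K⟮j⟯ F] {m : ℕ}
    (hm : Module.finrank K⟮j⟯ F = (q + 1) * m) : Module.finrank K⟮u⟯ F = (q - 1) * m := by
  have h1 := h.finrank_eq hF hj
  rw [hm] at h1
  have h2 : (q + 1) * Module.finrank K⟮u⟯ F = (q + 1) * ((q - 1) * m) := by
    rw [h1]
    ring
  exact Nat.eq_of_mul_eq_mul_left (by omega) h2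

end UCuspEq

end Fermat.Agent.BadRed
end
end MergeWrap_Lib_BadRed_Mod_UCuspDeg

section MergeWrap_Lib_BadRed_Mod_UModEqDef -- from Lib/BadRed/Mod/UModEqDef.lean

set_option autoImplicit false

noncomputable section

namespace Fermat.Agent.BadRed

open UpperHalfPlane Polynomial Fermat.Agent.S24

/-- **the analytic modular equation of `u = Δ(τ) / Δ(qτ)`**: there are polynomials
`a_0, …, a_{q+1} ∈ ℂ[X]` with `a_{q+1} = 1`, `a_0` a nonzero constant, `deg a_i ≤ i - 1` for
`0 < i ≤ q`, and `∑ a_i (j(τ)) u(τ) ^ i = 0` on the upper half plane. -/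
def UModEqC (q : ℕ) [NeZero q] : Prop :=
  ∃ a : ℕ → Polynomial ℂ, a (q + 1) = 1 ∧ (∃ c0 : ℂ, c0 ≠ 0 ∧ a 0 = C c0) ∧
    (∀ i, 0 < i → i ≤ q → (a i).natDegree ≤ i - 1) ∧
    ∀ τ : ℍ, ∑ i ∈ Finset.range (q + 2), (a i).eval (jFun τ) * (uFn q τ) ^ i = 0

/-- **the modular equation of `u` over `ℚ[j]`, in terms of `q`-expansions** (the conclusion of
MA3 before base change to `ℚ̄`): `Φ ∈ ℚ[J][U]` monic of degree `q + 1` in `U`, constant term a
nonzero constant, `deg_J (Φ.coeff i) ≤ i - 1` for `0 < i ≤ q` with equality for `i = q`, and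
`Φ (j, u) = 0` in `ℚ((t))`. -/
def UModEqQ (q : ℕ) [NeZero q] : Prop :=
  ∃ Φ : Polynomial (Polynomial ℚ), Φ.Monic ∧ Φ.natDegree = q + 1 ∧
    (∃ c0 : ℚ, c0 ≠ 0 ∧ Φ.coeff 0 = C c0) ∧
    (∀ i, 0 < i → i ≤ q → (Φ.coeff i).natDegree ≤ i - 1) ∧
    (Φ.coeff q).natDegree = q - 1 ∧
    Polynomial.eval₂ (Polynomial.eval₂RingHom (algebraMap ℚ (LaurentSeries ℚ))
      (ModularCurve.jqModC ℚ)) (uSer ℚ q) Φ = 0

end Fermat.Agent.BadRed
end
end MergeWrap_Lib_BadRed_Mod_UModEqDef

section MergeWrap_Lib_BadRed_Mod_UModEqSer -- from Lib/BadRed/Mod/UModEqSer.lean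

set_option autoImplicit false
set_option linter.unusedVariables false
set_option linter.style.haveILetI false

noncomputable section

namespace Fermat.Agent.BadRed

open UpperHalfPlane Polynomial Fermat.Agent.S24 Fermat.Agent.S28 Fermat.Agent.S28.QExp
  ModularCurve

/-! ### the `q`-expansion of `u` in the framework `HasQ` -/

theorem mulUH_eq_scale (q : ℕ) [NeZero q] (τ : ℍ) : mulUH q τ = scale q τ := rfl

theorem hasQ_uFn (q : ℕ) [NeZero q] : HasQ (fun τ => uFn q τ) (uSer ℂ q) := by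
  have h := hasQ_discriminant.mul (hasQ_inv_discriminant_comp q)
  have e : deltaC * (qExpand ℂ q deltaC)⁻¹ = uSer ℂ q := by
    rw [uSer_eq_div, div_eq_mul_inv]
    rfl
  rw [e] at h
  refine h.congr fun τ => ?_
  simp only [Pi.mul_apply, Pi.inv_apply]
  rw [uFn_apply, div_eq_mul_inv, mulUH_eq_scale]

theorem hasQ_jFun' : HasQ (fun τ => Fermat.Agent.S24.jFun τ) (jqModC ℂ) := hasQ_jFun

/-! ### the relation between the expansions over `ℂ` -/

theorem series_relation_of_uModEqC (q : ℕ) [NeZero q] (a : ℕ → Polynomial ℂ)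
    (h : ∀ τ : ℍ, ∑ i ∈ Finset.range (q + 2),
      (a i).eval (Fermat.Agent.S24.jFun τ) * (uFn q τ) ^ i = 0) :
    ∑ i ∈ Finset.range (q + 2), pev1 (jqModC ℂ) (a i) * (uSer ℂ q) ^ i = 0 := by
  have h1 : HasQ (∑ i ∈ Finset.range (q + 2),
      (fun τ : ℍ => (a i).eval (Fermat.Agent.S24.jFun τ)) * (fun τ : ℍ => uFn q τ) ^ i)
      (∑ i ∈ Finset.range (q + 2), pev1 (jqModC ℂ) (a i) * (uSer ℂ q) ^ i) :=
    HasQ.sum _ fun i _ => (hasQ_jFun'.aeval (a i)).mul ((hasQ_uFn q).pow i)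
  refine h1.eq_zero fun τ => ?_
  rw [Finset.sum_apply]
  exact h τ

/-! ### retractions -/

/-- a `ℚ`-linear retraction `ℂ → ℚ` of the inclusion which does not vanish at a given
`c ≠ 0`. -/
theorem exists_retraction_ne_zero (c : ℂ) (hc : c ≠ 0) :
    ∃ r : ℂ →ₗ[ℚ] ℚ, (∀ a : ℚ, r (algebraMap ℚ ℂ a) = a) ∧ r c ≠ 0 := by
  obtain ⟨r₀, hr₀⟩ := exists_retraction ℂ
  by_cases h0 : r₀ c = 0
  · -- `c ∉ ℚ`
    have hnot : c ∉ Submodule.span ℚ ({(1 : ℂ)} : Set ℂ) := by
      intro hmem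
      rw [Submodule.mem_span_singleton] at hmem
      obtain ⟨t, ht⟩ := hmem
      have h1 : c = algebraMap ℚ ℂ t := by
        rw [← ht, Algebra.smul_def, mul_one]
      rw [h1, hr₀] at h0
      rw [h1, h0, map_zero] at hc
      exact hc rfl
    obtain ⟨s, hs, hs0⟩ := Submodule.exists_dual_map_eq_bot_of_notMem hnot inferInstance
    have hs1 : s 1 = 0 := by
      have : s 1 ∈ (Submodule.span ℚ ({(1 : ℂ)} : Set ℂ)).map s :=
        Submodule.mem_map_of_mem (Submodule.subset_span rfl)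
      rw [hs0] at this
      exact (Submodule.mem_bot ℚ).mp this
    refine ⟨r₀ + s, fun t => ?_, ?_⟩
    · rw [LinearMap.add_apply, hr₀]
      have : algebraMap ℚ ℂ t = t • (1 : ℂ) := by rw [Algebra.smul_def, mul_one]
      rw [this, map_smul, hs1, smul_zero, add_zero]
    · rw [LinearMap.add_apply, h0, zero_add]
      exact hs
  · exact ⟨r₀, hr₀, h0⟩

/-! ### the relation over `ℚ` -/

theorem coeffEmb_jq_C : coeffEmb ℂ jq = jqModC ℂ := by
  unfold coeffEmb
  rw [← jqModC_rat, coeffMap_jqModC]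

theorem coeffEmb_uSer_C (q : ℕ) : coeffEmb ℂ (uSer ℚ q) = uSer ℂ q := by
  unfold coeffEmb
  rw [coeffMap_uSer]

/-- **descent of the modular equation to `ℚ`** (as a family of coefficients). -/
theorem exists_rat_family_of_uModEqC (q : ℕ) [NeZero q] (h : UModEqC q) :
    ∃ b : ℕ → Polynomial ℚ, b (q + 1) = 1 ∧ (∃ c0 : ℚ, c0 ≠ 0 ∧ b 0 = C c0) ∧
      (∀ i, 0 < i → i ≤ q → (b i).natDegree ≤ i - 1) ∧
      ∑ i ∈ Finset.range (q + 2), pev1 jq (b i) * (uSer ℚ q) ^ i = 0 := by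
  obtain ⟨a, ha1, ⟨c0, hc0, ha0⟩, hdeg, hrel⟩ := h
  obtain ⟨r, hr, hrc⟩ := exists_retraction_ne_zero c0 hc0
  have hser := series_relation_of_uModEqC q a hrel
  refine ⟨fun i => polyRet r (a i), ?_, ⟨r c0, hrc, ?_⟩, ?_, ?_⟩
  · show polyRet r (a (q + 1)) = 1
    rw [ha1]
    ext k
    rw [polyRet_coeff, coeff_one, coeff_one]
    split_ifs
    · have := hr 1
      rwa [map_one] at this
    · exact map_zero r
  · show polyRet r (a 0) = C (r c0)
    rw [ha0]
    ext k
    rw [polyRet_coeff, coeff_C, coeff_C]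
    split_ifs
    · rfl
    · exact map_zero r
  · intro i hi hiq
    exact (polyRet_natDegree_le r (a i)).trans (hdeg i hi hiq)
  · have h2 := congrArg (retL r) hser
    rw [retL_zero, retL_sum] at h2
    rw [← h2]
    refine Finset.sum_congr rfl fun i _ => ?_
    rw [← coeffEmb_jq_C, ← coeffEmb_uSer_C, ← map_pow, retL_mul_coeffEmb, retL_pev1]

end Fermat.Agent.BadRed
end
end MergeWrap_Lib_BadRed_Mod_UModEqSer

section MergeWrap_Lib_BadRed_Mod_UModEq -- from Lib/BadRed/Mod/UModEq.lean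

set_option autoImplicit false
set_option linter.unusedVariables false
set_option linter.style.haveILetI false

noncomputable section

namespace Fermat.Agent.BadRed

open Polynomial Fermat.Agent.S24 Fermat.Agent.S28 ModularCurve

/-! ### coefficients of monic units -/

theorem isMonicUnit_coeff_of_lt {R : Type*} [CommRing R] {x : LaurentSeries R} {a : ℤ}
    (hx : wp10_IsMonicUnit R x a) {m : ℤ} (hm : m < a) : x.coeff m = 0 := by
  obtain ⟨E, hE, rfl⟩ := hx
  exact wp10_mk_coeff_of_lt a E hm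

theorem isMonicUnit_coeff_self {R : Type*} [CommRing R] {x : LaurentSeries R} {a : ℤ}
    (hx : wp10_IsMonicUnit R x a) : x.coeff a = 1 := by
  obtain ⟨E, hE, rfl⟩ := hx
  exact wp10_mk_coeff_self a hE

/-- `j ^ k u ^ i` is a monic unit of order `-(k + i (q - 1))`. -/
theorem isMonicUnit_jq_pow_mul (q k i : ℕ) :
    wp10_IsMonicUnit ℚ (jq ^ k * uSer ℚ q ^ i) (-((k : ℤ) + (i : ℤ) * ((q : ℤ) - 1))) := by
  have h := (wp10_isMonicUnit_jq.pow k).mul ((uSer_isMonicUnit ℚ q).pow i)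
  have e : (k : ℤ) * (-1) + (i : ℤ) * (-((q : ℤ) - 1)) = -((k : ℤ) + (i : ℤ) * ((q : ℤ) - 1)) := by
    ring
  rwa [e] at h

/-- the coefficients of `p(j) u ^ i`. -/
theorem coeff_pev1_mul (q : ℕ) (p : Polynomial ℚ) (i n : ℕ) (hp : p.natDegree < n) (m : ℤ) :
    (pev1 jq p * uSer ℚ q ^ i).coeff m =
      ∑ k ∈ Finset.range n, p.coeff k * (jq ^ k * uSer ℚ q ^ i).coeff m := by
  rw [pev1_apply, eval₂_eq_sum_range' _ hp, Finset.sum_mul]
  have : ∀ x : Finset ℕ, (∑ k ∈ x, HahnSeries.C (p.coeff k) * jq ^ k * uSer ℚ q ^ i).coeff m =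
      ∑ k ∈ x, p.coeff k * (jq ^ k * uSer ℚ q ^ i).coeff m := by
    intro x
    classical
    induction x using Finset.induction_on with
    | empty => simp
    | insert a s ha ih =>
      rw [Finset.sum_insert ha, Finset.sum_insert ha, HahnSeries.coeff_add, ih, mul_assoc,
        HahnSeries.C_mul_eq_smul, HahnSeries.coeff_smul, smul_eq_mul]
  exact this _

/-- **the exact degree of the coefficient of `U ^ q`.** -/
theorem natDegree_coeff_q (q : ℕ) (hq : 2 ≤ q) (b : ℕ → Polynomial ℚ) (hb1 : b (q + 1) = 1)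
    (hb0 : ∃ c0 : ℚ, b 0 = C c0)
    (hdeg : ∀ i, 0 < i → i ≤ q → (b i).natDegree ≤ i - 1)
    (hrel : ∑ i ∈ Finset.range (q + 2), pev1 jq (b i) * (uSer ℚ q) ^ i = 0) :
    (b q).natDegree = q - 1 := by
  obtain ⟨c0, hc0⟩ := hb0
  have hq0 : 0 < q := by omega
  apply le_antisymm (hdeg q hq0 le_rfl)
  -- the coefficient of `t ^ (-(q + 1) (q - 1))`
  set m₀ : ℤ := -(((q : ℤ) + 1) * ((q : ℤ) - 1)) with hm₀
  have hqZ : (2 : ℤ) ≤ (q : ℤ) := by exact_mod_cast hq
  have hcoef := congrArg (fun x : LaurentSeries ℚ => x.coeff m₀) hrel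
  simp only [HahnSeries.coeff_zero] at hcoef
  have hsum : ∀ x : Finset ℕ, (∑ i ∈ x, pev1 jq (b i) * (uSer ℚ q) ^ i).coeff m₀ =
      ∑ i ∈ x, (pev1 jq (b i) * (uSer ℚ q) ^ i).coeff m₀ := by
    intro x
    classical
    induction x using Finset.induction_on with
    | empty => simp
    | insert a s ha ih =>
      rw [Finset.sum_insert ha, Finset.sum_insert ha, HahnSeries.coeff_add, ih]
  rw [hsum] at hcoef
  -- the terms
  have hterm : ∀ i ∈ Finset.range (q + 2),
      (pev1 jq (b i) * (uSer ℚ q) ^ i).coeff m₀ =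
        if i = q + 1 then 1 else if i = q then (b q).coeff (q - 1) else 0 := by
    intro i hi
    rw [Finset.mem_range] at hi
    by_cases h1 : i = q + 1
    · subst h1
      rw [if_pos rfl, hb1, map_one, one_mul]
      have h := (uSer_isMonicUnit ℚ q).pow (q + 1)
      have e : ((q + 1 : ℕ) : ℤ) * (-((q : ℤ) - 1)) = m₀ := by
        rw [hm₀]; push_cast; ring
      rw [e] at h
      exact isMonicUnit_coeff_self h
    rw [if_neg h1]
    by_cases h2 : i = q
    · subst h2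
      rw [if_pos rfl]
      have hlt : (b i).natDegree < i := by
        have := hdeg i hq0 le_rfl
        omega
      rw [coeff_pev1_mul i (b i) i i hlt, Finset.sum_eq_single (i - 1)]
      · have h := isMonicUnit_jq_pow_mul i (i - 1) i
        have e : -(((i - 1 : ℕ) : ℤ) + (i : ℤ) * ((i : ℤ) - 1)) = m₀ := by
          rw [hm₀, Nat.cast_sub hq0]; push_cast; ring
        rw [e] at h
        rw [isMonicUnit_coeff_self h, mul_one]
      · intro k hk hk1
        rw [Finset.mem_range] at hk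
        have h := isMonicUnit_jq_pow_mul i k i
        have hlt' : m₀ < -((k : ℤ) + (i : ℤ) * ((i : ℤ) - 1)) := by
          rw [hm₀]
          have hk2 : (k : ℤ) < (i : ℤ) - 1 := by
            have : k < i - 1 := by omega
            have h3 : (k : ℤ) < ((i - 1 : ℕ) : ℤ) := by exact_mod_cast this
            rwa [Nat.cast_sub hq0] at h3
          nlinarith
        rw [isMonicUnit_coeff_of_lt h hlt', mul_zero]
      · intro hn
        exact absurd (Finset.mem_range.mpr (by omega)) hn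
    rw [if_neg h2]
    have hiq : i < q := by omega
    have hiZ : (i : ℤ) < (q : ℤ) := by exact_mod_cast hiq
    by_cases h3 : i = 0
    · subst h3
      rw [hc0, pev1_C, pow_zero, mul_one, HahnSeries.C_apply, HahnSeries.coeff_single]
      rw [if_neg]
      rw [hm₀]
      intro h
      nlinarith
    · have hi0 : 0 < i := Nat.pos_of_ne_zero h3
      have hlt : (b i).natDegree < i := by
        have := hdeg i hi0 hiq.le
        omega
      rw [coeff_pev1_mul q (b i) i i hlt]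
      refine Finset.sum_eq_zero fun k hk => ?_
      rw [Finset.mem_range] at hk
      have h := isMonicUnit_jq_pow_mul q k i
      have hkZ : (k : ℤ) < (i : ℤ) := by exact_mod_cast hk
      have hi0Z : (0 : ℤ) < (i : ℤ) := by exact_mod_cast hi0
      have hlt' : m₀ < -((k : ℤ) + (i : ℤ) * ((q : ℤ) - 1)) := by
        rw [hm₀]
        nlinarith
      rw [isMonicUnit_coeff_of_lt h hlt', mul_zero]
  rw [Finset.sum_congr rfl hterm] at hcoef
  have hsplit : (∑ i ∈ Finset.range (q + 2),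
      (if i = q + 1 then (1 : ℚ) else if i = q then (b q).coeff (q - 1) else 0)) =
      1 + (b q).coeff (q - 1) := by
    rw [Finset.sum_range_succ, Finset.sum_range_succ, if_pos rfl, if_neg (by omega), if_pos rfl]
    rw [Finset.sum_eq_zero, zero_add, add_comm]
    intro i hi
    rw [Finset.mem_range] at hi
    rw [if_neg (by omega), if_neg (by omega)]
  rw [hsplit] at hcoef
  have hne : (b q).coeff (q - 1) ≠ 0 := by
    intro h0
    rw [h0] at hcoef
    norm_num at hcoef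
  exact le_natDegree_of_ne_zero hne


/-! ### the bivariate polynomial of a family of coefficients -/

/-- `∑_{i ≤ n} b_i U ^ i`. -/
def polyOfFamily {R : Type*} [CommRing R] (n : ℕ) (b : ℕ → Polynomial R) :
    Polynomial (Polynomial R) :=
  ∑ i ∈ Finset.range (n + 1), monomial i (b i)

theorem coeff_polyOfFamily {R : Type*} [CommRing R] (n : ℕ) (b : ℕ → Polynomial R) (i : ℕ) :
    (polyOfFamily n b).coeff i = if i ≤ n then b i else 0 := by
  classical
  rw [polyOfFamily, finsetSum_coeff]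
  simp only [coeff_monomial]
  rw [Finset.sum_ite_eq' (Finset.range (n + 1)) i]
  simp only [Finset.mem_range, Nat.lt_succ_iff]

theorem natDegree_polyOfFamily_le {R : Type*} [CommRing R] (n : ℕ) (b : ℕ → Polynomial R) :
    (polyOfFamily n b).natDegree ≤ n := by
  rw [natDegree_le_iff_coeff_eq_zero]
  intro k hk
  rw [coeff_polyOfFamily, if_neg (by omega)]

theorem natDegree_polyOfFamily {R : Type*} [CommRing R] [Nontrivial R] (n : ℕ)
    (b : ℕ → Polynomial R) (hb : b n = 1) : (polyOfFamily n b).natDegree = n := by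
  apply le_antisymm (natDegree_polyOfFamily_le n b)
  apply le_natDegree_of_ne_zero
  rw [coeff_polyOfFamily, if_pos le_rfl, hb]
  exact one_ne_zero

theorem monic_polyOfFamily {R : Type*} [CommRing R] [Nontrivial R] (n : ℕ)
    (b : ℕ → Polynomial R) (hb : b n = 1) : (polyOfFamily n b).Monic := by
  rw [Monic, leadingCoeff, natDegree_polyOfFamily n b hb, coeff_polyOfFamily, if_pos le_rfl, hb]

theorem pev2_polyOfFamily {A : Type*} [CommRing A] (j u : LaurentSeries A) (n : ℕ)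
    (b : ℕ → Polynomial A) :
    pev2 j u (polyOfFamily n b) = ∑ i ∈ Finset.range (n + 1), pev1 j (b i) * u ^ i := by
  rw [polyOfFamily, map_sum]
  refine Finset.sum_congr rfl fun i _ => ?_
  rw [pev2_apply, eval₂_monomial]

/-! ### the modular equation over `ℚ` and over `ℚ̄` -/

/-- the polynomial `Φ ∈ ℚ[J][U]` with its properties, in terms of `pev2`. -/
theorem exists_modEq_rat (q : ℕ) [NeZero q] (hq : 2 ≤ q) (h : UModEqC q) :
    ∃ Φ : Polynomial (Polynomial ℚ), Φ.Monic ∧ Φ.natDegree = q + 1 ∧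
      (∃ c0 : ℚ, c0 ≠ 0 ∧ Φ.coeff 0 = C c0) ∧
      (∀ i, 0 < i → i ≤ q → (Φ.coeff i).natDegree ≤ i - 1) ∧
      (Φ.coeff q).natDegree = q - 1 ∧
      pev2 jq (uSer ℚ q) Φ = 0 := by
  obtain ⟨b, hb1, ⟨c0, hc0, hb0⟩, hdeg, hrel⟩ := exists_rat_family_of_uModEqC q h
  have hexact := natDegree_coeff_q q hq b hb1 ⟨c0, hb0⟩ hdeg hrel
  refine ⟨polyOfFamily (q + 1) b, monic_polyOfFamily _ b hb1, natDegree_polyOfFamily _ b hb1,
    ⟨c0, hc0, ?_⟩, ?_, ?_, ?_⟩
  · rw [coeff_polyOfFamily, if_pos (Nat.zero_le _), hb0]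
  · intro i hi hiq
    rw [coeff_polyOfFamily, if_pos (by omega)]
    exact hdeg i hi hiq
  · rw [coeff_polyOfFamily, if_pos (by omega)]
    exact hexact
  · rw [pev2_polyOfFamily]
    exact hrel

theorem uModEqQ_of_uModEqC (q : ℕ) [NeZero q] (hq : 2 ≤ q) (h : UModEqC q) : UModEqQ q := by
  obtain ⟨Φ, h1, h2, h3, h4, h5, h6⟩ := exists_modEq_rat q hq h
  refine ⟨Φ, h1, h2, h3, h4, h5, ?_⟩
  rw [jqModC_rat]
  have e : Polynomial.eval₂RingHom (algebraMap ℚ (LaurentSeries ℚ)) jq = pev1 jq := by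
    apply Polynomial.ringHom_ext
    · intro a
      simp [pev1, HahnSeries.C_eq_algebraMap]
    · simp [pev1]
  rw [e]
  exact h6

/-- evaluation in `F_N` versus evaluation of `q`-expansions. -/
theorem coe_eval_map_aeval (N : ℕ) [NeZero N] (Φ : Polynomial (Polynomial Kbar))
    (u : modularFunctionFieldBar N) :
    (((Φ.map (Polynomial.aeval (R := Kbar) (jBar N)).toRingHom).eval u
      : modularFunctionFieldBar N) : LaurentSeries Kbar) =
      pev2 (jqModC Kbar) (u : LaurentSeries Kbar) Φ := by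
  rw [eval_map]
  have h1 := Polynomial.hom_eval₂ Φ
    (Polynomial.aeval (R := Kbar) (jBar N)).toRingHom
    ((modularFunctionFieldBar N).val.toRingHom) u
  have h2 : ((modularFunctionFieldBar N).val.toRingHom).comp
      (Polynomial.aeval (R := Kbar) (jBar N)).toRingHom =
      pev1 (jqModC Kbar) := by
    apply Polynomial.ringHom_ext
    · intro a
      rw [pev1_C]
      have e0 : (((modularFunctionFieldBar N).val.toRingHom).comp
          (Polynomial.aeval (R := Kbar) (jBar N)).toRingHom) (C a) =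
          ((algebraMap Kbar (modularFunctionFieldBar N) a : modularFunctionFieldBar N) :
            LaurentSeries Kbar) := by
        simp
      have e : ((algebraMap Kbar (modularFunctionFieldBar N) a : modularFunctionFieldBar N) :
          LaurentSeries Kbar) = algebraMap Kbar (LaurentSeries Kbar) a := rfl
      rw [e0, e, algebraMap_laurentSeries_eq_single]
      rfl
    · simp [pev1, coe_jBar_eq_jqModC]
  rw [h2] at h1
  exact h1

/-- **MA3: the modular equation of `u = Δ(z) / Δ(qz)` over `ℚ̄(j)`** (from the analytic statement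
`UModEqC q`): `Φ ∈ ℚ̄[J][U]` monic of degree `q + 1` in `U`, constant term a nonzero constant,
`deg_J (Φ.coeff i) ≤ i - 1` for `0 < i ≤ q`, `deg_J (Φ.coeff q) = q - 1`, and
`Φ (j, u) = 0` in `F_N` for every `N` divisible by `q`. -/
theorem uModEq_of_uModEqC (q : ℕ) [NeZero q] (hq : 2 ≤ q) (h : UModEqC q) :
    ∃ Φ : Polynomial (Polynomial Kbar), Φ.Monic ∧ Φ.natDegree = q + 1 ∧
      (∃ c0 : Kbar, c0 ≠ 0 ∧ Φ.coeff 0 = C c0) ∧
      (∀ i, 0 < i → i ≤ q → (Φ.coeff i).natDegree ≤ i - 1) ∧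
      (Φ.coeff q).natDegree = q - 1 ∧
      ∀ (N : ℕ) [NeZero N] (hqN : q ∣ N),
        (Φ.map (Polynomial.aeval (R := Kbar) (jBar N)).toRingHom).eval (uF N q hqN) = 0 := by
  obtain ⟨Φ, h1, h2, ⟨c0, hc0, h3⟩, h4, h5, h6⟩ := exists_modEq_rat q hq h
  have hinj : Function.Injective (mapRingHom (algebraMap ℚ Kbar)) :=
    Polynomial.map_injective _ (algebraMap ℚ Kbar).injective
  have hinj0 : Function.Injective (algebraMap ℚ Kbar) := (algebraMap ℚ Kbar).injective
  refine ⟨Φ.map (mapRingHom (algebraMap ℚ Kbar)), h1.map _, ?_, ⟨algebraMap ℚ Kbar c0, ?_, ?_⟩,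
    ?_, ?_, ?_⟩
  · rw [natDegree_map_eq_of_injective hinj, h2]
  · rwa [Ne, map_eq_zero]
  · rw [coeff_map, h3, coe_mapRingHom, map_C]
  · intro i hi hiq
    rw [coeff_map, coe_mapRingHom, natDegree_map_eq_of_injective hinj0]
    exact h4 i hi hiq
  · rw [coeff_map, coe_mapRingHom, natDegree_map_eq_of_injective hinj0]
    exact h5
  · intro N _ hqN
    apply Subtype.ext
    rw [coe_eval_map_aeval, coe_uF, ZeroMemClass.coe_zero]
    have h7 := congrArg (coeffEmb Kbar) h6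
    rw [coeffEmb_pev2, map_zero] at h7
    have e1 : coeffEmb Kbar jq = jqModC Kbar := by
      unfold coeffEmb
      rw [← jqModC_rat, coeffMap_jqModC]
    have e2 : coeffEmb Kbar (uSer ℚ q) = uSer Kbar q := by
      unfold coeffEmb
      rw [coeffMap_uSer]
    rw [e1, e2] at h7
    exact h7

end Fermat.Agent.BadRed
end
end MergeWrap_Lib_BadRed_Mod_UModEq

section MergeWrap_Lib_BadRed_Mod_UCuspDegMod -- from Lib/BadRed/Mod/UCuspDegMod.lean

set_option autoImplicit false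

/-!
# Cluster T, modular assembly MA4 (helper16): the degree of `u` on `X₀(q N₀)`

Modular corollary of `Mod/UCuspDeg.lean`: if `u = uF N q _` satisfies the modular equation over
`ℚ̄(j)` (`UCuspEq`, the conclusion of MA3), `N = q * N₀`, `q ∤ N₀` prime, then

  `[F_N : ℚ̄(u)] = (q - 1) ψ(N₀)`,   `deg (u)_∞ = (q - 1) ψ(N₀)`,

and (`UCuspEq.ord_j_neg_iff`) the zeros and poles of `u` are exactly the poles of `j` (the cusps).
`uCuspEq_uF` : the hypothesis `UCuspEq` from helper84's MA3 (`uModEq_of_uModEqC`), i.e. from the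
analytic modular equation `UModEqC q` (helper47).
-/

noncomputable section

open AlgebraicCurve IntermediateField Polynomial ModularCurve

namespace Fermat.Agent.BadRed

open Fermat.Agent.RR

local notation "Qb" => AlgebraicClosure ℚ

variable {q N N₀ : ℕ} [NeZero N] [NeZero q]

/-- **MA3 ⇒ the hypothesis of MA4**: the modular equation of `u = uF N q _` over `ℚ̄(j)`. -/
theorem uCuspEq_uF (hq : 2 ≤ q) (hC : UModEqC q) (hdvd : q ∣ N) :
    UCuspEq Qb q (Fermat.Agent.S24.jBar N) (uF N q hdvd) := by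
  obtain ⟨Φ, h1, h2, h3, h4, h5, h6⟩ := uModEq_of_uModEqC q hq hC
  exact UCuspEq.of_poly hq Φ h1 h2 h3 h5 (fun i hi hiq => h4 i hi hiq.le) (h6 N hdvd)

/-- `u` is transcendental. -/
theorem transcendental_uF_of_uModEq (hdvd : q ∣ N)
    (h : UCuspEq Qb q (Fermat.Agent.S24.jBar N) (uF N q hdvd)) :
    Transcendental Qb (uF N q hdvd) := by
  have := Fermat.Agent.S24.finiteDimensional_adjoin_jBar N
  exact h.transcendental (Fermat.Agent.RRMod.isRRField_bar N)
    (Fermat.Agent.S24.transcendental_jBar N)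

/-- `F_N` is finite over `ℚ̄(u)`. -/
theorem finiteDimensional_uF_of_uModEq (hdvd : q ∣ N)
    (h : UCuspEq Qb q (Fermat.Agent.S24.jBar N) (uF N q hdvd)) :
    FiniteDimensional Qb⟮uF N q hdvd⟯ ↥(modularFunctionFieldBar N) := by
  have := Fermat.Agent.S24.finiteDimensional_adjoin_jBar N
  exact h.finiteDimensional (Fermat.Agent.RRMod.isRRField_bar N)
    (Fermat.Agent.S24.transcendental_jBar N)

/-- `[F_N : ℚ̄(u)] = (q - 1) ψ(N₀)` for `N = q N₀`, `q ∤ N₀`. -/
theorem finrank_uF_eq (hq : q.Prime) (hN : N = q * N₀) (hqN : ¬ q ∣ N₀) (hdvd : q ∣ N)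
    (h : UCuspEq Qb q (Fermat.Agent.S24.jBar N) (uF N q hdvd)) :
    Module.finrank Qb⟮uF N q hdvd⟯ ↥(modularFunctionFieldBar N) = (q - 1) * dedekindPsi N₀ := by
  have := Fermat.Agent.S24.finiteDimensional_adjoin_jBar N
  refine h.finrank_eq_of_finrank (Fermat.Agent.RRMod.isRRField_bar N)
    (Fermat.Agent.S24.transcendental_jBar N) ?_
  rw [Fermat.Agent.GenusEq.finrank_jBar_eq_psi N, hN]
  exact SSA.dedekindPsi_prime_mul hq hqN

/-- `deg (u)_∞ = (q - 1) ψ(N₀)`. -/
theorem degree_poleDiv_uF_eq (hq : q.Prime) (hN : N = q * N₀) (hqN : ¬ q ∣ N₀) (hdvd : q ∣ N)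
    (h : UCuspEq Qb q (Fermat.Agent.S24.jBar N) (uF N q hdvd)) :
    Divisor.degree (poleDiv (Fermat.Agent.RRMod.isRRField_bar N) (uF N q hdvd))
      = (((q - 1) * dedekindPsi N₀ : ℕ) : ℤ) := by
  have := finiteDimensional_uF_of_uModEq hdvd h
  rw [Fermat.Agent.RRHur.degree_poleDiv_eq_finrank _ (transcendental_uF_of_uModEq hdvd h),
    finrank_uF_eq hq hN hqN hdvd h]

end Fermat.Agent.BadRed
end
end MergeWrap_Lib_BadRed_Mod_UCuspDegMod

section MergeWrap_S16_NormInt_Good -- from S16/NormInt/Good.lean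

/-!
# S16 toolkit: good functions with coefficients in a subring `R ⊆ ℂ`

`RGood R f`: `f : ℍ → ℂ` is `1`-periodic, holomorphic, bounded at `i∞` and all its
`q`-expansion coefficients lie in the subring `R` of `ℂ`.
The class is closed under ring operations, under real translations `τ ↦ r + τ`
(coefficients are multiplied by `exp (2πi r) ^ n`), and the dilation `τ ↦ p τ`
only spreads out the coefficients.
-/

set_option autoImplicit false

namespace Fermat.Agent.S16Norm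

open Filter Topology Set Function UpperHalfPlane ModularForm Complex
open scoped Manifold MatrixGroups Real

open Fermat.Agent.S23Converse

/-- `f` is good (`1`-periodic, holomorphic, bounded at `i∞`) with `q`-expansion in `R`. -/
def RGood (R : Subring ℂ) (f : ℍ → ℂ) : Prop :=
  IsGood f ∧ ∀ n : ℕ, (qExpansion 1 f).coeff n ∈ R

namespace RGood

variable {R : Subring ℂ} {f g : ℍ → ℂ}

lemma isGood (hf : RGood R f) : IsGood f := hf.1

lemma coeff_mem (hf : RGood R f) (n : ℕ) : (qExpansion 1 f).coeff n ∈ R := hf.2 n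

lemma zero : RGood R (0 : ℍ → ℂ) :=
  ⟨IsGood.zero, fun n => by rw [UpperHalfPlane.qExpansion_zero]; simp⟩

lemma one : RGood R (1 : ℍ → ℂ) :=
  ⟨IsGood.one, fun n => by
    rw [UpperHalfPlane.qExpansion_one, PowerSeries.coeff_one]
    split_ifs
    · exact R.one_mem
    · exact R.zero_mem⟩

lemma add (hf : RGood R f) (hg : RGood R g) : RGood R (f + g) :=
  ⟨hf.1.add hg.1, fun n => by
    rw [hf.1.qExpansion_add hg.1, map_add]
    exact R.add_mem (hf.2 n) (hg.2 n)⟩

lemma mul (hf : RGood R f) (hg : RGood R g) : RGood R (f * g) :=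
  ⟨hf.1.mul hg.1, fun n => by
    rw [hf.1.qExpansion_mul hg.1, PowerSeries.coeff_mul]
    exact R.sum_mem fun x _ => R.mul_mem (hf.2 _) (hg.2 _)⟩

lemma pow (hf : RGood R f) (n : ℕ) : RGood R (f ^ n) := by
  induction n with
  | zero => simpa using one
  | succ n ih => rw [pow_succ]; exact ih.mul hf

lemma sum {ι : Type*} (s : Finset ι) {F : ι → ℍ → ℂ} (hF : ∀ i ∈ s, RGood R (F i)) :
    RGood R (∑ i ∈ s, F i) := by
  classical
  induction s using Finset.induction_on with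
  | empty => simpa using zero
  | insert i s hi ih =>
    rw [Finset.sum_insert hi]
    exact (hF i (Finset.mem_insert_self i s)).add
      (ih fun j hj => hF j (Finset.mem_insert_of_mem hj))

lemma prod {ι : Type*} (s : Finset ι) {F : ι → ℍ → ℂ} (hF : ∀ i ∈ s, RGood R (F i)) :
    RGood R (∏ i ∈ s, F i) := by
  classical
  induction s using Finset.induction_on with
  | empty => simpa using one
  | insert i s hi ih =>
    rw [Finset.prod_insert hi]
    exact (hF i (Finset.mem_insert_self i s)).mul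
      (ih fun j hj => hF j (Finset.mem_insert_of_mem hj))

lemma congr {f' : ℍ → ℂ} (hf : RGood R f) (h : f' = f) : RGood R f' := h ▸ hf

end RGood

/-- A good function is the sum of its `q`-expansion. -/
lemma IsGood_hasSum {f : ℍ → ℂ} (hf : IsGood f) (τ : ℍ) :
    HasSum (fun m : ℕ => (qExpansion 1 f).coeff m • Periodic.qParam 1 τ ^ m) (f τ) :=
  hasSum_qExpansion one_pos hf.periodic hf.holo hf.bdd τ

/-- Uniqueness of the coefficients of a good function. -/
lemma IsGood_coeff_unique {f : ℍ → ℂ} (hf : IsGood f) {c : ℕ → ℂ}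
    (hs : ∀ τ : ℍ, HasSum (fun m : ℕ => c m • Periodic.qParam 1 τ ^ m) (f τ)) (m : ℕ) :
    (qExpansion 1 f).coeff m = c m :=
  (UpperHalfPlane.qExpansion_coeff_unique (ContinuousMap.mk f hf.holo.continuous) one_pos
    hf.analyticAt hs m).symm

end Fermat.Agent.S16Norm
end MergeWrap_S16_NormInt_Good

section MergeWrap_S16_NormInt_Shift -- from S16/NormInt/Shift.lean

/-!
# S16 toolkit: real translations and dilations of good functions
-/

set_option autoImplicit false

namespace Fermat.Agent.S16Norm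

open Filter Topology Set Function ModularForm Complex
open UpperHalfPlane hiding I
open scoped Manifold MatrixGroups Real

open Fermat.Agent.S23Converse
open P2MW.S_ModularFormClass_qCoeff_heckeU.M4cP1W2

/-- Translation of a function on `ℍ` by a real number. -/
noncomputable def tr (r : ℝ) (f : ℍ → ℂ) : ℍ → ℂ := fun τ => f (r +ᵥ τ)

@[simp] lemma tr_apply (r : ℝ) (f : ℍ → ℂ) (τ : ℍ) : tr r f τ = f (r +ᵥ τ) := rfl

/-- Dilation of a function on `ℍ` by a positive integer. -/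
noncomputable def dil (p : ℕ) (f : ℍ → ℂ) : ℍ → ℂ := fun τ => f (heckeDiagMatrix p • τ)

@[simp] lemma dil_apply (p : ℕ) (f : ℍ → ℂ) (τ : ℍ) : dil p f τ = f (heckeDiagMatrix p • τ) := rfl

lemma isGood_apply_vadd_one {f : ℍ → ℂ} (hf : IsGood f) (τ : ℍ) : f ((1 : ℝ) +ᵥ τ) = f τ :=
  apply_eq_of_coe_eq_add_nat hf.periodic 1 (by rw [coe_vadd]; push_cast; ring)

lemma vadd_vadd_comm' (r s : ℝ) (τ : ℍ) : r +ᵥ (s +ᵥ τ) = s +ᵥ (r +ᵥ τ) := by
  apply UpperHalfPlane.ext
  simp only [coe_vadd]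
  ring

lemma mdiff_tr (r : ℝ) {f : ℍ → ℂ} (hf : MDiff f) : MDiff (tr r f) := by
  rw [UpperHalfPlane.mdifferentiable_iff] at hf ⊢
  intro z hz
  have hz' : 0 < (z + (r : ℂ)).im := by simpa using hz
  have h1 : DifferentiableWithinAt ℂ (f ∘ ofComplex) {w : ℂ | 0 < w.im} (z + r) := hf _ hz'
  have h2 : DifferentiableAt ℂ (f ∘ ofComplex) (z + r) :=
    h1.differentiableAt ((isOpen_lt continuous_const Complex.continuous_im).mem_nhds hz')
  have h3 : DifferentiableAt ℂ (fun w : ℂ => (f ∘ ofComplex) (w + r)) z :=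
    DifferentiableAt.comp (g := f ∘ ofComplex) (f := fun w : ℂ => w + (r : ℂ)) z h2
      (differentiableAt_id.add_const _)
  refine (h3.differentiableWithinAt).congr_of_eventuallyEq ?_ ?_
  · filter_upwards [self_mem_nhdsWithin] with w hw
    have hw' : 0 < (w + (r : ℂ)).im := by simpa using hw
    simp only [comp_apply, tr_apply, ofComplex_apply_of_im_pos hw, ofComplex_apply_of_im_pos hw']
    congr 1
    apply UpperHalfPlane.ext
    simp [coe_vadd, add_comm]
  · simp only [comp_apply, tr_apply, ofComplex_apply_of_im_pos hz, ofComplex_apply_of_im_pos hz']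
    congr 1
    apply UpperHalfPlane.ext
    simp [coe_vadd, add_comm]

lemma isGood_tr (r : ℝ) {f : ℍ → ℂ} (hf : IsGood f) : IsGood (tr r f) where
  periodic := periodic_comp_ofComplex_of_vadd fun τ => by
    simp only [tr_apply]
    rw [vadd_vadd_comm', isGood_apply_vadd_one hf]
  holo := mdiff_tr r hf.holo
  bdd := by
    have h := hf.bdd
    rw [UpperHalfPlane.isBoundedAtImInfty_iff] at h ⊢
    obtain ⟨M, A, hMA⟩ := h
    refine ⟨M, A, fun z hz => ?_⟩
    simp only [tr_apply]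
    exact hMA _ (by simpa using hz)

lemma qParam_vadd (r : ℝ) (τ : ℍ) :
    Periodic.qParam 1 ((r +ᵥ τ : ℍ) : ℂ) = exp (2 * π * I * r) * Periodic.qParam 1 (τ : ℂ) := by
  rw [qParam_one, qParam_one, coe_vadd, ← Complex.exp_add]
  congr 1
  ring

/-- Coefficients of a translate. -/
lemma coeff_tr (r : ℝ) {f : ℍ → ℂ} (hf : IsGood f) (n : ℕ) :
    (qExpansion 1 (tr r f)).coeff n = (qExpansion 1 f).coeff n * exp (2 * π * I * r) ^ n := by
  refine IsGood_coeff_unique (isGood_tr r hf)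
    (c := fun n => (qExpansion 1 f).coeff n * exp (2 * π * I * r) ^ n) (fun τ => ?_) n
  have h := IsGood_hasSum hf (r +ᵥ τ)
  rw [qParam_vadd] at h
  simp only [tr_apply]
  convert h using 2 with m
  simp only [smul_eq_mul, mul_pow]
  ring

lemma rGood_tr {R : Subring ℂ} (r : ℝ) (hr : exp (2 * π * I * r) ∈ R) {f : ℍ → ℂ}
    (hf : RGood R f) : RGood R (tr r f) :=
  ⟨isGood_tr r hf.1, fun n => by
    rw [coeff_tr r hf.1]
    exact R.mul_mem (hf.2 n) (R.pow_mem hr n)⟩

/-! ### Dilations -/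

lemma dil_eq_slash {p : ℕ} (hp : p ≠ 0) (f : ℍ → ℂ) :
    dil p f = f ∣[(1 : ℤ)] heckeDiagMatrix p := by
  funext τ
  rw [slash_heckeDiagMatrix_apply 1 hp]
  simp

lemma isGood_dil {p : ℕ} (hp : p ≠ 0) {f : ℍ → ℂ} (hf : IsGood f) : IsGood (dil p f) where
  periodic := periodic_comp_ofComplex_of_vadd fun τ => by
    simp only [dil_apply]
    exact apply_eq_of_coe_eq_add_nat hf.periodic p (coe_heckeDiagMatrix_smul_vadd hp τ)
  holo := by
    rw [dil_eq_slash hp]
    exact hf.holo.slash 1 _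
  bdd := by
    rw [dil_eq_slash hp]
    exact hf.bdd.slash 1 (heckeDiagMatrix_one_zero p)

/-- Coefficients of a dilate. -/
lemma coeff_dil {p : ℕ} (hp : p ≠ 0) {f : ℍ → ℂ} (hf : IsGood f) (n : ℕ) :
    (qExpansion 1 (dil p f)).coeff n = if p ∣ n then (qExpansion 1 f).coeff (n / p) else 0 := by
  refine IsGood_coeff_unique (isGood_dil hp hf)
    (c := fun n => if p ∣ n then (qExpansion 1 f).coeff (n / p) else 0) (fun τ => ?_) n
  have h := hasSum_diag hp hf.periodic hf.holo hf.bdd 1 τ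
  simp only [dil_apply]
  convert h using 2 with m
  · split_ifs
    · simp [ModularFormClass.qCoeff]
    · simp
  · simp

lemma coeff_dil_mul {p : ℕ} (hp : p ≠ 0) {f : ℍ → ℂ} (hf : IsGood f) (n : ℕ) :
    (qExpansion 1 (dil p f)).coeff (p * n) = (qExpansion 1 f).coeff n := by
  rw [coeff_dil hp hf, if_pos (dvd_mul_right p n), Nat.mul_div_cancel_left _ (Nat.pos_of_ne_zero hp)]

lemma rGood_dil {R : Subring ℂ} {p : ℕ} (hp : p ≠ 0) {f : ℍ → ℂ} (hf : RGood R f) :
    RGood R (dil p f) :=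
  ⟨isGood_dil hp hf.1, fun n => by
    rw [coeff_dil hp hf.1]
    split_ifs
    · exact hf.2 _
    · exact R.zero_mem⟩

/-- If `f` is good and its dilate has coefficients in `R`, so has `f`. -/
lemma rGood_of_dil {R : Subring ℂ} {p : ℕ} (hp : p ≠ 0) {f : ℍ → ℂ} (hf : IsGood f)
    (h : RGood R (dil p f)) : RGood R f :=
  ⟨hf, fun n => by
    rw [← coeff_dil_mul hp hf]
    exact h.2 _⟩

end Fermat.Agent.S16Norm
end MergeWrap_S16_NormInt_Shift

section MergeWrap_S16_NormInt_CuspZeroDef -- from S16/NormInt/CuspZeroDef.lean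

/-!
# S16 toolkit: the expansion at the cusp `0` (definitions)

For `f : ℍ → ℂ` put `cuspZero p k f = fun z => (f ∣[k] S) (p z)`, i.e.
`F°(z) = (p z)^(-k) F(-1/(p z))`.
-/

set_option autoImplicit false

namespace Fermat.Agent.S16Norm

open Filter Topology Set Function ModularForm Complex
open UpperHalfPlane hiding I
open scoped Manifold MatrixGroups Real

open Fermat.Agent.S23 Fermat.Agent.S23Converse

/-- `F°(z) = (f ∣[k] S) (p z) = (p z)^(-k) f(-1/(p z))`. -/
noncomputable def cuspZero (p : ℕ) (k : ℤ) (f : ℍ → ℂ) : ℍ → ℂ :=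
  dil p (f ∣[k] ModularGroup.S)

lemma cuspZero_apply (p : ℕ) (k : ℤ) (f : ℍ → ℂ) (τ : ℍ) :
    cuspZero p k f τ = (f ∣[k] ModularGroup.S) (heckeDiagMatrix p • τ) := rfl

/-- The element `(S T^j)⁻¹` of `𝒮ℒ` (the image of `SL(2,ℤ)` in `GL(2,ℝ)`); the corresponding
translate of `f` is `f ∣[k] (S T^j)`. -/
noncomputable def cosetRep (j : ℤ) : 𝒮ℒ :=
  ⟨(Matrix.SpecialLinearGroup.mapGL ℝ (ModularGroup.S * ModularGroup.T ^ j))⁻¹,
    ⟨(ModularGroup.S * ModularGroup.T ^ j)⁻¹, by rw [map_inv]⟩⟩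

lemma cosetRep_val_inv (j : ℤ) :
    ((cosetRep j : 𝒮ℒ) : GL (Fin 2) ℝ)⁻¹ =
      Matrix.SpecialLinearGroup.mapGL ℝ (ModularGroup.S * ModularGroup.T ^ j) := by
  simp [cosetRep]

end Fermat.Agent.S16Norm
end MergeWrap_S16_NormInt_CuspZeroDef

section MergeWrap_S16_NormInt_Cosets -- from S16/NormInt/Cosets.lean

/-!
# S16 toolkit, piece P5: coset representatives of `Γ₀(p)` in `SL(2,ℤ)`
Owner: helper67 (assigned by helper23).  Pure group theory.

`SL(2,ℤ) = Γ₀(p) ⊔ ⨆_{j < p} (S T^j)⁻¹ Γ₀(p)` (left cosets `h Γ₀(p)`, as in Mathlib's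
`SlashInvariantForm.quotientFunc`, for which `quotientFunc f ⟦h⟧ = f ∣[k] h⁻¹`).

Proof.  For `g h : SL(2,ℤ)`: `⟦g⟧ = ⟦h⟧ ↔ g⁻¹ h ∈ Γ₀(p)`.
* injective: `(S T^i) (S T^j)⁻¹` has lower left entry `j - i`, in `Γ₀(p)` iff `p ∣ i - j`;
  `(S T^j)⁻¹ = !![j, 1; -1, 0]` is never in `Γ₀(p)` (`p ≥ 2`).
* surjective: `(S T^j) h = !![-c, -d; a + j c, b + j d]`; if `p ∣ c` then `h ∈ Γ₀(p)`, otherwise
  choose `j ≡ -a / c mod p`.
-/

set_option autoImplicit false

namespace Fermat.Agent.S16Norm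

open UpperHalfPlane ModularForm
open scoped MatrixGroups

open Fermat.Agent.S23

/-- The element of `𝒮ℒ` given by an element of `SL(2,ℤ)`. -/
noncomputable def cosetsSL (g : SL(2, ℤ)) : 𝒮ℒ :=
  ⟨Matrix.SpecialLinearGroup.mapGL ℝ g, ⟨g, rfl⟩⟩

lemma cosetsSL_mul (g h : SL(2, ℤ)) : cosetsSL (g * h) = cosetsSL g * cosetsSL h := by
  apply Subtype.ext
  simp [cosetsSL]

lemma cosetsSL_inv (g : SL(2, ℤ)) : cosetsSL g⁻¹ = (cosetsSL g)⁻¹ := by
  apply Subtype.ext
  simp [cosetsSL]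

lemma cosetsSL_one : cosetsSL 1 = 1 := by
  apply Subtype.ext
  simp [cosetsSL]

lemma cosetsSL_surjective (x : 𝒮ℒ) : ∃ g : SL(2, ℤ), cosetsSL g = x := by
  obtain ⟨x, g, rfl⟩ := x
  exact ⟨g, rfl⟩

lemma cosetRep_eq_cosetsSL (j : ℤ) :
    cosetRep j = cosetsSL (ModularGroup.S * ModularGroup.T ^ j)⁻¹ := by
  apply Subtype.ext
  simp [cosetRep, cosetsSL]

lemma cosetsSL_mem_iff (p : ℕ) (g : SL(2, ℤ)) :
    cosetsSL g ∈ (G0 p).subgroupOf 𝒮ℒ ↔ ((g 1 0 : ℤ) : ZMod p) = 0 := by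
  rw [Subgroup.mem_subgroupOf, ← CongruenceSubgroup.Gamma0_mem]
  show Matrix.SpecialLinearGroup.mapGL ℝ g ∈ G0 p ↔ _
  constructor
  · rintro ⟨h, hh, hgh⟩
    have : h = g := Matrix.SpecialLinearGroup.mapGL_injective hgh
    exact this ▸ hh
  · intro hg
    exact ⟨g, hg, rfl⟩

/-- `⟦g⟧ = ⟦h⟧` iff the lower left entry of `g⁻¹ h` vanishes mod `p`. -/
lemma cosetsSL_mk_eq_iff (p : ℕ) (g h : SL(2, ℤ)) :
    (QuotientGroup.mk (cosetsSL g) : 𝒮ℒ ⧸ (G0 p).subgroupOf 𝒮ℒ) = QuotientGroup.mk (cosetsSL h) ↔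
      (((g⁻¹ * h) 1 0 : ℤ) : ZMod p) = 0 := by
  rw [QuotientGroup.eq, ← cosetsSL_inv, ← cosetsSL_mul, cosetsSL_mem_iff]

lemma cosets_ST_coe (j : ℤ) :
    ((ModularGroup.S * ModularGroup.T ^ j : SL(2, ℤ)) : Matrix (Fin 2) (Fin 2) ℤ) =
      !![0, -1; 1, j] := by
  rw [Matrix.SpecialLinearGroup.coe_mul, ModularGroup.coe_T_zpow, ModularGroup.coe_S]
  ext a b
  fin_cases a <;> fin_cases b <;> simp [Matrix.mul_apply, Fin.sum_univ_two]

lemma cosets_ST_inv_coe (j : ℤ) :
    (((ModularGroup.S * ModularGroup.T ^ j)⁻¹ : SL(2, ℤ)) : Matrix (Fin 2) (Fin 2) ℤ) =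
      !![j, 1; -1, 0] := by
  rw [Matrix.SpecialLinearGroup.coe_inv, cosets_ST_coe, Matrix.adjugate_fin_two]
  ext a b
  fin_cases a <;> fin_cases b <;> simp

/-- lower left entry of `(S T^j) h`. -/
lemma cosets_ST_mul_entry (j : ℤ) (h : SL(2, ℤ)) :
    ((ModularGroup.S * ModularGroup.T ^ j * h : SL(2, ℤ)) 1 0 : ℤ) = h 0 0 + j * h 1 0 := by
  have h1 : ((ModularGroup.S * ModularGroup.T ^ j * h : SL(2, ℤ)) : Matrix (Fin 2) (Fin 2) ℤ) =
      !![0, -1; 1, j] * (h : Matrix (Fin 2) (Fin 2) ℤ) := by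
    rw [Matrix.SpecialLinearGroup.coe_mul, cosets_ST_coe]
  show ((ModularGroup.S * ModularGroup.T ^ j * h : SL(2, ℤ)) :
    Matrix (Fin 2) (Fin 2) ℤ) 1 0 = _
  rw [h1]
  simp [Matrix.mul_apply, Fin.sum_univ_two]

/-- The `p + 1` cosets of `Γ₀(p)` in `SL(2,ℤ)`, `p` prime. -/
theorem exists_cosetEquiv (p : ℕ) [Fact p.Prime] :
    ∃ e : Option (Fin p) ≃ (𝒮ℒ ⧸ (G0 p).subgroupOf 𝒮ℒ),
      e none = QuotientGroup.mk 1 ∧
      ∀ j : Fin p, e (some j) = QuotientGroup.mk (cosetRep ((j : ℕ) : ℤ)) := by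
  have hp : p.Prime := Fact.out
  have hp2 : 2 ≤ p := hp.two_le
  -- the map
  let φ : Option (Fin p) → (𝒮ℒ ⧸ (G0 p).subgroupOf 𝒮ℒ) := fun o =>
    match o with
    | none => QuotientGroup.mk 1
    | some j => QuotientGroup.mk (cosetRep ((j : ℕ) : ℤ))
  have hnone : φ none = QuotientGroup.mk (cosetsSL 1) := by
    show (QuotientGroup.mk 1 : 𝒮ℒ ⧸ (G0 p).subgroupOf 𝒮ℒ) = _
    rw [cosetsSL_one]
  have hsome : ∀ j : Fin p, φ (some j) =
      QuotientGroup.mk (cosetsSL (ModularGroup.S * ModularGroup.T ^ ((j : ℕ) : ℤ))⁻¹) := by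
    intro j
    show (QuotientGroup.mk (cosetRep ((j : ℕ) : ℤ)) : 𝒮ℒ ⧸ (G0 p).subgroupOf 𝒮ℒ) = _
    rw [cosetRep_eq_cosetsSL]
  -- `-1 ≠ 0` in `ZMod p`
  have hone : ((1 : ℤ) : ZMod p) ≠ 0 := by
    haveI : Fact (1 < p) := ⟨hp.one_lt⟩
    simp
  have hns : ∀ j : Fin p, φ none ≠ φ (some j) := by
    intro j hj
    rw [hnone, hsome, cosetsSL_mk_eq_iff] at hj
    have h2 : (((1 : SL(2, ℤ))⁻¹ * (ModularGroup.S * ModularGroup.T ^ ((j : ℕ) : ℤ))⁻¹ :
        SL(2, ℤ)) 1 0 : ℤ) = -1 := by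
      rw [inv_one, one_mul]
      show (((ModularGroup.S * ModularGroup.T ^ ((j : ℕ) : ℤ))⁻¹ : SL(2, ℤ)) :
        Matrix (Fin 2) (Fin 2) ℤ) 1 0 = -1
      rw [cosets_ST_inv_coe]
      simp
    rw [h2] at hj
    apply hone
    simpa using hj
  have hss : ∀ i j : Fin p, φ (some i) = φ (some j) → i = j := by
    intro i j hij
    rw [hsome, hsome, cosetsSL_mk_eq_iff, inv_inv, cosets_ST_mul_entry, cosets_ST_inv_coe] at hij
    simp only [Matrix.of_apply, Matrix.cons_val', Matrix.cons_val_zero, Matrix.cons_val_one,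
      Matrix.cons_val_fin_one] at hij
    have h3 : (((j : ℕ) : ℤ) + ((i : ℕ) : ℤ) * (-1) : ℤ) = ((j : ℕ) : ℤ) - ((i : ℕ) : ℤ) := by ring
    rw [h3] at hij
    have h4 : ((p : ℕ) : ℤ) ∣ ((j : ℕ) : ℤ) - ((i : ℕ) : ℤ) :=
      (ZMod.intCast_zmod_eq_zero_iff_dvd _ p).mp hij
    have hi := i.isLt
    have hj := j.isLt
    have h5 : ((j : ℕ) : ℤ) - ((i : ℕ) : ℤ) = 0 := by
      apply Int.eq_zero_of_abs_lt_dvd h4
      rw [abs_lt]
      constructor <;> omega
    apply Fin.ext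
    omega
  have hinj : Function.Injective φ := by
    intro a b hab
    cases a with
    | none =>
      cases b with
      | none => rfl
      | some j => exact absurd hab (hns j)
    | some i =>
      cases b with
      | none => exact absurd hab.symm (hns i)
      | some j => rw [hss i j hab]
  have hsurj : Function.Surjective φ := by
    intro q
    induction q using QuotientGroup.induction_on with
    | H x =>
      obtain ⟨h, rfl⟩ := cosetsSL_surjective x
      by_cases hc : ((h 1 0 : ℤ) : ZMod p) = 0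
      · refine ⟨none, ?_⟩
        rw [hnone, cosetsSL_mk_eq_iff, inv_one, one_mul]
        exact hc
      · -- choose `j = -a / c`
        let jz : ZMod p := -((h 0 0 : ℤ) : ZMod p) / ((h 1 0 : ℤ) : ZMod p)
        haveI : NeZero p := ⟨hp.ne_zero⟩
        refine ⟨some ⟨jz.val, ZMod.val_lt jz⟩, ?_⟩
        rw [hsome, cosetsSL_mk_eq_iff, inv_inv, cosets_ST_mul_entry]
        push_cast
        rw [ZMod.natCast_zmod_val]
        show ((h 0 0 : ℤ) : ZMod p) + -((h 0 0 : ℤ) : ZMod p) / ((h 1 0 : ℤ) : ZMod p) *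
          ((h 1 0 : ℤ) : ZMod p) = 0
        rw [div_mul_cancel₀ _ hc]
        ring
  refine ⟨Equiv.ofBijective φ ⟨hinj, hsurj⟩, rfl, fun j => rfl⟩

end Fermat.Agent.S16Norm
end MergeWrap_S16_NormInt_Cosets

section MergeWrap_Lib_BadRed_Mod_UModEqAn -- from Lib/BadRed/Mod/UModEqAn.lean

set_option autoImplicit false

noncomputable section

namespace Fermat.Agent.BadRed

open UpperHalfPlane ModularForm MatrixGroups Polynomial SlashInvariantForm
open Fermat.Agent.S23 Fermat.Agent.S24 Fermat.Agent.S28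

/-- `Δ ∣[12] diag(q, 1)` as a cusp form on `Γ₀(q)`; its value at `τ` is `q^11 Δ(q τ)`. -/
def umDeltaQ (q : ℕ) [NeZero q] : CuspForm (G0 q) 12 where
  toFun := ⇑CuspForm.discriminant ∣[(12 : ℤ)] heckeDiagMatrix q
  slash_action_eq' γ hγ :=
    (CuspForm.translate CuspForm.discriminant (heckeDiagMatrix q)).slash_action_eq' γ
      (S23.Theta.G0_le_conj q hγ)
  holo' := (CuspForm.translate CuspForm.discriminant (heckeDiagMatrix q)).holo'
  zero_at_cusps' hc :=
    (CuspForm.translate CuspForm.discriminant (heckeDiagMatrix q)).zero_at_cusps'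
      (hc.mono (S23.Theta.G0_le_conj q))

theorem um_heckeDiagMatrix_smul_eq_scale (q : ℕ) [NeZero q] (τ : ℍ) :
    heckeDiagMatrix q • τ = scale q τ := by
  apply UpperHalfPlane.ext
  rw [coe_heckeDiagMatrix_smul (NeZero.ne q), coe_scale]

theorem umDeltaQ_apply (q : ℕ) [NeZero q] (τ : ℍ) :
    umDeltaQ q τ = (q : ℂ) ^ (11 : ℕ) * discriminant (scale q τ) := by
  change (⇑CuspForm.discriminant ∣[(12 : ℤ)] heckeDiagMatrix q) τ = _
  rw [slash_heckeDiagMatrix_apply 12 (NeZero.ne q), um_heckeDiagMatrix_smul_eq_scale,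
    CuspForm.coe_discriminant]
  norm_num

theorem umDeltaQ_ne_zero (q : ℕ) [NeZero q] (τ : ℍ) : umDeltaQ q τ ≠ 0 := by
  rw [umDeltaQ_apply]
  exact mul_ne_zero (pow_ne_zero _ (by exact_mod_cast NeZero.ne q)) (discriminant_ne_zero _)

/-- `F / Δ = q^11 / u`. -/
theorem umDeltaQ_div (q : ℕ) [NeZero q] (τ : ℍ) :
    umDeltaQ q τ / discriminant τ = (q : ℂ) ^ (11 : ℕ) / uFn q τ := by
  rw [umDeltaQ_apply, uFn_apply]
  have h1 := discriminant_ne_zero τ
  have h2 := discriminant_ne_zero (scale q τ)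
  field_simp

/-- the translates of a nowhere vanishing form are nowhere vanishing. -/
theorem um_quotientFunc_ne_zero {N : ℕ} [NeZero N] {k : ℤ} {F : Type*} [FunLike F ℍ ℂ]
    [SlashInvariantFormClass F (G0 N) k] (f : F) (hf : ∀ τ, f τ ≠ 0) (x : Q N) (τ : ℍ) :
    quotientFunc f x τ ≠ 0 := by
  induction x using Quotient.inductionOn with
  | h r =>
    change ((f : ℍ → ℂ) ∣[k] (r : GL (Fin 2) ℝ)⁻¹) τ ≠ 0
    obtain ⟨γ, hγ⟩ := r.2
    have h1 : ((r : GL (Fin 2) ℝ))⁻¹ = Matrix.SpecialLinearGroup.mapGL ℝ γ⁻¹ := by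
      rw [map_inv, hγ]
    rw [h1]
    have h2 : ((f : ℍ → ℂ) ∣[k] (Matrix.SpecialLinearGroup.mapGL ℝ) γ⁻¹) τ =
        ((f : ℍ → ℂ) ∣[k] γ⁻¹) τ := rfl
    rw [h2, ModularForm.SL_slash_apply]
    exact mul_ne_zero (hf _) (zpow_ne_zero _ (denom_ne_zero _ _))

/-- **sharp bound**: a level one CUSP form of weight `12 m`, `m ≥ 1`, is `Δ ^ m · P(J)` with
`deg P ≤ m - 1`. -/
theorem um_cuspForm_isDeltaPoly {k : ℤ} (m : ℕ) (hm : 0 < m) (hk : k = 12 * (m : ℤ))
    (G : CuspForm 𝒮ℒ k) :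
    ∃ P : Polynomial ℂ, P.natDegree ≤ m - 1 ∧
      ∀ τ : ℍ, G τ = discriminant τ ^ m * P.eval (wp4J τ) := by
  obtain ⟨P, hP, hPe⟩ := wp4_levelOne_isDeltaPoly (k := k - 12) (m - 1)
    (by rw [hk, Nat.cast_sub hm]; push_cast; ring) (CuspForm.discriminantEquiv G)
  refine ⟨P, hP, fun τ => ?_⟩
  have h1 := hPe τ
  rw [CuspForm.discriminantEquiv_apply, div_eq_iff (discriminant_ne_zero τ)] at h1
  rw [h1]
  obtain ⟨m', rfl⟩ : ∃ m', m = m' + 1 := ⟨m - 1, by omega⟩
  rw [Nat.add_sub_cancel, pow_succ]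
  ring

theorem um_card_Q (q : ℕ) [Fact q.Prime] : Fintype.card (Q q) = q + 1 := by
  obtain ⟨e, -, -⟩ := Fermat.Agent.S16Norm.exists_cosetEquiv q
  rw [← Fintype.card_congr e, Fintype.card_option, Fintype.card_fin]

/-- the elementary symmetric functions of the translates divided by `Δ`. -/
theorem um_esymm_div {N : ℕ} [NeZero N] {k : ℤ} (F : CuspForm (G0 N) k) (i : ℕ) (τ : ℍ) :
    ∑ s ∈ Finset.powersetCard i (Finset.univ : Finset (Q N)),
        ∏ x ∈ s, quotientFunc F x τ / discriminant τ =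
      esymmFun N F i τ / discriminant τ ^ i := by
  rw [esymmFun_apply, Finset.sum_div]
  refine Finset.sum_congr rfl fun s hs => ?_
  rw [Finset.prod_div_distrib, Finset.prod_const, (Finset.mem_powersetCard.mp hs).2]

/-- **MA3-A1: the analytic modular equation of `u = Δ(τ) / Δ(qτ)`.** -/
theorem uModEqC (q : ℕ) [Fact q.Prime] : UModEqC q := by
  classical
  have hq0 : q ≠ 0 := (Fact.out : q.Prime).ne_zero
  have hqC : (q : ℂ) ≠ 0 := by exact_mod_cast hq0
  set n := Fintype.card (Q q) with hn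
  have hnq : n = q + 1 := um_card_Q q
  -- the polynomials `P_i`, `i ≥ 1`
  have hpoly : ∀ i : ℕ, 0 < i → ∃ P : Polynomial ℂ, P.natDegree ≤ i - 1 ∧
      ∀ τ : ℍ, esymmFun q (umDeltaQ q) i τ = discriminant τ ^ i * P.eval (wp4J τ) := by
    intro i hi
    obtain ⟨G, hG⟩ := isCF_esymmFun q (umDeltaQ q) i hi
    obtain ⟨P, hP, hPe⟩ := um_cuspForm_isDeltaPoly i hi rfl G
    exact ⟨P, hP, fun τ => by rw [← hG]; exact hPe τ⟩
  choose! P hPdeg hPeval using hpoly
  -- the norm is `c Δ ^ n`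
  have hnorm : ∃ c : ℂ, c ≠ 0 ∧
      ∀ τ : ℍ, esymmFun q (umDeltaQ q) n τ = c * discriminant τ ^ n := by
    obtain ⟨G, hG⟩ := isCF_esymmFun q (umDeltaQ q) n card_Q_pos
    have hne : ∀ τ, (CuspForm.toModularFormₗ G) τ ≠ 0 := by
      intro τ
      rw [CuspForm.toModularFormₗ_apply, hG, esymmFun_apply, hn, ← Finset.card_univ,
        Finset.powersetCard_self, Finset.sum_singleton]
      exact Finset.prod_ne_zero_iff.mpr fun x _ =>
        um_quotientFunc_ne_zero (umDeltaQ q) (umDeltaQ_ne_zero q) x τ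
    obtain ⟨c, hc, hce⟩ := wp3b_eq_const_mul_discriminant_pow n (12 * n) rfl
      (CuspForm.toModularFormₗ G) hne
    exact ⟨c, hc, fun τ => by rw [← hG]; exact hce τ⟩
  obtain ⟨c, hc, hce⟩ := hnorm
  -- the normalised coefficients
  set Pf : ℕ → Polynomial ℂ := fun i => if i = 0 then 1 else if i = n then C c else P i
    with hPf
  have hE : ∀ (τ : ℍ) (i : ℕ), i ≤ n →
      esymmFun q (umDeltaQ q) i τ / discriminant τ ^ i = (Pf i).eval (jFun τ) := by
    intro τ i hi
    have hΔ : discriminant τ ^ i ≠ 0 := pow_ne_zero _ (discriminant_ne_zero τ)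
    rw [div_eq_iff hΔ]
    by_cases h0 : i = 0
    · subst h0
      rw [esymmFun_apply]
      simp [hPf]
    by_cases h1 : i = n
    · subst h1
      rw [hce τ]
      simp [hPf, h0]
    · rw [hPeval i (Nat.pos_of_ne_zero h0) τ, mul_comm]
      simp only [hPf, h0, h1, if_false]
      rfl
  set κ : ℂ := (q : ℂ) ^ (11 : ℕ) with hκ
  have hκ0 : κ ≠ 0 := pow_ne_zero _ hqC
  have hsgn : ((-1 : ℂ) ^ n * c) ≠ 0 := mul_ne_zero (pow_ne_zero _ (by norm_num)) hc
  refine ⟨fun i => C ((-1 : ℂ) ^ i * κ ^ (n - i) / ((-1 : ℂ) ^ n * c)) * Pf i, ?_, ?_, ?_, ?_⟩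
  · -- leading coefficient
    show C ((-1 : ℂ) ^ (q + 1) * κ ^ (n - (q + 1)) / ((-1 : ℂ) ^ n * c)) * Pf (q + 1) = 1
    rw [← hnq]
    have h1 : Pf n = C c := by
      simp only [hPf]
      rw [if_neg (by omega)]
      simp
    rw [h1, ← C_mul, Nat.sub_self, pow_zero, mul_one, div_mul_eq_mul_div,
      div_self hsgn, C_1]
  · -- constant coefficient
    refine ⟨κ ^ n / ((-1 : ℂ) ^ n * c), div_ne_zero (pow_ne_zero _ hκ0) hsgn, ?_⟩
    show C ((-1 : ℂ) ^ 0 * κ ^ (n - 0) / ((-1 : ℂ) ^ n * c)) * Pf 0 = _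
    have h1 : Pf 0 = 1 := by simp [hPf]
    rw [h1, mul_one, pow_zero, one_mul, Nat.sub_zero]
  · -- degrees
    intro i hi hiq
    show (C ((-1 : ℂ) ^ i * κ ^ (n - i) / ((-1 : ℂ) ^ n * c)) * Pf i).natDegree ≤ i - 1
    refine (natDegree_C_mul_le _ _).trans ?_
    have h1 : Pf i = P i := by
      simp only [hPf]
      rw [if_neg (by omega), if_neg (by omega)]
    rw [h1]
    exact hPdeg i hi
  · -- the relation
    intro τ
    have hΔ := discriminant_ne_zero τ
    have hu := uFn_ne_zero q τ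
    set t : Q q → ℂ := fun x => quotientFunc (umDeltaQ q) x τ / discriminant τ with ht
    have hroot : (rootPoly t).eval (κ / uFn q τ) = 0 := by
      have h1 := rootPoly_eval_root t (QuotientGroup.mk 1 : Q q)
      have h2 : t (QuotientGroup.mk 1 : Q q) = κ / uFn q τ := by
        rw [ht]
        simp only
        rw [quotientFunc_one (N := q) (umDeltaQ q), umDeltaQ_div]
      rwa [h2] at h1
    rw [Polynomial.eval_eq_sum_range, rootPoly_natDegree, ← hn] at hroot
    have hcoeff : ∀ j ∈ Finset.range (n + 1), (rootPoly t).coeff j * (κ / uFn q τ) ^ j =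
        (-1 : ℂ) ^ (n - j) * (Pf (n - j)).eval (jFun τ) * (κ / uFn q τ) ^ j := by
      intro j hj
      have hj' : j ≤ n := Nat.lt_succ_iff.mp (Finset.mem_range.mp hj)
      rw [rootPoly_coeff t j (by rw [← hn]; exact hj'), ← hn, um_esymm_div,
        hE τ (n - j) (Nat.sub_le _ _)]
    rw [Finset.sum_congr rfl hcoeff] at hroot
    rw [← Finset.sum_range_reflect] at hroot
    have hfin : ∑ i ∈ Finset.range (q + 2),
        (C ((-1 : ℂ) ^ i * κ ^ (n - i) / ((-1 : ℂ) ^ n * c)) * Pf i).eval (jFun τ) *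
          uFn q τ ^ i =
        uFn q τ ^ n / ((-1 : ℂ) ^ n * c) *
          ∑ j ∈ Finset.range (n + 1),
            (-1 : ℂ) ^ (n - (n + 1 - 1 - j)) * (Pf (n - (n + 1 - 1 - j))).eval (jFun τ) *
              (κ / uFn q τ) ^ (n + 1 - 1 - j) := by
      rw [show q + 2 = n + 1 by omega, Finset.mul_sum]
      refine Finset.sum_congr rfl fun i hi => ?_
      have hi' : i ≤ n := Nat.lt_succ_iff.mp (Finset.mem_range.mp hi)
      have e1 : n - (n + 1 - 1 - i) = i := by omega
      have e2 : n + 1 - 1 - i = n - i := by omega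
      rw [e1, e2, eval_mul, eval_C, div_pow]
      have e3 : uFn q τ ^ n = uFn q τ ^ (n - i) * uFn q τ ^ i := by
        rw [← pow_add, Nat.sub_add_cancel hi']
      rw [e3]
      have hui : uFn q τ ^ (n - i) ≠ 0 := pow_ne_zero _ hu
      field_simp
    show ∑ i ∈ Finset.range (q + 2),
        (C ((-1 : ℂ) ^ i * κ ^ (n - i) / ((-1 : ℂ) ^ n * c)) * Pf i).eval (jFun τ) *
          uFn q τ ^ i = 0
    rw [hfin, hroot, mul_zero]

end Fermat.Agent.BadRed
end
end MergeWrap_Lib_BadRed_Mod_UModEqAn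

section MergeWrap_Lib_BadRed_Mod_UCuspDegFinal -- from Lib/BadRed/Mod/UCuspDegFinal.lean

set_option autoImplicit false

/-!
# Cluster T, modular assembly MA4 (helper16): unconditional form

With helper47's analytic modular equation `uModEqC` and helper84's MA3 (`uModEq_of_uModEqC`)
the results of `UCuspDeg.lean` hold for `u = uF N q _ = Δ(z)/Δ(qz)` and `j = jBar N` on every
`X₀(N)`, `q ∣ N` prime:

* `uCuspEq_uF_prime`     : the modular equation `UCuspEq ℚ̄ q j u`;
* `ord_jBar_neg_iff_uF`  : the zeros and poles of `u` are exactly the poles of `j`;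
* `ord_uF_of_pole`       : `ord u = (q-1) ord j` or `q ord u = -(q-1) ord j` at a pole of `j`;
* `finrank_uF`, `degree_poleDiv_uF` : `[F_N : ℚ̄(u)] = deg (u)_∞ = (q-1) ψ(N₀)`, `N = q N₀`, `q ∤ N₀`.
-/

noncomputable section

open AlgebraicCurve IntermediateField Polynomial ModularCurve

namespace Fermat.Agent.BadRed

open Fermat.Agent.RR

local notation "Qb" => AlgebraicClosure ℚ

variable {q N N₀ : ℕ} [NeZero N] [NeZero q]

/-- the modular equation of `u` over `ℚ̄(j)`, unconditionally. -/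
theorem uCuspEq_uF_prime (hq : q.Prime) (hdvd : q ∣ N) :
    UCuspEq Qb q (Fermat.Agent.S24.jBar N) (uF N q hdvd) := by
  have : Fact q.Prime := ⟨hq⟩
  exact uCuspEq_uF hq.two_le (uModEqC q) hdvd

/-- the zeros and poles of `u` are exactly the poles of `j`. -/
theorem ord_jBar_neg_iff_uF (hq : q.Prime) (hdvd : q ∣ N)
    (v : Place Qb ↥(modularFunctionFieldBar N)) :
    v.ord (Fermat.Agent.S24.jBar N) < 0 ↔ v.ord (uF N q hdvd) ≠ 0 :=
  (uCuspEq_uF_prime hq hdvd).ord_j_neg_iff v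

/-- `u` is a unit where `j` has no pole. -/
theorem ord_uF_eq_zero (hq : q.Prime) (hdvd : q ∣ N)
    (v : Place Qb ↥(modularFunctionFieldBar N)) (hv : 0 ≤ v.ord (Fermat.Agent.S24.jBar N)) :
    v.ord (uF N q hdvd) = 0 :=
  (uCuspEq_uF_prime hq hdvd).ord_eq_zero_of_nonneg v hv

/-- the order of `u` at a pole of `j`. -/
theorem ord_uF_of_pole (hq : q.Prime) (hdvd : q ∣ N)
    (v : Place Qb ↥(modularFunctionFieldBar N)) (hv : v.ord (Fermat.Agent.S24.jBar N) < 0) :
    (v.ord (uF N q hdvd) = ((q : ℤ) - 1) * v.ord (Fermat.Agent.S24.jBar N) ∧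
        v.ord (uF N q hdvd) < 0) ∨
      ((q : ℤ) * v.ord (uF N q hdvd) = -(((q : ℤ) - 1) * v.ord (Fermat.Agent.S24.jBar N)) ∧
        0 < v.ord (uF N q hdvd)) :=
  (uCuspEq_uF_prime hq hdvd).ord_of_pole v hv

theorem transcendental_uF (hq : q.Prime) (hdvd : q ∣ N) : Transcendental Qb (uF N q hdvd) :=
  transcendental_uF_of_uModEq hdvd (uCuspEq_uF_prime hq hdvd)

theorem finiteDimensional_uF (hq : q.Prime) (hdvd : q ∣ N) :
    FiniteDimensional Qb⟮uF N q hdvd⟯ ↥(modularFunctionFieldBar N) :=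
  finiteDimensional_uF_of_uModEq hdvd (uCuspEq_uF_prime hq hdvd)

/-- `[F_N : ℚ̄(u)] = (q - 1) ψ(N₀)` for `N = q N₀`, `q ∤ N₀`. -/
theorem finrank_uF (hq : q.Prime) (hN : N = q * N₀) (hqN : ¬ q ∣ N₀) (hdvd : q ∣ N) :
    Module.finrank Qb⟮uF N q hdvd⟯ ↥(modularFunctionFieldBar N) = (q - 1) * dedekindPsi N₀ :=
  finrank_uF_eq hq hN hqN hdvd (uCuspEq_uF_prime hq hdvd)

/-- `deg (u)_∞ = (q - 1) ψ(N₀)`. -/
theorem degree_poleDiv_uF (hq : q.Prime) (hN : N = q * N₀) (hqN : ¬ q ∣ N₀) (hdvd : q ∣ N) :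
    Divisor.degree (poleDiv (Fermat.Agent.RRMod.isRRField_bar N) (uF N q hdvd))
      = (((q - 1) * dedekindPsi N₀ : ℕ) : ℤ) :=
  degree_poleDiv_uF_eq hq hN hqN hdvd (uCuspEq_uF_prime hq hdvd)

end Fermat.Agent.BadRed
end
end MergeWrap_Lib_BadRed_Mod_UCuspDegFinal
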