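import Mathlib
import Fermat.Agent.MUL.Lib.BadRed.Mod.GaussSetup
import Fermat.Agent.MUL.Lib.BadRed.Mod.ValZero
import Fermat.Agent.MUL.Lib.BadRed.Mod.UParamW
import Fermat.Agent.MUL.S17.Rat.Modular

section MergeWrap_Lib_BadRed_Mod_UHyp -- from Lib/BadRed/Mod/UHyp.lean

set_option autoImplicit false
set_option linter.style.haveILetI false

noncomputable section

namespace Fermat.Agent.BadRed

open ModularCurve AlgebraicCurve Fermat.Agent.GaussInt Fermat.Agent.AtkinLehner
  Fermat.Agent.Deuring Fermat.Agent.S28 Fermat.Agent.F3 Fermat.Agent.F3G Polynomial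

local notation "Qb" => AlgebraicClosure ℚ

/-! ### a Laurent series of negative order is transcendental -/

section Order

variable {k : Type*} [Field k]

theorem uh_ordV_term_ge {x : LaurentSeries k} {a : ℤ} (hx : ordV k x = (a : WithTop ℤ))
    (c : k) (i : ℕ) :
    (((i : ℤ) * a : ℤ) : WithTop ℤ) ≤ ordV k (algebraMap k (LaurentSeries k) c * x ^ i) := by
  rw [AddValuation.map_mul, ordV_pow_of_eq hx]
  calc (((i : ℤ) * a : ℤ) : WithTop ℤ) = 0 + (((i : ℤ) * a : ℤ) : WithTop ℤ) := by simp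
    _ ≤ _ := by gcongr; exact ordV_algebraMap_nonneg c

/-- `ord p(x) = deg p · ord x` for `p ≠ 0`, if `ord x < 0`. -/
theorem uh_ordV_aeval_eq {x : LaurentSeries k} {a : ℤ} (hx : ordV k x = (a : WithTop ℤ))
    (ha : a < 0) {p : k[X]} (hp : p ≠ 0) :
    ordV k (aeval x p) = (((p.natDegree : ℤ) * a : ℤ) : WithTop ℤ) := by
  rw [aeval_def, eval₂_eq_sum_range, Finset.sum_range_succ]
  have hlead : ordV k (algebraMap k (LaurentSeries k) (p.coeff p.natDegree) * x ^ p.natDegree) =
      (((p.natDegree : ℤ) * a : ℤ) : WithTop ℤ) := by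
    have hlc : p.coeff p.natDegree ≠ 0 := leadingCoeff_ne_zero.mpr hp
    rw [AddValuation.map_mul, ordV_pow_of_eq hx, ordV_algebraMap_of_ne_zero hlc, zero_add]
  have hrest : (((p.natDegree : ℤ) * a : ℤ) : WithTop ℤ) <
      ordV k (∑ i ∈ Finset.range p.natDegree,
        algebraMap k (LaurentSeries k) (p.coeff i) * x ^ i) := by
    refine AddValuation.map_lt_sum' _ (WithTop.coe_lt_top _) fun i hi => ?_
    refine lt_of_lt_of_le ?_ (uh_ordV_term_ge hx _ i)
    have h1 : i < p.natDegree := Finset.mem_range.mp hi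
    have h2 : (i : ℤ) < (p.natDegree : ℤ) := Int.ofNat_lt.mpr h1
    have h3 : (p.natDegree : ℤ) * a < (i : ℤ) * a := mul_lt_mul_of_neg_right h2 ha
    exact_mod_cast h3
  rw [← hlead] at hrest ⊢
  exact AddValuation.map_add_eq_of_lt_right _ hrest

/-- a Laurent series of negative order is transcendental over the constants. -/
theorem uh_transcendental_of_ordV_neg {x : LaurentSeries k} {a : ℤ}
    (hx : ordV k x = (a : WithTop ℤ)) (ha : a < 0) : Transcendental k x := by
  rw [transcendental_iff]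
  intro p hp
  by_contra h
  have h1 := uh_ordV_aeval_eq hx ha h
  rw [hp, AddValuation.map_zero] at h1
  exact WithTop.top_ne_coe h1

/-- `u = t^{-(q-1)} (1 + ⋯)` is transcendental over the constants, `q ≥ 2`. -/
theorem transcendental_uSer (q : ℕ) (hq : 2 ≤ q) : Transcendental k (uSer k q) := by
  refine uh_transcendental_of_ordV_neg (uSer_isMonicUnit k q).ordV ?_
  have : (2 : ℤ) ≤ (q : ℤ) := by exact_mod_cast hq
  omega

end Order

/-! ### the residue field has characteristic `q` -/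

theorem uh_charP_residue {K : Type*} [Field K] (A : ValuationSubring K) {q : ℕ} (hq : q.Prime)
    (hA : A.LiesOverPrime q) : CharP (IsLocalRing.ResidueField A) q := by
  rw [CharP.charP_iff_prime_eq_zero hq]
  obtain ⟨hmem, hmax⟩ := (ValuationSubring.mem_nonunits_iff_exists_mem_maximalIdeal).mp hA
  have h1 : ((q : A) : K) = (q : K) := by simp
  have h2 : (q : A) = ⟨(q : K), hmem⟩ := Subtype.ext h1
  have h3 : IsLocalRing.residue A (q : A) = 0 := by
    rw [IsLocalRing.residue_eq_zero_iff, h2]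
    exact hmax
  rwa [map_natCast] at h3

/-! ### `u` in a Gauss setup -/

section Gauss

variable {N N₀ : ℕ} [NeZero N] [NeZero N₀] {A : ValuationSubring Qb}
  {S : ValSetup Qb (FBar N) (IsLocalRing.ResidueField A)
    (modularFunctionFieldFullC (IsLocalRing.ResidueField A) N₀)}
  (hS : IsGaussSetup N N₀ A S) (q : ℕ) [NeZero q] (hqN : q ∣ N)

omit [NeZero q] in
theorem uh_emb_uSer : emb A (uSer A q) = uSer Qb q := coeffMap_uSer A q A.subtype

include hqN in
theorem uh_emb_uSer_mem : emb A (uSer A q) ∈ modularFunctionFieldBar N := by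
  rw [uh_emb_uSer]
  exact uSer_mem_bar N q hqN

include hS in
/-- **`u ∈ O_v`.** -/
theorem uF_mem_Ov : uF N q hqN ∈ S.Ov := by
  rw [hS.mem_iff, coe_uF, ← uh_emb_uSer (A := A)]
  exact emb_mem_gaussSub (uh_emb_uSer_mem q hqN)

include hS in
/-- the reduction of `u` is the series `u` over the residue field. -/
theorem coe_red_uF_uSer :
    ((S.red (uF N q hqN) : modularFunctionFieldFullC (IsLocalRing.ResidueField A) N₀) :
        LaurentSeries (IsLocalRing.ResidueField A)) = uSer (IsLocalRing.ResidueField A) q := by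
  rw [hS.coe_red _ (uF_mem_Ov hS q hqN), coe_uF, ← uh_emb_uSer (A := A),
    gaussResFun_emb (uh_emb_uSer_mem q hqN)]
  exact coeffMap_uSer A q (IsLocalRing.residue A)

include hS in
/-- **the reduction of `u` is `Δ̄ ^ (-(q-1))`.** -/
theorem coe_red_uF (hq : q.Prime) (hA : A.LiesOverPrime q) :
    ((S.red (uF N q hqN) : modularFunctionFieldFullC (IsLocalRing.ResidueField A) N₀) :
        LaurentSeries (IsLocalRing.ResidueField A)) = ssFun (IsLocalRing.ResidueField A) q := by
  haveI : Fact q.Prime := ⟨hq⟩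
  haveI : CharP (IsLocalRing.ResidueField A) q := uh_charP_residue A hq hA
  rw [coe_red_uF_uSer hS q hqN]
  exact uSer_eq_ssFun _ q

include hS in
/-- **the reduction of `u` is transcendental over `k`.** -/
theorem transcendental_red_uF (hq : 2 ≤ q) :
    Transcendental (IsLocalRing.ResidueField A) (S.red (uF N q hqN)) := by
  intro halg
  have h1 := halg.algebraMap (A := LaurentSeries (IsLocalRing.ResidueField A))
  have h2 : algebraMap (modularFunctionFieldFullC (IsLocalRing.ResidueField A) N₀)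
      (LaurentSeries (IsLocalRing.ResidueField A)) (S.red (uF N q hqN)) =
      uSer (IsLocalRing.ResidueField A) q := coe_red_uF_uSer hS q hqN
  rw [h2] at h1
  exact transcendental_uSer q hq h1

include hS in
theorem red_uF_ne_zero (hq : 2 ≤ q) : S.red (uF N q hqN) ≠ 0 := by
  intro h0
  apply transcendental_red_uF hS q hqN hq
  rw [h0]
  exact isAlgebraic_zero

/-! ### the constant `ϖ = q ^ 12` -/

theorem natCast_pow_ne_zero (n : ℕ) : ((q : Qb) ^ n) ≠ 0 :=
  pow_ne_zero _ (by exact_mod_cast NeZero.ne q)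

omit [NeZero q] in
theorem natCast_pow_mem (B : ValuationSubring Qb) (n : ℕ) : ((q : Qb) ^ n) ∈ B :=
  pow_mem (natCast_mem B q) n

omit [NeZero q] in
include hS in
/-- `res ϖ = 0`. -/
theorem res_natCast_pow (hA : A.LiesOverPrime q) {n : ℕ} (hn : n ≠ 0)
    (h : ((q : Qb) ^ n) ∈ S.A) : S.res ⟨(q : Qb) ^ n, h⟩ = 0 := by
  rw [hS.res_eq _ h (natCast_pow_mem q A n)]
  obtain ⟨hmem, hmax⟩ := (ValuationSubring.mem_nonunits_iff_exists_mem_maximalIdeal).mp hA
  have h2 : (⟨(q : Qb) ^ n, natCast_pow_mem q A n⟩ : A) = (⟨(q : Qb), hmem⟩ : A) ^ n :=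
    Subtype.ext rfl
  rw [h2, map_pow, (IsLocalRing.residue_eq_zero_iff _).mpr hmax, zero_pow hn]

end Gauss

/-! ### `ϖ / u` at `v_0 = v_∞ ∘ w_Q` -/

section AL

variable (D : ALData) [NeZero D.Q] [NeZero D.R] [NeZero (D.Q * D.R)]
  {A : ValuationSubring Qb}
  {S : ValSetup Qb (FBar (D.Q * D.R)) (IsLocalRing.ResidueField A)
    (modularFunctionFieldFullC (IsLocalRing.ResidueField A) D.R)}
  (hS : IsGaussSetup (D.Q * D.R) D.R A S)

omit [NeZero D.R] in
/-- `w_Q (ϖ / u) = u`. -/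
theorem atkinLehner_varpi_div_uF :
    atkinLehner D (algebraMap Qb (FBar (D.Q * D.R)) ((D.Q : Qb) ^ 12) /
        uF (D.Q * D.R) D.Q (Dvd.intro _ rfl)) = uF (D.Q * D.R) D.Q (Dvd.intro _ rfl) := by
  have hc : algebraMap Qb (FBar (D.Q * D.R)) ((D.Q : Qb) ^ 12) =
      (D.Q : modularFunctionFieldBar (D.Q * D.R)) ^ 12 := by
    rw [map_pow, map_natCast]
  have hne : (D.Q : modularFunctionFieldBar (D.Q * D.R)) ^ 12 ≠ 0 := by
    rw [← hc]
    exact (_root_.map_ne_zero _).mpr (natCast_pow_ne_zero D.Q 12)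
  rw [map_div₀, AlgEquiv.commutes, atkinLehner_uF, hc, div_div_cancel₀ hne]

include hS in
/-- **`ϖ / u ∈ O_{v_0}`.** -/
theorem varpi_div_uF_mem :
    algebraMap Qb (FBar (D.Q * D.R)) ((D.Q : Qb) ^ 12) / uF (D.Q * D.R) D.Q (Dvd.intro _ rfl) ∈
      (valSetupZero D S).Ov := by
  rw [mem_valSetupZero_Ov, atkinLehner_varpi_div_uF]
  exact uF_mem_Ov hS D.Q _

omit [NeZero D.R] in
/-- **the reduction of `ϖ / u` at `v_0` is the reduction of `u` at `v_∞`.** -/
theorem red_varpi_div_uF :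
    (valSetupZero D S).red
        (algebraMap Qb (FBar (D.Q * D.R)) ((D.Q : Qb) ^ 12) /
          uF (D.Q * D.R) D.Q (Dvd.intro _ rfl)) =
      S.red (uF (D.Q * D.R) D.Q (Dvd.intro _ rfl)) := by
  rw [valSetupZero_red, atkinLehner_varpi_div_uF]

include hS in
theorem transcendental_red_varpi_div_uF (hq : 2 ≤ D.Q) :
    Transcendental (IsLocalRing.ResidueField A)
      ((valSetupZero D S).red
        (algebraMap Qb (FBar (D.Q * D.R)) ((D.Q : Qb) ^ 12) /
          uF (D.Q * D.R) D.Q (Dvd.intro _ rfl))) := by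
  rw [red_varpi_div_uF]
  exact transcendental_red_uF hS D.Q _ hq

include hS in
/-- the `u`-package of `sn_node_condition`, in one statement. -/
theorem uHyp_package (hq : D.Q.Prime) (hA : A.LiesOverPrime D.Q) :
    S.A = (valSetupZero D S).A ∧
    (∀ (c : Qb) (h₁ : c ∈ S.A) (h₂ : c ∈ (valSetupZero D S).A),
      S.res ⟨c, h₁⟩ = (valSetupZero D S).res ⟨c, h₂⟩) ∧
    ((D.Q : Qb) ^ 12 ≠ 0) ∧
    (∃ hϖ : ((D.Q : Qb) ^ 12) ∈ S.A, S.res ⟨(D.Q : Qb) ^ 12, hϖ⟩ = 0) ∧
    uF (D.Q * D.R) D.Q (Dvd.intro _ rfl) ∈ S.Ov ∧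
    Transcendental (IsLocalRing.ResidueField A) (S.red (uF (D.Q * D.R) D.Q (Dvd.intro _ rfl))) ∧
    algebraMap Qb (FBar (D.Q * D.R)) ((D.Q : Qb) ^ 12) / uF (D.Q * D.R) D.Q (Dvd.intro _ rfl) ∈
      (valSetupZero D S).Ov ∧
    Transcendental (IsLocalRing.ResidueField A)
      ((valSetupZero D S).red
        (algebraMap Qb (FBar (D.Q * D.R)) ((D.Q : Qb) ^ 12) /
          uF (D.Q * D.R) D.Q (Dvd.intro _ rfl))) ∧
    ((S.red (uF (D.Q * D.R) D.Q (Dvd.intro _ rfl)) :
        modularFunctionFieldFullC (IsLocalRing.ResidueField A) D.R) :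
        LaurentSeries (IsLocalRing.ResidueField A)) = ssFun (IsLocalRing.ResidueField A) D.Q ∧
    (valSetupZero D S).red
        (algebraMap Qb (FBar (D.Q * D.R)) ((D.Q : Qb) ^ 12) /
          uF (D.Q * D.R) D.Q (Dvd.intro _ rfl)) =
      S.red (uF (D.Q * D.R) D.Q (Dvd.intro _ rfl)) :=
  ⟨rfl, fun _ _ _ => rfl, natCast_pow_ne_zero D.Q 12,
    ⟨natCast_pow_mem D.Q S.A 12, res_natCast_pow hS D.Q hA (by norm_num) _⟩,
    uF_mem_Ov hS D.Q _, transcendental_red_uF hS D.Q _ hq.two_le,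
    varpi_div_uF_mem D hS, transcendental_red_varpi_div_uF D hS hq.two_le,
    coe_red_uF hS D.Q _ hq hA, red_varpi_div_uF D⟩

end AL

end Fermat.Agent.BadRed
end
end MergeWrap_Lib_BadRed_Mod_UHyp
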